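import Fermat.Agent.ModularityLifting.Engine.Induction

/-!
# Relations between traces at the top points vanish at the representation

Over the origin of the component of the top level lies a prime of the support of the patched
module. It contains the diamond and frame variables, so the series of a relation vanishing at the
top points vanishes at the origin.
-/

set_option autoImplicit false

noncomputable section

open IsLocalRing

namespace FLTAgent.ModularityLifting

open FLTAgent.DefRing Engine

variable {O : Type} [CommRing O] [IsDomain O] [IsDiscreteValuationRing O]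
  [IsAdicComplete (maximalIdeal O) O]

namespace LiftProblem

/-- The series vanishing at the origin. -/
def originIdeal (P : LiftProblem O) : Ideal P.RRing := RingHom.ker MvPowerSeries.constantCoeff

instance isPrime_originIdeal (P : LiftProblem O) : P.originIdeal.IsPrime := RingHom.ker_isPrime _

end LiftProblem

namespace Patched

variable {P : LiftProblem O} {F : Frames P} {d : Finset ℕ → ℕ} {Q : MvPolynomial ℕ ℤ}
  (pt : Patched P F d Q)

/-- A prime over the origin containing the relations contains the diamond variables. -/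
theorem map_augS_le {Q' : Ideal P.ARing} [Q'.IsPrime] (hQ : Q'.comap P.inclR = P.originIdeal)
    (hy : ∀ i, pt.yRel i ∈ Q') : P.augS.map P.inclS.toRingHom ≤ Q' := by
  refine Ideal.map_le_iff_le_comap.mpr (Ideal.span_le.mpr ?_)
  rintro _ ⟨i, rfl⟩
  show P.inclS (MvPowerSeries.X (Sum.inl i)) ∈ Q'
  have hu : P.inclR (pt.ru i - 2) ∈ Q' := by
    rw [← Ideal.mem_comap, hQ, LiftProblem.originIdeal, RingHom.mem_ker, map_sub, pt.ru_two,
      map_ofNat, sub_self]
  refine Ideal.IsPrime.mem_of_pow_mem ‹_› 2 ?_
  have h := add_mem (hy i)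
    (Q'.mul_mem_right (1 + P.inclS (MvPowerSeries.X (Sum.inl i))) hu)
  convert h using 1
  rw [yRel, map_sub, map_ofNat]
  ring

/-- Vectors with coordinates in the diamond ideal. -/
theorem mem_smul_of_coord_mem {J : P.Level} {m : pt.Mod J} (hm : ∀ k, m k ∈ P.augS) :
    m ∈ (P.augS.map P.inclS.toRingHom) • (⊤ : Submodule P.ARing (pt.Mod J)) := by
  classical
  let e : Fin (d J.1) → pt.Mod J := fun k => (Pi.single k (1 : P.SRing) : Fin (d J.1) → P.SRing)
  have hsum : m = ∑ k, P.inclS (m k) • e k := by
    simp only [pt.algebraMap_smul']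
    exact pi_eq_sum_univ' (R := P.SRing) m
  rw [hsum]
  exact sum_mem fun k _ =>
    Submodule.smul_mem_smul (Ideal.mem_map_of_mem P.inclS.toRingHom (hm k)) Submodule.mem_top

/-- The relation vanishes at the origin if `p` is not raised. -/
theorem constantCoeff_rQ_eq_zero (hF : F.IsNormal) (hr : P.p ∈ P.loc → 1 ≤ P.r) (hd : 0 < d ∅)
    (hp : P.p ∉ P.raise) : MvPowerSeries.constantCoeff pt.rQ = 0 := by
  set J : P.Level := ⟨P.raise, subset_rfl⟩
  have hS := pt.supported hF hr hd J fun h => absurd h hp
  have hh : pt.h = 1 := if_neg hp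
  have hL : ∀ y, pt.hL J y = y := fun y => by
    show pt.h • y = y
    rw [hh, one_smul]
  obtain ⟨Q', hQp, hQ', hQ⟩ := exists_prime_of_kernel_le (pt.relsKill_hL J) P.originIdeal
    fun g hg => RingHom.mem_ker.mpr (P.constantCoeff_eq_zero_of_mem_component (hS g hg))
  have hI := pt.map_augS_le hQ fun i => hQ' _ fun y => (pt.relsKill_hL J).2 i y
  obtain ⟨k, hk⟩ := exists_pow_mem_annihilator_sup (M := pt.Mod J)
    (I := P.augS.map P.inclS.toRingHom) (t := P.inclR pt.rQ) fun m =>
      pt.mem_smul_of_coord_mem fun a => by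
        show (pt.Ψ J (P.inclR pt.rQ)).mulVec m a ∈ P.augS
        simp only [Matrix.mulVec, dotProduct]
        exact Ideal.sum_mem _ fun b _ => Ideal.mul_mem_right _ _ (pt.top hp a b)
  have hk' : P.inclR pt.rQ ^ k ∈ Q' :=
    sup_le (fun t ht => hQ' t fun y => by rw [hL]; exact Module.mem_annihilator.mp ht y) hI hk
  have h := Ideal.IsPrime.mem_of_pow_mem ‹_› k hk'
  rw [← Ideal.mem_comap, hQ] at h
  exact RingHom.mem_ker.mp h

/-- The relation vanishes at the origin if `p` is raised. -/
theorem constantCoeff_rQ_eq_zero_p (hF : F.IsNormal) (hr : P.p ∈ P.loc → 1 ≤ P.r) (hd : 0 < d ∅)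
    (x : P.Step) (hx : x.v = P.p) (hxJ : x.J.1 = P.raise.erase P.p) :
    MvPowerSeries.constantCoeff pt.rQ = 0 := by
  have hp : P.p ∈ P.raise := hx ▸ x.mem
  have hnext : x.next.1 = P.raise := by
    show insert x.v x.J.1 = P.raise
    rw [hxJ, hx, Finset.insert_erase hp]
  have hS := pt.supported hF hr hd x.next fun _ => by rw [hnext]; exact hp
  have hsub : x.J.1 ⊆ x.next.1 := Finset.subset_insert _ _
  obtain ⟨Q₀, hQ₀p, hQ₀', hQ₀⟩ := exists_prime_of_kernel_le (pt.relsKill_hL x.next)
    (P.curvePrime x.next.1) fun g hg => P.component_le_curvePrime (hS g hg)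
  let f : pt.Mod x.next →ₗ[P.ARing] pt.Coker x := (LinearMap.range (pt.αL x)).mkQ
  have hrels : pt.RelsKill f :=
    ⟨fun z y => pt.smul_mkQ_eq_zero x (pt.rel_frame_p x hx z) y,
      fun i y => pt.smul_mkQ_eq_zero x (pt.rel_diamond_p x hx i) y⟩
  have hle : ∀ t, (∀ y, t • f y = 0) → t ∈ Q₀ := fun t ht => hQ₀' t fun y => by
    show t • pt.h • y = 0
    have h1 := ht y
    rw [← map_smul] at h1
    obtain ⟨w, hw⟩ := (Submodule.Quotient.mk_eq_zero _).mp h1
    rw [smul_comm, ← hw, ← map_smul, show pt.h • w = 0 from funext fun i =>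
      pt.smul_eq_zero_of_Ψ (pt.flat_kills hp x.J (by rw [hxJ]; exact Finset.notMem_erase _ _))
        (w i), map_zero]
  obtain ⟨Q', hQp, hQ', hQ⟩ := exists_prime_of_kernel_le hrels P.originIdeal fun g hg =>
    RingHom.mem_ker.mpr (P.constantCoeff_eq_zero_of_mem_component (F := F) (by
      rw [← hnext]
      exact kernel_le_component hF hr hrels hle
        (fun g hg => ⟨P.inclR (P.signProd F x.J.1),
          inclR_signProd_notMem hF x.next.2 hsub hQ₀, fun y => pt.smul_mkQ_eq_zero x (by
            rw [← map_mul, mul_comm]; exact pt.coker_p_kills x hx g hg) y⟩) hg))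
  have hI := pt.map_augS_le hQ fun i => hQ' _ fun y => hrels.2 i y
  have : Module.Finite P.ARing (pt.Coker x) :=
    Module.Finite.of_restrictScalars_finite P.SRing P.ARing (pt.Coker x)
  obtain ⟨k, hk⟩ := exists_pow_mem_annihilator_sup (M := pt.Coker x)
    (I := P.augS.map P.inclS.toRingHom) (t := P.inclR pt.rQ) fun q => by
      obtain ⟨m, rfl⟩ := Submodule.mkQ_surjective _ q
      rw [← map_smul]
      set z : pt.Mod x.next := P.inclR pt.rQ • m with hz
      let w : pt.Mod x.next := ((pt.pr x).mulVec z : Fin (d x.next.1) → P.SRing)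
      have hrange : z + w ∈ LinearMap.range (pt.αL x) := by
        refine ⟨fun i k => (pt.αInv x).mulVec z (i, k), ?_⟩
        show (pt.α x).mulVec ((pt.αInv x).mulVec z) = z + w
        simp only [w, pr, Matrix.sub_mulVec, Matrix.one_mulVec, Matrix.mulVec_mulVec]
        exact (add_sub_cancel (z : Fin (d x.next.1) → P.SRing) _).symm
      have hw : ((LinearMap.range (pt.αL x)).mkQ z : pt.Coker x) =
          -(LinearMap.range (pt.αL x)).mkQ w := by
        rw [eq_neg_iff_add_eq_zero, ← map_add]
        exact (Submodule.Quotient.mk_eq_zero _).mpr hrange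
      rw [hw]
      refine neg_mem ?_
      have hwm : w ∈ (P.augS.map P.inclS.toRingHom) • (⊤ : Submodule P.ARing (pt.Mod x.next)) :=
        pt.mem_smul_of_coord_mem fun a => by
          show (pt.pr x).mulVec ((pt.Ψ x.next (P.inclR pt.rQ)).mulVec m) a ∈ P.augS
          rw [Matrix.mulVec_mulVec]
          simp only [Matrix.mulVec, dotProduct]
          exact Ideal.sum_mem _ fun b _ => Ideal.mul_mem_right _ _ (pt.top_p x hx hxJ a b)
      have := Submodule.mem_map_of_mem (f := (LinearMap.range (pt.αL x)).mkQ) hwm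
      rw [Submodule.map_smul''] at this
      exact Submodule.smul_mono le_rfl le_top this
  have hk' : P.inclR pt.rQ ^ k ∈ Q' :=
    sup_le (fun t ht => hQ' t fun y => Module.mem_annihilator.mp ht _) hI hk
  have h := Ideal.IsPrime.mem_of_pow_mem ‹_› k hk'
  rw [← Ideal.mem_comap, hQ] at h
  exact RingHom.mem_ker.mp h

end Patched

omit [IsAdicComplete (maximalIdeal O) O] in
/-- The Selmer bound leaves room for a diamond variable when `p` has local coordinates. -/
theorem LevelDatum.one_le_r {P : LiftProblem O} {d : Finset ℕ → ℕ} {n : ℕ} (D : LevelDatum P d n)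
    (hp : P.p ∈ P.loc) : 1 ≤ P.r := by
  have h := D.tangent ⊥ fun c hc => by
    obtain rfl := (Submodule.mem_bot _).mp hc
    refine ⟨⟨fun σ τ => by simp, fun σ => by simp, ⊥, inferInstance, fun σ _ => rfl⟩,
      fun ℓ _ _ _ _ A _ σ _ => rfl, fun v _ => ⟨0, by simp, fun σ _ => by simp⟩,
      fun h => absurd hp h⟩
  rw [if_pos hp] at h
  omega

/-- The conclusion of the engine. -/
theorem relationsVanish [Finite (ResidueField O)] (P : LiftProblem O) : RelationsVanish P := by
  intro d hd D Q hQ
  obtain ⟨F, hF⟩ := P.exists_frames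
  obtain ⟨pt⟩ := exists_patched P F hF d D Q hQ
  have hr : P.p ∈ P.loc → 1 ≤ P.r := (D 0).one_le_r
  have h0 : MvPowerSeries.constantCoeff pt.rQ = 0 := by
    by_cases hp : P.p ∈ P.raise
    · exact pt.constantCoeff_rQ_eq_zero_p hF hr hd
        ⟨⟨P.raise.erase P.p, Finset.erase_subset _ _⟩, P.p, hp, Finset.notMem_erase _ _⟩ rfl rfl
    · exact pt.constantCoeff_rQ_eq_zero hF hr hd hp
  rw [← pt.rQ_val, h0]

end FLTAgent.ModularityLifting
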