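import Fermat.Agent.ModularityLifting.Setup
import Fermat.Agent.LevelLowering.Tame
import Mathlib.LinearAlgebra.Matrix.GeneralLinearGroup.Defs
import Mathlib.RingTheory.AdicCompletion.Basic

/-!
# Representations at a prime with unipotent residual inertia

Inertia acts through a tame element `τ`, and `Φ τ = τ ^ q Φ`.
-/

set_option autoImplicit false

noncomputable section

open IsLocalRing

namespace FLTAgent.ModularityLifting

open FLTAgent.DefRing

local notation "Qbar" => AlgebraicClosure ℚ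

variable {A : Type} [CommRing A] [IsLocalRing A]

/-- Matrices congruent to the identity become more so under the `p`-th power. -/
theorem pow_prime_sub_one_mem {p : ℕ} (hp : (p : A) ∈ maximalIdeal A)
    (X : Matrix (Fin 2) (Fin 2) A) (j : ℕ)
    (hX : ∀ i k, (X - 1) i k ∈ maximalIdeal A ^ (j + 1)) (i k : Fin 2) :
    (X ^ p - 1) i k ∈ maximalIdeal A ^ (j + 2) := by
  have hpow : ∀ (s : ℕ) i k, (X ^ s - 1) i k ∈ maximalIdeal A ^ (j + 1) := by
    intro s
    induction s with
    | zero => simp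
    | succ s ih =>
      intro i k
      rw [show X ^ (s + 1) - 1 = (X ^ s - 1) * X + (X - 1) by rw [pow_succ, sub_mul, one_mul]; abel,
        Matrix.add_apply, Matrix.mul_apply]
      exact add_mem (sum_mem fun l _ => Ideal.mul_mem_right _ _ (ih i l)) (hX i k)
  rw [← mul_geom_sum X p, Matrix.mul_apply]
  refine sum_mem fun l _ => ?_
  rw [pow_succ (maximalIdeal A) (j + 1)]
  refine Ideal.mul_mem_mul (hX i l) ?_
  have e : (∑ s ∈ Finset.range p, X ^ s) l k =
      ∑ s ∈ Finset.range p, (X ^ s - 1) l k + (p : A) * (1 : Matrix (Fin 2) (Fin 2) A) l k := by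
    rw [Matrix.sum_apply]
    simp only [Matrix.sub_apply, Finset.sum_sub_distrib, Finset.sum_const, Finset.card_range,
      nsmul_eq_mul]
    ring
  rw [e]
  exact add_mem (sum_mem fun s _ => Ideal.pow_le_self (Nat.succ_ne_zero j) (hpow s l k))
    (Ideal.mul_mem_right _ _ hp)

/-- A residually unipotent matrix has `p`-power order modulo each power of the maximal ideal. -/
theorem pow_prime_pow_sub_one_mem {p : ℕ} (_hp : p.Prime) (hp' : (p : A) ∈ maximalIdeal A)
    (X : Matrix (Fin 2) (Fin 2) A) (hX : ∀ i k, ((X - 1) * (X - 1)) i k ∈ maximalIdeal A) (j : ℕ)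
    (i k : Fin 2) : (X ^ p ^ (j + 1) - 1) i k ∈ maximalIdeal A ^ (j + 1) := by
  induction j generalizing i k with
  | zero =>
    rw [zero_add, pow_one, pow_one]
    let π := (residue A).mapMatrix (m := Fin 2)
    have hzero : ∀ Y : Matrix (Fin 2) (Fin 2) A, π Y = 0 → ∀ i k, Y i k ∈ maximalIdeal A :=
      fun Y hY i k => (residue_eq_zero_iff _).mp (congrFun (congrFun hY i) k)
    have h2 : (π X - 1) ^ 2 = 0 := by
      rw [sq]
      rw [← map_one π, ← map_sub, ← map_mul]
      ext i k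
      exact (residue_eq_zero_iff _).mpr (hX i k)
    refine hzero _ ?_ i k
    rw [map_sub, map_pow, map_one]
    have hpk : (p : Matrix (Fin 2) (Fin 2) (ResidueField A)) = 0 := by
      have : (p : ResidueField A) = 0 := by
        rw [← map_natCast (residue A)]; exact (residue_eq_zero_iff _).mpr hp'
      rw [← map_natCast (algebraMap (ResidueField A) (Matrix (Fin 2) (Fin 2) (ResidueField A))),
        this, map_zero]
    have key : ∀ s : ℕ, π X ^ s = 1 + s • (π X - 1) := by
      intro s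
      induction s with
      | zero => simp
      | succ s ih =>
        rw [pow_succ, ih, succ_nsmul]
        have : (π X - 1) * (π X - 1) = 0 := by rw [← sq]; exact h2
        rw [add_mul, one_mul, smul_mul_assoc]
        have e : (π X - 1) * π X = π X - 1 := by
          have := this
          rw [mul_sub, mul_one, sub_eq_zero] at this
          exact this
        rw [e]; abel
    rw [key, nsmul_eq_mul, hpk, zero_mul, add_zero, sub_self]
  | succ j ih =>
    rw [pow_succ p (j + 1), pow_mul]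
    exact pow_prime_sub_one_mem hp' _ j (fun i k => ih i k) i k

variable [IsHausdorff (maximalIdeal A) A] {p q : ℕ}

/-- Inertia acts through the tame element, which satisfies the tame relation. -/
theorem tame_relations (hp : p.Prime) (hp' : (p : A) ∈ maximalIdeal A) (hq : q.Prime)
    (hqp : q ≠ p) {B : ValuationSubring Qbar} (hB : B.LiesOverPrime q) {x : Qbar}
    (hx : x ^ p = (q : Qbar)) {τ : AbsGal} (hτ : τ ∈ B.inertiaSubgroupIn ℚ) (hτx : τ x ≠ x)
    (M : MatRep A) (hM : MatCont M)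
    (hres : ∀ σ ∈ B.inertiaSubgroupIn ℚ, ∀ i k, ((M σ - 1) * (M σ - 1)) i k ∈ maximalIdeal A) :
    (M τ = 1 → ∀ σ ∈ B.inertiaSubgroupIn ℚ, M σ = 1) ∧
      ∀ Φ : AbsGal, B.IsFrobeniusAt Φ q → M Φ * M τ = M τ ^ q * M Φ := by
  have level : ∀ k : ℕ, (∀ σ ∈ B.inertiaSubgroupIn ℚ, M τ = 1 →
      ∀ i l, (M σ - 1) i l ∈ maximalIdeal A ^ (k + 1)) ∧
      ∀ Φ : AbsGal, B.IsFrobeniusAt Φ q →
        ∀ i l, (M Φ * M τ - M τ ^ q * M Φ) i l ∈ maximalIdeal A ^ (k + 1) := by
    intro k
    let π₀ := (Ideal.Quotient.mk (maximalIdeal A ^ (k + 1))).mapMatrix (m := Fin 2)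
    let π : AbsGal →* (Matrix (Fin 2) (Fin 2) (A ⧸ maximalIdeal A ^ (k + 1)))ˣ :=
      (π₀.toMonoidHom.comp M).toHomUnits
    have hπ : ∀ σ, (π σ : Matrix (Fin 2) (Fin 2) (A ⧸ maximalIdeal A ^ (k + 1))) = π₀ (M σ) :=
      fun σ => rfl
    have hzero : ∀ Y : Matrix (Fin 2) (Fin 2) A,
        π₀ Y = 0 ↔ ∀ i l, Y i l ∈ maximalIdeal A ^ (k + 1) := fun Y =>
      ⟨fun hY i l => Ideal.Quotient.eq_zero_iff_mem.mp (congrFun (congrFun hY i) l),
        fun hY => Matrix.ext fun i l => Ideal.Quotient.eq_zero_iff_mem.mpr (hY i l)⟩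
    obtain ⟨L, hL, hLM⟩ := hM (k + 1)
    have hL0 : ∀ σ : AbsGal, (∀ y ∈ L, σ y = y) → π σ = 1 := fun σ hσ => Units.ext (by
      rw [hπ, Units.val_one, ← map_one π₀, ← sub_eq_zero, ← map_sub, hzero]
      exact hLM σ hσ)
    have hk : ∀ σ ∈ B.inertiaSubgroupIn ℚ, π σ ^ p ^ (k + 1) = 1 := fun σ hσ => Units.ext (by
      rw [Units.val_pow_eq_pow_val, hπ, Units.val_one, ← map_pow, ← map_one π₀, ← sub_eq_zero,
        ← map_sub, hzero]
      exact pow_prime_pow_sub_one_mem hp hp' _ (hres σ hσ) k)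
    obtain ⟨h1, h2⟩ := LevelLowering.tame_generator hp hq hqp hB hx hτ hτx π L hL0 (k + 1) hk
    refine ⟨fun σ hσ hτ1 => ?_, fun Φ hΦ => ?_⟩
    · obtain ⟨j, hj⟩ := h1 σ hσ
      have hπτ : π τ = 1 := Units.ext (by rw [hπ, hτ1, map_one, Units.val_one])
      rw [hπτ, one_zpow] at hj
      rw [← hzero, map_sub, map_one, ← hπ, hj, Units.val_one, sub_self]
    · rw [← hzero, map_sub, map_mul, map_mul, map_pow, ← hπ, ← hπ, ← Units.val_pow_eq_pow_val,
        ← h2 Φ hΦ, map_mul, map_mul, map_inv, ← Units.val_mul, ← Units.val_mul,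
        inv_mul_cancel_right, sub_self]
  have haus : ∀ y : A, (∀ k, y ∈ maximalIdeal A ^ (k + 1)) → y = 0 := fun y hy =>
    IsHausdorff.haus (I := maximalIdeal A) inferInstance y fun k => by
      rw [SModEq.zero, smul_eq_mul, Ideal.mul_top]
      exact Ideal.pow_le_pow_right (Nat.le_succ k) (hy k)
  exact ⟨fun hτ1 σ hσ => sub_eq_zero.mp (Matrix.ext fun i l =>
      haus _ fun k => (level k).1 σ hσ hτ1 i l),
    fun Φ hΦ => sub_eq_zero.mp (Matrix.ext fun i l => haus _ fun k => (level k).2 Φ hΦ i l)⟩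

end FLTAgent.ModularityLifting
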