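import Fermat.Agent.ModularityLifting.Engine.TraceRing
import Fermat.Agent.ModularityLifting.TraceRep
import Fermat.Agent.DefRing.Burnside
import Fermat.Agent.FiniteFlat.Operations
import Mathlib.FieldTheory.IsAlgClosed.AlgebraicClosure

/-!
# The representation over the trace ring of all points

The element with eigenvalues `1`, `-1` and two residually independent elements give a frame; the
representation of the frame, moved by a constant matrix, is the representation of the problem at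
its point and is conjugate to the given representation at every point.
-/

set_option autoImplicit false

noncomputable section

open IsLocalRing

namespace FLTAgent.ModularityLifting

open FLTAgent.DefRing

namespace Engine

variable {C : Type} [CommRing C]

/-- Conjugate representations. -/
def conjRep (g : GL (Fin 2) C) (M : MatRep C) : MatRep C where
  toFun σ := (g : Matrix (Fin 2) (Fin 2) C) * M σ * (g⁻¹ : GL (Fin 2) C)
  map_one' := by rw [map_one, mul_one, ← Units.val_mul, mul_inv_cancel, Units.val_one]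
  map_mul' σ τ := by
    have : ((g⁻¹ : GL (Fin 2) C) : Matrix (Fin 2) (Fin 2) C) * g = 1 := by
      rw [← Units.val_mul, inv_mul_cancel, Units.val_one]
    rw [map_mul]
    simp only [mul_assoc]
    rw [← mul_assoc _ (g : Matrix (Fin 2) (Fin 2) C), this, one_mul]

theorem conjRep_apply (g : GL (Fin 2) C) (M : MatRep C) (σ : AbsGal) :
    conjRep g M σ = (g : Matrix (Fin 2) (Fin 2) C) * M σ * (g⁻¹ : GL (Fin 2) C) := rfl

theorem trace_conjRep (g : GL (Fin 2) C) (M : MatRep C) (σ : AbsGal) :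
    (conjRep g M σ).trace = (M σ).trace := by
  rw [conjRep_apply, Matrix.trace_units_conj]

theorem det_conjRep (g : GL (Fin 2) C) (M : MatRep C) (σ : AbsGal) :
    (conjRep g M σ).det = (M σ).det := by
  rw [conjRep_apply, Matrix.det_units_conj]

theorem conjRep_conjRep (g h : GL (Fin 2) C) (M : MatRep C) (σ : AbsGal) :
    conjRep g (conjRep h M) σ = conjRep (g * h) M σ := by
  simp only [conjRep_apply, mul_inv_rev, Units.val_mul, mul_assoc]

/-- An involution of trace zero is conjugate to the standard one. -/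
theorem exists_diagonalize [IsLocalRing C] (h2 : IsUnit (2 : C)) (Γ : Matrix (Fin 2) (Fin 2) C)
    (ht : Γ.trace = 0) (hd : Γ.det = -1) :
    ∃ g : GL (Fin 2) C, (g : Matrix (Fin 2) (Fin 2) C) * Γ *
      ((g⁻¹ : GL (Fin 2) C) : Matrix (Fin 2) (Fin 2) C) = !![1, 0; 0, -1] := by
  suffices ∃ Q : GL (Fin 2) C, Γ * (Q : Matrix (Fin 2) (Fin 2) C) =
      (Q : Matrix (Fin 2) (Fin 2) C) * !![1, 0; 0, -1] by
    obtain ⟨Q, hQ⟩ := this
    exact ⟨Q⁻¹, by rw [inv_inv, mul_assoc, hQ, ← mul_assoc, ← Units.val_mul, inv_mul_cancel,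
      Units.val_one, one_mul]⟩
  set a := Γ 0 0
  set b := Γ 0 1
  set c := Γ 1 0
  have he : Γ 1 1 = -a := by rw [Matrix.trace_fin_two] at ht; linear_combination ht
  rw [Matrix.det_fin_two, he] at hd
  have hΓ : Γ = !![a, b; c, -a] := by rw [Matrix.eta_fin_two Γ, he]
  have hsum : IsUnit (1 + a) ∨ IsUnit (1 - a) :=
    IsLocalRing.isUnit_or_isUnit_of_isUnit_add (by convert h2 using 1; ring)
  rcases hsum with hu | hu
  · refine ⟨(Matrix.isUnit_iff_isUnit_det !![1 + a, -b; c, 1 + a]).mpr ?_ |>.unit, ?_⟩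
    · rw [Matrix.det_fin_two_of]
      convert h2.mul hu using 1
      linear_combination -hd
    · rw [IsUnit.unit_spec, hΓ, Matrix.mul_fin_two, Matrix.mul_fin_two]
      ext i j
      fin_cases i <;> fin_cases j <;> simp <;>
        first | linear_combination -hd | linear_combination hd | ring
  · refine ⟨(Matrix.isUnit_iff_isUnit_det !![b, a - 1; 1 - a, c]).mpr ?_ |>.unit, ?_⟩
    · rw [Matrix.det_fin_two_of]
      convert h2.mul hu using 1
      linear_combination -hd
    · rw [IsUnit.unit_spec, hΓ, Matrix.mul_fin_two, Matrix.mul_fin_two]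
      ext i j
      fin_cases i <;> fin_cases j <;> simp <;>
        first | linear_combination -hd | linear_combination hd | ring

/-- A representation with a frame for its trace is conjugate to the one of the frame. -/
theorem exists_conj_frameRep [IsLocalRing C] (h2 : IsUnit (2 : C)) (M : MatRep C) {f : AbsGal → C}
    {ε : AbsGal →* C} (hf : IsPseudoRep f ε) (F : Frame f ε) (hα : F.α = 1) (hβ : F.β = -1)
    (htr : ∀ σ, (M σ).trace = f σ) (hdet : (M F.γ).det = ε F.γ) :
    ∃ g : GL (Fin 2) C, F.rep hf = conjRep g M := by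
  obtain ⟨g₁, hg₁⟩ := exists_diagonalize h2 (M F.γ)
    (by rw [htr, ← F.hsum, hα, hβ]; ring) (by rw [hdet, ← F.hprod, hα, hβ]; ring)
  set N := conjRep g₁ M
  have hγ : N F.γ = !![1, 0; 0, -1] := hg₁
  have ha : ∀ h, frameA f F.γ F.β F.u h = N h 0 0 := fun h => by
    apply F.cancel
    rw [F.sub_key, ← htr, ← htr, ← trace_conjRep g₁ M (F.γ * h), ← trace_conjRep g₁ M h,
      map_mul, hγ, hα, hβ, Matrix.eta_fin_two (N h), Matrix.mul_fin_two,
      Matrix.trace_fin_two_of, Matrix.trace_fin_two_of]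
    simp only [Matrix.of_apply, Matrix.cons_val', Matrix.cons_val_zero, Matrix.empty_val',
      Matrix.cons_val_fin_one]
    ring
  have hX : frameX f F.γ F.β F.u F.s F.r = N F.s 0 1 * N F.r 1 0 := by
    simp only [frameX, ha, map_mul, Matrix.mul_apply, Fin.sum_univ_two]; ring
  have hq : IsUnit (N F.r 1 0) := isUnit_of_mul_isUnit_right
    (x := N F.s 0 1) (hX ▸ IsUnit.of_mul_eq_one _ F.hw)
  obtain ⟨q, hq⟩ := hq
  let g₂ : GL (Fin 2) C := ⟨!![(q : C), 0; 0, 1], !![(↑q⁻¹ : C), 0; 0, 1],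
    by rw [Matrix.mul_fin_two]; simp [Matrix.one_fin_two],
    by rw [Matrix.mul_fin_two]; simp [Matrix.one_fin_two]⟩
  have hval : ∀ h, conjRep g₂ N h =
      !![N h 0 0, (q : C) * N h 0 1; (↑q⁻¹ : C) * N h 1 0, N h 1 1] := fun h => by
    rw [conjRep_apply]
    show !![(q : C), 0; 0, 1] * N h * !![(↑q⁻¹ : C), 0; 0, 1] = _
    rw [Matrix.eta_fin_two (N h), Matrix.mul_fin_two, Matrix.mul_fin_two]
    ext i j
    fin_cases i <;> fin_cases j <;> simp [mul_comm]
  refine ⟨g₂ * g₁, (F.eq_rep hf (conjRep (g₂ * g₁) M) (fun σ => ?_) ?_ ?_).symm⟩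
  · rw [trace_conjRep, htr]
  · rw [← conjRep_conjRep, hval, hγ, hα, hβ]
    simp
  · rw [← conjRep_conjRep, hval]
    simp [← hq]

end Engine

open Engine

variable {O : Type} [CommRing O] [IsDomain O] [IsDiscreteValuationRing O]

namespace LiftProblem

variable (P : LiftProblem O)

include P in
theorem isUnit_two : IsUnit (2 : O) := by
  by_contra h
  obtain ⟨k, hk⟩ := P.hp.eq_two_or_odd'.resolve_left P.hp2
  have h1 : (1 : O) = (P.p : O) - 2 * (k : O) := by rw [hk]; push_cast; ring
  exact (h1 ▸ sub_mem P.p_mem (Ideal.mul_mem_right _ _ h) : (1 : O) ∈ maximalIdeal O) isUnit_one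

theorem span_ρbar : Submodule.span (ResidueField O) (Set.range P.ρbar) = ⊤ := by
  refine DefRing.span_range_eq_top (algebraMap (ResidueField O) (AlgebraicClosure (ResidueField O)))
    P.ρbar fun v hv hall => hv ?_
  exact P.irr _ _ v fun σ _ => hall σ

/-- The trace and determinant of the problem. -/
theorem exists_frameO : ∃ F : Frame (fun σ => (P.ρ σ).trace)
    (Matrix.detMonoidHom.comp P.ρ), F.γ = P.γ ∧ F.α = 1 ∧ F.β = -1 := by
  refine exists_frame P.γ 1 (-1) (by rw [P.γ_trace]; ring) ?_ ?_ P.ρbar (fun σ => ?_) ?_ P.span_ρbar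
  · simp [P.γ_det]
  · convert P.isUnit_two using 1; ring
  · simp [LiftProblem.ρbar, mapRep_apply, Matrix.trace]
  · exact (RingHom.map_det _ _).symm

end LiftProblem

namespace LevelDatum

variable {P : LiftProblem O} {d : Finset ℕ → ℕ} {n : ℕ} (D : LevelDatum P d n)

theorem xrep_gamma_trace (x : D.XPt) : (D.xrep x P.γ).trace = 0 := by
  have hdet : (D.xrep x P.γ).det = -1 := by
    rw [D.xrep_det, P.γ_det, map_neg, map_one]
  have h := Matrix.aeval_self_charpoly (D.xrep x P.γ)
  rw [Matrix.charpoly_fin_two, hdet] at h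
  simp only [map_add, map_sub, map_pow, map_mul, Polynomial.aeval_X, Polynomial.aeval_C] at h
  rw [sq, ← map_mul, P.γ_sq, map_one, map_neg, map_one, sub_add_eq_add_sub, add_neg_cancel,
    zero_sub, neg_eq_zero] at h
  have h' := congrArg (fun A => A * D.xrep x P.γ) h
  simp only [mul_assoc, zero_mul, ← map_mul, P.γ_sq, map_one, mul_one] at h'
  simpa [Matrix.algebraMap_matrix_apply] using congrFun (congrFun h' 0) 0

theorem mapRep_conjRep {A B : Type} [CommRing A] [CommRing B] (φ : A →+* B) (g : GL (Fin 2) A)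
    (M : MatRep A) :
    mapRep φ (conjRep g M) = conjRep (Units.map (φ.mapMatrix (m := Fin 2)).toMonoidHom g)
      (mapRep φ M) := by
  refine MonoidHom.ext fun σ => ?_
  show φ.mapMatrix (conjRep g M σ) = φ.mapMatrix (g : Matrix (Fin 2) (Fin 2) A) *
    φ.mapMatrix (M σ) *
    φ.mapMatrix ((g⁻¹ : GL (Fin 2) A) : Matrix (Fin 2) (Fin 2) A)
  rw [← map_mul, ← map_mul]
  rfl

end LevelDatum

variable {P : LiftProblem O} {d : Finset ℕ → ℕ} {n : ℕ} (D : LevelDatum P d n)

theorem exists_normalRep :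
    ∃ M : MatRep (D.traceRing Set.univ),
      (∀ σ i j, (D.evalPt Set.univ ⟨none, trivial⟩ (M σ i j)) = algebraMap O D.Coeff (P.ρ σ i j)) ∧
      (∀ x : (Set.univ : Set D.XPt), MatCont (mapRep (D.evalPt Set.univ x).toRingHom M) ∧
        (∀ σ i j, D.evalPt Set.univ x (M σ i j) - algebraMap O D.Coeff (P.ρ σ i j) ∈
          maximalIdeal D.Coeff) ∧
        ∃ g : GL (Fin 2) D.Coeff, ∀ σ, mapRep (D.evalPt Set.univ x).toRingHom M σ =
          (g : Matrix (Fin 2) (Fin 2) D.Coeff) * D.xrep x σ * (g⁻¹ : GL (Fin 2) D.Coeff)) := by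
  classical
  obtain ⟨F₀, hγ, hα, hβ⟩ := P.exists_frameO
  set T := D.traceRing Set.univ
  let ev := fun x : (Set.univ : Set D.XPt) => (D.evalPt Set.univ x).toRingHom
  let none' : (Set.univ : Set D.XPt) := ⟨none, trivial⟩
  have hc : ∀ (x : (Set.univ : Set D.XPt)) (o : O),
      D.evalPt Set.univ x (algebraMap O T o) = algebraMap O D.Coeff o := fun x o =>
        AlgHom.commutes _ o
  set f : AbsGal → T := fun σ => D.trPt Set.univ σ
  set ε : AbsGal →* T := (algebraMap O T).toMonoidHom.comp (Matrix.detMonoidHom.comp P.ρ)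
  have hεval : ∀ x σ, ev x (ε σ) = (D.xrep x σ).det := fun x σ => by
    show D.evalPt Set.univ x (algebraMap O T (P.ρ σ).det) = _
    rw [AlgHom.commutes, D.xrep_det]
  have hf : IsPseudoRep f ε := by
    have hx : ∀ x : (Set.univ : Set D.XPt),
        IsPseudoRep (fun σ => (D.xrep x σ).trace) ((ev x).toMonoidHom.comp ε) := fun x =>
      isPseudoRep_of_matRep _ _ (hεval x)
    refine ⟨?_, fun a b => ?_, fun a b => ?_⟩ <;> refine D.ext_evalPt fun x => ?_
    · rw [map_ofNat]; exact (hx x).one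
    · exact (hx x).comm a b
    · rw [map_add, map_mul, map_mul]; exact (hx x).mul a b
  have hX : IsUnit (frameX f F₀.γ (-1) (algebraMap O T F₀.u) F₀.s F₀.r) := by
    refine D.isUnit_of_isUnit_evalPt none' ?_
    have e : ∀ σ, D.evalPt Set.univ none' (f σ) = algebraMap O D.Coeff (P.ρ σ).trace := fun σ => by
      show (mapRep (algebraMap O D.Coeff) P.ρ σ).trace = _
      simp [Matrix.trace, mapRep_apply]
    have h := (IsUnit.of_mul_eq_one _ F₀.hw).map (algebraMap O D.Coeff)
    rw [hβ] at h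
    convert h using 1
    simp [frameX, frameA, e, hc]
  obtain ⟨w, hw⟩ := hX.exists_right_inv
  let F : Frame f ε :=
    { γ := F₀.γ
      α := 1
      β := -1
      u := algebraMap O T F₀.u
      r := F₀.r
      s := F₀.s
      w := w
      hsum := D.ext_evalPt fun x => by
        rw [hγ, map_add, map_neg, map_one, add_neg_cancel]
        exact (D.xrep_gamma_trace x).symm
      hprod := D.ext_evalPt fun x => by
        rw [hγ, one_mul, map_neg, map_one]
        show -1 = ev x (ε P.γ)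
        rw [hεval, D.xrep_det, P.γ_det, map_neg, map_one]
      hu := by
        have := F₀.hu
        rw [hα, hβ] at this
        rw [← map_one (algebraMap O T), ← map_neg, ← map_sub, ← map_mul, this]
      hw := hw }
  have h2 : IsUnit (2 : D.Coeff) := map_ofNat (algebraMap O D.Coeff) 2 ▸ P.isUnit_two.map _
  have hconj : ∀ x, ∃ g : GL (Fin 2) D.Coeff,
      mapRep (ev x) (F.rep hf) = conjRep g (D.xrep x) := fun x => by
    have e : mapRep (ev x) (F.rep hf) = (F.map (ev x)).rep (hf.map (ev x)) :=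
      MonoidHom.ext fun σ => (F.rep_map hf (ev x) σ).symm
    rw [e]
    exact exists_conj_frameRep h2 (D.xrep x) (hf.map (ev x)) (F.map (ev x)) (map_one (ev x))
      (by show ev x (-1) = -1; rw [map_neg, map_one]) (fun σ => rfl) ((hεval x _).symm)
  obtain ⟨g₀, hg₀⟩ := exists_conj_frameRep P.isUnit_two P.ρ
    (isPseudoRep_of_matRep P.ρ _ fun σ => rfl) F₀ hα hβ (fun σ => rfl) rfl
  have hnone : mapRep (ev none') (F.rep hf) =
      mapRep (algebraMap O D.Coeff) (F₀.rep (isPseudoRep_of_matRep P.ρ _ fun σ => rfl)) := by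
    refine MonoidHom.ext fun σ => ?_
    show (ev none').mapMatrix _ = (algebraMap O D.Coeff).mapMatrix _
    have e : ∀ σ, D.evalPt Set.univ none' (f σ) = algebraMap O D.Coeff (P.ρ σ).trace := fun σ => by
      show (mapRep (algebraMap O D.Coeff) P.ρ σ).trace = _
      simp [Matrix.trace, mapRep_apply]
    have hw' : D.evalPt Set.univ none' w = algebraMap O D.Coeff F₀.w := by
      have h1 := congrArg (D.evalPt Set.univ none') hw
      have h2 := congrArg (algebraMap O D.Coeff) F₀.hw
      rw [hβ] at h2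
      simp only [frameX, frameA, map_mul, map_sub, map_neg, map_one, e, hc] at h1 h2
      exact left_inv_eq_right_inv ((mul_comm _ _).trans h1) h2
    rw [Frame.rep_apply, Frame.rep_apply]
    ext i j
    fin_cases i <;> fin_cases j <;>
      simp [ev, F, frameA, frameX, Frame.b, Frame.d, hβ, e, hw', hc]
  set g := Units.map (algebraMap O T).mapMatrix.toMonoidHom g₀⁻¹
  have hmap : ∀ x, Units.map (ev x).mapMatrix.toMonoidHom g =
      Units.map (algebraMap O D.Coeff).mapMatrix.toMonoidHom g₀⁻¹ := fun x =>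
    Units.ext (Matrix.ext fun i j => hc x ((g₀⁻¹ : GL (Fin 2) O) i j))
  have hM0 : ∀ σ i j, D.evalPt Set.univ none' (conjRep g (F.rep hf) σ i j) =
      algebraMap O D.Coeff (P.ρ σ i j) := fun σ i j => by
    show mapRep (ev none') (conjRep g (F.rep hf)) σ i j = mapRep (algebraMap O D.Coeff) P.ρ σ i j
    rw [LevelDatum.mapRep_conjRep, hmap, hnone, ← LevelDatum.mapRep_conjRep, hg₀]
    rw [show conjRep g₀⁻¹ (conjRep g₀ P.ρ) = P.ρ from MonoidHom.ext fun σ => by
      rw [conjRep_conjRep, inv_mul_cancel, conjRep_apply]; simp]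
  refine ⟨conjRep g (F.rep hf), hM0, fun x => ?_⟩
  obtain ⟨gx, hgx⟩ := hconj x
  refine ⟨?_, fun σ i j => hM0 σ i j ▸ D.evalPt_sub_evalPt_mem x none' _,
    Units.map (ev x).mapMatrix.toMonoidHom g * gx, fun σ => ?_⟩
  · change MatCont (mapRep (ev x) (conjRep g (F.rep hf)))
    rw [LevelDatum.mapRep_conjRep, hgx]
    exact matCont_conj (matCont_conj (D.xrep_cont x) gx fun σ => rfl) _ fun σ => rfl
  · show mapRep (ev x) (conjRep g (F.rep hf)) σ = _
    rw [LevelDatum.mapRep_conjRep, hgx, conjRep_conjRep]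
    rfl

/-- A conjugate has the same local properties. -/
theorem localProps_conj {C : Type} [CommRing C] {M M' : MatRep C} {g : GL (Fin 2) C}
    (h : ∀ σ, M σ = (g : Matrix (Fin 2) (Fin 2) C) * M' σ * (g⁻¹ : GL (Fin 2) C)) (q : ℕ) (e : C) :
    (UnramifiedAt M' q → UnramifiedAt M q) ∧ (SteinbergAt M' q e → SteinbergAt M q e) ∧
      (StrictAt M' q e → StrictAt M q e) ∧ (FlatAt M' q → FlatAt M q) := by
  have hM : M = conjRep g M' := MonoidHom.ext h
  subst hM
  have hgg : (g : Matrix (Fin 2) (Fin 2) C) * (g⁻¹ : GL (Fin 2) C) = 1 := by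
    rw [← Units.val_mul, mul_inv_cancel, Units.val_one]
  have hgg' : ((g⁻¹ : GL (Fin 2) C) : Matrix (Fin 2) (Fin 2) C) * g = 1 := by
    rw [← Units.val_mul, inv_mul_cancel, Units.val_one]
  refine ⟨fun hu A hA σ hσ => ?_, fun hs A hA => ⟨fun τ hτ => ?_, fun φ hφ => ?_⟩,
    fun hs A hA => ?_, fun hf I hI => ?_⟩
  · rw [conjRep_apply, hu A hA σ hσ, mul_one, hgg]
  · have e1 : conjRep g M' τ - 1 =
        (g : Matrix (Fin 2) (Fin 2) C) * (M' τ - 1) * (g⁻¹ : GL (Fin 2) C) := by
      rw [conjRep_apply, mul_sub, sub_mul, mul_one, hgg]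
    rw [e1, Units.conj_pow, (hs A hA).1 τ hτ]
    simp
  · rw [trace_conjRep]; exact (hs A hA).2 φ hφ
  · obtain ⟨g', hg'⟩ := hs A hA
    refine ⟨g' * g⁻¹, fun σ hσ => ?_⟩
    have e1 : ((g' * g⁻¹ : GL (Fin 2) C) : Matrix (Fin 2) (Fin 2) C) * conjRep g M' σ *
        ((g' * g⁻¹)⁻¹ : GL (Fin 2) C) = (g' : Matrix (Fin 2) (Fin 2) C) * M' σ *
          (g'⁻¹ : GL (Fin 2) C) := by
      simp only [conjRep_apply, mul_inv_rev, inv_inv, Units.val_mul]
      calc _ = (g' : Matrix (Fin 2) (Fin 2) C) * (((g⁻¹ : GL (Fin 2) C) : Matrix (Fin 2) (Fin 2) C)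
            * g) * M' σ * ((((g⁻¹ : GL (Fin 2) C) : Matrix (Fin 2) (Fin 2) C) * g) *
            (g'⁻¹ : GL (Fin 2) C)) := by simp only [mul_assoc]
        _ = _ := by rw [hgg', mul_one, one_mul]
    rw [e1]
    exact hg' σ hσ
  · have := hI
    let G : GL (Fin 2) (C ⧸ I) := Units.map (Ideal.Quotient.mk I).mapMatrix.toMonoidHom g
    let π : (Fin 2 → C ⧸ I) →+ (Fin 2 → C ⧸ I) :=
      (Matrix.toLin' (G : Matrix (Fin 2) (Fin 2) (C ⧸ I))).toAddMonoidHom
    refine (hf I hI).of_surjective π (fun σ x => ?_) fun y => ?_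
    · show Matrix.toLin' (G : Matrix (Fin 2) (Fin 2) (C ⧸ I))
          (Matrix.toLin' ((Ideal.Quotient.mk I).mapMatrix (M' σ)) x) =
        Matrix.toLin' ((Ideal.Quotient.mk I).mapMatrix (conjRep g M' σ))
          (Matrix.toLin' (G : Matrix (Fin 2) (Fin 2) (C ⧸ I)) x)
      rw [← LinearMap.comp_apply, ← LinearMap.comp_apply, ← Matrix.toLin'_mul,
        ← Matrix.toLin'_mul]
      congr 2
      show (Ideal.Quotient.mk I).mapMatrix (g : Matrix (Fin 2) (Fin 2) C) * _ =
        _ * (Ideal.Quotient.mk I).mapMatrix (g : Matrix (Fin 2) (Fin 2) C)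
      rw [← map_mul, ← map_mul, conjRep_apply, mul_assoc, hgg', mul_one]
    · refine ⟨Matrix.toLin' ((G⁻¹ : GL (Fin 2) (C ⧸ I)) : Matrix (Fin 2) (Fin 2) (C ⧸ I)) y, ?_⟩
      show Matrix.toLin' (G : Matrix (Fin 2) (Fin 2) (C ⧸ I)) (Matrix.toLin'
        ((G⁻¹ : GL (Fin 2) (C ⧸ I)) : Matrix (Fin 2) (Fin 2) (C ⧸ I)) y) = y
      rw [← LinearMap.comp_apply, ← Matrix.toLin'_mul, ← Units.val_mul, mul_inv_cancel,
        Units.val_one, Matrix.toLin'_one]
      rfl

end FLTAgent.ModularityLifting
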