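import Fermat.Agent.ModularityLifting.Setup
import Fermat.Prelude.Def_EllipticCurve_FrobeniusTrace
import Mathlib.Algebra.TrivSqZeroExt.Basic
import Mathlib.RingTheory.MvPowerSeries.Basic
import Mathlib.RingTheory.Adjoin.Basic
import Mathlib.RingTheory.DiscreteValuationRing.Basic
import Mathlib.RingTheory.AdicCompletion.Basic
import Mathlib.Algebra.MvPolynomial.Eval

/-!
# The interface between modular symbols and the patching engine

`LiftProblem` is the representation to be proved modular, with its local types. `LevelDatum` is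
everything the engine needs to know about the spaces of modular symbols at the levels made from a
set of Taylor–Wiles primes: the points (eigensystems with their Galois representations), the free
modules with their Hecke action, the degeneracy maps, and the Selmer bound.
-/

set_option autoImplicit false

noncomputable section

open IsLocalRing

namespace FLTAgent.ModularityLifting

open FLTAgent.DefRing

local notation "Qbar" => AlgebraicClosure ℚ

/-- A representation to be proved modular, with its local types. -/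
structure LiftProblem (O : Type) [CommRing O] [IsDomain O] [IsDiscreteValuationRing O] where
  p : ℕ
  hp : p.Prime
  hp2 : p ≠ 2
  p_mem : (p : O) ∈ maximalIdeal O
  p_ne : (p : O) ≠ 0
  ρ : MatRep O
  cont : MatCont ρ
  det : DetCyclotomic ρ p
  irr : AbsIrreducibleOn (mapRep (residue O) ρ) ⊤
  /-- an element with eigenvalues `1`, `-1` -/
  γ : AbsGal
  γ_sq : γ * γ = 1
  γ_trace : (ρ γ).trace = 0
  γ_det : (ρ γ).det = -1
  /-- primes of the minimal level -/
  minimal : Finset ℕ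
  /-- primes at which the level is raised -/
  raise : Finset ℕ
  /-- auxiliary unramified primes -/
  extra : Finset ℕ
  prime : ∀ v ∈ minimal ∪ raise ∪ extra, v.Prime
  disjoint_raise : Disjoint minimal raise
  disjoint_extra : Disjoint (minimal ∪ raise) extra
  p_notMem_extra : p ∉ extra
  loc_nonempty : (minimal ∪ raise ∪ extra).Nonempty
  place : ℕ → ValuationSubring Qbar
  place_spec : ∀ ℓ, ℓ.Prime → (place ℓ).LiesOverPrime ℓ
  frob : ℕ → AbsGal
  frob_mem : ∀ ℓ, ℓ.Prime → frob ℓ ∈ (place ℓ).decompositionSubgroup ℚ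
  frob_spec : ∀ ℓ, ℓ.Prime → (place ℓ).IsFrobeniusAt (frob ℓ) ℓ
  ε : ℕ → O
  sign : ∀ v, ε v = 1 ∨ ε v = -1
  steinberg : ∀ v ∈ minimal ∪ raise, v ≠ p → SteinbergAt ρ v (ε v) ∧ ¬ UnramifiedAt ρ v
  strict : p ∈ minimal ∪ raise → StrictAt ρ p (ε p)
  flat : p ∉ minimal ∪ raise → FlatAt ρ p
  unram : ∀ q : ℕ, q.Prime → q ∉ minimal ∪ raise → q ≠ p → UnramifiedAt ρ q
  minimal_ram : ∀ v ∈ minimal, v ≠ p → ¬ UnramifiedAt (mapRep (residue O) ρ) v
  /-- three elements at `p` separating cocycles of the cyclotomic character -/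
  pElem : Fin 3 → AbsGal
  pElem_mem : ∀ i, pElem i ∈ (place p).decompositionSubgroup ℚ
  pElem_zero : residue O (ρ (pElem 0)).det ≠ 1
  pElem_one_flat : ∀ (M : Type) [AddCommGroup M] [Finite M] (act : AbsGal →* AddMonoid.End M),
    (∀ x : M, p • x = 0) → FiniteFlat.HasFlatModel p act → act (pElem 1) = 1
  pElem_sep : ∀ c : AbsGal → ResidueField O,
    (∀ g ∈ (place p).decompositionSubgroup ℚ, ∀ h ∈ (place p).decompositionSubgroup ℚ,
      c (g * h) = c g + residue O (ρ g).det * c h) →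
    (∃ L : IntermediateField ℚ Qbar, FiniteDimensional ℚ L ∧
      ∀ g : AbsGal, (∀ x ∈ L, g x = x) → c g = 0) →
    (∀ i, c (pElem i) = 0) → ∀ g ∈ (place p).decompositionSubgroup ℚ, c g = 0
  /-- the number of Taylor–Wiles primes -/
  r : ℕ

namespace LiftProblem

variable {O : Type} [CommRing O] [IsDomain O] [IsDiscreteValuationRing O] (P : LiftProblem O)

/-- The primes with local coordinates. -/
def loc : Finset ℕ := P.minimal ∪ P.raise ∪ P.extra

/-- The residual representation. -/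
def ρbar : MatRep (ResidueField O) := mapRep (residue O) P.ρ

end LiftProblem

/-- The coefficient ring at level `n`: the group ring of `(ℤ/pⁿ)ʳ`. -/
abbrev TWRing (O : Type) [CommRing O] (p r n : ℕ) : Type :=
  MvPowerSeries (Fin r) O ⧸
    Ideal.span (Set.range fun i : Fin r =>
      (1 + MvPowerSeries.X i : MvPowerSeries (Fin r) O) ^ p ^ n - 1)

/-- The ideal of the diamond variables. -/
def augIdeal (O : Type) [CommRing O] (p r n : ℕ) : Ideal (TWRing O p r n) :=
  Ideal.span (Set.range fun i : Fin r => Ideal.Quotient.mk _ (MvPowerSeries.X i))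

/-- The algebra of functions on points generated by traces and diamond values. -/
def traceAlg (O : Type) [CommRing O] {C : Type} [CommRing C] [Algebra O C] {X : Type}
    {r : ℕ} (rep : X → MatRep C) (u : X → Fin r → C) : Subalgebra O (X → C) :=
  Algebra.adjoin O
    ((Set.range fun σ : AbsGal => fun x => (rep x σ).trace) ∪ Set.range fun i => fun x => u x i)

/-- The trace function as an element of the algebra. -/
def trElem (O : Type) [CommRing O] {C : Type} [CommRing C] [Algebra O C] {X : Type}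
    {r : ℕ} (rep : X → MatRep C) (u : X → Fin r → C) (σ : AbsGal) : traceAlg O rep u :=
  ⟨fun x => (rep x σ).trace, Algebra.subset_adjoin (Or.inl ⟨σ, rfl⟩)⟩

/-- The diamond values as elements of the algebra. -/
def uElem (O : Type) [CommRing O] {C : Type} [CommRing C] [Algebra O C] {X : Type}
    {r : ℕ} (rep : X → MatRep C) (u : X → Fin r → C) (i : Fin r) : traceAlg O rep u :=
  ⟨fun x => u x i, Algebra.subset_adjoin (Or.inr ⟨i, rfl⟩)⟩

/-- The data at level `n`, for modules of ranks `d`. -/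
structure LevelDatum {O : Type} [CommRing O] [IsDomain O] [IsDiscreteValuationRing O]
    (P : LiftProblem O) (d : Finset ℕ → ℕ) (n : ℕ) where
  q : Fin P.r → ℕ
  q_prime : ∀ i, (q i).Prime ∧ q i ∉ P.loc ∧ q i ≠ P.p
  q_inj : Function.Injective q
  tame : Fin P.r → AbsGal
  tame_mem : ∀ i, ∃ A : ValuationSubring Qbar,
    A.LiesOverPrime (q i) ∧ tame i ∈ A.inertiaSubgroupIn ℚ
  Coeff : Type
  [commRing : CommRing Coeff]
  [isDomain : IsDomain Coeff]
  [dvr : IsDiscreteValuationRing Coeff]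
  [complete : IsAdicComplete (maximalIdeal Coeff) Coeff]
  [algebra : Algebra O Coeff]
  [moduleFinite : Module.Finite O Coeff]
  coeff_inj : Function.Injective (algebraMap O Coeff)
  Pt : Type
  [fintype : Fintype Pt]
  rep : Pt → MatRep Coeff
  u : Pt → Fin P.r → Coeff
  rep_cont : ∀ θ, MatCont (rep θ)
  rep_det : ∀ θ σ, (rep θ σ).det = algebraMap O Coeff (P.ρ σ).det
  rep_trace : ∀ θ σ, (rep θ σ).trace - algebraMap O Coeff (P.ρ σ).trace ∈ maximalIdeal Coeff
  rep_unram : ∀ θ, ∀ ℓ : ℕ, ℓ.Prime → ℓ ∉ P.loc → ℓ ≠ P.p → (∀ i, q i ≠ ℓ) →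
    UnramifiedAt (rep θ) ℓ
  u_mem : ∀ θ i, u θ i - 1 ∈ maximalIdeal Coeff
  tame_trace : ∀ θ i, (rep θ (tame i)).trace * u θ i = u θ i ^ 2 + 1
  /-- the points occurring at the level with raising primes `J` -/
  pts : Finset ℕ → Set Pt
  pts_unram : ∀ J ⊆ P.raise, ∀ θ ∈ pts J, ∀ v ∈ P.loc, v ≠ P.p → v ∉ P.minimal ∪ J →
    UnramifiedAt (rep θ) v
  pts_steinberg : ∀ J ⊆ P.raise, ∀ θ ∈ pts J, ∀ v ∈ P.minimal ∪ J, v ≠ P.p →
    UnramifiedAt (rep θ) v ∨ ∃ e : Coeff, (e = 1 ∨ e = -1) ∧ SteinbergAt (rep θ) v e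
  pts_flat : ∀ J ⊆ P.raise, ∀ θ ∈ pts J, P.p ∉ P.minimal ∪ J → FlatAt (rep θ) P.p
  pts_strict : ∀ J ⊆ P.raise, ∀ θ ∈ pts J, P.p ∈ P.minimal →
    StrictAt (rep θ) P.p (algebraMap O Coeff (P.ε P.p))
  pts_p : ∀ J ⊆ P.raise, ∀ θ ∈ pts J, P.p ∈ J →
    FlatAt (rep θ) P.p ∨ StrictAt (rep θ) P.p (algebraMap O Coeff (P.ε P.p))
  /-- the points new at `v`, of the sign of the problem -/
  newPts : Finset ℕ → ℕ → Set Pt
  newPts_subset : ∀ J ⊆ P.raise, ∀ v ∈ P.raise, v ∉ J → newPts J v ⊆ pts (insert v J)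
  newPts_steinberg : ∀ J ⊆ P.raise, ∀ v ∈ P.raise, v ∉ J → v ≠ P.p → ∀ θ ∈ newPts J v,
    SteinbergAt (rep θ) v (algebraMap O Coeff (P.ε v))
  newPts_strict : ∀ J ⊆ P.raise, P.p ∈ P.raise → P.p ∉ J → ∀ θ ∈ newPts J P.p,
    StrictAt (rep θ) P.p (algebraMap O Coeff (P.ε P.p))
  /-- the action on the free module of the level with raising primes `J` -/
  act : ∀ J : Finset ℕ,
    traceAlg O rep u →ₐ[O] Matrix (Fin (d J)) (Fin (d J)) (TWRing O P.p P.r n)
  act_u : ∀ J ⊆ P.raise, ∀ i, act J (uElem O rep u i) =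
    Matrix.scalar (Fin (d J)) (1 + Ideal.Quotient.mk _ (MvPowerSeries.X i))
  act_vanish : ∀ J ⊆ P.raise, ∀ t : traceAlg O rep u,
    (∀ θ ∈ pts J, (t : Pt → Coeff) θ = 0) → act J t = 0
  act_vanish_zero : ∀ J ⊆ P.raise, ∀ t : traceAlg O rep u,
    (∀ θ ∈ pts J, (∀ i, u θ i = 1) → (t : Pt → Coeff) θ = 0) →
      ∀ a b, act J t a b ∈ augIdeal O P.p P.r n
  /-- the degeneracy map -/
  α : ∀ (J : Finset ℕ) (v : ℕ),
    Matrix (Fin (d (insert v J))) (Fin 2 × Fin (d J)) (TWRing O P.p P.r n)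
  /-- a left inverse of the degeneracy map -/
  αInv : ∀ (J : Finset ℕ) (v : ℕ),
    Matrix (Fin 2 × Fin (d J)) (Fin (d (insert v J))) (TWRing O P.p P.r n)
  /-- the transposed degeneracy map -/
  β : ∀ (J : Finset ℕ) (v : ℕ),
    Matrix (Fin 2 × Fin (d J)) (Fin (d (insert v J))) (TWRing O P.p P.r n)
  /-- a right inverse of the transposed degeneracy map -/
  βInv : ∀ (J : Finset ℕ) (v : ℕ),
    Matrix (Fin (d (insert v J))) (Fin 2 × Fin (d J)) (TWRing O P.p P.r n)
  /-- twice the projector to the sign of the problem -/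
  E : ∀ (J : Finset ℕ) (v : ℕ),
    Matrix (Fin (d (insert v J))) (Fin (d (insert v J))) (TWRing O P.p P.r n)
  αInv_mul : ∀ J ⊆ P.raise, ∀ v ∈ P.raise, v ∉ J → αInv J v * α J v = 1
  β_mul : ∀ J ⊆ P.raise, ∀ v ∈ P.raise, v ∉ J → v ≠ P.p → β J v * βInv J v = 1
  α_comm : ∀ J ⊆ P.raise, ∀ v ∈ P.raise, v ∉ J → ∀ t : traceAlg O rep u,
    act (insert v J) t * α J v = α J v * Matrix.of fun x y : Fin 2 × Fin (d J) =>
      if x.1 = y.1 then act J t x.2 y.2 else 0
  β_comm : ∀ J ⊆ P.raise, ∀ v ∈ P.raise, v ∉ J → v ≠ P.p → ∀ t : traceAlg O rep u,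
    β J v * act (insert v J) t = (Matrix.of fun x y : Fin 2 × Fin (d J) =>
      if x.1 = y.1 then act J t x.2 y.2 else 0) * β J v
  E_comm : ∀ J ⊆ P.raise, ∀ v ∈ P.raise, v ∉ J → ∀ t : traceAlg O rep u,
    E J v * act (insert v J) t = act (insert v J) t * E J v
  E_p : ∀ J ⊆ P.raise, P.p ∈ P.raise → P.p ∉ J → E J P.p = 1
  β_α : ∀ J ⊆ P.raise, ∀ v ∈ P.raise, v ∉ J → v ≠ P.p →
    β J v * α J v = Matrix.of fun x y : Fin 2 × Fin (d J) =>
      if x.1 = y.1 then (if x.2 = y.2 then (v : TWRing O P.p P.r n) + 1 else 0)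
      else act J (trElem O rep u (P.frob v)) x.2 y.2
  β_E : ∀ J ⊆ P.raise, ∀ v ∈ P.raise, v ∉ J → v ≠ P.p →
    β J v * E J v = (Matrix.of fun x y : Fin 2 × Fin (d J) =>
      (if x = y then 1 else 0) + algebraMap O (TWRing O P.p P.r n) (P.ε v) *
        (if x.1 = 0 ∧ y.1 = 1 then (if x.2 = y.2 then (v : TWRing O P.p P.r n) else 0)
        else if x.1 = 1 ∧ y.1 = 0 then (if x.2 = y.2 then -1 else 0)
        else if x.1 = 1 ∧ y.1 = 1 then act J (trElem O rep u (P.frob v)) x.2 y.2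
        else 0)) * β J v
  coker : ∀ J ⊆ P.raise, ∀ v ∈ P.raise, v ∉ J → ∀ t : traceAlg O rep u,
    (∀ θ ∈ newPts J v, (t : Pt → Coeff) θ = 0) →
      (α J v * αInv J v - 1) * act (insert v J) t * E J v = 0
  coker_zero : ∀ J ⊆ P.raise, ∀ v ∈ P.raise, v ∉ J → ∀ t : traceAlg O rep u,
    (∀ θ ∈ newPts J v, (∀ i, u θ i = 1) → (t : Pt → Coeff) θ = 0) →
      ∀ a b, ((α J v * αInv J v - 1) * act (insert v J) t * E J v :
        Matrix (Fin (d (insert v J))) (Fin (d (insert v J))) (TWRing O P.p P.r n)) a b ∈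
          augIdeal O P.p P.r n
  coker_p : P.p ∈ P.raise → ∃ a b, IsUnit ((α ∅ P.p * αInv ∅ P.p - 1 :
    Matrix (Fin (d (insert P.p ∅))) (Fin (d (insert P.p ∅))) (TWRing O P.p P.r n)) a b)
  /-- the Selmer bound -/
  tangent : ∀ V : Submodule (ResidueField O) (AbsGal → Matrix (Fin 2) (Fin 2) (ResidueField O)),
    (∀ c ∈ V, IsAdCocycle P.ρbar c ∧
      (∀ ℓ : ℕ, ℓ.Prime → ℓ ∉ P.loc → ℓ ≠ P.p → (∀ i, q i ≠ ℓ) →
        ∀ A : ValuationSubring Qbar, A.LiesOverPrime ℓ → ∀ σ ∈ A.inertiaSubgroupIn ℚ, c σ = 0) ∧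
      (∀ v ∈ P.loc, ∃ a, a.trace = 0 ∧ ∀ σ ∈ (P.place v).decompositionSubgroup ℚ,
        c σ = a - P.ρbar σ * a * P.ρbar σ⁻¹) ∧
      (P.p ∉ P.loc → ∀ M : MatRep (TrivSqZeroExt (ResidueField O) (ResidueField O)),
        (∀ σ i j, M σ i j = TrivSqZeroExt.inl (P.ρbar σ i j) +
          TrivSqZeroExt.inr ((c σ * P.ρbar σ) i j)) → FlatAt M P.p)) →
    Module.finrank (ResidueField O) (V.map (adCoboundaries P.ρbar).mkQ) +
      ∑ v ∈ P.loc, Module.finrank (ResidueField O) (adInvariants P.ρbar (P.place v)) +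
      (if P.p ∈ P.loc then 1 else 0) ≤ P.r

attribute [instance] LevelDatum.commRing LevelDatum.isDomain LevelDatum.dvr LevelDatum.complete
  LevelDatum.algebra LevelDatum.moduleFinite LevelDatum.fintype

/-- The points at which the relations of the conclusion of the engine must hold. -/
def LevelDatum.topPts {O : Type} [CommRing O] [IsDomain O] [IsDiscreteValuationRing O]
    {P : LiftProblem O} {d : Finset ℕ → ℕ} {n : ℕ} (D : LevelDatum P d n) : Set D.Pt :=
  {θ | (if P.p ∈ P.raise then θ ∈ D.newPts (P.raise.erase P.p) P.p else θ ∈ D.pts P.raise) ∧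
    ∀ i, D.u θ i = 1}

/-- The conclusion of the engine: relations between traces of Frobenius holding at all top points
hold at the representation of the problem. -/
def RelationsVanish {O : Type} [CommRing O] [IsDomain O] [IsDiscreteValuationRing O]
    (P : LiftProblem O) : Prop :=
  ∀ d : Finset ℕ → ℕ, 0 < d ∅ → ∀ D : ∀ n, LevelDatum P d n, ∀ F : MvPolynomial ℕ ℤ,
    (∀ n, ∀ θ ∈ (D n).topPts,
      MvPolynomial.aeval (fun ℓ : ℕ => ((D n).rep θ (P.frob ℓ)).trace) F = 0) →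
    MvPolynomial.aeval (fun ℓ : ℕ => (P.ρ (P.frob ℓ)).trace) F = 0

end FLTAgent.ModularityLifting

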