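import Fermat.Agent.ModularityLifting.Setup
import Fermat.Agent.LevelLowering.Tame
import Fermat.Agent.TWPrimes.LocalPlace
import Mathlib.Algebra.CharP.Lemmas
import Mathlib.Algebra.CharP.Algebra
import Mathlib.Data.Matrix.Block
import Mathlib.LinearAlgebra.Matrix.Trace

/-!
# Cocycles vanishing on a decomposition group, and the quotient character of strict representations

A cocycle vanishing at a Frobenius element and at a tame generator vanishes on the decomposition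
group when residual inertia is unipotent. The tangent vectors of representations with a common
line and fixed diagonals are scalar cocycles for the determinant.
-/

set_option autoImplicit false

noncomputable section

open IsLocalRing

namespace FLTAgent.ModularityLifting.Engine

open FLTAgent.DefRing

local notation "Qbar" => AlgebraicClosure ℚ

/-- Elements agreeing on a finite level with a Frobenius power times inertia. -/
theorem exists_frobenius_word {q : ℕ} (hq : q.Prime) {A : ValuationSubring Qbar}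
    (hA : A.LiesOverPrime q) (L : IntermediateField ℚ Qbar) [FiniteDimensional ℚ L] {Φ : AbsGal}
    (hΦ : A.IsFrobeniusAt Φ q) {σ : AbsGal} (hσ : σ ∈ A.decompositionSubgroup ℚ) :
    ∃ (i : ℕ) (s κ : AbsGal), s ∈ A.inertiaSubgroupIn ℚ ∧ κ ∈ A.decompositionSubgroup ℚ ∧
      (∀ x ∈ L, κ x = x) ∧ σ = Φ ^ i * s * κ := by
  have : Fact q.Prime := ⟨hq⟩
  let L' := IntermediateField.normalClosure ℚ L Qbar
  have : FiniteDimensional ℚ L' := normalClosure.is_finiteDimensional ℚ _ Qbar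
  have : IsGalois ℚ L' := IsGalois.normalClosure ℚ _ Qbar
  obtain ⟨i, s, hs, h⟩ := TWPrimes.exists_frobenius_pow_mul hA L' hΦ hσ
  refine ⟨i, s, (Φ ^ i * s)⁻¹ * σ, hs, ?_, fun x hx => ?_, by group⟩
  · exact mul_mem (inv_mem (mul_mem (pow_mem hΦ.mem_decompositionSubgroup i)
      (Density.inertiaSubgroupIn_le_decompositionSubgroup A hs))) hσ
  · rw [AlgEquiv.mul_apply, h x (IntermediateField.le_normalClosure L hx)]
    exact AlgEquiv.symm_apply_apply _ x

section Cocycle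

variable {k : Type} [Field k] (ρ : MatRep k) (e : AbsGal → Matrix (Fin 2) (Fin 2) k)

/-- The block representation of a cocycle. -/
def blockRep (he : ∀ σ τ, e (σ * τ) = e σ + ρ σ * e τ * ρ σ⁻¹) :
    AbsGal →* Matrix (Fin 2 ⊕ Fin 2) (Fin 2 ⊕ Fin 2) k where
  toFun σ := Matrix.fromBlocks (ρ σ) (e σ * ρ σ) 0 (ρ σ)
  map_one' := by
    have h1 := he 1 1
    simp only [inv_one, map_one, mul_one, one_mul] at h1
    rw [map_one, mul_one, left_eq_add.mp h1, Matrix.fromBlocks_one]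
  map_mul' σ τ := by
    have h2 : ρ σ⁻¹ * ρ σ = 1 := by rw [← map_mul, inv_mul_cancel, map_one]
    rw [Matrix.fromBlocks_multiply, map_mul, he]
    congr 1 <;> try simp only [mul_zero, zero_mul, add_zero, zero_add]
    rw [add_mul, mul_assoc (ρ σ * e τ), ← mul_assoc (ρ σ⁻¹) (ρ σ) (ρ τ), h2, one_mul, add_comm]
    simp only [mul_assoc]

/-- A cocycle vanishing at Frobenius and at a tame generator vanishes on the decomposition group. -/
theorem cocycle_eq_zero_of_tame {p r : ℕ} [CharP k p] (hp : p.Prime) (hr : r.Prime)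
    (hrp : r ≠ p) {A : ValuationSubring Qbar} (hA : A.LiesOverPrime r) {Φ τ : AbsGal}
    (hΦ : A.IsFrobeniusAt Φ r) (hτ : τ ∈ A.inertiaSubgroupIn ℚ)
    (hτx : ∃ x : Qbar, x ^ p = (r : Qbar) ∧ τ x ≠ x)
    (he : ∀ σ τ, e (σ * τ) = e σ + ρ σ * e τ * ρ σ⁻¹)
    (L : IntermediateField ℚ Qbar) [FiniteDimensional ℚ L]
    (hL : ∀ σ : AbsGal, (∀ x ∈ L, σ x = x) → ρ σ = 1 ∧ e σ = 0)
    (hu : ∀ σ ∈ A.inertiaSubgroupIn ℚ, (ρ σ - 1) ^ 2 = 0) (heτ : e τ = 0) (heΦ : e Φ = 0) :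
    ∀ σ ∈ A.decompositionSubgroup ℚ, e σ = 0 := by
  classical
  have : Fact p.Prime := ⟨hp⟩
  obtain ⟨x, hx, hτx⟩ := hτx
  have h1 : e 1 = 0 := by
    have h1 := he 1 1
    simp only [inv_one, map_one, mul_one, one_mul] at h1
    exact left_eq_add.mp h1
  let H : Subgroup AbsGal :=
    { carrier := {σ | e σ = 0}
      one_mem' := h1
      mul_mem' := fun {a b} (ha : e a = 0) (hb : e b = 0) => by
        show e (a * b) = 0
        rw [he, ha, hb]; simp
      inv_mem' := fun {a} (ha : e a = 0) => by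
        show e a⁻¹ = 0
        have h := he a⁻¹ a
        rw [inv_mul_cancel, h1, ha] at h
        simpa using h.symm }
  let π := (blockRep ρ e he).toHomUnits
  have hk : ∀ σ ∈ A.inertiaSubgroupIn ℚ, π σ ^ p ^ 2 = 1 := by
    intro σ hσ
    refine Units.ext ?_
    have : CharP (Matrix (Fin 2 ⊕ Fin 2) (Fin 2 ⊕ Fin 2) k) p :=
      charP_of_injective_algebraMap (algebraMap k _).injective p
    show blockRep ρ e he σ ^ p ^ 2 = 1
    set N := blockRep ρ e he σ
    have hZ : (N - 1) ^ 4 = 0 := by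
      have hN1 : N - 1 = Matrix.fromBlocks (ρ σ - 1) (e σ * ρ σ) 0 (ρ σ - 1) := by
        show Matrix.fromBlocks (ρ σ) (e σ * ρ σ) 0 (ρ σ) - 1 = _
        rw [← Matrix.fromBlocks_one, sub_eq_add_neg, Matrix.fromBlocks_neg, Matrix.fromBlocks_add]
        simp [sub_eq_add_neg]
      have h2 : (ρ σ - 1) * (ρ σ - 1) = 0 := by rw [← pow_two]; exact hu σ hσ
      have hsq : (N - 1) ^ 2 = Matrix.fromBlocks 0
          ((ρ σ - 1) * (e σ * ρ σ) + e σ * ρ σ * (ρ σ - 1)) 0 0 := by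
        rw [pow_two, hN1, Matrix.fromBlocks_multiply, h2]
        simp
      rw [show (4 : ℕ) = 2 * 2 from rfl, pow_mul, hsq, pow_two, Matrix.fromBlocks_multiply]
      simp
    have hp4 : 4 ≤ p ^ 2 := Nat.pow_le_pow_left hp.two_le 2
    have := sub_pow_char_pow_of_commute p 2 (Commute.one_right N)
    rw [pow_eq_zero_of_le hp4 hZ, one_pow] at this
    exact sub_eq_zero.mp this.symm
  have hgen := (LevelLowering.tame_generator hp hr hrp hA hx hτ hτx π L (fun σ hσ => Units.ext (by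
    show Matrix.fromBlocks (ρ σ) (e σ * ρ σ) 0 (ρ σ) = 1
    rw [(hL σ hσ).1, (hL σ hσ).2, zero_mul, Matrix.fromBlocks_one])) 2 hk).1
  intro σ hσ
  obtain ⟨i, s, κ, hs, -, hκ, rfl⟩ := exists_frobenius_word hr hA L hΦ hσ
  have hsH : s ∈ H := by
    obtain ⟨j, hj⟩ := hgen s hs
    rw [← map_zpow] at hj
    have hb := congrArg Units.val hj
    obtain ⟨hρ, hE, -, -⟩ := Matrix.fromBlocks_inj.mp hb
    have hz : e (τ ^ j) = 0 := zpow_mem (show τ ∈ H from heτ) j
    rw [hz, zero_mul] at hE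
    show e s = 0
    calc e s = e s * ρ s * ρ s⁻¹ := by rw [mul_assoc, ← map_mul, mul_inv_cancel, map_one, mul_one]
      _ = 0 := by rw [hE, zero_mul]
  exact mul_mem (mul_mem (pow_mem (show Φ ∈ H from heΦ) i) hsH) ((hL κ hκ).2)

/-- Tangent vectors of a triangular representation with fixed diagonals are scalar cocycles. -/
theorem triangular_cocycle {D : Subgroup AbsGal} {E : AbsGal → Matrix (Fin 2) (Fin 2) k}
    (hE : ∀ σ, e σ = E σ * ρ σ⁻¹)
    (he : ∀ σ τ, e (σ * τ) = e σ + ρ σ * e τ * ρ σ⁻¹) (a l : AbsGal → k)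
    (hl : ∀ σ ∈ D, l σ * l σ = 1) (hal : ∀ σ ∈ D, a σ * l σ = (ρ σ).det)
    (hρ : ∀ σ ∈ D, ∀ τ ∈ D, (ρ σ - a σ • 1) * (ρ τ - l τ • 1) = 0)
    (hD : ∀ σ ∈ D, ∀ τ ∈ D, E σ * (ρ τ - l τ • 1) + (ρ σ - a σ • 1) * E τ = 0)
    {s₀ : AbsGal} (hs₀ : s₀ ∈ D) (hne : a s₀ ≠ l s₀) (hE₀ : E s₀ = 0) :
    ∀ σ ∈ D, ∀ τ ∈ D, e (σ * τ) = e σ + (ρ σ).det • e τ := by
  set δ := (a s₀ - l s₀)⁻¹ with hδ
  set P : Matrix (Fin 2) (Fin 2) k := δ • (ρ s₀ - l s₀ • 1) with hP
  set Q : Matrix (Fin 2) (Fin 2) k := (-δ) • (ρ s₀ - a s₀ • 1) with hQ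
  have hδ1 : δ * (a s₀ - l s₀) = 1 := inv_mul_cancel₀ (sub_ne_zero.mpr hne)
  have hPQ : P + Q = 1 := by
    rw [hP, hQ, neg_smul, ← sub_eq_add_neg, ← smul_sub, sub_sub_sub_cancel_left, ← sub_smul,
      smul_smul, hδ1, one_smul]
  have hρP : ∀ σ ∈ D, ρ σ * P = a σ • P := fun σ hσ => by
    have h := hρ σ hσ s₀ hs₀
    rw [sub_mul, smul_mul_assoc, one_mul, sub_eq_zero] at h
    rw [hP, mul_smul_comm, h, smul_comm]
  have hQρ : ∀ τ ∈ D, Q * ρ τ = l τ • Q := fun τ hτ => by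
    have h := hρ s₀ hs₀ τ hτ
    rw [mul_sub, mul_smul_comm, mul_one, sub_eq_zero] at h
    rw [hQ, smul_mul_assoc, h, smul_comm]
  have hQρ' : ∀ τ ∈ D, Q * ρ τ⁻¹ = l τ • Q := fun τ hτ => by
    have h := congrArg (fun Z => l τ • (Z * ρ τ⁻¹)) (hQρ τ hτ)
    simp only [mul_assoc, ← map_mul, mul_inv_cancel, map_one, mul_one, smul_mul_assoc,
      smul_smul, hl τ hτ, one_smul] at h
    exact h.symm
  have hEPQ : ∀ τ ∈ D, E τ = P * E τ * Q := fun τ hτ => by
    have h1 := hD τ hτ s₀ hs₀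
    rw [hE₀, mul_zero, add_zero] at h1
    have h2 := hD s₀ hs₀ τ hτ
    rw [hE₀, zero_mul, zero_add] at h2
    have h1' : E τ * P = 0 := by rw [hP, mul_smul_comm, h1, smul_zero]
    have h2' : Q * E τ = 0 := by rw [hQ, smul_mul_assoc, h2, smul_zero]
    calc E τ = (P + Q) * E τ * (P + Q) := by rw [hPQ, one_mul, mul_one]
      _ = P * E τ * Q := by
        rw [add_mul, h2', add_zero, mul_add, mul_assoc P (E τ) P, h1', mul_zero, zero_add]
  intro σ hσ τ hτ
  have heτ : e τ = l τ • (P * E τ * Q) := by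
    rw [hE]
    conv_lhs => rw [hEPQ τ hτ]
    rw [mul_assoc, hQρ' τ hτ, mul_smul_comm]
  have : ρ σ * e τ * ρ σ⁻¹ = (ρ σ).det • e τ := by
    rw [heτ, mul_smul_comm, smul_mul_assoc, ← mul_assoc (ρ σ), ← mul_assoc (ρ σ), hρP σ hσ,
      smul_mul_assoc, smul_mul_assoc, smul_mul_assoc, mul_assoc (P * E τ), hQρ' σ hσ,
      mul_smul_comm, smul_smul (a σ), hal σ hσ, smul_comm]
  rw [he, this]

end Cocycle

section Strict

variable {C : Type} [CommRing C] [IsDomain C] [IsLocalRing C]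
  [IsHausdorff (maximalIdeal C) C]

/-- The lower right entry of finitely many strict representations is a common power of the
sign. -/
theorem exists_common_sign {ι : Type} [Finite ι] {N : ι → MatRep C} {q : ℕ} (hq : q.Prime)
    (h2 : IsUnit (2 : C)) {ε : C} (hε : ε = 1 ∨ ε = -1) (hN : ∀ x, MatCont (N x))
    {A : ValuationSubring Qbar} (hA : A.LiesOverPrime q)
    {Φ : AbsGal} (hΦ : A.IsFrobeniusAt Φ q) {σ : AbsGal} (hσ : σ ∈ A.decompositionSubgroup ℚ) :
    ∃ i : ℕ, ∀ x, ∀ g : GL (Fin 2) C,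
      (∀ σ ∈ A.decompositionSubgroup ℚ,
        ((g : Matrix (Fin 2) (Fin 2) C) * N x σ * (g⁻¹ : GL (Fin 2) C)) 1 0 = 0 ∧
          (σ ∈ A.inertiaSubgroupIn ℚ →
            ((g : Matrix (Fin 2) (Fin 2) C) * N x σ * (g⁻¹ : GL (Fin 2) C)) 1 1 = 1) ∧
          (A.IsFrobeniusAt σ q →
            ((g : Matrix (Fin 2) (Fin 2) C) * N x σ * (g⁻¹ : GL (Fin 2) C)) 1 1 = ε)) →
      ((g : Matrix (Fin 2) (Fin 2) C) * N x σ * (g⁻¹ : GL (Fin 2) C)) 1 1 = ε ^ i := by
  classical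
  -- congruences at a finite level
  have key : ∀ (L : IntermediateField ℚ Qbar) [FiniteDimensional ℚ L],
      ∃ i : ℕ, ∀ x (m : ℕ), (∀ κ : AbsGal, (∀ y ∈ L, κ y = y) →
        ∀ a b, (N x κ - 1) a b ∈ maximalIdeal C ^ m) → ∀ g : GL (Fin 2) C,
      (∀ σ ∈ A.decompositionSubgroup ℚ,
        ((g : Matrix (Fin 2) (Fin 2) C) * N x σ * (g⁻¹ : GL (Fin 2) C)) 1 0 = 0 ∧
          (σ ∈ A.inertiaSubgroupIn ℚ →
            ((g : Matrix (Fin 2) (Fin 2) C) * N x σ * (g⁻¹ : GL (Fin 2) C)) 1 1 = 1) ∧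
          (A.IsFrobeniusAt σ q →
            ((g : Matrix (Fin 2) (Fin 2) C) * N x σ * (g⁻¹ : GL (Fin 2) C)) 1 1 = ε)) →
      ((g : Matrix (Fin 2) (Fin 2) C) * N x σ * (g⁻¹ : GL (Fin 2) C)) 1 1 - ε ^ i ∈
        maximalIdeal C ^ m := by
    intro L _
    obtain ⟨i, s, κ, hsI, hκD, hκ, hσeq⟩ := exists_frobenius_word hq hA L hΦ hσ
    refine ⟨i, fun x m hx g hg => ?_⟩
    set W : AbsGal → Matrix (Fin 2) (Fin 2) C := fun t =>
      (g : Matrix (Fin 2) (Fin 2) C) * N x t * (g⁻¹ : GL (Fin 2) C) with hW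
    have hgg : ((g⁻¹ : GL (Fin 2) C) : Matrix (Fin 2) (Fin 2) C) * g = 1 := by
      rw [← Units.val_mul, inv_mul_cancel, Units.val_one]
    have hmul : ∀ a b, W (a * b) = W a * W b := fun a b => by
      simp only [hW, map_mul, mul_assoc]
      rw [← mul_assoc ((g⁻¹ : GL (Fin 2) C) : Matrix (Fin 2) (Fin 2) C) g, hgg, one_mul]
    have h11 : ∀ a b, a ∈ A.decompositionSubgroup ℚ → W (a * b) 1 1 = W a 1 1 * W b 1 1 :=
      fun a b ha => by
        rw [hmul, Matrix.mul_apply, Fin.sum_univ_two, show W a 1 0 = 0 from (hg a ha).1, zero_mul,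
          zero_add]
    have hW1 : W 1 1 1 = 1 := (hg 1 (one_mem _)).2.1 (one_mem _)
    have hpow : ∀ j, W (Φ ^ j) 1 1 = ε ^ j := fun j => by
      induction j with
      | zero => rw [pow_zero, pow_zero, hW1]
      | succ j ih =>
        rw [pow_succ, h11 _ _ (pow_mem hΦ.mem_decompositionSubgroup j), ih, pow_succ]
        exact congrArg (ε ^ j * ·) ((hg Φ hΦ.mem_decompositionSubgroup).2.2 hΦ)
    have hΦs : Φ ^ i * s ∈ A.decompositionSubgroup ℚ :=
      mul_mem (pow_mem hΦ.mem_decompositionSubgroup i)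
        (Density.inertiaSubgroupIn_le_decompositionSubgroup A hsI)
    have hs1 : W s 1 1 = 1 :=
      (hg s (Density.inertiaSubgroupIn_le_decompositionSubgroup A hsI)).2.1 hsI
    show W σ 1 1 - ε ^ i ∈ _
    rw [hσeq, h11 _ _ hΦs, h11 _ _ (pow_mem hΦ.mem_decompositionSubgroup i), hpow, hs1, mul_one,
      ← mul_sub_one]
    refine Ideal.mul_mem_left _ _ ?_
    have hWκ : W κ - 1 = (g : Matrix (Fin 2) (Fin 2) C) * (N x κ - 1) * (g⁻¹ : GL (Fin 2) C) := by
      rw [hW]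
      rw [mul_sub, sub_mul, mul_one, ← Units.val_mul, mul_inv_cancel, Units.val_one]
    rw [show W κ 1 1 - 1 = (W κ - 1) 1 1 by simp, hWκ]
    simp only [Matrix.mul_apply]
    exact sum_mem fun _ _ => Ideal.mul_mem_right _ _
      (sum_mem fun _ _ => Ideal.mul_mem_left _ _ (hx κ hκ _ _))
  -- the values are signs
  have hpm : ∀ i : ℕ, ε ^ i = 1 ∨ ε ^ i = -1 := fun i => by
    rcases hε with rfl | rfl
    · exact Or.inl (one_pow i)
    · exact neg_one_pow_eq_or C i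
  have hexact : ∀ (x : ι) (g : GL (Fin 2) C),
      (∀ σ ∈ A.decompositionSubgroup ℚ,
        ((g : Matrix (Fin 2) (Fin 2) C) * N x σ * (g⁻¹ : GL (Fin 2) C)) 1 0 = 0 ∧
          (σ ∈ A.inertiaSubgroupIn ℚ →
            ((g : Matrix (Fin 2) (Fin 2) C) * N x σ * (g⁻¹ : GL (Fin 2) C)) 1 1 = 1) ∧
          (A.IsFrobeniusAt σ q →
            ((g : Matrix (Fin 2) (Fin 2) C) * N x σ * (g⁻¹ : GL (Fin 2) C)) 1 1 = ε)) →
      ((g : Matrix (Fin 2) (Fin 2) C) * N x σ * (g⁻¹ : GL (Fin 2) C)) 1 1 = 1 ∨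
        ((g : Matrix (Fin 2) (Fin 2) C) * N x σ * (g⁻¹ : GL (Fin 2) C)) 1 1 = -1 := by
    intro x g hg
    set v := ((g : Matrix (Fin 2) (Fin 2) C) * N x σ * (g⁻¹ : GL (Fin 2) C)) 1 1
    have hv : (v - 1) * (v + 1) = 0 := by
      refine IsHausdorff.haus (I := maximalIdeal C) inferInstance _ fun m => ?_
      rw [SModEq.zero, smul_eq_mul, Ideal.mul_top]
      obtain ⟨L, hL, hLm⟩ := hN x m
      obtain ⟨i, hi⟩ := key L
      rcases hpm i with he | he
      · exact Ideal.mul_mem_right _ _ (he ▸ hi x m hLm g hg)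
      · have h' := hi x m hLm g hg
        rw [he, sub_neg_eq_add] at h'
        exact Ideal.mul_mem_left _ _ h'
    rcases mul_eq_zero.mp hv with h | h
    · exact Or.inl (sub_eq_zero.mp h)
    · exact Or.inr (eq_neg_of_add_eq_zero_left h)
  choose L hL hL1 using fun x => hN x 1
  have := hL
  have : FiniteDimensional ℚ (⨆ x, L x : IntermediateField ℚ Qbar) :=
    IntermediateField.finiteDimensional_iSup_of_finite
  obtain ⟨i, hi⟩ := key (⨆ x, L x)
  refine ⟨i, fun x g hg => ?_⟩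
  have hmem := hi x 1 (fun κ hκ => hL1 x κ fun y hy => hκ y (le_iSup L x hy)) g hg
  rw [pow_one] at hmem
  have hsep : ∀ a b : C, (a = 1 ∨ a = -1) → (b = 1 ∨ b = -1) →
      a - b ∈ maximalIdeal C → a = b := by
    rintro a b (rfl | rfl) (rfl | rfl) h
    · rfl
    · exact absurd (by rwa [sub_neg_eq_add, one_add_one_eq_two] at h)
        (show (2 : C) ∉ maximalIdeal C from fun hm => hm h2)
    · exact absurd (by rwa [← neg_add', one_add_one_eq_two, neg_mem_iff] at h)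
        (show (2 : C) ∉ maximalIdeal C from fun hm => hm h2)
    · rfl
  exact hsep _ _ (hexact x g hg) (hpm i) hmem

omit [IsDomain C] [IsLocalRing C] [IsHausdorff (maximalIdeal C) C] in
/-- The product vanishing for a common line. -/
theorem upper_product_eq_zero {g : GL (Fin 2) C} {X Y : Matrix (Fin 2) (Fin 2) C} {a l l' : C}
    (hX : ((g : Matrix (Fin 2) (Fin 2) C) * X * (g⁻¹ : GL (Fin 2) C)) 1 0 = 0)
    (hY : ((g : Matrix (Fin 2) (Fin 2) C) * Y * (g⁻¹ : GL (Fin 2) C)) 1 0 = 0)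
    (hXl : ((g : Matrix (Fin 2) (Fin 2) C) * X * (g⁻¹ : GL (Fin 2) C)) 1 1 = l)
    (hYl : ((g : Matrix (Fin 2) (Fin 2) C) * Y * (g⁻¹ : GL (Fin 2) C)) 1 1 = l')
    (hl : l * l = 1) (ha : a = X.det * l) :
    (X - a • 1) * (Y - l' • 1) = 0 := by
  set X' := (g : Matrix (Fin 2) (Fin 2) C) * X * (g⁻¹ : GL (Fin 2) C) with hX'
  set Y' := (g : Matrix (Fin 2) (Fin 2) C) * Y * (g⁻¹ : GL (Fin 2) C) with hY'
  have hdet : X'.det = X.det := by rw [hX', Matrix.det_units_conj]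
  have h00 : X' 0 0 = a := by
    rw [ha, ← hdet, Matrix.det_fin_two, hX, hXl, mul_zero, sub_zero, mul_assoc, hl, mul_one]
  have hprod : (X' - a • 1) * (Y' - l' • 1) = 0 := by
    ext i j
    fin_cases i <;> fin_cases j <;>
      simp [Matrix.mul_apply, Fin.sum_univ_two, h00, hX, hY, hXl, hYl]
  have hgg : ((g⁻¹ : GL (Fin 2) C) : Matrix (Fin 2) (Fin 2) C) * g = 1 := by
    rw [← Units.val_mul, inv_mul_cancel, Units.val_one]
  have hconj : ∀ (Z : Matrix (Fin 2) (Fin 2) C) (c : C),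
      ((g⁻¹ : GL (Fin 2) C) : Matrix (Fin 2) (Fin 2) C) *
        ((g : Matrix (Fin 2) (Fin 2) C) * Z * (g⁻¹ : GL (Fin 2) C) - c • 1) * g = Z - c • 1 := by
    intro Z c
    rw [mul_sub, sub_mul, mul_smul_comm, mul_one, smul_mul_assoc, hgg, ← mul_assoc, ← mul_assoc,
      hgg, one_mul, mul_assoc, hgg, mul_one]
  have hsplit : ((g⁻¹ : GL (Fin 2) C) : Matrix (Fin 2) (Fin 2) C) * ((X' - a • 1) * (Y' - l' • 1))
      * g = (X - a • 1) * (Y - l' • 1) := by
    have hgg' : (g : Matrix (Fin 2) (Fin 2) C) * (g⁻¹ : GL (Fin 2) C) = 1 := by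
      rw [← Units.val_mul, mul_inv_cancel, Units.val_one]
    rw [← hconj X a, ← hconj Y l', ← hX', ← hY']
    simp only [mul_assoc]
    rw [← mul_assoc (g : Matrix (Fin 2) (Fin 2) C) ((g⁻¹ : GL (Fin 2) C) : Matrix (Fin 2) (Fin 2) C)
      ((Y' - l' • 1) * (g : Matrix (Fin 2) (Fin 2) C)), hgg', one_mul]
  rw [← hsplit, hprod, mul_zero, zero_mul]

end Strict

end FLTAgent.ModularityLifting.Engine
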