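import Fermat.Agent.ModularityLifting.Local.Eval
import Fermat.Agent.DefRing.Compactness
import Mathlib.RingTheory.AdicCompletion.Functoriality
import Mathlib.RingTheory.Nakayama
import Mathlib.LinearAlgebra.Dual.Lemmas
import Mathlib.LinearAlgebra.Matrix.Trace

/-!
# Tangent vectors of a complete local algebra and generators

Tangent vectors at the closed point are additive maps obeying the product rule and killing
constants. If those killing given elements form spaces of dimension at most `N`, then `N` further
elements generate with the given ones.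
-/

set_option autoImplicit false

noncomputable section

open IsLocalRing

namespace FLTAgent.ModularityLifting.Engine

open FLTAgent.DefRing

variable {O R : Type} [CommRing O] [IsLocalRing O] [CommRing R] [Algebra O R]

/-- Tangent vectors at a point with values in the residue field. -/
def pointDer (π : R →ₐ[O] (ResidueField O)) :
    Submodule (ResidueField O) (R → (ResidueField O)) where
  carrier := {D | (∀ a b, D (a + b) = D a + D b) ∧ (∀ a b, D (a * b) = π a * D b + π b * D a) ∧
    ∀ o, D (algebraMap O R o) = 0}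
  zero_mem' := ⟨fun a b => by simp, fun a b => by simp, fun o => rfl⟩
  add_mem' := fun {D D'} hD hD' => ⟨fun a b => by simp [hD.1, hD'.1]; ring,
    fun a b => by simp [hD.2.1, hD'.2.1]; ring, fun o => by simp [hD.2.2, hD'.2.2]⟩
  smul_mem' := fun c D hD => ⟨fun a b => by simp [hD.1]; ring,
    fun a b => by simp [hD.2.1]; ring, fun o => by simp [hD.2.2]⟩

variable {π : R →ₐ[O] (ResidueField O)} {D : R → (ResidueField O)}

theorem pointDer_zero (hD : D ∈ pointDer π) : D 0 = 0 := by
  simpa using hD.2.2 0

theorem pointDer_one (hD : D ∈ pointDer π) : D 1 = 0 := by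
  simpa using hD.2.2 1

theorem pointDer_neg (hD : D ∈ pointDer π) (a : R) : D (-a) = -D a := by
  have h := hD.1 a (-a)
  rw [add_neg_cancel, pointDer_zero hD] at h
  linear_combination -h

theorem pointDer_sub (hD : D ∈ pointDer π) (a b : R) : D (a - b) = D a - D b := by
  rw [sub_eq_add_neg, hD.1, pointDer_neg hD, sub_eq_add_neg]

theorem pointDer_sum (hD : D ∈ pointDer π) {ι : Type*} (s : Finset ι) (a : ι → R) :
    D (∑ i ∈ s, a i) = ∑ i ∈ s, D (a i) := by
  classical
  induction s using Finset.induction_on with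
  | empty => simpa using pointDer_zero hD
  | insert i s hi ih => rw [Finset.sum_insert hi, Finset.sum_insert hi, hD.1, ih]

theorem pointDer_algebraMap_mul (hD : D ∈ pointDer π) (o : O) (a : R) :
    D (algebraMap O R o * a) = residue O o * D a := by
  rw [hD.2.1, hD.2.2, mul_zero, add_zero, AlgHom.commutes]
  rfl

variable {n : Type} [Fintype n] [DecidableEq n]

omit [DecidableEq n] in
theorem pointDer_map_mul (hD : D ∈ pointDer π) (A B : Matrix n n R) :
    (A * B).map D = A.map π * B.map D + A.map D * B.map π := by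
  ext i j
  simp only [Matrix.map_apply, Matrix.mul_apply, Matrix.add_apply, pointDer_sum hD, hD.2.1,
    Finset.sum_add_distrib]
  congr 1
  exact Finset.sum_congr rfl fun l _ => mul_comm _ _

omit [Fintype n] in
theorem pointDer_map_one (hD : D ∈ pointDer π) : (1 : Matrix n n R).map D = 0 := by
  ext i j
  by_cases h : i = j <;> simp [h, pointDer_one hD, pointDer_zero hD]

omit [Fintype n] [DecidableEq n] in
theorem pointDer_map_add (hD : D ∈ pointDer π) (A B : Matrix n n R) :
    (A + B).map D = A.map D + B.map D := by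
  ext i j; simp [hD.1]

/-- The derivative of a determinant of a two by two matrix. -/
theorem pointDer_det (hD : D ∈ pointDer π) (A : Matrix (Fin 2) (Fin 2) R) :
    D A.det = ((A.map π).adjugate * A.map D).trace := by
  simp only [Matrix.det_fin_two, pointDer_sub hD, hD.2.1, Matrix.adjugate_fin_two,
    Matrix.trace_fin_two, Matrix.mul_apply, Fin.sum_univ_two, Matrix.map_apply, Matrix.of_apply,
    Matrix.cons_val', Matrix.cons_val_zero, Matrix.cons_val_one, Matrix.empty_val',
    Matrix.cons_val_fin_one]
  ring

variable [IsLocalRing R]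

theorem ker_eq_maximalIdeal (π : R →ₐ[O] (ResidueField O)) :
    RingHom.ker π.toRingHom = maximalIdeal R := by
  refine IsLocalRing.eq_maximalIdeal (RingHom.ker_isMaximal_of_surjective _ fun y => ?_)
  obtain ⟨o, rfl⟩ := IsLocalRing.residue_surjective y
  exact ⟨algebraMap O R o, AlgHom.commutes π o⟩

theorem eq_zero_iff_mem (π : R →ₐ[O] (ResidueField O)) (a : R) : π a = 0 ↔ a ∈ maximalIdeal R := by
  rw [← ker_eq_maximalIdeal π, RingHom.mem_ker]; rfl

theorem pointDer_eq_zero_of_mem_sq (hD : D ∈ pointDer π) {a : R}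
    (ha : a ∈ maximalIdeal R ^ 2) : D a = 0 := by
  rw [pow_two] at ha
  induction ha using Submodule.mul_induction_on' with
  | mem_mul_mem x hx y hy =>
    rw [hD.2.1, (eq_zero_iff_mem π x).mpr hx, (eq_zero_iff_mem π y).mpr hy]
    simp
  | add x _ y _ hx hy => rw [hD.1, hx, hy, add_zero]

variable [IsNoetherianRing O] [IsAdicComplete (maximalIdeal O) O] [Finite (ResidueField O)]
  [IsNoetherianRing R] [IsAdicComplete (maximalIdeal R) R]

omit [IsNoetherianRing O] in
/-- Few tangent vectors killing `X` give few further generators. -/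
theorem exists_generators (π : R →ₐ[O] (ResidueField O)) {ι : Type} [Finite ι] (X : ι → R)
    (hX : ∀ c, X c ∈ maximalIdeal R) (N : ℕ)
    (hN : ∀ W : Submodule (ResidueField O) (R → (ResidueField O)),
      W ≤ pointDer π → (∀ D ∈ W, ∀ c, D (X c) = 0) →
      FiniteDimensional (ResidueField O) W → Module.finrank (ResidueField O) W ≤ N) :
    ∃ G : Fin N → R, (∀ i, π (G i) = 0) ∧ ∀ G' : Fin N → R,
      (∀ i, G' i - G i ∈ (maximalIdeal O).map (algebraMap O R)) →
      ∀ h : ∀ c, Sum.elim X G' c ∈ maximalIdeal R,
        Function.Surjective (evalAdic (O := O) (maximalIdeal R) (Sum.elim X G') h) := by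
  classical
  set mO := (maximalIdeal O).map (algebraMap O R)
  set I : Ideal R := Ideal.span (Set.range X) ⊔ mO ⊔ maximalIdeal R ^ 2 with hI
  have hmO : mO ≤ maximalIdeal R := Ideal.map_le_iff_le_comap.mpr fun o ho => by
    rw [Ideal.mem_comap, ← eq_zero_iff_mem π, AlgHom.commutes]
    exact (residue_eq_zero_iff o).mpr ho
  have hIm : I ≤ maximalIdeal R := sup_le (sup_le (Ideal.span_le.mpr (by
    rintro _ ⟨c, rfl⟩; exact hX c)) hmO) (Ideal.pow_le_self two_ne_zero)
  have : IsLocalHom (algebraMap O R) := ⟨fun o ho => by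
    have := ho.map π
    rw [AlgHom.commutes] at this
    by_contra hno
    exact this.ne_zero ((residue_eq_zero_iff o).mpr hno)⟩
  have : Finite (ResidueField R) := by
    refine Finite.of_surjective (ResidueField.map (algebraMap O R)) ?_
    · intro y
      obtain ⟨a, rfl⟩ := IsLocalRing.residue_surjective y
      obtain ⟨o, ho⟩ := IsLocalRing.residue_surjective (π a)
      refine ⟨residue O o, ?_⟩
      rw [ResidueField.map_residue, ← sub_eq_zero, ← map_sub, residue_eq_zero_iff,
        ← eq_zero_iff_mem π, map_sub, AlgHom.commutes, sub_eq_zero]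
      exact ho
  have : Finite (R ⧸ maximalIdeal R ^ 2) := DefRing.finite_quotient_maximalIdeal_pow 2
  have : Finite (R ⧸ I) :=
    Finite.of_surjective _ (Ideal.Quotient.factor_surjective (show maximalIdeal R ^ 2 ≤ I from
      le_sup_right))
  let φ : (ResidueField O) →+* R ⧸ I := Ideal.Quotient.lift (maximalIdeal O)
    ((Ideal.Quotient.mk I).comp (algebraMap O R)) fun o ho =>
      Ideal.Quotient.eq_zero_iff_mem.mpr
        (Ideal.mem_sup_left (Ideal.mem_sup_right (Ideal.mem_map_of_mem _ ho)))
  let := φ.toAlgebra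
  have hφ : ∀ o, algebraMap (ResidueField O) (R ⧸ I) (residue O o) =
      Ideal.Quotient.mk I (algebraMap O R o) :=
    fun o => rfl
  let π' : (R ⧸ I) →+* (ResidueField O) := Ideal.Quotient.lift I π.toRingHom fun a ha =>
    (eq_zero_iff_mem π a).mpr (hIm ha)
  have hπ' : ∀ x : (ResidueField O), π' (algebraMap (ResidueField O) (R ⧸ I) x) = x := fun x => by
    obtain ⟨o, rfl⟩ := IsLocalRing.residue_surjective x
    rw [hφ]
    exact AlgHom.commutes π o
  let π'ₗ : (R ⧸ I) →ₗ[(ResidueField O)] (ResidueField O) :=
    { toFun := π'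
      map_add' := map_add π'
      map_smul' := fun x r => by rw [Algebra.smul_def, map_mul, hπ']; rfl }
  let V := LinearMap.ker π'ₗ
  have : Module.Finite (ResidueField O) V := Module.Finite.of_finite
  let cut : R → V := fun a => ⟨Ideal.Quotient.mk I a - algebraMap (ResidueField O) (R ⧸ I) (π a), by
    show π' _ = 0
    rw [map_sub, hπ']
    exact sub_self _⟩
  have cut_add : ∀ a b, cut (a + b) = cut a + cut b := fun a b => Subtype.ext (by
    simp only [cut, map_add, Submodule.coe_add]; ring)
  have cut_mul : ∀ a b, cut (a * b) = π a • cut b + π b • cut a := fun a b => Subtype.ext (by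
    simp only [cut, map_mul, Submodule.coe_add, Submodule.coe_smul, Algebra.smul_def]
    have h0 : (Ideal.Quotient.mk I a - algebraMap (ResidueField O) (R ⧸ I) (π a)) *
        (Ideal.Quotient.mk I b - algebraMap (ResidueField O) (R ⧸ I) (π b)) = 0 := by
      obtain ⟨oa, hoa⟩ := IsLocalRing.residue_surjective (π a)
      obtain ⟨ob, hob⟩ := IsLocalRing.residue_surjective (π b)
      have hoa' : a - algebraMap O R oa ∈ maximalIdeal R := by
        rw [← eq_zero_iff_mem π, map_sub, AlgHom.commutes, sub_eq_zero]; exact hoa.symm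
      have hob' : b - algebraMap O R ob ∈ maximalIdeal R := by
        rw [← eq_zero_iff_mem π, map_sub, AlgHom.commutes, sub_eq_zero]; exact hob.symm
      rw [← hoa, ← hob, hφ, hφ, ← map_sub, ← map_sub, ← map_mul, Ideal.Quotient.eq_zero_iff_mem]
      exact Ideal.mem_sup_right (pow_two (maximalIdeal R) ▸ Ideal.mul_mem_mul hoa' hob')
    linear_combination h0)
  have cut_const : ∀ o, cut (algebraMap O R o) = 0 := fun o => Subtype.ext (by
    simp only [cut, AlgHom.commutes]
    exact sub_self _)
  let L : Module.Dual (ResidueField O) V →ₗ[(ResidueField O)] (R → (ResidueField O)) :=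
    { toFun := fun l a => l (cut a)
      map_add' := fun l l' => rfl
      map_smul' := fun x l => rfl }
  have hmem : LinearMap.range L ≤ pointDer π := by
    rintro _ ⟨l, rfl⟩
    refine ⟨fun a b => ?_, fun a b => ?_, fun o => ?_⟩
    · show l (cut _) = _
      rw [cut_add, map_add]; rfl
    · show l (cut _) = _
      rw [cut_mul, map_add, map_smul, map_smul]; rfl
    · show l (cut _) = _
      rw [cut_const, map_zero]
  have hLX : ∀ D ∈ LinearMap.range L, ∀ c, D (X c) = 0 := by
    rintro _ ⟨l, rfl⟩ c
    show l (cut (X c)) = 0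
    have : cut (X c) = 0 := Subtype.ext (by
      simp only [cut, (eq_zero_iff_mem π _).mpr (hX c), map_zero, sub_zero,
        ZeroMemClass.coe_zero, Ideal.Quotient.eq_zero_iff_mem]
      exact Ideal.mem_sup_left (Ideal.mem_sup_left (Ideal.subset_span ⟨c, rfl⟩)))
    rw [this, map_zero]
  have hcut : ∀ v : V, ∃ a, cut a = v := fun v => by
    obtain ⟨a, ha⟩ := Ideal.Quotient.mk_surjective (v : R ⧸ I)
    refine ⟨a, Subtype.ext ?_⟩
    have h0 : π a = 0 := by
      have hv : π' (Ideal.Quotient.mk I a) = 0 := ha.symm ▸ v.2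
      exact hv
    simp only [cut, h0, map_zero, sub_zero, ha]
  have hLinj : Function.Injective L := fun l l' h => LinearMap.ext fun v => by
    obtain ⟨a, rfl⟩ := hcut v
    exact congrFun h a
  have hdim : Module.finrank (ResidueField O) V ≤ N := by
    rw [← Subspace.dual_finrank_eq, ← LinearMap.finrank_range_of_inj hLinj]
    exact hN _ hmem hLX inferInstance
  let b := Module.finBasis (ResidueField O) V
  let g : Fin N → V := fun i =>
    if h : (i : ℕ) < Module.finrank (ResidueField O) V then b ⟨i, h⟩ else 0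
  choose G₀ hG₀ using fun i => Ideal.Quotient.mk_surjective ((g i : V) : R ⧸ I)
  refine ⟨G₀, fun i => ?_, fun G' hG' h => ?_⟩
  · have hv : π' (Ideal.Quotient.mk I (G₀ i)) = 0 := (hG₀ i).symm ▸ (g i).2
    exact hv
  set ev := evalAdic (O := O) (maximalIdeal R) (Sum.elim X G') h
  set J : Ideal R := (maximalIdeal (MvPowerSeries (ι ⊕ Fin N) O)).map ev.toRingHom
  have hJX : ∀ c, Sum.elim X G' c ∈ J := fun c => by
    have := Ideal.mem_map_of_mem ev.toRingHom (DefRing.X_mem_maximalIdeal (O := O) c)
    rw [AlgHom.toRingHom_eq_coe, AlgHom.coe_toRingHom, evalAdic_X] at this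
    exact this
  have hJO : mO ≤ J := Ideal.map_le_iff_le_comap.mpr fun o ho => by
    rw [Ideal.mem_comap, ← ev.commutes]
    exact Ideal.mem_map_of_mem ev.toRingHom ((mem_maximalIdeal_iff_constantCoeff _).mpr (by
      simpa [MvPowerSeries.algebraMap_apply] using ho))
  have hspan : maximalIdeal R ≤ J ⊔ maximalIdeal R • maximalIdeal R := by
    intro a ha
    have hr : ∀ i, Ideal.Quotient.mk I (G' i) = ((g i : V) : R ⧸ I) := fun i => by
      rw [← hG₀ i, Ideal.Quotient.eq]
      exact Ideal.mem_sup_left (Ideal.mem_sup_right (hG' i))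
    have hbg : ∀ j, ∃ i, g i = b j := fun j =>
      ⟨⟨j, lt_of_lt_of_le j.2 hdim⟩, by simp [g]⟩
    choose e he using hbg
    choose o ho using fun j => IsLocalRing.residue_surjective (b.repr (cut a) j)
    have hdiff : a - ∑ j, algebraMap O R (o j) * G' (e j) ∈ I := by
      rw [← Ideal.Quotient.eq, map_sum]
      have h1 : (cut a : R ⧸ I) = Ideal.Quotient.mk I a := by
        simp [cut, (eq_zero_iff_mem π a).mpr ha]
      rw [← h1]
      conv_lhs => rw [← b.sum_repr (cut a)]
      rw [Submodule.coe_sum]
      refine Finset.sum_congr rfl fun j _ => ?_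
      rw [Submodule.coe_smul, map_mul, ← ho j, Algebra.smul_def, hφ, hr, he]
    have hI' : I ≤ J ⊔ maximalIdeal R • maximalIdeal R := by
      refine sup_le (sup_le ?_ (hJO.trans le_sup_left))
        (by rw [smul_eq_mul, ← pow_two]; exact le_sup_right)
      exact (Ideal.span_le.mpr (by rintro _ ⟨c, rfl⟩; exact hJX (Sum.inl c))).trans le_sup_left
    have hsum : ∑ j, algebraMap O R (o j) * G' (e j) ∈ J :=
      sum_mem fun j _ => Ideal.mul_mem_left _ _ (hJX (Sum.inr (e j)))
    simpa using add_mem (hI' hdiff) (Ideal.mem_sup_left hsum)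
  have hle : maximalIdeal R ≤ J :=
    Submodule.le_of_le_smul_of_le_jacobson_bot (maximalIdeal R).fg_of_isNoetherianRing
      (IsLocalRing.maximalIdeal_le_jacobson _) hspan
  have hJm : J ≤ maximalIdeal R := Ideal.map_le_iff_le_comap.mpr fun p hp => by
    have hk := ker_eq_maximalIdeal (π.comp ev)
    rw [← hk, RingHom.mem_ker] at hp
    rw [Ideal.mem_comap, ← eq_zero_iff_mem π]
    exact hp
  have hJ : J = maximalIdeal R := le_antisymm hJm hle
  have : IsHausdorff ((maximalIdeal (MvPowerSeries (ι ⊕ Fin N) O)).map ev.toRingHom) R := by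
    show IsHausdorff J R
    rw [hJ]
    infer_instance
  refine surjective_of_mk_map_comp_surjective
    (I := maximalIdeal (MvPowerSeries (ι ⊕ Fin N) O)) ev.toRingHom fun y => ?_
  obtain ⟨a, rfl⟩ := Ideal.Quotient.mk_surjective y
  obtain ⟨o, ho⟩ := IsLocalRing.residue_surjective (π a)
  refine ⟨algebraMap O _ o, Ideal.Quotient.eq.mpr ?_⟩
  show ev (algebraMap O _ o) - a ∈ J
  rw [hJ, ← eq_zero_iff_mem π, map_sub, AlgHom.commutes, AlgHom.commutes, sub_eq_zero]
  exact ho

end FLTAgent.ModularityLifting.Engine
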