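import Fermat.Agent.ModularityLifting.Setup
import Fermat.Agent.FiniteFlat.Operations
import Mathlib.RingTheory.Finiteness.Cardinality
import Mathlib.LinearAlgebra.Matrix.ToLin

/-!
# Flatness of base changes and of tangent vectors

A finite base change of a flat representation is flat. A representation over a finite ring which
is governed by finitely many flat representations is flat.
-/

set_option autoImplicit false

noncomputable section

open IsLocalRing

namespace FLTAgent.ModularityLifting.Engine

open FLTAgent.DefRing FLTAgent.FiniteFlat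

variable {A B : Type} [CommRing A] [CommRing B]

theorem redAct_apply (M : MatRep A) (I : Ideal A) (σ : AbsGal) (v : Fin 2 → A ⧸ I) (i : Fin 2) :
    redAct M I σ v i = ∑ j, Ideal.Quotient.mk I (M σ i j) * v j := rfl

theorem redAct_mapRep (φ : A →+* B) (M : MatRep A) (I : Ideal A) (J : Ideal B) (h : I ≤ J.comap φ)
    (σ : AbsGal) (v : Fin 2 → A ⧸ I) (i : Fin 2) :
    Ideal.quotientMap J φ h (redAct M I σ v i) =
      redAct (mapRep φ M) J σ (fun j => Ideal.quotientMap J φ h (v j)) i := by
  simp only [redAct_apply, map_sum, map_mul, Ideal.quotientMap_mk, mapRep_apply]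

/-- A finite power of an action. -/
def powAct {W : Type} [AddCommGroup W] (l : ℕ) (act : AbsGal →* AddMonoid.End W) :
    AbsGal →* AddMonoid.End (Fin l → W) where
  toFun σ := (AddMonoidHom.compLeft (act σ) (Fin l) : (Fin l → W) →+ (Fin l → W))
  map_one' := DFunLike.ext _ _ fun w => funext fun j => by
    show act 1 (w j) = w j
    rw [map_one]; rfl
  map_mul' σ τ := DFunLike.ext _ _ fun w => funext fun j => by
    show act (σ * τ) (w j) = _
    rw [map_mul]; rfl

theorem hasFlatModel_powAct {p : ℕ} {W : Type} [AddCommGroup W] (l : ℕ)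
    {act : AbsGal →* AddMonoid.End W} (h : HasFlatModel p act) :
    HasFlatModel p (powAct l act) :=
  HasFlatModel.of_jointly_injective (N := fun _ => W) (actN := fun _ => act) (fun _ : Fin l => h)
    (fun j => Pi.evalAddMonoidHom (fun _ => W) j) (fun _ _ _ => rfl) fun _ _ he => funext he

/-- A base change to a finite algebra of a flat representation is flat. -/
theorem flatAt_mapRep [Algebra A B] [Module.Finite A B] {M : MatRep A} {p : ℕ} (hM : FlatAt M p) :
    FlatAt (mapRep (algebraMap A B) M) p := by
  intro I hI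
  set J := I.comap (algebraMap A B)
  let φ : A ⧸ J →+* B ⧸ I := Ideal.quotientMap I (algebraMap A B) le_rfl
  have : Finite (A ⧸ J) := Finite.of_injective φ (Ideal.quotientMap_injective' le_rfl)
  obtain ⟨l, c, hc⟩ := Module.Finite.exists_fin (R := A) (M := B)
  let π : (Fin l → Fin 2 → A ⧸ J) →+ (Fin 2 → B ⧸ I) :=
    { toFun := fun w i => ∑ j, φ (w j i) * Ideal.Quotient.mk I (c j)
      map_zero' := funext fun i => by simp
      map_add' := fun w w' => funext fun i => by
        simp [add_mul, Finset.sum_add_distrib] }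
  refine (hasFlatModel_powAct l (hM J inferInstance)).of_surjective π
    (fun σ w => funext fun i => ?_) fun y => ?_
  · show ∑ j, φ (redAct M J σ (w j) i) * Ideal.Quotient.mk I (c j) =
      redAct (mapRep (algebraMap A B) M) I σ (π w) i
    rw [redAct_apply]
    have : ∀ j, φ (redAct M J σ (w j) i) =
        ∑ a, Ideal.Quotient.mk I (mapRep (algebraMap A B) M σ i a) * φ (w j a) := fun j =>
      (redAct_mapRep (algebraMap A B) M J I le_rfl σ (w j) i).trans (redAct_apply _ _ _ _ _)
    simp only [this, Finset.sum_mul]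
    rw [Finset.sum_comm]
    refine Finset.sum_congr rfl fun a _ => ?_
    show _ = _ * ∑ j, φ (w j a) * Ideal.Quotient.mk I (c j)
    rw [Finset.mul_sum]
    exact Finset.sum_congr rfl fun j _ => mul_assoc _ _ _
  · choose b hb using fun i => Ideal.Quotient.mk_surjective (y i)
    choose r hr using fun i =>
      (Submodule.mem_span_range_iff_exists_fun A).mp
        (hc ▸ Submodule.mem_top : b i ∈ Submodule.span A (Set.range c))
    refine ⟨fun j i => Ideal.Quotient.mk J (r i j), funext fun i => ?_⟩
    show ∑ j, φ (Ideal.Quotient.mk J (r i j)) * Ideal.Quotient.mk I (c j) = y i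
    rw [← hb i, ← hr i, map_sum]
    exact Finset.sum_congr rfl fun j _ => by rw [Algebra.smul_def, map_mul]; rfl

variable {C K : Type} [CommRing C] [CommRing K]

/-- A representation over a finite ring governed by finitely many flat representations is flat. -/
theorem flatAt_of_points {ι : Type} [Finite ι] (ev : ι → A →+* C) (J : Ideal C) [Finite (C ⧸ J)]
    (ψ : A →+* K) [Finite K] (ε : K) (hK : ∀ y : K, ∃ a b, y = ψ a + ε * ψ b)
    (hker : ∀ a, (∀ x, ev x a ∈ J) → ψ a = 0) (M : MatRep A) {p : ℕ}
    (hflat : ∀ x, FlatAt (mapRep (ev x) M) p) : FlatAt (mapRep ψ M) p := by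
  intro I _
  set I₀ : Ideal A := ⨅ x, J.comap (ev x) with hI₀
  have hle : ∀ x, I₀ ≤ J.comap (ev x) := fun x => iInf_le _ x
  let f : ∀ x, A ⧸ I₀ →+* C ⧸ J := fun x => Ideal.quotientMap J (ev x) (hle x)
  have hf : ∀ s s', (∀ x, f x s = f x s') → s = s' := by
    intro s s' h
    obtain ⟨a, rfl⟩ := Ideal.Quotient.mk_surjective s
    obtain ⟨a', rfl⟩ := Ideal.Quotient.mk_surjective s'
    rw [Ideal.Quotient.eq, hI₀, Submodule.mem_iInf]
    intro x
    have := h x
    simp only [f, Ideal.quotientMap_mk, Ideal.Quotient.eq, ← map_sub] at this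
    exact this
  have : Finite (A ⧸ I₀) := Finite.of_injective (fun s x => f x s) fun s s' h =>
    hf s s' (congrFun h)
  have hS : HasFlatModel p (redAct M I₀) :=
    HasFlatModel.of_jointly_injective (N := fun _ : ι => Fin 2 → C ⧸ J)
      (fun x => hflat x J inferInstance) (fun x =>
        AddMonoidHom.compLeft (f x).toAddMonoidHom (Fin 2))
      (fun x σ v => funext fun i => redAct_mapRep (ev x) M I₀ J (hle x) σ v i)
      fun v w h => funext fun i => hf _ _ fun x => congrFun (h x) i
  have hψ : I₀ ≤ I.comap ψ := fun a ha => by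
    rw [Ideal.mem_comap, hker a fun x => hle x ha]
    exact zero_mem _
  let g : A ⧸ I₀ →+* K ⧸ I := Ideal.quotientMap I ψ hψ
  let π : (Fin 2 → Fin 2 → A ⧸ I₀) →+ (Fin 2 → K ⧸ I) :=
    { toFun := fun w i => g (w 0 i) + Ideal.Quotient.mk I ε * g (w 1 i)
      map_zero' := funext fun i => by simp
      map_add' := fun w w' => funext fun i => by simp [mul_add]; abel }
  refine (hasFlatModel_powAct 2 hS).of_surjective π (fun σ w => funext fun i => ?_) fun y => ?_
  · show g (redAct M I₀ σ (w 0) i) + Ideal.Quotient.mk I ε * g (redAct M I₀ σ (w 1) i) =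
      redAct (mapRep ψ M) I σ (π w) i
    rw [redAct_mapRep ψ M I₀ I hψ, redAct_mapRep ψ M I₀ I hψ]
    simp only [redAct_apply, Finset.mul_sum, ← Finset.sum_add_distrib]
    refine Finset.sum_congr rfl fun a _ => ?_
    show _ = _ * (g (w 0 a) + Ideal.Quotient.mk I ε * g (w 1 a))
    ring
  · choose b hb using fun i => Ideal.Quotient.mk_surjective (y i)
    choose a₀ a₁ ha using fun i => hK (b i)
    refine ⟨![fun i => Ideal.Quotient.mk I₀ (a₀ i), fun i => Ideal.Quotient.mk I₀ (a₁ i)],
      funext fun i => ?_⟩
    show g (Ideal.Quotient.mk I₀ (a₀ i)) + Ideal.Quotient.mk I ε *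
      g (Ideal.Quotient.mk I₀ (a₁ i)) = y i
    rw [← hb i, ha i, map_add, map_mul]
    rfl

/-- The residue field of a finite local algebra is finite. -/
theorem finite_residueField_of_finite [IsLocalRing A] [IsLocalRing B] [Algebra A B]
    [IsLocalHom (algebraMap A B)] [Module.Finite A B] [Finite (ResidueField A)] :
    Finite (ResidueField B) := by
  obtain ⟨l, c, hc⟩ := Module.Finite.exists_fin (R := A) (M := B)
  refine Finite.of_surjective (fun w : Fin l → ResidueField A =>
    ∑ j, ResidueField.map (algebraMap A B) (w j) * residue B (c j)) fun y => ?_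
  obtain ⟨b, rfl⟩ := residue_surjective y
  obtain ⟨r, hr⟩ := (Submodule.mem_span_range_iff_exists_fun A).mp
    (hc ▸ Submodule.mem_top : b ∈ Submodule.span A (Set.range c))
  refine ⟨fun j => residue A (r j), ?_⟩
  show ∑ j, ResidueField.map (algebraMap A B) (residue A (r j)) * residue B (c j) = residue B b
  rw [← hr, map_sum]
  exact Finset.sum_congr rfl fun j _ => by
    rw [ResidueField.map_residue, Algebra.smul_def, map_mul]

end FLTAgent.ModularityLifting.Engine
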