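import Fermat.Agent.ModularityLifting.Engine.PointAlg
import Fermat.Agent.ModularityLifting.Engine.FlatTangent
import Mathlib.RingTheory.Filtration

/-!
# The separating element at `p` on flat points

A representation over a ring of functions on flat points is flat modulo `p`, so the second chosen
element at `p` acts trivially modulo `p`.
-/

set_option autoImplicit false

noncomputable section

open IsLocalRing

namespace FLTAgent.ModularityLifting

open FLTAgent.DefRing FLTAgent.FiniteFlat Engine

variable {O : Type} [CommRing O] [IsDomain O] [IsDiscreteValuationRing O]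
  [Finite (ResidueField O)]

/-- A finite algebra modulo a nonzero natural number in the maximal ideal is finite. -/
theorem finite_quotient_span_natCast {T : Type} [CommRing T] [Algebra O T] [Module.Finite O T]
    {m : ℕ} (hm : (m : O) ≠ 0) : Finite (T ⧸ Ideal.span {(m : T)}) := by
  classical
  obtain ⟨ϖ, hϖ⟩ := IsDiscreteValuationRing.exists_irreducible O
  obtain ⟨k, u, hu⟩ := IsDiscreteValuationRing.eq_unit_mul_pow_irreducible hm hϖ
  have hle : maximalIdeal O ^ k ≤ (Ideal.span {(m : T)}).comap (algebraMap O T) := by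
    rw [hϖ.maximalIdeal_eq, Ideal.span_singleton_pow, Ideal.span_singleton_le_iff_mem,
      Ideal.mem_comap]
    have e : algebraMap O T (ϖ ^ k) = algebraMap O T (↑u⁻¹) * (m : T) := by
      rw [← map_natCast (algebraMap O T), hu, ← map_mul, ← mul_assoc, Units.inv_mul, one_mul]
    rw [e]
    exact Ideal.mul_mem_left _ _ (Ideal.mem_span_singleton_self _)
  have : Finite (O ⧸ maximalIdeal O ^ k) := DefRing.finite_quotient_maximalIdeal_pow k
  let φ : O ⧸ maximalIdeal O ^ k →+* T ⧸ Ideal.span {(m : T)} :=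
    Ideal.quotientMap _ (algebraMap O T) hle
  obtain ⟨l, c, hc⟩ := Module.Finite.exists_fin (R := O) (M := T)
  refine Finite.of_surjective (fun w : Fin l → O ⧸ maximalIdeal O ^ k =>
    ∑ j, φ (w j) * Ideal.Quotient.mk _ (c j)) fun y => ?_
  obtain ⟨b, rfl⟩ := Ideal.Quotient.mk_surjective y
  obtain ⟨r, hr⟩ := (Submodule.mem_span_range_iff_exists_fun O).mp
    (hc ▸ Submodule.mem_top : b ∈ Submodule.span O (Set.range c))
  refine ⟨fun j => Ideal.Quotient.mk _ (r j), ?_⟩
  show ∑ j, φ (Ideal.Quotient.mk _ (r j)) * Ideal.Quotient.mk _ (c j) = _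
  rw [← hr, map_sum]
  exact Finset.sum_congr rfl fun j _ => by rw [Algebra.smul_def, map_mul]; rfl

omit [IsDomain O] [IsDiscreteValuationRing O] [Finite (ResidueField O)] in
/-- Reduction modulo an ideal detected by the points is flat. -/
theorem flatAt_quotient_of_points {A C ι : Type} [CommRing A] [CommRing C] [Finite ι]
    (ev : ι → A →+* C) (J : Ideal C) [Finite (C ⧸ J)] (I : Ideal A) [Finite (A ⧸ I)]
    (hk : ∀ a, (∀ x, ev x a ∈ J) → a ∈ I) (N : MatRep A) {q : ℕ}
    (hflat : ∀ x, FlatAt (mapRep (ev x) N) q) : FlatAt (mapRep (Ideal.Quotient.mk I) N) q :=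
  flatAt_of_points ev J (Ideal.Quotient.mk I) 0
    (fun y => by
      obtain ⟨a, rfl⟩ := Ideal.Quotient.mk_surjective y
      exact ⟨a, 0, by rw [zero_mul, add_zero]⟩)
    (fun a ha => Ideal.Quotient.eq_zero_iff_mem.mpr (hk a ha)) N hflat

omit [IsDomain O] [Finite (ResidueField O)] in
/-- Artin–Rees for an algebra of functions. -/
theorem exists_mem_span_of_forall_eval {ι C : Type} [CommRing C] [Algebra O C] [Finite ι]
    [Module.Finite O C] [IsNoetherianRing O] (T : Subalgebra O (ι → C)) (m : ℕ) :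
    ∃ k : ℕ, ∀ a : T, (∀ x, (a : ι → C) x ∈ Ideal.span {((m ^ (k + 1) : ℕ) : C)}) →
      a ∈ Ideal.span {(m : T)} := by
  obtain ⟨k, hk⟩ := Ideal.exists_pow_inf_eq_pow_smul (Ideal.span {(m : O)})
    (Subalgebra.toSubmodule T)
  refine ⟨k, fun a ha => ?_⟩
  choose y hy using fun x => Ideal.mem_span_singleton.mp (ha x)
  have h1 : (a : ι → C) ∈ Ideal.span {(m : O)} ^ (k + 1) •
      (⊤ : Submodule O (ι → C)) ⊓ Subalgebra.toSubmodule T := by
    refine ⟨?_, a.2⟩
    have e : (a : ι → C) = ((m : O) ^ (k + 1)) • y := funext fun x => by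
      rw [Pi.smul_apply, Algebra.smul_def, map_pow, map_natCast, ← Nat.cast_pow]
      exact hy x
    rw [e]
    exact Submodule.smul_mem_smul (Ideal.pow_mem_pow (Ideal.mem_span_singleton_self _) _)
      Submodule.mem_top
  rw [hk (k + 1) (Nat.le_succ k), Nat.add_sub_cancel_left, pow_one] at h1
  have h2 := Submodule.smul_mono le_rfl inf_le_right h1
  rw [Submodule.ideal_span_singleton_smul, Submodule.mem_smul_pointwise_iff_exists] at h2
  obtain ⟨t, ht, hta⟩ := h2
  rw [Ideal.mem_span_singleton]
  refine ⟨⟨t, ht⟩, Subtype.ext ?_⟩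
  rw [← hta, Algebra.smul_def, map_natCast]
  rfl

omit [Finite (ResidueField O)] in
/-- A flat representation over a finite ring killed by `p` is trivial at the second element. -/
theorem LiftProblem.pElem_one_eq_one (P : LiftProblem O) {K : Type} [CommRing K] [Finite K]
    (hp : (P.p : K) = 0) (M : MatRep K) (hM : FlatAt M P.p) : M (P.pElem 1) = 1 := by
  have : Finite (K ⧸ (⊥ : Ideal K)) := Finite.of_surjective _ Ideal.Quotient.mk_surjective
  have hkill : ∀ v : Fin 2 → K ⧸ (⊥ : Ideal K), P.p • v = 0 := fun v => funext fun a => by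
    rw [Pi.smul_apply, nsmul_eq_mul, ← map_natCast (Ideal.Quotient.mk (⊥ : Ideal K)), hp, map_zero,
      zero_mul]
    rfl
  have h1 := P.pElem_one_flat _ (redAct M ⊥) hkill (hM ⊥ inferInstance)
  have hinj : Function.Injective (Ideal.Quotient.mk (⊥ : Ideal K)) :=
    (RingHom.injective_iff_ker_eq_bot _).mpr Ideal.mk_ker
  ext i j
  have h2 := congrFun (DFunLike.congr_fun h1 (Pi.single j 1)) i
  rw [redAct_apply, Finset.sum_eq_single j (fun b _ hb => by rw [Pi.single_eq_of_ne hb, mul_zero])
    (fun h => absurd (Finset.mem_univ j) h), Pi.single_eq_same, mul_one] at h2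
  refine hinj (h2.trans ?_)
  by_cases h : i = j
  · rw [h, Matrix.one_apply_eq, map_one]
    exact Pi.single_eq_same (M := fun _ : Fin 2 => K ⧸ (⊥ : Ideal K)) j 1
  · rw [Matrix.one_apply_ne h, map_zero]
    exact Pi.single_eq_of_ne (M := fun _ : Fin 2 => K ⧸ (⊥ : Ideal K)) h 1

omit [Finite (ResidueField O)] in
/-- The second element at `p` is trivial modulo `p` on functions on flat points. -/
theorem LiftProblem.pElem_one_sub_one_mem_of_points (P : LiftProblem O) {A C ι : Type} [CommRing A]
    [CommRing C] [Finite ι] (ev : ι → A →+* C) (J : Ideal C) [Finite (C ⧸ J)]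
    [Finite (A ⧸ Ideal.span {(P.p : A)})] (hk : ∀ a, (∀ x, ev x a ∈ J) → a ∈ Ideal.span {(P.p : A)})
    (N : MatRep A) (hflat : ∀ x, FlatAt (mapRep (ev x) N) P.p) (i j : Fin 2) :
    (N (P.pElem 1) - 1) i j ∈ Ideal.span {(P.p : A)} := by
  classical
  have hpz : (P.p : A ⧸ Ideal.span {(P.p : A)}) = 0 := by
    rw [← map_natCast (Ideal.Quotient.mk (Ideal.span {(P.p : A)})), Ideal.Quotient.eq_zero_iff_mem]
    exact Ideal.mem_span_singleton_self _
  have h3 := congrFun (congrFun (P.pElem_one_eq_one hpz _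
    (flatAt_quotient_of_points ev J (Ideal.span {(P.p : A)}) hk N hflat)) i) j
  rw [mapRep_apply] at h3
  rw [← Ideal.Quotient.eq_zero_iff_mem, Matrix.sub_apply, map_sub, h3, sub_eq_zero]
  by_cases h : i = j
  · rw [h, Matrix.one_apply_eq, Matrix.one_apply_eq, map_one]
  · rw [Matrix.one_apply_ne h, Matrix.one_apply_ne h, map_zero]

variable {P : LiftProblem O} {d : Finset ℕ → ℕ} {n : ℕ} (D : LevelDatum P d n)

/-- On flat points the second element at `p` is trivial modulo `p`. -/
theorem LevelDatum.pElem_one_sub_one_mem (E : Set D.XPt) (N : MatRep (D.traceRing E))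
    (hflat : ∀ x : E, FlatAt (mapRep (D.evalPt E x).toRingHom N) P.p) (i j : Fin 2) :
    (N (P.pElem 1) - 1) i j ∈ Ideal.span {(P.p : D.traceRing E)} := by
  have : Module.Finite O (D.traceRing E) :=
    Module.Finite.iff_fg.mpr (IsNoetherian.noetherian (Subalgebra.toSubmodule (D.traceRing E)))
  have hA : Finite (D.traceRing E ⧸ Ideal.span {(P.p : D.traceRing E)}) :=
    finite_quotient_span_natCast P.p_ne
  obtain ⟨k, hk⟩ := exists_mem_span_of_forall_eval (D.traceRing E) P.p
  have hC : Finite (D.Coeff ⧸ Ideal.span {((P.p ^ (k + 1) : ℕ) : D.Coeff)}) :=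
    finite_quotient_span_natCast (O := O) (by rw [Nat.cast_pow]; exact pow_ne_zero _ P.p_ne)
  exact P.pElem_one_sub_one_mem_of_points (ι := E) (fun x => (D.evalPt E x).toRingHom) _ hk N
    hflat i j

end FLTAgent.ModularityLifting
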