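import Fermat.Agent.ModularityLifting.Engine.TangentData
import Mathlib.LinearAlgebra.Dimension.Constructions

/-!
# Global coordinates

The tangent vectors of the framed trace ring which kill the local coordinates form a space of
dimension at most the number of global coordinates. Hence that many further elements generate.
-/

set_option autoImplicit false

noncomputable section

open IsLocalRing

namespace FLTAgent.ModularityLifting

open FLTAgent.DefRing Engine

local notation "Qbar" => AlgebraicClosure ℚ

variable {O : Type} [CommRing O] [IsDomain O] [IsDiscreteValuationRing O]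

namespace LevelDatum

variable {P : LiftProblem O} {d : Finset ℕ → ℕ} {n : ℕ} {D : LevelDatum P d n}
  {N : MatRep (D.traceRing D.goodPts)}
  {δ : MvPowerSeries P.FrameVar (D.traceRing D.goodPts) → (ResidueField O)}

/-- The framed matrices reduce to the moved residual representation. -/
theorem map_seriesPoint_framed (hN : D.IsNormalRep N) (F : Frames P) (v : ℕ) (σ : AbsGal) :
    (P.framed F v (N σ)).map D.seriesPoint =
      (F.resFrame v : Matrix (Fin 2) (Fin 2) (ResidueField O)) * P.ρbar σ *
        ((F.resFrame v)⁻¹ : GL (Fin 2) (ResidueField O)) := by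
  set c : MvPowerSeries P.FrameVar (D.traceRing D.goodPts) →+* D.traceRing D.goodPts :=
    MvPowerSeries.constantCoeff with hc
  have hZ : (1 + P.frameMatrix (D.traceRing D.goodPts) v).map c = 1 := by
    ext i j
    simp only [hc, LiftProblem.frameMatrix, Matrix.map_apply, Matrix.add_apply, Matrix.of_apply,
      Matrix.one_apply, map_add]
    split <;> split <;> simp [MvPowerSeries.constantCoeff_X]
  have hdet : IsUnit (1 + P.frameMatrix (D.traceRing D.goodPts) v).det := by
    rw [MvPowerSeries.isUnit_iff_constantCoeff, RingHom.map_det]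
    show IsUnit ((1 + P.frameMatrix (D.traceRing D.goodPts) v).map c).det
    rw [hZ, Matrix.det_one]
    exact isUnit_one
  have hU : (1 + P.frameMatrix (D.traceRing D.goodPts) v)⁻¹.map c = 1 := by
    have := congrArg (fun A : Matrix (Fin 2) (Fin 2) _ => A.map c)
      (Matrix.mul_nonsing_inv _ hdet)
    simpa [Matrix.map_mul, hZ, Matrix.map_one _ (map_zero c) (map_one c)] using this
  have hcC : ∀ A : Matrix (Fin 2) (Fin 2) (D.traceRing D.goodPts),
      (A.map MvPowerSeries.C).map c = A := fun A => Matrix.ext fun i j => by simp [hc]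
  rw [show (P.framed F v (N σ)).map D.seriesPoint =
      ((P.framed F v (N σ)).map c).map (D.resPoint D.none_mem_goodPts) from rfl]
  rw [LiftProblem.framed, Matrix.map_mul (f := c), Matrix.map_mul (f := c), hZ, hU, hcC, one_mul,
    mul_one, Matrix.map_mul, Matrix.map_mul, hN.map_resPoint]
  have hG : ∀ A : Matrix (Fin 2) (Fin 2) O,
      (A.map (algebraMap O (D.traceRing D.goodPts))).map (D.resPoint D.none_mem_goodPts) =
        A.map (residue O) := fun A =>
    Matrix.ext fun i j => (D.resPoint D.none_mem_goodPts).commutes (A i j)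
  rw [hG, hG]
  rfl

/-- The local coordinates lie in the maximal ideal. -/
theorem seriesPoint_coord (hN : D.IsNormalRep N) (F : Frames P) (c : P.LocCoord) :
    D.seriesPoint (P.coord F N c) = 0 := by
  rw [LiftProblem.coord, map_sub, seriesPoint_C, AlgHom.commutes, sub_eq_zero,
    ← Matrix.map_apply (f := D.seriesPoint), map_seriesPoint_framed hN F]
  show ((residue O).mapMatrix (m := Fin 2) _ * (residue O).mapMatrix (m := Fin 2) _ *
    (residue O).mapMatrix (m := Fin 2) _) _ _ = _
  rw [← map_mul, ← map_mul]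
  rfl

/-- The cocycle of a tangent vector, linearly. -/
def cocycleₗ (N : MatRep (D.traceRing D.goodPts)) :
    (MvPowerSeries P.FrameVar (D.traceRing D.goodPts) → (ResidueField O)) →ₗ[ResidueField O]
      (AbsGal → Matrix (Fin 2) (Fin 2) (ResidueField O)) where
  toFun δ := cocycle N δ
  map_add' δ δ' := funext fun σ => by
    show (deriv N (δ + δ') σ) * _ = deriv N δ σ * _ + deriv N δ' σ * _
    rw [← add_mul]
    rfl
  map_smul' a δ := funext fun σ => by
    show (deriv N (a • δ) σ) * _ = a • (deriv N δ σ * _)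
    rw [← smul_mul_assoc]
    rfl

/-- The frame vector of a tangent vector, linearly. -/
def frameVecₗ (D : LevelDatum P d n) (F : Frames P) (v : ℕ) :
    (MvPowerSeries P.FrameVar (D.traceRing D.goodPts) → (ResidueField O)) →ₗ[ResidueField O]
      Matrix (Fin 2) (Fin 2) (ResidueField O) where
  toFun δ := frameVec F δ v
  map_add' δ δ' := by
    simp only [frameVec]
    rw [← add_mul, ← mul_add]
    rfl
  map_smul' a δ := by
    simp only [frameVec, RingHom.id_apply]
    rw [← smul_mul_assoc, ← mul_smul_comm]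
    rfl

/-- The trace free part of a frame vector. -/
def tracefree (u : Matrix (Fin 2) (Fin 2) (ResidueField O)) :
    Matrix (Fin 2) (Fin 2) (ResidueField O) :=
  u - (u.trace / 2) • 1

theorem trace_tracefree (P : LiftProblem O) (u : Matrix (Fin 2) (Fin 2) (ResidueField O)) :
    (tracefree u).trace = 0 := by
  rw [tracefree, Matrix.trace_sub, Matrix.trace_smul, Matrix.trace_one, Fintype.card_fin,
    smul_eq_mul, Nat.cast_ofNat, div_mul_cancel₀ _ P.two_ne_zero_residue, sub_self]

theorem tracefree_eq_zero_comm (P : LiftProblem O) {u : Matrix (Fin 2) (Fin 2) (ResidueField O)}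
    {A : ValuationSubring Qbar}
    (h : ∀ σ ∈ A.decompositionSubgroup ℚ, u - P.ρbar σ * u * P.ρbar σ⁻¹ = 0) :
    tracefree u ∈ adInvariants P.ρbar A := by
  refine Submodule.mem_inf.mpr ⟨trace_tracefree P u, ?_⟩
  simp only [Submodule.mem_iInf]
  intro σ hσ
  show P.ρbar σ * (tracefree u * P.ρbar σ⁻¹) = tracefree u
  rw [tracefree, sub_mul, mul_sub, smul_mul_assoc, one_mul, mul_smul_comm, ρbar_mul_inv,
    ← mul_assoc, ← sub_eq_zero.mp (h σ hσ)]

/-- A tangent vector whose derivative has trace zero kills the trace ring. -/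
theorem comp_C_eq_zero (hN : D.IsNormalRep N) (hδ : δ ∈ pointDer D.seriesPoint)
    (h : ∀ σ, (deriv N δ σ).trace = 0) (t : D.traceRing D.goodPts) :
    δ (MvPowerSeries.C t) = 0 := by
  have h' := comp_C_mem hδ
  induction t using D.induction_traceRing with
  | tr σ =>
    rw [← hN.trace_eq σ, Matrix.trace_fin_two]
    have := h σ
    rw [Matrix.trace_fin_two] at this
    rw [map_add, hδ.1]
    exact this
  | const o => exact h'.2.2 o
  | add a b ha hb => rw [map_add, hδ.1, ha, hb, add_zero]
  | mul a b ha hb => rw [map_mul, hδ.2.1, ha, hb, mul_zero, mul_zero, add_zero]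

/-- A tangent vector killing the constants and the frame variables is zero. -/
theorem eq_zero_of_C_X (hδ : δ ∈ pointDer D.seriesPoint)
    (hC : ∀ t, δ (MvPowerSeries.C t) = 0) (hX : ∀ x, δ (MvPowerSeries.X x) = 0) : δ = 0 := by
  funext f
  show δ f = 0
  have hmem : f - MvPowerSeries.C (MvPowerSeries.constantCoeff f) ∈
      Ideal.span (Set.range
        (MvPowerSeries.X : P.FrameVar → MvPowerSeries P.FrameVar (D.traceRing D.goodPts))) := by
    rw [← pow_one (Ideal.span _)]
    refine mem_span_X_pow fun x hx => ?_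
    have : x = 0 := by
      rwa [← Finsupp.degree_eq_zero_iff, ← Nat.lt_one_iff]
    subst this
    simp
  have key : ∀ g ∈ Ideal.span (Set.range
      (MvPowerSeries.X : P.FrameVar → MvPowerSeries P.FrameVar (D.traceRing D.goodPts))),
      D.seriesPoint g = 0 ∧ δ g = 0 := by
    intro g hg
    induction hg using Submodule.span_induction with
    | mem g hg =>
      obtain ⟨x, rfl⟩ := hg
      exact ⟨D.seriesPoint_X x, hX x⟩
    | zero => exact ⟨map_zero _, pointDer_zero hδ⟩
    | add a b _ _ ha hb =>
      exact ⟨by rw [map_add, ha.1, hb.1, add_zero], by rw [hδ.1, ha.2, hb.2, add_zero]⟩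
    | smul r a _ ha =>
      exact ⟨by rw [smul_eq_mul, map_mul, ha.1, mul_zero],
        by rw [smul_eq_mul, hδ.2.1, ha.1, ha.2, mul_zero, zero_mul, add_zero]⟩
  have := (key _ hmem).2
  rwa [pointDer_sub hδ, hC, sub_zero] at this

variable [IsAdicComplete (maximalIdeal O) O] [Finite (ResidueField O)]

/-- The cocycles of tangent vectors killing the coordinates meet the conditions of the Selmer
bound. -/
theorem cocycle_conditions (hN : D.IsNormalRep N) (hδ : δ ∈ pointDer D.seriesPoint)
    (F : Frames P) (hk : KillsCoords F N δ) :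
    IsAdCocycle P.ρbar (cocycle N δ) ∧
      (∀ ℓ : ℕ, ℓ.Prime → ℓ ∉ P.loc → ℓ ≠ P.p → (∀ i, D.q i ≠ ℓ) →
        ∀ A : ValuationSubring Qbar, A.LiesOverPrime ℓ → ∀ σ ∈ A.inertiaSubgroupIn ℚ,
          cocycle N δ σ = 0) ∧
      (∀ v ∈ P.loc, ∃ a, a.trace = 0 ∧ ∀ σ ∈ (P.place v).decompositionSubgroup ℚ,
        cocycle N δ σ = a - P.ρbar σ * a * P.ρbar σ⁻¹) ∧
      (P.p ∉ P.loc → ∀ M : MatRep (TrivSqZeroExt (ResidueField O) (ResidueField O)),
        (∀ σ i j, M σ i j = TrivSqZeroExt.inl (P.ρbar σ i j) +
          TrivSqZeroExt.inr ((cocycle N δ σ * P.ρbar σ) i j)) → FlatAt M P.p) := by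
  classical
  obtain ⟨m, L, hL, hNL, hm⟩ := hN.exists_level
  refine ⟨⟨cocycle_mul hN hδ, trace_cocycle hN hδ, L, hL, fun σ hσ => ?_⟩, ?_, ?_, ?_⟩
  · have hd : deriv N δ σ = 0 := by
      ext a b
      have h1 := (hm _ (hNL σ hσ a b)).2 _ (comp_C_mem hδ)
      rw [Matrix.sub_apply, pointDer_sub (comp_C_mem hδ)] at h1
      have h0 : δ (MvPowerSeries.C
          ((1 : Matrix (Fin 2) (Fin 2) (D.traceRing D.goodPts)) a b)) = 0 :=
        congrFun (congrFun (pointDer_map_one (comp_C_mem hδ) (n := Fin 2)) a) b
      rw [h0, sub_zero] at h1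
      exact h1
    rw [cocycle, hd, zero_mul]
  · intro ℓ hℓ h₁ h₂ h₃ A hA σ hσ
    have hd : deriv N δ σ = 0 := by
      rw [deriv, hN.unramified hℓ h₁ h₂ h₃ A hA σ hσ]
      exact pointDer_map_one (comp_C_mem hδ) (n := Fin 2)
    rw [cocycle, hd, zero_mul]
  · intro v hv
    refine ⟨tracefree (-frameVec F δ v), trace_tracefree P _, fun σ hσ => ?_⟩
    have h0 : movedCocycle F N δ v σ = 0 := by
      rcases eq_or_ne v P.p with rfl | hvp
      · exact movedCocycle_eq_zero_p hN hδ F hk hv σ hσ
      · exact movedCocycle_eq_zero_tame hN hδ F hk hv hvp σ hσ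
    rw [movedCocycle, add_eq_zero_iff_eq_neg] at h0
    rw [h0, tracefree, mul_sub, sub_mul, mul_smul_comm, mul_one, smul_mul_assoc, ρbar_mul_inv,
      mul_neg, neg_mul]
    abel
  · intro hp M hM
    let ψ : D.traceRing D.goodPts →+* TrivSqZeroExt (ResidueField O) (ResidueField O) :=
      { toFun := fun t => TrivSqZeroExt.inl (D.resPoint D.none_mem_goodPts t) +
          TrivSqZeroExt.inr (δ (MvPowerSeries.C t))
        map_one' := by
          rw [show δ (MvPowerSeries.C (1 : D.traceRing D.goodPts)) = 0 from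
            pointDer_one (comp_C_mem hδ), map_one]
          simp
        map_mul' := fun a b => by
          rw [map_mul, show δ (MvPowerSeries.C (a * b)) = _ from (comp_C_mem hδ).2.1 a b]
          refine TrivSqZeroExt.ext ?_ ?_
          · rw [TrivSqZeroExt.fst_mul]
            simp only [TrivSqZeroExt.fst_add, TrivSqZeroExt.fst_inl, TrivSqZeroExt.fst_inr,
              add_zero]
          · rw [TrivSqZeroExt.snd_mul]
            simp only [TrivSqZeroExt.snd_add, TrivSqZeroExt.snd_inl, TrivSqZeroExt.snd_inr,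
              TrivSqZeroExt.fst_add, TrivSqZeroExt.fst_inl, TrivSqZeroExt.fst_inr, add_zero,
              zero_add, smul_eq_mul, MulOpposite.smul_eq_mul_unop, MulOpposite.unop_op]
            ring
        map_zero' := by
          rw [show δ (MvPowerSeries.C (0 : D.traceRing D.goodPts)) = 0 from
            pointDer_zero (comp_C_mem hδ), map_zero]
          simp
        map_add' := fun a b => by
          rw [map_add, show δ (MvPowerSeries.C (a + b)) = _ from (comp_C_mem hδ).1 a b]
          ext <;> simp }
    have hMψ : M = mapRep ψ N := MonoidHom.ext fun σ => Matrix.ext fun i j => by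
      rw [hM, cocycle_mul_ρbar, mapRep_apply, ← hN.map_resPoint σ]
      rfl
    rw [hMψ]
    have : Finite (ResidueField D.Coeff) := finite_residueField_of_finite (A := O)
    have : Finite (D.Coeff ⧸ maximalIdeal D.Coeff ^ m) :=
      DefRing.finite_quotient_maximalIdeal_pow m
    have : Finite (TrivSqZeroExt (ResidueField O) (ResidueField O)) :=
      Finite.of_injective (fun y => (y.fst, y.snd)) fun a b h =>
        TrivSqZeroExt.ext (congrArg Prod.fst h) (congrArg Prod.snd h)
    refine flatAt_of_points (fun x : D.goodPts => (D.evalPt D.goodPts x).toRingHom)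
      (maximalIdeal D.Coeff ^ m) ψ (TrivSqZeroExt.inr 1) (fun y => ?_) (fun a ha => ?_) N
      fun x => ?_
    · obtain ⟨o, ho⟩ := residue_surjective y.fst
      obtain ⟨o', ho'⟩ := residue_surjective y.snd
      have hψ : ∀ c : O, ψ (algebraMap O _ c) = TrivSqZeroExt.inl (residue O c) := fun c => by
        show (TrivSqZeroExt.inl (D.resPoint D.none_mem_goodPts (algebraMap O _ c)) +
          TrivSqZeroExt.inr (δ (MvPowerSeries.C (algebraMap O (D.traceRing D.goodPts) c))) :
          TrivSqZeroExt (ResidueField O) (ResidueField O)) = _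
        rw [AlgHom.commutes, show δ (MvPowerSeries.C (algebraMap O (D.traceRing D.goodPts) c)) = 0
          from (comp_C_mem hδ).2.2 c, TrivSqZeroExt.inr_zero, add_zero]
        rfl
      refine ⟨algebraMap O _ o, algebraMap O _ o', ?_⟩
      rw [hψ, hψ, ho, ho']
      ext <;> simp
    · show (TrivSqZeroExt.inl (D.resPoint D.none_mem_goodPts a) +
        TrivSqZeroExt.inr (δ (MvPowerSeries.C a)) :
        TrivSqZeroExt (ResidueField O) (ResidueField O)) = 0
      obtain ⟨h1, h2⟩ := hm a ha
      rw [h1, show δ (MvPowerSeries.C a) = 0 from h2 _ (comp_C_mem hδ)]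
      simp
    · obtain ⟨g, hg⟩ := hN.conj x
      refine (localProps_conj hg P.p (1 : D.Coeff)).2.2.2 ?_
      rcases x with ⟨_ | θ, hx⟩
      · exact flatAt_mapRep (P.flat fun h => hp (Finset.mem_union_left _ h))
      · obtain ⟨J, hJ, hθ⟩ := (hx θ rfl).1
        exact D.pts_flat J hJ θ hθ fun h => hp (by
          rcases Finset.mem_union.mp h with h | h
          · exact Finset.mem_union_left _ (Finset.mem_union_left _ h)
          · exact Finset.mem_union_left _ (Finset.mem_union_right _ (hJ h)))

/-- The dimension of a space of tangent vectors killing the local coordinates. -/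
theorem finrank_le_globalCount (hN : D.IsNormalRep N) (F : Frames P)
    (W : Submodule (ResidueField O)
      (MvPowerSeries P.FrameVar (D.traceRing D.goodPts) → (ResidueField O)))
    (hW : W ≤ pointDer D.seriesPoint) (hk : ∀ δ ∈ W, KillsCoords F N δ)
    [FiniteDimensional (ResidueField O) W] :
    Module.finrank (ResidueField O) W ≤ P.globalCount := by
  classical
  let cL := (cocycleₗ N).comp W.subtype
  have hT := D.tangent (LinearMap.range cL) (by
    rintro _ ⟨δ, rfl⟩
    exact cocycle_conditions hN (hW δ.2) F (hk _ δ.2))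
  let f := (adCoboundaries P.ρbar).mkQ.comp cL
  have hrange : LinearMap.range f = (LinearMap.range cL).map (adCoboundaries P.ρbar).mkQ :=
    LinearMap.range_comp _ _
  rw [← hrange] at hT
  have hsum := LinearMap.finrank_range_add_finrank_ker f
  have hC : ∀ δ ∈ LinearMap.ker f, ∀ t : D.traceRing D.goodPts,
      δ.1 (MvPowerSeries.C t) = 0 := by
    intro δ hδ
    rw [LinearMap.mem_ker] at hδ
    obtain ⟨a, ha⟩ := (Submodule.Quotient.mk_eq_zero _).mp hδ
    refine comp_C_eq_zero hN (hW δ.2) fun σ => ?_
    have h := congrFun ha σ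
    change a - P.ρbar σ * a * P.ρbar σ⁻¹ = cocycle N δ σ at h
    rw [← cocycle_mul_ρbar, ← h, sub_mul, mul_assoc, ρbar_inv_mul, mul_one, Matrix.trace_sub,
      Matrix.trace_mul_comm, sub_self]
  have hcomm : ∀ δ ∈ LinearMap.ker f, ∀ v ∈ P.loc,
      tracefree (frameVec F δ.1 v) ∈ adInvariants P.ρbar (P.place v) := by
    intro δ hδ v hv
    refine tracefree_eq_zero_comm P fun σ hσ => ?_
    have h0 : movedCocycle F N δ v σ = 0 := by
      rcases eq_or_ne v P.p with rfl | hvp
      · exact movedCocycle_eq_zero_p hN (hW δ.2) F (hk _ δ.2) hv σ hσ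
      · exact movedCocycle_eq_zero_tame hN (hW δ.2) F (hk _ δ.2) hv hvp σ hσ
    have hc : cocycle N δ.1 σ = 0 := by
      rw [cocycle, show deriv N δ.1 σ = 0 from
        Matrix.ext fun i j => hC δ hδ _, zero_mul]
    rwa [movedCocycle, hc, zero_add] at h0
  let u : ℕ → LinearMap.ker f →ₗ[ResidueField O] Matrix (Fin 2) (Fin 2) (ResidueField O) :=
    fun v => ((frameVecₗ D F v).comp W.subtype).comp (LinearMap.ker f).subtype
  let τ : Matrix (Fin 2) (Fin 2) (ResidueField O) →ₗ[ResidueField O]
      Matrix (Fin 2) (Fin 2) (ResidueField O) :=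
    { toFun := tracefree
      map_add' := fun a b => by
        simp only [tracefree, Matrix.trace_add, add_div, add_smul]; abel
      map_smul' := fun c a => by
        simp only [tracefree, Matrix.trace_smul, smul_eq_mul, RingHom.id_apply, smul_sub,
          smul_smul, mul_div_assoc] }
  let Φ : LinearMap.ker f →ₗ[ResidueField O]
      (∀ v : P.loc, adInvariants P.ρbar (P.place v)) ×
        ({v : P.loc // (v : ℕ) ≠ P.pivot} → ResidueField O) :=
    LinearMap.prod
      (LinearMap.pi fun v : P.loc => LinearMap.codRestrict _ (τ.comp (u v)) fun δ =>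
        hcomm δ.1 δ.2 v v.2)
      (LinearMap.pi fun v : {v : P.loc // (v : ℕ) ≠ P.pivot} =>
        (Matrix.traceLinearMap (Fin 2) (ResidueField O) (ResidueField O)).comp (u v.1))
  have hΦ : Function.Injective Φ := by
    rw [injective_iff_map_eq_zero]
    intro δ hδ
    have h1 : ∀ v : P.loc, tracefree (u v δ) = 0 := fun v =>
      congrArg (fun y => ((y.1 v : _) : Matrix (Fin 2) (Fin 2) (ResidueField O))) hδ
    have h2 : ∀ v : {v : P.loc // (v : ℕ) ≠ P.pivot}, (u v.1 δ).trace = 0 := fun v =>
      congrArg (fun y => y.2 v) hδ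
    have h3 : ∀ v : P.loc, u v δ = ((u v δ).trace / 2) • 1 := fun v => sub_eq_zero.mp (h1 v)
    have hZ : ∀ v : P.loc, (P.frameMatrix (D.traceRing D.goodPts) v).map δ.1.1 =
        ((u v δ).trace / 2) • 1 := fun v => by
      have h := h3 v
      have hg : ∀ X : Matrix (Fin 2) (Fin 2) (ResidueField O),
          (F.resFrame v : Matrix (Fin 2) (Fin 2) (ResidueField O)) *
            (((F.resFrame v)⁻¹ : GL (Fin 2) (ResidueField O)) * X *
              (F.resFrame v : Matrix (Fin 2) (Fin 2) (ResidueField O))) *
            ((F.resFrame v)⁻¹ : GL (Fin 2) (ResidueField O)) = X := fun X => by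
        simp [← mul_assoc]
      have := congrArg (fun X => (F.resFrame v : Matrix (Fin 2) (Fin 2) (ResidueField O)) * X *
        ((F.resFrame v)⁻¹ : GL (Fin 2) (ResidueField O))) h
      refine ((hg _).symm.trans this).trans ?_
      rw [mul_smul_comm, mul_one, smul_mul_assoc, ← Units.val_mul, mul_inv_cancel, Units.val_one]
    have hpiv : ∀ v : P.loc, (u v δ).trace / 2 = 0 := fun v => by
      rcases eq_or_ne (v : ℕ) P.pivot with hv | hv
      · have h := congrFun (congrFun (hZ v) 0) 0
        rw [Matrix.map_apply, LiftProblem.frameMatrix, Matrix.of_apply,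
          dif_neg (fun h => h.2 ⟨hv, rfl⟩), pointDer_zero (hW δ.1.2)] at h
        simpa using h.symm
      · rw [h2 ⟨v, hv⟩, zero_div]
    refine Subtype.ext (Subtype.ext (eq_zero_of_C_X (hW δ.1.2) (hC δ.1 δ.2) ?_))
    rintro ⟨⟨v, i, j⟩, hx⟩
    have h := congrFun (congrFun (hZ v) i) j
    rw [hpiv v, zero_smul, Matrix.map_apply, LiftProblem.frameMatrix, Matrix.of_apply,
      dif_pos ⟨v.2, hx⟩] at h
    exact h
  have hker := LinearMap.finrank_le_finrank_of_injective hΦ
  rw [Module.finrank_prod, Module.finrank_pi_fintype, Module.finrank_pi,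
    Fintype.card_subtype_compl] at hker
  have hpc : Fintype.card {v : P.loc // (v : ℕ) = P.pivot} = 1 :=
    Fintype.card_eq_one_iff.mpr ⟨⟨⟨P.pivot, Finset.min'_mem _ _⟩, rfl⟩,
      fun v => Subtype.ext (Subtype.ext v.2)⟩
  rw [hpc, Fintype.card_coe,
    Finset.sum_coe_sort P.loc fun v => Module.finrank (ResidueField O)
      (adInvariants P.ρbar (P.place v))] at hker
  have hpos : 0 < P.loc.card := Finset.card_pos.mpr P.loc_nonempty
  unfold LiftProblem.globalCount
  omega

end LevelDatum

variable [IsAdicComplete (maximalIdeal O) O] [Finite (ResidueField O)]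
  {P : LiftProblem O} {d : Finset ℕ → ℕ} {n : ℕ} (D : LevelDatum P d n)

/-- Global coordinates: with the local ones they generate. -/
theorem exists_globals (F : Frames P) (M : MatRep (D.traceRing Set.univ))
    (hM0 : ∀ σ i j, (D.evalPt Set.univ ⟨none, trivial⟩ (M σ i j)) =
      algebraMap O D.Coeff (P.ρ σ i j))
    (hM : ∀ x : (Set.univ : Set D.XPt), MatCont (mapRep (D.evalPt Set.univ x).toRingHom M) ∧
        (∀ σ i j, D.evalPt Set.univ x (M σ i j) - algebraMap O D.Coeff (P.ρ σ i j) ∈
          maximalIdeal D.Coeff) ∧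
        ∃ g : GL (Fin 2) D.Coeff, ∀ σ, mapRep (D.evalPt Set.univ x).toRingHom M σ =
          (g : Matrix (Fin 2) (Fin 2) D.Coeff) * D.xrep x σ * (g⁻¹ : GL (Fin 2) D.Coeff)) :
    letI := isLocalRing_traceRing D D.goodPts D.none_mem_goodPts
    haveI := isNoetherian_traceRing D D.goodPts
    haveI := isAdicComplete_traceRing D D.goodPts D.none_mem_goodPts
    let X : P.LocCoord → MvPowerSeries P.FrameVar (D.traceRing D.goodPts) :=
      P.coord F (mapRep (D.restrict (Set.subset_univ D.goodPts)).toRingHom M)
    ∃ (G : Fin P.globalCount → MvPowerSeries P.FrameVar (D.traceRing D.goodPts))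
      (h : ∀ c, Sum.elim X G c ∈ maximalIdeal _),
      (∀ k, D.evalPt D.goodPts ⟨none, D.none_mem_goodPts⟩
        (MvPowerSeries.constantCoeff (G k)) = 0) ∧
      Function.Surjective
        (evalAdic (O := O) (maximalIdeal (MvPowerSeries P.FrameVar (D.traceRing D.goodPts)))
          (Sum.elim X G) h) := by
  let := isLocalRing_traceRing D D.goodPts D.none_mem_goodPts
  have := isNoetherian_traceRing D D.goodPts
  have := isAdicComplete_traceRing D D.goodPts D.none_mem_goodPts
  intro X
  set N := mapRep (D.restrict (Set.subset_univ D.goodPts)).toRingHom M with hNdef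
  have hN : D.IsNormalRep N :=
    { none_eq := fun σ i j => hM0 σ i j
      cont := fun x => (hM ⟨x, trivial⟩).1
      conj := fun x => (hM ⟨x, trivial⟩).2.2 }
  have hX : ∀ c, X c ∈ maximalIdeal (MvPowerSeries P.FrameVar (D.traceRing D.goodPts)) := fun c =>
    (eq_zero_iff_mem D.seriesPoint _).mp (LevelDatum.seriesPoint_coord hN F c)
  obtain ⟨G₀, hG₀, hsurj⟩ := exists_generators D.seriesPoint X hX P.globalCount
    fun W hW hWX hfd => LevelDatum.finrank_le_globalCount hN F W hW fun δ hδ c => hWX δ hδ c
  let o : Fin P.globalCount → O := fun i =>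
    D.problemHom D.none_mem_goodPts (MvPowerSeries.constantCoeff (G₀ i))
  have ho : ∀ i, residue O (o i) = 0 := fun i => hG₀ i
  let G : Fin P.globalCount → MvPowerSeries P.FrameVar (D.traceRing D.goodPts) := fun i =>
    G₀ i - algebraMap O _ (o i)
  have hG : ∀ i, D.seriesPoint (G i) = 0 := fun i => by
    rw [map_sub, AlgHom.commutes, hG₀ i, zero_sub, neg_eq_zero]
    exact ho i
  have hmem : ∀ c, Sum.elim X G c ∈ maximalIdeal _ := by
    rintro (c | i)
    · exact hX c
    · exact (eq_zero_iff_mem D.seriesPoint _).mp (hG i)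
  refine ⟨G, hmem, fun i => ?_, hsurj G (fun i => ?_) hmem⟩
  · show D.evalPt _ _ (MvPowerSeries.constantCoeff (G₀ i - algebraMap O _ (o i))) = 0
    rw [map_sub, MvPowerSeries.algebraMap_apply, MvPowerSeries.constantCoeff_C, map_sub,
      AlgHom.commutes, sub_eq_zero]
    exact (D.algebraMap_problemHom D.none_mem_goodPts _).symm
  · rw [show G i - G₀ i = -algebraMap O _ (o i) from sub_sub_cancel_left _ _]
    exact neg_mem (Ideal.mem_map_of_mem _ ((residue_eq_zero_iff _).mp (ho i)))

end FLTAgent.ModularityLifting
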