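import Fermat.Agent.ModularityLifting.Engine.SiteCharts

/-!
# The rings of the patching argument

`R` has the local and global coordinates as variables, `S` the diamond and frame variables; the big
ring has all of them and one more variable.
-/

set_option autoImplicit false

noncomputable section

open IsLocalRing

namespace FLTAgent.ModularityLifting

open FLTAgent.DefRing

variable {O : Type} [CommRing O] [IsLocalRing O] {σ τ : Type} [Finite σ] [Finite τ]
  {T : Type} [CommRing T] [Algebra O T] (I : Ideal T) [IsAdicComplete I T]

/-- Evaluation sends the maximal ideal into the ideal of definition. -/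
theorem evalAdic_mem (hI : (maximalIdeal O).map (algebraMap O T) ≤ I) (a : σ → T)
    (ha : ∀ i, a i ∈ I) {p : MvPowerSeries σ O} (hp : p ∈ maximalIdeal (MvPowerSeries σ O)) :
    evalAdic (O := O) I a ha p ∈ I := by
  have h := mem_pow_of_algHom I (evalAdic (O := O) I a ha) (fun i => by rw [evalAdic_X]; exact ha i)
    1 (p - MvPowerSeries.C (MvPowerSeries.constantCoeff p)) (DefRing.mem_span_X_pow fun e he => by
      obtain rfl : e = 0 := (Finsupp.degree_eq_zero_iff e).mp (by omega)
      simp)
  rw [pow_one, map_sub] at h
  have hc := (evalAdic (O := O) I a ha).commutes (MvPowerSeries.constantCoeff p)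
  simp only [MvPowerSeries.algebraMap_apply, Algebra.algebraMap_self, RingHom.id_apply] at hc
  rw [hc] at h
  exact (Submodule.sub_mem_iff_left _ (hI (Ideal.mem_map_of_mem _
    ((DefRing.mem_maximalIdeal_iff_constantCoeff _).mp hp)))).mp h

omit [IsLocalRing O] in
/-- A map killing the values of the variables only sees the constant term. -/
theorem comp_evalAdic_constant {C : Type} [CommRing C] [Algebra O C] (φ : T →ₐ[O] C) (a : σ → T)
    (ha : ∀ i, a i ∈ I) (h : ∀ i, φ (a i) = 0) (p : MvPowerSeries σ O) :
    φ (evalAdic (O := O) I a ha p) = algebraMap O C (MvPowerSeries.constantCoeff p) := by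
  have : IsHausdorff (⊥ : Ideal C) C := isHausdorff_of_pow_eq_bot _ 1 (pow_one _)
  let ψ : MvPowerSeries σ O →ₐ[O] C :=
    { (algebraMap O C).comp MvPowerSeries.constantCoeff with
      commutes' := fun c => by simp [MvPowerSeries.algebraMap_apply] }
  exact AlgHom.congr_fun (algHom_ext_of_hausdorff ⊥ (φ.comp (evalAdic (O := O) I a ha)) ψ
    (fun i => by simp [h])
    (fun i => by simp [h, ψ])) p

section Rename

variable [IsNoetherianRing O] [IsAdicComplete (maximalIdeal O) O]

/-- The map of power series rings given by a map of variables. -/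
def inclVars (O : Type) [CommRing O] [IsLocalRing O] [IsNoetherianRing O]
    [IsAdicComplete (maximalIdeal O) O] {σ τ : Type} [Finite σ] [Finite τ] (u : σ → τ) :
    MvPowerSeries σ O →ₐ[O] MvPowerSeries τ O :=
  evalAdic (maximalIdeal _) (fun i => MvPowerSeries.X (u i))
    fun i => DefRing.X_mem_maximalIdeal (u i)

@[simp] theorem inclVars_X (u : σ → τ) (i : σ) :
    inclVars O u (MvPowerSeries.X i) = MvPowerSeries.X (u i) := evalAdic_X _ _ _ _

omit [IsNoetherianRing O] [IsAdicComplete (maximalIdeal O) O] [Finite τ] in
theorem map_maximalIdeal_le :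
    (maximalIdeal O).map (algebraMap O (MvPowerSeries τ O)) ≤
      maximalIdeal (MvPowerSeries τ O) := by
  refine Ideal.map_le_iff_le_comap.mpr fun c hc => ?_
  rw [Ideal.mem_comap, DefRing.mem_maximalIdeal_iff_constantCoeff, MvPowerSeries.algebraMap_apply,
    MvPowerSeries.constantCoeff_C]
  exact hc

theorem inclVars_mem_maximalIdeal (u : σ → τ) {p : MvPowerSeries σ O}
    (hp : p ∈ maximalIdeal (MvPowerSeries σ O)) :
    inclVars O u p ∈ maximalIdeal (MvPowerSeries τ O) :=
  evalAdic_mem _ map_maximalIdeal_le _ _ hp

end Rename

namespace LiftProblem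

variable {O : Type} [CommRing O] [IsDomain O] [IsDiscreteValuationRing O] (P : LiftProblem O)

/-- The diamond and frame variables. -/
abbrev SVar : Type := Fin P.r ⊕ P.FrameVar

/-- All variables. -/
abbrev AVar : Type := (P.Coord ⊕ P.SVar) ⊕ Unit

/-- The coordinate ring. -/
abbrev RRing : Type := MvPowerSeries P.Coord O

/-- The ring of diamond and frame variables. -/
abbrev SRing : Type := MvPowerSeries P.SVar O

/-- The ring without the extra variable. -/
abbrev MRing : Type := MvPowerSeries (P.Coord ⊕ P.SVar) O

/-- The ring of all variables. -/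
abbrev ARing : Type := MvPowerSeries P.AVar O

variable [IsAdicComplete (maximalIdeal O) O]

/-- Coordinates in the big ring. -/
def inclR : P.RRing →ₐ[O] P.ARing := inclVars O fun c => Sum.inl (Sum.inl c)

/-- Diamond and frame variables in the big ring. -/
def inclS : P.SRing →ₐ[O] P.ARing := inclVars O fun y => Sum.inl (Sum.inr y)

@[simp] theorem inclR_X (c : P.Coord) :
    P.inclR (MvPowerSeries.X c) = MvPowerSeries.X (Sum.inl (Sum.inl c)) := inclVars_X _ _

@[simp] theorem inclS_X (y : P.SVar) :
    P.inclS (MvPowerSeries.X y) = MvPowerSeries.X (Sum.inl (Sum.inr y)) := inclVars_X _ _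

/-- The values of the retraction. -/
def retrVal : P.AVar → P.RRing
  | .inl (.inl c) => MvPowerSeries.X c
  | _ => 0

omit [IsAdicComplete (maximalIdeal O) O] in
theorem retrVal_mem (x : P.AVar) : P.retrVal x ∈ maximalIdeal P.RRing := by
  rcases x with (c | y) | u
  · exact DefRing.X_mem_maximalIdeal c
  · exact zero_mem _
  · exact zero_mem _

/-- The retraction onto the coordinates. -/
def retrR : P.ARing →ₐ[O] P.RRing := evalAdic (maximalIdeal _) P.retrVal P.retrVal_mem

theorem retrR_inclR (r : P.RRing) : P.retrR (P.inclR r) = r := by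
  have h : (P.retrR).comp P.inclR = AlgHom.id O _ :=
    algHom_ext_of_hausdorff (maximalIdeal P.RRing) _ _
      (fun c => by
        rw [AlgHom.comp_apply, inclR_X, retrR, evalAdic_X]
        exact P.retrVal_mem _)
      (fun c => by simp [retrR, retrVal])
  exact AlgHom.congr_fun h r

/-- A uniformiser. -/
def unif : O := Classical.choose (IsDiscreteValuationRing.exists_irreducible O)

omit [IsAdicComplete (maximalIdeal O) O] in
theorem irreducible_unif : Irreducible (unif (O := O)) :=
  Classical.choose_spec (IsDiscreteValuationRing.exists_irreducible O)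

omit [IsAdicComplete (maximalIdeal O) O] in
theorem unif_mem : unif (O := O) ∈ maximalIdeal O := by
  rw [irreducible_unif.maximalIdeal_eq]
  exact Ideal.mem_span_singleton_self _

end LiftProblem

end FLTAgent.ModularityLifting
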