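import Fermat.Agent.ModularityLifting.Engine.Component
import Fermat.Agent.ModularityLifting.Engine.Globals
import Fermat.Agent.ModularityLifting.Engine.FlatDiv
import Fermat.Agent.ModularityLifting.Engine.Vars

/-!
# The map from the big ring to series over the algebra of a level

The coordinates go to framed entries of a normal representation, the diamond variables to diamond
values minus one, the frame variables to themselves and the last variable to a series making the
separating element vanish on flat points.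
-/

set_option autoImplicit false

noncomputable section

open IsLocalRing

namespace FLTAgent.ModularityLifting

open FLTAgent.DefRing Engine

variable {O : Type} [CommRing O] [IsDomain O] [IsDiscreteValuationRing O]

namespace LevelDatum

variable {P : LiftProblem O} {d : Finset ℕ → ℕ} {n : ℕ}

/-- The choices at a level. -/
structure Choice (D : LevelDatum P d n) (F : Frames P) where
  M : MatRep D.PointAlg
  M_none : ∀ σ i j, D.evX none (M σ i j) = algebraMap O D.Coeff (P.ρ σ i j)
  M_cont : ∀ x, MatCont (mapRep (D.evX x).toRingHom M)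
  M_res : ∀ x σ i j, D.evX x (M σ i j) - algebraMap O D.Coeff (P.ρ σ i j) ∈ maximalIdeal D.Coeff
  M_conj : ∀ x, ∃ g : GL (Fin 2) D.Coeff, ∀ σ, mapRep (D.evX x).toRingHom M σ =
    (g : Matrix (Fin 2) (Fin 2) D.Coeff) * D.xrep x σ * (g⁻¹ : GL (Fin 2) D.Coeff)
  G : Fin P.globalCount → MvPowerSeries P.FrameVar D.PointAlg
  G_none : ∀ k, D.evX none (MvPowerSeries.constantCoeff (G k)) = 0
  W : MvPowerSeries P.FrameVar D.PointAlg
  W_none : D.evX none (MvPowerSeries.constantCoeff W) ∈ maximalIdeal D.Coeff
  c : O

namespace Choice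

variable [IsAdicComplete (maximalIdeal O) O] {D : LevelDatum P d n} {F : Frames P}
  (ch : D.Choice F)

/-- The representation at a point. -/
def repAt (x : D.XPt) : MatRep D.Coeff := mapRep (D.evX x).toRingHom ch.M

omit [IsAdicComplete (maximalIdeal O) O] in
theorem repAt_res (x : D.XPt) (σ : AbsGal) (i j : Fin 2) :
    ch.repAt x σ i j - algebraMap O D.Coeff (P.ρ σ i j) ∈ maximalIdeal D.Coeff := ch.M_res x σ i j

omit [IsAdicComplete (maximalIdeal O) O] in
theorem repAt_trace (x : D.XPt) (σ : AbsGal) : (ch.repAt x σ).trace = (D.xrep x σ).trace := by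
  obtain ⟨g, hg⟩ := ch.M_conj x
  rw [show ch.repAt x σ = _ from hg σ, Matrix.trace_units_conj]

omit [IsAdicComplete (maximalIdeal O) O] in
theorem repAt_det (x : D.XPt) (σ : AbsGal) :
    (ch.repAt x σ).det = algebraMap O D.Coeff (P.ρ σ).det := by
  obtain ⟨g, hg⟩ := ch.M_conj x
  rw [show ch.repAt x σ = _ from hg σ, Matrix.det_units_conj, D.xrep_det]

omit [IsAdicComplete (maximalIdeal O) O] in
theorem M_res' (σ : AbsGal) (i j : Fin 2) :
    ch.M σ i j - algebraMap O D.PointAlg (P.ρ σ i j) ∈ maximalIdeal D.PointAlg := by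
  rw [D.mem_maximalIdeal_pointAlg_iff none, map_sub, AlgHom.commutes, ch.M_none, sub_self]
  exact zero_mem _

omit [IsAdicComplete (maximalIdeal O) O] in
theorem G_mem (k : Fin P.globalCount) :
    ch.G k ∈ maximalIdeal (MvPowerSeries P.FrameVar D.PointAlg) := by
  rw [DefRing.mem_maximalIdeal_iff_constantCoeff, D.mem_maximalIdeal_pointAlg_iff none, ch.G_none]
  exact zero_mem _

omit [IsAdicComplete (maximalIdeal O) O] in
theorem W_mem : ch.W ∈ maximalIdeal (MvPowerSeries P.FrameVar D.PointAlg) := by
  rw [DefRing.mem_maximalIdeal_iff_constantCoeff, D.mem_maximalIdeal_pointAlg_iff none]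
  exact ch.W_none

/-- The values of the variables. -/
def vals : P.AVar → MvPowerSeries P.FrameVar D.PointAlg
  | .inl (.inl c) => Sum.elim (P.coord F ch.M) ch.G c
  | .inl (.inr (.inl i)) => MvPowerSeries.C (uElem O D.xrep D.xu i - 1)
  | .inl (.inr (.inr z)) => MvPowerSeries.X z
  | .inr _ => ch.W

omit [IsAdicComplete (maximalIdeal O) O] in
theorem vals_mem (v : P.AVar) :
    ch.vals v ∈ maximalIdeal (MvPowerSeries P.FrameVar D.PointAlg) := by
  rcases v with ((c | k) | (i | z)) | u
  · exact coord_mem_maximalIdeal F ch.M ch.M_res' c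
  · exact ch.G_mem k
  · show MvPowerSeries.C (uElem O D.xrep D.xu i - 1) ∈ maximalIdeal _
    rw [DefRing.mem_maximalIdeal_iff_constantCoeff, MvPowerSeries.constantCoeff_C,
      D.mem_maximalIdeal_pointAlg_iff none, map_sub, map_one, D.evX_uElem]
    exact D.xu_sub_one_mem none i
  · exact DefRing.X_mem_maximalIdeal z
  · exact ch.W_mem

/-- The map out of the big ring. -/
def ev : P.ARing →ₐ[O] MvPowerSeries P.FrameVar D.PointAlg :=
  evalAdic (maximalIdeal _) ch.vals ch.vals_mem

/-- The value at a point. -/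
def val (x : D.XPt) : P.ARing →ₐ[O] MvPowerSeries P.FrameVar D.Coeff :=
  (MvPowerSeries.mapAlgHom (σ := P.FrameVar) (D.evX x)).comp ch.ev

theorem val_apply (x : D.XPt) (a : P.ARing) :
    ch.val x a = MvPowerSeries.map (D.evX x).toRingHom (ch.ev a) := rfl

theorem val_X (x : D.XPt) (v : P.AVar) :
    ch.val x (MvPowerSeries.X v) = MvPowerSeries.map (D.evX x).toRingHom (ch.vals v) := by
  rw [val_apply, ev, evalAdic_X]

/-- The values of the coordinates at a point. -/
def coordVals (x : D.XPt) : P.Coord → MvPowerSeries P.FrameVar D.Coeff :=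
  Sum.elim (P.coord F (ch.repAt x)) fun k => MvPowerSeries.map (D.evX x).toRingHom (ch.G k)

omit [IsAdicComplete (maximalIdeal O) O] in
theorem coordVals_mem (x : D.XPt) (c : P.Coord) :
    ch.coordVals x c ∈ maximalIdeal (MvPowerSeries P.FrameVar D.Coeff) := by
  rcases c with c | k
  · exact coord_mem_maximalIdeal F _ (ch.repAt_res x) c
  · show MvPowerSeries.map (D.evX x).toRingHom (ch.G k) ∈ maximalIdeal _
    rw [DefRing.mem_maximalIdeal_iff_constantCoeff, MvPowerSeries.constantCoeff_map]
    exact (D.mem_maximalIdeal_pointAlg_iff x _).mp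
      ((DefRing.mem_maximalIdeal_iff_constantCoeff _).mp (ch.G_mem k))

theorem val_inclR (x : D.XPt) (r : P.RRing) :
    ch.val x (P.inclR r) = evalAdic (O := O) (maximalIdeal _) (ch.coordVals x) (ch.coordVals_mem x)
      r :=
  AlgHom.congr_fun (eq_evalAdic _ _ (ch.coordVals_mem x) ((ch.val x).comp P.inclR) fun c => by
    rw [AlgHom.comp_apply, P.inclR_X, val_X]
    rcases c with c | k
    · exact map_coord F (D.evX x) ch.M c
    · rfl) r

omit [IsAdicComplete (maximalIdeal O) O] in
theorem constantCoeff_coordVals_none (c : P.Coord) :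
    MvPowerSeries.constantCoeff (ch.coordVals none c) = 0 := by
  rcases c with c | k
  · refine Ideal.mem_bot.mp (constantCoeff_coord_mem (I := (⊥ : Ideal D.Coeff)) F (ch.repAt none)
      (fun σ i j => ?_) c)
    rw [Ideal.mem_bot, sub_eq_zero]
    exact ch.M_none σ i j
  · show MvPowerSeries.constantCoeff (MvPowerSeries.map (D.evX none).toRingHom (ch.G k)) = 0
    rw [MvPowerSeries.constantCoeff_map]
    exact ch.G_none k

theorem constantCoeff_val_none (r : P.RRing) :
    MvPowerSeries.constantCoeff (ch.val none (P.inclR r)) =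
      algebraMap O D.Coeff (MvPowerSeries.constantCoeff r) := by
  rw [val_inclR]
  let φ : MvPowerSeries P.FrameVar D.Coeff →ₐ[O] D.Coeff :=
    { MvPowerSeries.constantCoeff with
      commutes' := fun c => by simp [MvPowerSeries.algebraMap_apply] }
  exact comp_evalAdic_constant (maximalIdeal (MvPowerSeries P.FrameVar D.Coeff)) φ _ _
    ch.constantCoeff_coordVals_none r

/-- The separating series vanishes on flat points. -/
def FlatEq : Prop :=
  ∀ θ ∈ D.allPts, FlatAt (D.rep θ) P.p →
    P.framed F P.p (ch.repAt (some θ) (P.pElem 1)) 0 1 =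
      algebraMap O (MvPowerSeries P.FrameVar D.Coeff) LiftProblem.unif *
        (algebraMap O (MvPowerSeries P.FrameVar D.Coeff) ch.c +
          MvPowerSeries.map (D.evX (some θ)).toRingHom ch.W)

/-- The coordinates generate on good points. -/
def GoodSurj : Prop :=
  ∀ t : MvPowerSeries P.FrameVar (D.traceRing D.goodPts), ∃ r : P.RRing, ∀ x : D.goodPts,
    ch.val x (P.inclR r) = MvPowerSeries.map (D.evalPt D.goodPts x).toRingHom t

end Choice

variable [IsAdicComplete (maximalIdeal O) O] [Finite (ResidueField O)]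

/-- Lifting a series along a surjection. -/
theorem exists_map_eq {T T' σ : Type} [CommRing T] [CommRing T'] (φ : T →+* T')
    (hφ : Function.Surjective φ) (t : MvPowerSeries σ T') :
    ∃ s : MvPowerSeries σ T, MvPowerSeries.map φ s = t := by
  refine ⟨fun e => Function.surjInv hφ (t e), ?_⟩
  ext e
  rw [MvPowerSeries.coeff_map, MvPowerSeries.coeff_apply, MvPowerSeries.coeff_apply]
  exact Function.surjInv_eq hφ _

theorem exists_choice (D : LevelDatum P d n) (F : Frames P) :
    ∃ ch : D.Choice F, ch.FlatEq ∧ ch.GoodSurj := by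
  classical
  obtain ⟨M, hM0, hM⟩ := exists_normalRep D
  let := isLocalRing_traceRing D D.goodPts D.none_mem_goodPts
  have := isNoetherian_traceRing D D.goodPts
  have := isAdicComplete_traceRing D D.goodPts D.none_mem_goodPts
  obtain ⟨G, hG, hG0, hsurj⟩ := exists_globals D F M hM0 hM
  choose Gl hGl using fun k => exists_map_eq _
    (D.restrict_surjective (Set.subset_univ D.goodPts)) (G k)
  -- the flat points
  let E : Set D.XPt := {x | ∃ θ, x = some θ ∧ θ ∈ D.allPts ∧ FlatAt (D.rep θ) P.p}
  let N : MatRep (D.traceRing E) := mapRep (D.restrict (Set.subset_univ E)).toRingHom M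
  have hNflat : ∀ x : E, FlatAt (mapRep (D.evalPt E x).toRingHom N) P.p := by
    rintro ⟨_, θ, rfl, -, hfl⟩
    obtain ⟨g, hg⟩ := (hM ⟨some θ, trivial⟩).2.2
    exact (localProps_conj (g := g) hg P.p (0 : D.Coeff)).2.2.2 hfl
  choose y hy using fun i j =>
    Ideal.mem_span_singleton.mp (D.pElem_one_sub_one_mem E N hNflat i j)
  obtain ⟨e, u, hu⟩ :=
    IsDiscreteValuationRing.eq_unit_mul_pow_irreducible P.p_ne LiftProblem.irreducible_unif
  obtain ⟨e, rfl⟩ : ∃ e', e = e' + 1 := by
    refine Nat.exists_eq_succ_of_ne_zero fun he => (mem_maximalIdeal (P.p : O)).mp P.p_mem ?_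
    rw [hu, he, pow_zero, mul_one]
    exact u.isUnit
  let a : O := ↑u * LiftProblem.unif ^ e
  have hpa : (P.p : O) = LiftProblem.unif * a := by rw [hu, pow_succ]; ring
  let b : MvPowerSeries P.FrameVar (D.traceRing E) :=
    algebraMap O _ a * P.framed F P.p (Matrix.of y) 0 1
  obtain ⟨bl, hbl⟩ := exists_map_eq _ (D.restrict_surjective (Set.subset_univ E)) b
  obtain ⟨o, ho⟩ := D.exists_evalPt_none (Set.mem_univ none) (MvPowerSeries.constantCoeff bl)
  let toA := MvPowerSeries.map (σ := P.FrameVar) D.toPointAlg.toRingHom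
  let ch : D.Choice F :=
    { M := mapRep D.toPointAlg.toRingHom M
      M_none := hM0
      M_cont := fun x => (hM ⟨x, trivial⟩).1
      M_res := fun x => (hM ⟨x, trivial⟩).2.1
      M_conj := fun x => (hM ⟨x, trivial⟩).2.2
      G := fun k => toA (Gl k)
      G_none := fun k => by
        rw [← hG0 k, ← hGl k, MvPowerSeries.constantCoeff_map, MvPowerSeries.constantCoeff_map]
        rfl
      W := toA (bl - algebraMap O _ o)
      W_none := by
        rw [MvPowerSeries.constantCoeff_map, map_sub, MvPowerSeries.algebraMap_apply,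
          MvPowerSeries.constantCoeff_C, map_sub]
        show D.evalPt Set.univ ⟨none, _⟩ (MvPowerSeries.constantCoeff bl) -
          D.evX none (D.toPointAlg (algebraMap O _ o)) ∈ _
        rw [AlgHom.commutes, AlgHom.commutes, ho, sub_self]
        exact zero_mem _
      c := o }
  refine ⟨ch, fun θ hθ hfl => ?_, fun t => ?_⟩
  · have hx : (some θ : D.XPt) ∈ E := ⟨θ, rfl, hθ, hfl⟩
    set ev := D.evalPt E ⟨some θ, hx⟩
    have hrep : ch.repAt (some θ) = mapRep ev.toRingHom N := rfl
    have hN1 : N (P.pElem 1) = 1 + (P.p : D.traceRing E) • Matrix.of y :=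
      Matrix.ext fun i j => by
        rw [Matrix.add_apply, Matrix.smul_apply, Matrix.of_apply, smul_eq_mul, ← hy i j,
          Matrix.sub_apply, add_sub_cancel]
    have hfr : P.framed F P.p (N (P.pElem 1)) 0 1 =
        (algebraMap O (MvPowerSeries P.FrameVar (D.traceRing E)) LiftProblem.unif * b) := by
      rw [hN1, framed_eq, Matrix.map_add _ (map_add _), Matrix.map_one _ (map_zero _) (map_one _),
        mul_add, add_mul, mul_one, Units.mul_inv, Matrix.add_apply,
        Matrix.one_apply_ne (by decide : (0 : Fin 2) ≠ 1), zero_add,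
        Matrix.map_smul' _ (P.p : D.traceRing E) _ (map_mul _), Matrix.mul_smul, Matrix.smul_mul,
        Matrix.smul_apply, smul_eq_mul, ← framed_eq, map_natCast, ← mul_assoc, ← map_mul, ← hpa,
        map_natCast]
    have h1 := congrArg (fun m : Matrix (Fin 2) (Fin 2) _ => m 0 1)
      (ModularityLifting.map_framed F ev P.p (N (P.pElem 1)))
    simp only [RingHom.mapMatrix_apply, Matrix.map_apply] at h1
    rw [hrep, show mapRep ev.toRingHom N (P.pElem 1) =
      (N (P.pElem 1)).map ev.toRingHom from rfl, ← h1, hfr, map_mul]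
    refine congrArg₂ (· * ·) ((MvPowerSeries.mapAlgHom (σ := P.FrameVar) ev).commutes _) ?_
    · rw [← hbl]
      ext f
      simp only [map_add, MvPowerSeries.coeff_map, ch, toA, map_sub, MvPowerSeries.algebraMap_apply,
        MvPowerSeries.coeff_C]
      show D.evalPt Set.univ ⟨some θ, trivial⟩ _ = _
      by_cases hf : f = 0 <;> simp [hf, LevelDatum.evX_toPointAlg]
  · obtain ⟨r, hr⟩ := hsurj t
    refine ⟨r, fun x => ?_⟩
    rw [ch.val_inclR, ← hr]
    have h := eq_evalAdic (maximalIdeal (MvPowerSeries P.FrameVar D.Coeff)) (ch.coordVals x)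
      (ch.coordVals_mem x) ((MvPowerSeries.mapAlgHom (σ := P.FrameVar) (D.evalPt D.goodPts x)).comp
        (evalAdic (maximalIdeal _) _ hG)) fun c => by
      rw [AlgHom.comp_apply, evalAdic_X]
      rcases c with c | k
      · exact map_coord F (D.evalPt D.goodPts x) _ c
      · show MvPowerSeries.map (D.evalPt D.goodPts x).toRingHom (G k) = _
        rw [← hGl k]
        rfl
    exact (AlgHom.congr_fun h r).symm

end LevelDatum

end FLTAgent.ModularityLifting
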