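import Fermat.Agent.ModularityLifting.Engine.NormalFrames

/-!
# Framed matrices

Framing is conjugation by a unit of the matrix ring over the power series in the frame variables.
It is natural in the coefficients, and reduces to the fixed frame when the variables are zero.
-/

set_option autoImplicit false

noncomputable section

open IsLocalRing

namespace FLTAgent.ModularityLifting

open FLTAgent.DefRing Engine

variable {O : Type} [CommRing O] [IsDomain O] [IsDiscreteValuationRing O] {P : LiftProblem O}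
variable {T : Type} [CommRing T] [Algebra O T]

theorem LiftProblem.constantCoeff_frameMatrix (P : LiftProblem O) (T : Type) [CommRing T] (v : ℕ) :
    (MvPowerSeries.constantCoeff : MvPowerSeries P.FrameVar T →+* T).mapMatrix
      (P.frameMatrix T v) = 0 := by
  ext i j
  simp only [RingHom.mapMatrix_apply, Matrix.map_apply, LiftProblem.frameMatrix, Matrix.of_apply,
    Matrix.zero_apply]
  split <;> simp

theorem LiftProblem.isUnit_det_frameMatrix (P : LiftProblem O) (T : Type) [CommRing T] (v : ℕ) :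
    IsUnit (1 + P.frameMatrix T v).det := by
  rw [MvPowerSeries.isUnit_iff_constantCoeff, RingHom.map_det, map_add, map_one,
    P.constantCoeff_frameMatrix T v, add_zero, Matrix.det_one]
  exact isUnit_one

variable (F : Frames P)

/-- The fixed frame over an algebra. -/
def Frames.gT (F : Frames P) (T : Type) [CommRing T] [Algebra O T] (v : ℕ) : GL (Fin 2) T :=
  Units.map ((algebraMap O T).mapMatrix : Matrix (Fin 2) (Fin 2) O →+* _).toMonoidHom (F.g v)

/-- The moving frame. -/
def Frames.unit (F : Frames P) (T : Type) [CommRing T] [Algebra O T] (v : ℕ) :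
    GL (Fin 2) (MvPowerSeries P.FrameVar T) :=
  Matrix.nonsingInvUnit _ (P.isUnit_det_frameMatrix T v) *
    Units.map ((MvPowerSeries.C : T →+* MvPowerSeries P.FrameVar T).mapMatrix :
      Matrix (Fin 2) (Fin 2) T →+* _).toMonoidHom (F.gT T v)

theorem framed_eq (v : ℕ) (M : Matrix (Fin 2) (Fin 2) T) :
    P.framed F v M = (F.unit T v : Matrix (Fin 2) (Fin 2) (MvPowerSeries P.FrameVar T)) *
      M.map MvPowerSeries.C * (((F.unit T v)⁻¹ : GL (Fin 2) (MvPowerSeries P.FrameVar T)) :
        Matrix (Fin 2) (Fin 2) (MvPowerSeries P.FrameVar T)) := by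
  have e1 : (F.unit T v : Matrix (Fin 2) (Fin 2) (MvPowerSeries P.FrameVar T)) =
      (1 + P.frameMatrix T v) *
        ((F.g v : Matrix (Fin 2) (Fin 2) O).map (algebraMap O T)).map MvPowerSeries.C := rfl
  have e2 : (((F.unit T v)⁻¹ : GL (Fin 2) (MvPowerSeries P.FrameVar T)) :
    Matrix (Fin 2) (Fin 2) (MvPowerSeries P.FrameVar T)) =
      (((((F.g v)⁻¹ : GL (Fin 2) O) : Matrix (Fin 2) (Fin 2) O).map (algebraMap O T)).map
        MvPowerSeries.C : Matrix (Fin 2) (Fin 2) (MvPowerSeries P.FrameVar T)) *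
        (1 + P.frameMatrix T v)⁻¹ := by
    rw [Frames.unit, mul_inv_rev]
    rfl
  rw [e1, e2, LiftProblem.framed, Matrix.map_mul, Matrix.map_mul]
  simp only [mul_assoc]

theorem framed_one (v : ℕ) : P.framed F v (1 : Matrix (Fin 2) (Fin 2) T) = 1 := by
  rw [framed_eq, Matrix.map_one _ (map_zero _) (map_one _), mul_one, Units.mul_inv]

theorem det_framed (v : ℕ) (M : Matrix (Fin 2) (Fin 2) T) :
    (P.framed F v M).det = MvPowerSeries.C M.det := by
  rw [framed_eq, Matrix.det_units_conj]
  exact (RingHom.map_det _ M).symm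

theorem trace_framed (v : ℕ) (M : Matrix (Fin 2) (Fin 2) T) :
    (P.framed F v M).trace = MvPowerSeries.C M.trace := by
  rw [framed_eq, Matrix.trace_units_conj, Matrix.trace_fin_two, Matrix.trace_fin_two, map_add,
    Matrix.map_apply, Matrix.map_apply]

theorem framed_mulVec (v : ℕ) (M : Matrix (Fin 2) (Fin 2) T) (w : Fin 2 → T) (c : T)
    (h : M.mulVec w = c • w) :
    (P.framed F v M).mulVec
        ((F.unit T v : Matrix (Fin 2) (Fin 2) (MvPowerSeries P.FrameVar T)).mulVec
          fun i => MvPowerSeries.C (w i)) =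
      (MvPowerSeries.C c : MvPowerSeries P.FrameVar T) •
        (F.unit T v : Matrix (Fin 2) (Fin 2) (MvPowerSeries P.FrameVar T)).mulVec
          fun i => MvPowerSeries.C (w i) := by
  rw [framed_eq, Matrix.mulVec_mulVec, mul_assoc _ _
    (F.unit T v : Matrix (Fin 2) (Fin 2) (MvPowerSeries P.FrameVar T)), Units.inv_mul, mul_one,
    ← Matrix.mulVec_mulVec, ← Matrix.mulVec_smul]
  congr 1
  funext i
  rw [show (fun i => (MvPowerSeries.C (w i) : MvPowerSeries P.FrameVar T)) =
    MvPowerSeries.C ∘ w from rfl, ← RingHom.map_mulVec, h, Pi.smul_apply, Pi.smul_apply,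
      smul_eq_mul, smul_eq_mul, map_mul]
  rfl

theorem exists_isUnit_unit_mulVec {A : Type} [CommRing A] [IsLocalRing A] (g : GL (Fin 2) A)
    (w : Fin 2 → A) (hw : ∃ i, IsUnit (w i)) :
    ∃ i, IsUnit ((g : Matrix (Fin 2) (Fin 2) A).mulVec w i) := by
  by_contra h
  push Not at h
  obtain ⟨i, hi⟩ := hw
  refine (mem_maximalIdeal (w i)).mp ?_ hi
  have e : w = ((g⁻¹ : GL (Fin 2) A) : Matrix (Fin 2) (Fin 2) A).mulVec
      ((g : Matrix (Fin 2) (Fin 2) A).mulVec w) := by
    rw [Matrix.mulVec_mulVec, Units.inv_mul, Matrix.one_mulVec]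
  rw [e, Matrix.mulVec, dotProduct]
  exact sum_mem fun j _ => Ideal.mul_mem_left _ _ ((mem_maximalIdeal _).mpr (h j))

theorem constantCoeff_framed (v : ℕ) (M : Matrix (Fin 2) (Fin 2) T) :
    (MvPowerSeries.constantCoeff : MvPowerSeries P.FrameVar T →+* T).mapMatrix (P.framed F v M) =
      (F.gT T v : Matrix (Fin 2) (Fin 2) T) * M *
        (((F.gT T v)⁻¹ : GL (Fin 2) T) : Matrix (Fin 2) (Fin 2) T) := by
  let π := (MvPowerSeries.constantCoeff : MvPowerSeries P.FrameVar T →+* T).mapMatrix (m := Fin 2)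
  have hU : π (F.unit T v : Matrix (Fin 2) (Fin 2) (MvPowerSeries P.FrameVar T)) = F.gT T v := by
    rw [Frames.unit, Units.val_mul, map_mul]
    show π (1 + P.frameMatrix T v) * π ((F.gT T v : Matrix (Fin 2) (Fin 2) T).map
      MvPowerSeries.C) = _
    rw [map_add, map_one, show π (P.frameMatrix T v) = 0 from P.constantCoeff_frameMatrix T v,
      add_zero, one_mul]
    ext i j; simp [π]
  have hUi : π (((F.unit T v)⁻¹ : GL (Fin 2) (MvPowerSeries P.FrameVar T)) :
    Matrix (Fin 2) (Fin 2) (MvPowerSeries P.FrameVar T)) =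
      (((F.gT T v)⁻¹ : GL (Fin 2) T) : Matrix (Fin 2) (Fin 2) T) := by
    have e : Units.map π.toMonoidHom (F.unit T v) = F.gT T v := Units.ext hU
    rw [← e, ← map_inv]
    rfl
  show π (P.framed F v M) = _
  rw [framed_eq, map_mul, map_mul, hU, hUi]
  congr 2

theorem map_framed {T' : Type} [CommRing T'] [Algebra O T'] (φ : T →ₐ[O] T') (v : ℕ)
    (M : Matrix (Fin 2) (Fin 2) T) :
    (MvPowerSeries.map (σ := P.FrameVar) φ.toRingHom).mapMatrix (P.framed F v M) =
      P.framed F v (φ.toRingHom.mapMatrix M) := by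
  set π := (MvPowerSeries.map (σ := P.FrameVar) φ.toRingHom).mapMatrix (m := Fin 2) with hπ
  have hC : ∀ N : Matrix (Fin 2) (Fin 2) T, π (N.map MvPowerSeries.C) =
      (φ.toRingHom.mapMatrix N).map MvPowerSeries.C := fun N => by
    ext i j : 1; simp [hπ]
  have hZ : π (1 + P.frameMatrix T v) = 1 + P.frameMatrix T' v := by
    rw [map_add, map_one]
    congr 1
    ext i j : 1
    simp only [hπ, RingHom.mapMatrix_apply, Matrix.map_apply, LiftProblem.frameMatrix,
      Matrix.of_apply]
    split <;> simp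
  have hg : ∀ N : Matrix (Fin 2) (Fin 2) O, φ.toRingHom.mapMatrix (N.map (algebraMap O T)) =
      N.map (algebraMap O T') := fun N => by ext i j; simp
  have hU : π (F.unit T v : Matrix (Fin 2) (Fin 2) (MvPowerSeries P.FrameVar T)) =
      (F.unit T' v : Matrix (Fin 2) (Fin 2) (MvPowerSeries P.FrameVar T')) := by
    show π ((1 + P.frameMatrix T v) *
      ((F.g v : Matrix (Fin 2) (Fin 2) O).map (algebraMap O T)).map MvPowerSeries.C) = _
    rw [map_mul, hZ, hC, hg]
    rfl
  have e : Units.map π.toMonoidHom (F.unit T v) = F.unit T' v := Units.ext hU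
  rw [framed_eq, framed_eq, map_mul, map_mul, hU, hC, ← e, ← map_inv]
  rfl

theorem map_coord {T' : Type} [CommRing T'] [Algebra O T'] (φ : T →ₐ[O] T') (M : MatRep T)
    (c : P.LocCoord) :
    MvPowerSeries.map φ.toRingHom (P.coord F M c) = P.coord F (mapRep φ.toRingHom M) c := by
  rw [LiftProblem.coord, LiftProblem.coord, map_sub, MvPowerSeries.map_C]
  congr 1
  · exact congrFun (congrFun (map_framed F φ _ _) _) _
  · simp

theorem gT_conj_sub_mem {I : Ideal T} (v : ℕ) (M : Matrix (Fin 2) (Fin 2) T)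
    (N : Matrix (Fin 2) (Fin 2) O) (h : ∀ i j, M i j - algebraMap O T (N i j) ∈ I) (i j : Fin 2) :
    ((F.gT T v : Matrix (Fin 2) (Fin 2) T) * M *
      (((F.gT T v)⁻¹ : GL (Fin 2) T) : Matrix (Fin 2) (Fin 2) T)) i j -
      algebraMap O T (((F.g v : Matrix (Fin 2) (Fin 2) O) * N *
        ((F.g v)⁻¹ : GL (Fin 2) O)) i j) ∈ I := by
  have e : algebraMap O T (((F.g v : Matrix (Fin 2) (Fin 2) O) * N *
      ((F.g v)⁻¹ : GL (Fin 2) O)) i j) = ((F.gT T v : Matrix (Fin 2) (Fin 2) T) *
        (algebraMap O T).mapMatrix N *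
          (((F.gT T v)⁻¹ : GL (Fin 2) T) : Matrix (Fin 2) (Fin 2) T)) i j := by
    show (algebraMap O T).mapMatrix _ i j = _
    rw [map_mul, map_mul]
    rfl
  rw [e, ← Matrix.sub_apply, ← sub_mul, ← mul_sub, Matrix.mul_apply]
  refine sum_mem fun l _ => Ideal.mul_mem_right _ _ ?_
  rw [Matrix.mul_apply]
  exact sum_mem fun m _ => Ideal.mul_mem_left _ _ (h m l)

theorem constantCoeff_coord_mem {I : Ideal T} (M : MatRep T)
    (h : ∀ σ i j, M σ i j - algebraMap O T (P.ρ σ i j) ∈ I) (c : P.LocCoord) :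
    MvPowerSeries.constantCoeff (P.coord F M c) ∈ I := by
  rw [LiftProblem.coord, map_sub, MvPowerSeries.constantCoeff_C]
  have := congrFun (congrFun (constantCoeff_framed F (P.coordPrime c) (M (P.coordElem F c)))
    (P.coordPos c).1) (P.coordPos c).2
  rw [RingHom.mapMatrix_apply, Matrix.map_apply] at this
  rw [this]
  exact gT_conj_sub_mem F _ _ _ (h _) _ _

theorem coord_mem_maximalIdeal [IsLocalRing T] (M : MatRep T)
    (h : ∀ σ i j, M σ i j - algebraMap O T (P.ρ σ i j) ∈ maximalIdeal T) (c : P.LocCoord) :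
    P.coord F M c ∈ maximalIdeal (MvPowerSeries P.FrameVar T) :=
  (mem_maximalIdeal_iff_constantCoeff _).mpr (constantCoeff_coord_mem F M h c)

end FLTAgent.ModularityLifting
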