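import Fermat.Agent.ModularityLifting.Engine.SiteCharts
import Fermat.Agent.ModularityLifting.Engine.Framed

/-!
# Framed representations with the local types of a level lie on its component

`OnChart` says that a family of values comes from parameters of a chart. Triangular, cone and
unramified points lie on their charts, and `eval_component` concludes that a framed representation
with the local types of a level lies on the component of the level.
-/

set_option autoImplicit false

noncomputable section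

open IsLocalRing

namespace FLTAgent.ModularityLifting

open FLTAgent.DefRing Chart Engine

local notation "Qbar" => AlgebraicClosure ℚ

instance isLocalHom_algebraMap_comp_mvPowerSeries {O C σ : Type} [CommRing O] [CommRing C]
    [Algebra O C] [IsLocalHom (algebraMap O C)] :
    IsLocalHom (algebraMap O (MvPowerSeries σ C)) :=
  ⟨fun r hr => by
    rw [MvPowerSeries.algebraMap_apply, MvPowerSeries.isUnit_iff_constantCoeff,
      MvPowerSeries.constantCoeff_C] at hr
    exact isUnit_of_map_unit _ _ hr⟩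

/-- Parameters with values in an algebra giving a family of values. -/
def OnChart {O : Type} [CommRing O] [IsLocalRing O] {T : Type} [CommRing T] [IsLocalRing T]
    [Algebra O T] {ι : Type} (C : Chart O ι) (a : ι → T) : Prop :=
  ∃ u : C.Param → T, (∀ k, C.small k = true → u k ∈ maximalIdeal T) ∧
    ∀ i, a i = MvPolynomial.aeval u (C.entry i)

section Points

variable {O : Type} [CommRing O] [IsLocalRing O] {T : Type} [CommRing T] [IsLocalRing T]
  [Algebra O T] [IsLocalHom (algebraMap O T)]

theorem algebraMap_mem {x : O} (h : x ∈ maximalIdeal O) : algebraMap O T x ∈ maximalIdeal T :=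
  map_nonunit (algebraMap O T) x h

omit [IsLocalHom (algebraMap O T)] in
theorem mem_of_algebraMap_mem {x : O} (h : algebraMap O T x ∈ maximalIdeal T) :
    x ∈ maximalIdeal O :=
  (mem_maximalIdeal x).mpr fun hx => (mem_maximalIdeal _).mp h (hx.map (algebraMap O T))

omit [IsLocalHom (algebraMap O T)] in
/-- Points of the factors give a point of the product. -/
theorem onChart_sigma {K : Type} [Fintype K] {ι : K → Type} (D : ∀ j, Chart O (ι j))
    (a : (Σ j, ι j) → T) (h : ∀ j, OnChart (D j) fun x => a ⟨j, x⟩) :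
    OnChart (Chart.sigma D) a := by
  choose u hu hue using h
  refine ⟨fun x => u x.1 x.2, fun x hx => hu x.1 x.2 hx, ?_⟩
  rintro ⟨j, x⟩
  refine (hue j x).trans ?_
  show _ = MvPolynomial.aeval _ (MvPolynomial.rename (Sigma.mk (β := fun j => (D j).Param) j)
    ((D j).entry x))
  rw [MvPolynomial.aeval_rename]
  rfl

omit [IsLocalHom (algebraMap O T)] in
/-- A point of a chart gives one of a reindexed chart. -/
theorem onChart_reindex {ι ι' : Type} (D : Chart O ι) (e : ι' → ι) (a : ι → T) (h : OnChart D a) :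
    OnChart (D.reindex e) fun i => a (e i) :=
  let ⟨u, hu, hue⟩ := h
  ⟨u, hu, fun i => hue (e i)⟩

omit [IsLocalRing O] [IsLocalRing T] [IsLocalHom (algebraMap O T)] in
theorem aeval_triEntry {κ : Type} (u : κ → T) (a d : O) (c t : MvPolynomial κ O) (i j : Fin 2) :
    MvPolynomial.aeval u (triEntry (MvPolynomial.C a) (MvPolynomial.C d) c t i j) =
      triEntry (algebraMap O T a) (algebraMap O T d) (MvPolynomial.aeval u c)
        (MvPolynomial.aeval u t) i j := by
  have := map_triEntry (MvPolynomial.aeval u).toRingHom (MvPolynomial.C a)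
    (MvPolynomial.C d) c t i j
  simpa using this

omit [IsLocalHom (algebraMap O T)] in
/-- Triangular points. -/
theorem onChart_tri {J : Type} [Fintype J] (a d c₀ : J → O) {t : T} (ht : t ∈ maximalIdeal T)
    (A : J → Matrix (Fin 2) (Fin 2) T)
    (hA : ∀ j, A j = triEntry (algebraMap O T (a j)) (algebraMap O T (d j)) (A j 0 1) t)
    (hc : ∀ j, A j 0 1 - algebraMap O T (c₀ j) ∈ maximalIdeal T) :
    OnChart (tri a d c₀) fun x : J × Fin 2 × Fin 2 =>
      A x.1 x.2.1 x.2.2 - algebraMap O T (triEntry (a x.1) (d x.1) (c₀ x.1) 0 x.2.1 x.2.2) := by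
  refine ⟨fun k => k.elim t fun j => A j 0 1 - algebraMap O T (c₀ j),
    fun k _ => by cases k <;> simp [ht, hc], fun x => ?_⟩
  simp only [map_sub, aeval_triEntry, map_add, MvPolynomial.aeval_C, MvPolynomial.aeval_X,
    Option.elim_none, Option.elim_some, add_sub_cancel]
  rw [← hA]

/-- The values of the parameters of a cone. -/
def coneVal {T : Type} (a t x m : T) : ConeParam → T
  | .a => a
  | .t => t
  | .x => x
  | .n => m

/-- Steinberg points. -/
theorem onChart_stChart (q ε c n : O) (hε : ε * ε = 1) (hq : IsUnit q)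
    (Φ τ : Matrix (Fin 2) (Fin 2) T)
    (hΦ : ∀ i k, Φ i k - algebraMap O T (!![ε * q, c; 0, ε] i k) ∈ maximalIdeal T)
    (hτ : ∀ i k, τ i k - algebraMap O T (!![1, n; 0, 1] i k) ∈ maximalIdeal T)
    (hΦdet : Φ.det = algebraMap O T q) (hτdet : τ.det = 1)
    (w : Fin 2 → T) (hw : ∃ i, IsUnit (w i))
    (hΦw : Φ.mulVec w = algebraMap O T (ε * q) • w) (hτw : τ.mulVec w = w) :
    OnChart (stChart q ε c n) fun x : TameCoord =>
      ![Φ, τ] x.pos.1 x.pos.2.1 x.pos.2.2 -
        algebraMap O T (![!![ε * q, c; 0, ε], !![1, n; 0, 1]] x.pos.1 x.pos.2.1 x.pos.2.2) := by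
  classical
  have hεT : algebraMap O T ε * algebraMap O T ε = 1 := by rw [← map_mul, hε, map_one]
  unfold stChart
  split_ifs with h
  · have hεc : algebraMap O T (ε * c) ∈ maximalIdeal T := algebraMap_mem h.2.1
    have hcO : c ∈ maximalIdeal O := by
      have := Ideal.mul_mem_left _ ε h.2.1
      rwa [← mul_assoc, hε, one_mul] at this
    have hεq : algebraMap O T (ε * q) - algebraMap O T ε ∈ maximalIdeal T := by
      rw [← map_sub]
      exact algebraMap_mem (by simpa [mul_sub] using Ideal.mul_mem_left _ ε h.1)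
    obtain ⟨a, t, x, m, hx, hm, e0, e1⟩ := exists_cone_param Φ τ (q := algebraMap O T q)
      (ε := algebraMap O T ε) (x₀ := algebraMap O T (ε * c)) (n₀ := algebraMap O T n) hεT
      (by rw [← map_one (algebraMap O T), ← map_sub]; exact algebraMap_mem h.1) hεc
      (algebraMap_mem h.2.2) hΦdet hτdet w hw (by rwa [← map_mul]) hτw
      (fun i k => by
        have h1 := hΦ i k
        fin_cases i <;> fin_cases k <;>
          simp only [Fin.zero_eta, Fin.mk_one, Matrix.sub_apply, Matrix.smul_apply,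
            Matrix.one_apply_eq, Fin.zero_ne_one, one_ne_zero, ne_eq, not_false_eq_true,
            Matrix.one_apply_ne, smul_eq_mul, mul_one, mul_zero, sub_zero, Matrix.of_apply,
            Matrix.cons_val', Matrix.cons_val_zero, Matrix.cons_val_one, Matrix.cons_val_fin_one,
            map_zero] at h1 ⊢
        · convert add_mem h1 hεq using 1; ring
        · convert add_mem h1 (algebraMap_mem (T := T) hcO) using 1; ring
        · exact h1
        · exact h1)
      (fun i k => by
        have h1 := hτ i k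
        fin_cases i <;> fin_cases k <;>
          simp only [Fin.zero_eta, Fin.mk_one, Matrix.sub_apply, Matrix.one_apply_eq,
            Fin.zero_ne_one, one_ne_zero, ne_eq, not_false_eq_true, Matrix.one_apply_ne, sub_zero,
            Matrix.of_apply, Matrix.cons_val', Matrix.cons_val_zero, Matrix.cons_val_one,
            Matrix.cons_val_fin_one, map_zero, map_one] at h1 ⊢
        · exact h1
        · convert add_mem h1 (algebraMap_mem (T := T) h.2.2) using 1; ring
        · exact h1
        · exact h1)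
    refine ⟨coneVal a t x m, fun k hk => ?_, fun y => ?_⟩
    · cases k <;> first | exact hx | exact hm | simp at hk
    have hK : ∀ j i k, coneMat q ε (ε * c) n 0 0 j i k =
        ![!![ε * q, c; 0, ε], !![1, n; 0, 1]] j i k := by
      intro j i k
      fin_cases j <;> fin_cases i <;> fin_cases k <;> simp [coneMat, conjUL_apply, ← mul_assoc, hε]
    have hP : ![Φ, τ] y.pos.1 = coneMat (algebraMap O T q) (algebraMap O T ε)
        (algebraMap O T (ε * c) + x) (algebraMap O T n + m) a t y.pos.1 := by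
      cases y <;> first | exact e0 | exact e1
    show ![Φ, τ] y.pos.1 y.pos.2.1 y.pos.2.2 - _ = MvPolynomial.aeval _ (coneEntry q ε (ε * c) n y)
    rw [coneEntry, map_sub, MvPolynomial.aeval_C, hK, hP]
    congr 1
    have := map_coneMat (MvPolynomial.aeval (R := O) (S₁ := T) (coneVal a t x m)).toRingHom
      (MvPolynomial.C q) (MvPolynomial.C ε) (MvPolynomial.C (ε * c) + MvPolynomial.X .x)
      (MvPolynomial.C n + MvPolynomial.X .n) (MvPolynomial.X .a) (MvPolynomial.X .t)
      y.pos.1 y.pos.2.1 y.pos.2.2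
    simpa [coneVal] using this.symm
  · have hεu : IsUnit ε := IsUnit.of_mul_eq_one ε hε
    have key : ∃ j₀ : Fin 2, IsUnit (![ε * q, 1] j₀ - ![ε, 1] j₀) ∨ IsUnit (![c, n] j₀) := by
      rcases not_and_or.mp h with hq' | h'
      · refine ⟨0, Or.inl ?_⟩
        simpa [mul_sub] using hεu.mul (Classical.not_not.mp hq' : IsUnit (q - 1))
      rcases not_and_or.mp h' with hc | hn
      · exact ⟨0, Or.inr (isUnit_of_mul_isUnit_right (Classical.not_not.mp hc : IsUnit (ε * c)))⟩
      · exact ⟨1, Or.inr (by simpa using (Classical.not_not.mp hn : IsUnit n))⟩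
    obtain ⟨j₀, hj⟩ := key
    have hconst : ∀ j i k, ![Φ, τ] j i k -
        algebraMap O T (![!![ε * q, c; 0, ε], !![1, n; 0, 1]] j i k) ∈ maximalIdeal T := by
      intro j; fin_cases j <;> [exact hΦ; exact hτ]
    have h01 : ∀ j, ![Φ, τ] j 0 1 - algebraMap O T (![c, n] j) ∈ maximalIdeal T := fun j => by
      have := hconst j 0 1
      fin_cases j <;> simpa using this
    obtain ⟨t, ht, hA⟩ := exists_tri_param ![Φ, τ]
      (fun j => algebraMap O T (![ε * q, 1] j)) (fun j => algebraMap O T (![ε, 1] j))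
      (fun j => by fin_cases j; exacts [(hεu.mul hq).map _, isUnit_one.map _]) w hw
      (fun j => by fin_cases j <;> simp [hΦw, hτw])
      (fun j => by
        fin_cases j
        · show Φ.det = algebraMap O T (ε * q) * algebraMap O T ε
          rw [hΦdet, ← map_mul, mul_right_comm, hε, one_mul]
        · show τ.det = algebraMap O T 1 * algebraMap O T 1
          rw [hτdet, map_one, one_mul])
      j₀
      (by have := hconst j₀ 1 0; fin_cases j₀ <;> simpa using this)
      (by have := hconst j₀ 0 0; fin_cases j₀ <;> simpa using this)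
      (by
        rcases hj with hj | hj
        · exact Or.inl (by simpa using hj.map (algebraMap O T))
        · refine Or.inr (Classical.not_not.mp fun hu => ?_)
          refine (mem_maximalIdeal _).mp ?_ (hj.map (algebraMap O T))
          simpa using sub_mem ((mem_maximalIdeal _).mpr hu) (h01 j₀))
    obtain ⟨u, hu, he⟩ := onChart_tri ![ε * q, 1] ![ε, 1] ![c, n] ht ![Φ, τ] hA h01
    refine ⟨u, hu, fun x => ?_⟩
    rw [← he x.pos]
    cases x <;> simp [TameCoord.pos, triEntry]

omit [IsLocalHom (algebraMap O T)] in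
/-- Unramified points. -/
theorem onChart_urChart (N : Fin 2 → Fin 2 → O) (Φ : Matrix (Fin 2) (Fin 2) T)
    (K : Fin 2 → Fin 2 → O)
    (hΦ : ∀ i k, Φ i k - algebraMap O T (K i k) ∈ maximalIdeal T)
    (hN : ∀ i k, (1 : Matrix (Fin 2) (Fin 2) T) i k - algebraMap O T (N i k) ∈ maximalIdeal T) :
    OnChart (urChart N) fun x : TameCoord =>
      ![Φ, 1] x.pos.1 x.pos.2.1 x.pos.2.2 -
        algebraMap O T (![K, N] x.pos.1 x.pos.2.1 x.pos.2.2) := by
  classical
  have h1 : ∀ i k, algebraMap O T ((1 : Matrix (Fin 2) (Fin 2) O) i k) =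
      (1 : Matrix (Fin 2) (Fin 2) T) i k := fun i k => by
    rw [Matrix.one_apply, Matrix.one_apply]; split <;> simp
  have hc : ∀ i k, (1 : Matrix (Fin 2) (Fin 2) O) i k - N i k ∈ maximalIdeal O := fun i k => by
    refine mem_of_algebraMap_mem (T := T) ?_
    rw [map_sub, h1]
    exact hN i k
  unfold urChart
  refine ⟨![Φ 0 0 - algebraMap O T (K 0 0), Φ 0 1 - algebraMap O T (K 0 1),
    Φ 1 0 - algebraMap O T (K 1 0)], fun k _ => by fin_cases k <;> exact hΦ _ _, fun x => ?_⟩
  cases x <;> dsimp only [TameCoord.pos] <;>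
    (try rw [dif_pos (hc _ _)]) <;> simp [map_sub]

end Points

section Level

variable {O : Type} [CommRing O] [IsDomain O] [IsDiscreteValuationRing O] {P : LiftProblem O}

theorem Frames.IsNormal.frob_matrix {F : Frames P} (hF : F.IsNormal) {v : ℕ}
    (hv : v ∈ P.minimal ∪ P.raise) (hvp : v ≠ P.p) :
    F.rho v (P.frob v) = !![P.ε v * (v : O), F.rho v (P.frob v) 0 1; 0, P.ε v] := by
  ext i j
  fin_cases i <;> fin_cases j
  exacts [hF.frob00 v hv hvp, rfl, F.upper_frob v hv hvp, hF.frob11 v hv hvp]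

theorem Frames.IsNormal.tau_matrix {F : Frames P} (hF : F.IsNormal) {v : ℕ}
    (hv : v ∈ P.minimal ∪ P.raise) (hvp : v ≠ P.p) :
    F.rho v (F.τ v) = !![1, F.rho v (F.τ v) 0 1; 0, 1] := by
  ext i j
  fin_cases i <;> fin_cases j
  exacts [hF.tau00 v hv hvp, rfl, F.upper_τ v hv hvp, hF.tau11 v hv hvp]

variable [IsAdicComplete (maximalIdeal O) O] {C : Type} [CommRing C] [IsDomain C]
  [IsDiscreteValuationRing C] [IsAdicComplete (maximalIdeal C) C] [Algebra O C]
  [IsLocalHom (algebraMap O C)] (F : Frames P) (M : MatRep C)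

omit [IsAdicComplete (maximalIdeal O) O] [IsDomain C] [IsDiscreteValuationRing C]
  [IsAdicComplete (maximalIdeal C) C] [IsLocalHom (algebraMap O C)] in
theorem charZero_coeff (P : LiftProblem O) (hinj : Function.Injective (algebraMap O C)) :
    CharZero C :=
  haveI := P.charZero
  charZero_of_injective_algebraMap hinj

theorem conj_unit_mulVec {A : Type} [CommRing A] (g : GL (Fin 2) A) (N : Matrix (Fin 2) (Fin 2) A)
    (h10 : ((g : Matrix (Fin 2) (Fin 2) A) * N *
      ((g⁻¹ : GL (Fin 2) A) : Matrix (Fin 2) (Fin 2) A)) 1 0 = 0) :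
    N.mulVec (((g⁻¹ : GL (Fin 2) A) : Matrix (Fin 2) (Fin 2) A).mulVec ![1, 0]) =
      ((g : Matrix (Fin 2) (Fin 2) A) * N * ((g⁻¹ : GL (Fin 2) A) : Matrix (Fin 2) (Fin 2) A)) 0 0 •
        ((g⁻¹ : GL (Fin 2) A) : Matrix (Fin 2) (Fin 2) A).mulVec ![1, 0] := by
  set Y := (g : Matrix (Fin 2) (Fin 2) A) * N * ((g⁻¹ : GL (Fin 2) A) : Matrix (Fin 2) (Fin 2) A)
  have e : N * ((g⁻¹ : GL (Fin 2) A) : Matrix (Fin 2) (Fin 2) A) =
      ((g⁻¹ : GL (Fin 2) A) : Matrix (Fin 2) (Fin 2) A) * Y := by
    simp only [Y, mul_assoc, Units.inv_mul_cancel_left]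
  rw [Matrix.mulVec_mulVec, e, ← Matrix.mulVec_mulVec, ← Matrix.mulVec_smul]
  congr 1
  funext i
  fin_cases i <;> simp [Matrix.mulVec, dotProduct, Fin.sum_univ_two, h10]

omit [IsAdicComplete (maximalIdeal O) O] [IsAdicComplete (maximalIdeal C) C]
  [IsLocalHom (algebraMap O C)] in
theorem framed_sub_mem (hres : ∀ σ i j, M σ i j - algebraMap O C (P.ρ σ i j) ∈ maximalIdeal C)
    (v : ℕ) (σ : AbsGal) (i j : Fin 2) :
    P.framed F v (M σ) i j - algebraMap O (MvPowerSeries P.FrameVar C) (F.rho v σ i j) ∈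
      maximalIdeal (MvPowerSeries P.FrameVar C) := by
  rw [mem_maximalIdeal_iff_constantCoeff, map_sub, MvPowerSeries.algebraMap_apply,
    MvPowerSeries.constantCoeff_C]
  have := congrFun (congrFun (constantCoeff_framed F v (M σ)) i) j
  rw [RingHom.mapMatrix_apply, Matrix.map_apply] at this
  rw [this]
  exact gT_conj_sub_mem F v _ _ (hres σ) i j

omit [IsAdicComplete (maximalIdeal O) O] [IsAdicComplete (maximalIdeal C) C] in
theorem exists_steinberg_eigenvector (hinj : Function.Injective (algebraMap O C))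
    (hcont : MatCont M) (hdet : ∀ σ, (M σ).det = algebraMap O C (P.ρ σ).det) {v : ℕ}
    (hv : v ∈ P.loc) (hvp : v ≠ P.p) {e : C} (he : e * e = 1) (hst : SteinbergAt M v e) :
    ∃ w : Fin 2 → C, (∃ i, IsUnit (w i)) ∧ (M (F.τ v)).mulVec w = w ∧
      (M (P.frob v)).mulVec w = (e * (v : C)) • w := by
  have := charZero_coeff P hinj
  have hv' := P.mem_loc_prime hv
  have hB := P.place_spec v hv'
  obtain ⟨x, hx, hτx⟩ := F.τ_root v hv hvp
  have hpC : (P.p : C) ∈ maximalIdeal C := by
    rw [← map_natCast (algebraMap O C)]; exact algebraMap_mem P.p_mem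
  obtain ⟨hI, htr⟩ := hst (P.place v) hB
  have hsq : ∀ σ ∈ (P.place v).inertiaSubgroupIn ℚ, (M σ - 1) * (M σ - 1) = 0 :=
    fun σ hσ => by rw [← sq]; exact hI σ hσ
  have hΦ := P.frob_spec v hv'
  exact exists_steinberg_line (M (P.frob v)) (M (F.τ v))
    (by rw [hdet, det_frobenius P.hp P.p_mem hv' hvp P.det hB hΦ, map_natCast]) (htr _ hΦ)
    (hsq _ (F.τ_mem v hv hvp))
    (steinberg_rel P.hp hpC hv' hvp hB hx (F.τ_mem v hv hvp) hτx M hcont hsq hΦ) he
    (Nat.cast_ne_zero.mpr hv'.ne_zero)
    (sub_ne_zero.mpr fun h => hv'.ne_one (Nat.cast_eq_one.mp h))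
    (by exact_mod_cast Nat.succ_ne_zero v)

omit [IsAdicComplete (maximalIdeal O) O] [IsAdicComplete (maximalIdeal C) C] in
theorem onChart_siteChart_tame (hF : F.IsNormal) (hinj : Function.Injective (algebraMap O C))
    (hcont : MatCont M) (hres : ∀ σ i j, M σ i j - algebraMap O C (P.ρ σ i j) ∈ maximalIdeal C)
    (hdet : ∀ σ, (M σ).det = algebraMap O C (P.ρ σ).det) {J : Finset ℕ} (hJ : J ⊆ P.raise)
    (v : P.tameLoc)
    (hst : (v : ℕ) ∈ P.minimal ∪ J → SteinbergAt M v (algebraMap O C (P.ε v)))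
    (hur : (v : ℕ) ∉ P.minimal ∪ J → UnramifiedAt M v) :
    OnChart (P.siteChart F J (.inl v)) fun x : TameCoord =>
      P.coord F M (.inl ⟨v, x⟩) := by
  classical
  obtain ⟨hvp, hv⟩ := Finset.mem_erase.mp v.2
  have hv' := P.mem_loc_prime hv
  have hB := P.place_spec _ hv'
  have hε : P.ε (v : ℕ) * P.ε (v : ℕ) = 1 := by rcases P.sign (v : ℕ) with h | h <;> simp [h]
  set T := MvPowerSeries P.FrameVar C
  have hcoord : ∀ x : TameCoord, P.coord F M (.inl ⟨v, x⟩) =
      ![P.framed F v (M (P.frob v)), P.framed F v (M (F.τ v))] x.pos.1 x.pos.2.1 x.pos.2.2 -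
        algebraMap O T (![F.rho v (P.frob v), F.rho v (F.τ v)] x.pos.1 x.pos.2.1 x.pos.2.2) := by
    intro x
    cases x <;> simp [LiftProblem.coord, LiftProblem.coordPrime, LiftProblem.coordElem,
      LiftProblem.coordPos, TameCoord.pos, MvPowerSeries.algebraMap_apply, Frames.rho,
      conjRep_apply, T]
  simp only [hcoord]
  show OnChart (ι := TameCoord) (if (v : ℕ) ∈ P.minimal ∪ J then _ else _) _
  split_ifs with h
  · have hvr : (v : ℕ) ∈ P.minimal ∪ P.raise := Finset.union_subset_union le_rfl hJ h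
    have heC : algebraMap O C (P.ε v) * algebraMap O C (P.ε v) = 1 := by
      rw [← map_mul, hε, map_one]
    obtain ⟨w, hw, hτw, hΦw⟩ := exists_steinberg_eigenvector F M hinj hcont hdet hv hvp heC (hst h)
    have hΦ' := framed_mulVec F v _ w _ hΦw
    have hτ' := framed_mulVec F v _ w 1 (by rw [one_smul]; exact hτw)
    rw [map_one, one_smul] at hτ'
    have hwu := exists_isUnit_unit_mulVec (F.unit C v) (fun i => MvPowerSeries.C (w i))
      (hw.imp fun i hi => hi.map MvPowerSeries.C)
    have := onChart_stChart ((v : ℕ) : O) (P.ε v) (F.rho v (P.frob v) 0 1) (F.rho v (F.τ v) 0 1) hε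
      (isUnit_natCast_prime P.hp P.p_mem hv' hvp)
      (P.framed F v (M (P.frob v))) (P.framed F v (M (F.τ v)))
      (fun i k => by rw [← hF.frob_matrix hvr hvp]; exact framed_sub_mem F M hres v _ i k)
      (fun i k => by rw [← hF.tau_matrix hvr hvp]; exact framed_sub_mem F M hres v _ i k)
      (by rw [det_framed, hdet, det_frobenius P.hp P.p_mem hv' hvp P.det hB (P.frob_spec _ hv'),
        MvPowerSeries.algebraMap_apply])
      (by rw [det_framed, hdet, det_inertia P.hp P.p_mem hv' hvp P.det hB (F.τ_mem _ hv hvp),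
        map_one, map_one])
      _ hwu
      (by rw [hΦ', MvPowerSeries.algebraMap_apply, map_mul (algebraMap O C), map_natCast])
      hτ'
    rwa [← hF.frob_matrix hvr hvp, ← hF.tau_matrix hvr hvp] at this
  · have hτ1 : M (F.τ v) = 1 := hur h _ hB _ (F.τ_mem _ hv hvp)
    rw [hτ1, framed_one]
    exact onChart_urChart _ (P.framed F v (M (P.frob v))) _
      (fun i k => framed_sub_mem F M hres v _ i k)
      (fun i k => by
        have := framed_sub_mem F M hres v (F.τ v) i k
        rwa [hτ1, framed_one] at this)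

omit [IsAdicComplete (maximalIdeal O) O] [IsAdicComplete (maximalIdeal C) C] in
theorem onChart_siteChart_p (hF : F.IsNormal)
    (hcont : MatCont M) (hres : ∀ σ i j, M σ i j - algebraMap O C (P.ρ σ i j) ∈ maximalIdeal C)
    (hdet : ∀ σ, (M σ).det = algebraMap O C (P.ρ σ).det) (J : Finset ℕ)
    (u : {_u : Unit // P.p ∈ P.loc})
    (hs : StrictAt M P.p (algebraMap O C (P.ε P.p))) :
    OnChart (P.siteChart F J (.inr (.inl u))) fun x : Fin 3 × Fin 2 × Fin 2 =>
      P.coord F M (.inr ⟨x, u.2⟩) := by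
  classical
  have hp' := P.p_mem_loc_iff.mp u.2
  have hB := P.place_spec _ P.hp
  set T := MvPowerSeries P.FrameVar C
  obtain ⟨g, hg⟩ := hs _ hB
  have hρc : MatCont (mapRep (algebraMap O C) (F.rho P.p)) :=
    (matCont_conjRep P.cont _).map _ inferInstance
  have hd : ∀ σ ∈ (P.place P.p).decompositionSubgroup ℚ,
      conjRep g M σ 1 1 = algebraMap O C (F.rho P.p σ 1 1) := fun σ hσ => by
    have h := diag_eq_of_inertia_frobenius P.hp hB (conjRep g M)
      (mapRep (algebraMap O C) (F.rho P.p)) (matCont_conjRep hcont g) hρc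
      (fun τ hτ => (hg τ hτ).1)
      (fun τ hτ => by rw [mapRep_apply]; exact (congrArg _ (F.upper_p hp' τ hτ)).trans (map_zero _))
      (fun τ hτ => by
        rw [mapRep_apply, hF.p_inertia hp' τ hτ, map_one]
        exact (hg τ (FLTAgent.Density.mem_inertiaSubgroupIn_iff.mp hτ).1).2.1 hτ)
      (P.frob_spec _ P.hp)
      (by
        rw [mapRep_apply, hF.p_frob hp']
        exact (hg _ (P.frob_mem _ P.hp)).2.2 (P.frob_spec _ P.hp)) σ hσ
    rwa [mapRep_apply] at h
  have hρdet : ∀ σ ∈ (P.place P.p).decompositionSubgroup ℚ,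
      F.rho P.p σ 0 0 * F.rho P.p σ 1 1 = (P.ρ σ).det := fun σ hσ => by
    have h : (F.rho P.p σ).det = (P.ρ σ).det := Matrix.det_units_conj (F.g P.p) (P.ρ σ)
    rwa [Matrix.det_fin_two, show F.rho P.p σ 1 0 = 0 from F.upper_p hp' σ hσ, mul_zero,
      sub_zero] at h
  have hdu : ∀ σ, IsUnit (P.ρ σ).det := fun σ =>
    IsUnit.map Matrix.detMonoidHom ((Group.isUnit σ).map P.ρ)
  have ha : ∀ σ ∈ (P.place P.p).decompositionSubgroup ℚ,
      conjRep g M σ 0 0 = algebraMap O C (F.rho P.p σ 0 0) := fun σ hσ => by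
    have h : (conjRep g M σ).det = algebraMap O C (P.ρ σ).det :=
      (Matrix.det_units_conj g (M σ)).trans (hdet σ)
    rw [Matrix.det_fin_two, show conjRep g M σ 1 0 = 0 from (hg σ hσ).1, mul_zero, sub_zero,
      hd σ hσ, ← hρdet σ hσ, map_mul] at h
    exact ((isUnit_of_mul_isUnit_right (hρdet σ hσ ▸ hdu σ)).map
      (algebraMap O C)).mul_right_cancel h
  let w : Fin 2 → C := ((g⁻¹ : GL (Fin 2) C) : Matrix (Fin 2) (Fin 2) C).mulVec ![1, 0]
  have hw : ∃ i, IsUnit (w i) := exists_isUnit_unit_mulVec g⁻¹ _ ⟨0, by simp⟩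
  have hMw : ∀ σ ∈ (P.place P.p).decompositionSubgroup ℚ,
      (M σ).mulVec w = algebraMap O C (F.rho P.p σ 0 0) • w := fun σ hσ => by
    rw [← ha σ hσ]; exact conj_unit_mulVec g (M σ) (hg σ hσ).1
  set a := fun j => F.rho P.p (P.pElem j) 0 0 with haa
  set d := fun j => F.rho P.p (P.pElem j) 1 1 with hdd
  have hupper : ∀ j, F.rho P.p (P.pElem j) 1 0 = 0 := fun j => F.upper_p hp' _ (P.pElem_mem j)
  obtain ⟨t, ht, hA⟩ := exists_tri_param (fun j => P.framed F P.p (M (P.pElem j)))
    (fun j => algebraMap O T (a j)) (fun j => algebraMap O T (d j))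
    (fun j => (isUnit_of_mul_isUnit_left (hρdet _ (P.pElem_mem j) ▸ hdu _)).map _)
    ((F.unit C P.p : Matrix (Fin 2) (Fin 2) T).mulVec fun i => MvPowerSeries.C (w i))
    (exists_isUnit_unit_mulVec _ _ (hw.imp fun i hi => hi.map MvPowerSeries.C))
    (fun j => by
      rw [framed_mulVec F P.p _ w _ (hMw _ (P.pElem_mem j)), MvPowerSeries.algebraMap_apply])
    (fun j => by
      rw [det_framed, hdet, ← map_mul, hρdet _ (P.pElem_mem j), MvPowerSeries.algebraMap_apply])
    0
    (by simpa [hupper] using framed_sub_mem F M hres P.p (P.pElem 0) 1 0)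
    (framed_sub_mem F M hres P.p (P.pElem 0) 0 0)
    (Or.inl (by
      rw [← map_sub]; exact (P.isUnit_pElem_zero F hF u.2).map _))
  obtain ⟨v, hv, he⟩ := onChart_tri a d (fun j => F.rho P.p (P.pElem j) 0 1) ht _ hA
    fun j => framed_sub_mem F M hres P.p (P.pElem j) 0 1
  refine ⟨v, hv, fun x : Fin 3 × Fin 2 × Fin 2 => ?_⟩
  refine Eq.trans ?_ (he x)
  obtain ⟨j, i, k⟩ := x
  have hK : F.rho P.p (P.pElem j) i k =
      triEntry (a j) (d j) (F.rho P.p (P.pElem j) 0 1) 0 i k := by
    fin_cases i <;> fin_cases k <;> simp [triEntry, haa, hdd, hupper]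
  have hK' := congrArg (algebraMap O C) hK
  simp [Frames.rho, conjRep_apply] at hK'
  simp [LiftProblem.coord, LiftProblem.coordPrime, LiftProblem.coordElem, LiftProblem.coordPos,
    MvPowerSeries.algebraMap_apply, Frames.rho, conjRep_apply, hK']

/-- A framed representation of the local types of a level lies on its component. -/
theorem eval_component (hF : F.IsNormal) (hinj : Function.Injective (algebraMap O C))
    (hcont : MatCont M) (hres : ∀ σ i j, M σ i j - algebraMap O C (P.ρ σ i j) ∈ maximalIdeal C)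
    (hdet : ∀ σ, (M σ).det = algebraMap O C (P.ρ σ).det) {J : Finset ℕ} (hJ : J ⊆ P.raise)
    (hst : ∀ v ∈ P.minimal ∪ J, v ≠ P.p → SteinbergAt M v (algebraMap O C (P.ε v)))
    (hur : ∀ v ∈ P.loc, v ≠ P.p → v ∉ P.minimal ∪ J → UnramifiedAt M v)
    (hp : P.p ∈ P.loc → StrictAt M P.p (algebraMap O C (P.ε P.p)))
    (G : Fin P.globalCount → MvPowerSeries P.FrameVar C)
    (hX : ∀ c, Sum.elim (P.coord F M) G c ∈ maximalIdeal (MvPowerSeries P.FrameVar C))
    {f : MvPowerSeries P.Coord O} (hf : f ∈ P.component F J) :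
    evalAdic (O := O) (maximalIdeal (MvPowerSeries P.FrameVar C)) (Sum.elim (P.coord F M) G) hX f =
      0 := by
  classical
  have h : ∀ s, OnChart (P.siteChart F J s) fun x =>
      Sum.elim (P.coord F M) G (P.siteEquiv.symm ⟨s, x⟩) := by
    rintro (v | u | u)
    · exact onChart_siteChart_tame F M hF hinj hcont hres hdet hJ v
        (fun h => hst _ h (Finset.mem_erase.mp v.2).1)
        (fun h => hur _ (Finset.mem_erase.mp v.2).2 (Finset.mem_erase.mp v.2).1 h)
    · exact onChart_siteChart_p F M hF hcont hres hdet J u (hp u.2)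
    · exact ⟨G, fun k _ => hX (.inr k), fun k => (MvPolynomial.aeval_X G k).symm⟩
  obtain ⟨u, hu, hue⟩ := onChart_reindex (Chart.sigma (P.siteChart F J)) P.siteEquiv
    (fun y => Sum.elim (P.coord F M) G (P.siteEquiv.symm y)) (onChart_sigma _ _ h)
  simp only [Equiv.symm_apply_apply] at hue
  refine (P.levelChart F J).eval_eq_zero (maximalIdeal _) ?_ u hu _ hX hue hf
  refine Ideal.map_le_iff_le_comap.mpr fun x hx => ?_
  rw [Ideal.mem_comap, mem_maximalIdeal_iff_constantCoeff, MvPowerSeries.algebraMap_apply,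
    MvPowerSeries.constantCoeff_C]
  exact algebraMap_mem hx

end Level

end FLTAgent.ModularityLifting
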