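import Fermat.Agent.ModularityLifting.Local.Cone
import Mathlib.RingTheory.Valuation.ValuationRing
import Mathlib.LinearAlgebra.Matrix.Adjugate

/-!
# Points on the charts from stable lines

A primitive common eigenvector of the matrices at a site gives parameters of a triangular or cone
chart; Steinberg matrices over a discrete valuation ring have one.
-/

set_option autoImplicit false

noncomputable section

open IsLocalRing

namespace FLTAgent.ModularityLifting

open Chart

/-- Matrices of Steinberg type have a primitive eigenvector with the eigenvalues of a Steinberg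
representation. -/
theorem exists_steinberg_line {C : Type} [CommRing C] [IsDomain C] [ValuationRing C]
    (Φ T : Matrix (Fin 2) (Fin 2) C) {q e : C} (hdet : Φ.det = q) (htr : Φ.trace = e * (q + 1))
    (hN : (T - 1) * (T - 1) = 0) (hrel : Φ * (T - 1) = q • ((T - 1) * Φ)) (he : e * e = 1)
    (h0 : q ≠ 0) (h1 : q - 1 ≠ 0) (h2 : q + 1 ≠ 0) :
    ∃ w : Fin 2 → C, (∃ i, IsUnit (w i)) ∧ T.mulVec w = w ∧ Φ.mulVec w = (e * q) • w := by
  -- primitive multiples
  have prim : ∀ u : Fin 2 → C, u ≠ 0 →
      ∃ (w : Fin 2 → C) (c : C), c ≠ 0 ∧ u = c • w ∧ ∃ i, IsUnit (w i) := by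
    intro u hu
    obtain ⟨r, hr⟩ := ValuationRing.cond (u 0) (u 1)
    rcases hr with hr | hr
    · refine ⟨![1, r], u 0, fun h => hu (funext fun i => ?_), funext fun i => ?_, 0, by simp⟩
      · fin_cases i
        · exact h
        · show u 1 = 0
          rw [← hr, h, zero_mul]
      · fin_cases i <;> simp [← hr]
    · refine ⟨![r, 1], u 1, fun h => hu (funext fun i => ?_), funext fun i => ?_, 1, by simp⟩
      · fin_cases i
        · show u 0 = 0
          rw [← hr, h, zero_mul]
        · exact h
      · fin_cases i <;> simp [← hr]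
  by_cases hT : T - 1 = 0
  · -- unramified: an eigenvector of Frobenius
    set B := Φ - (e * q) • (1 : Matrix (Fin 2) (Fin 2) C) with hB
    have hBdet : B.det = 0 := by
      rw [Matrix.det_fin_two] at hdet ⊢
      rw [Matrix.trace_fin_two] at htr
      simp only [hB, Matrix.sub_apply, Matrix.smul_apply, Matrix.one_apply_eq, Fin.zero_ne_one,
        one_ne_zero, ne_eq, not_false_eq_true, Matrix.one_apply_ne, smul_eq_mul, mul_one,
        mul_zero, sub_zero]
      linear_combination hdet - (e * q) * htr - q * he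
    obtain ⟨u, hu, hBu⟩ := Matrix.exists_mulVec_eq_zero_iff.mpr hBdet
    obtain ⟨w, c, hc, rfl, hw⟩ := prim u hu
    refine ⟨w, hw, by rw [sub_eq_zero.mp hT, Matrix.one_mulVec], ?_⟩
    rw [Matrix.mulVec_smul] at hBu
    have := (smul_eq_zero.mp hBu).resolve_left hc
    rwa [hB, Matrix.sub_mulVec, Matrix.smul_mulVec, Matrix.one_mulVec, sub_eq_zero] at this
  · -- ramified: the kernel of inertia
    set N := T - 1 with hN'
    obtain ⟨i₀, j₀, hij⟩ : ∃ i j, N i j ≠ 0 := by
      by_contra h
      push Not at h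
      exact hT (Matrix.ext h)
    obtain ⟨w, c, hc, hcw, hw⟩ := prim (fun i => N i j₀) fun h => hij (congrFun h i₀)
    have hNw : N.mulVec w = 0 := by
      have h : N.mulVec (fun i => N i j₀) = 0 := funext fun i => by
        have := congrFun (congrFun hN i) j₀
        simpa [Matrix.mulVec, dotProduct, Matrix.mul_apply] using this
      rw [hcw, Matrix.mulVec_smul] at h
      exact (smul_eq_zero.mp h).resolve_left hc
    have hker : ∀ y, N.mulVec y = 0 → y 0 * w 1 - y 1 * w 0 = 0 := by
      intro y hy
      by_contra hne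
      have hM : N * !![y 0, w 0; y 1, w 1] = 0 := by
        ext i j
        have h3 := congrFun hy i
        have h4 := congrFun hNw i
        simp only [Matrix.mulVec, dotProduct, Fin.sum_univ_two, Pi.zero_apply] at h3 h4
        fin_cases j <;> simpa [Matrix.mul_apply, Fin.sum_univ_two]
      have h5 : (!![y 0, w 0; y 1, w 1]).det • N = 0 := by
        rw [← mul_one N, ← Matrix.mul_smul, ← Matrix.mul_adjugate, ← mul_assoc, hM, zero_mul]
      refine hT ((smul_eq_zero.mp h5).resolve_left ?_)
      rw [Matrix.det_fin_two_of]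
      intro h
      exact hne (by linear_combination h)
    obtain ⟨μ, hμ⟩ : ∃ μ, Φ.mulVec w = μ • w := by
      have h : N.mulVec (Φ.mulVec w) = 0 := by
        have h' := congrArg (fun M => M.mulVec w) hrel
        simp only [← Matrix.mulVec_mulVec, Matrix.smul_mulVec, hNw, Matrix.mulVec_zero] at h'
        exact (smul_eq_zero.mp h'.symm).resolve_left h0
      have hk := hker _ h
      obtain ⟨i, hi⟩ := hw
      obtain ⟨v, hv⟩ := hi
      refine ⟨(Φ.mulVec w) i * ↑v⁻¹, funext fun j => ?_⟩
      have hv' : w i * ↑v⁻¹ = 1 := by rw [← hv]; exact v.mul_inv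
      have hcross : (Φ.mulVec w) i * w j = (Φ.mulVec w) j * w i := by
        fin_cases i <;> fin_cases j <;> simp only [Fin.zero_eta, Fin.mk_one] <;>
          first | linear_combination hk | linear_combination -hk
      rw [Pi.smul_apply, smul_eq_mul]
      linear_combination -(↑v⁻¹ : C) * hcross - (Φ.mulVec w) j * hv'
    have hroot : (μ - e * q) * (μ - e) = 0 := by
      have hdet' : (Φ - μ • (1 : Matrix (Fin 2) (Fin 2) C)).det = 0 :=
        Matrix.exists_mulVec_eq_zero_iff.mp ⟨w, fun h => by
          obtain ⟨i, hi⟩ := hw; exact hi.ne_zero (congrFun h i),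
          by rw [Matrix.sub_mulVec, Matrix.smul_mulVec, Matrix.one_mulVec, hμ, sub_self]⟩
      rw [Matrix.det_fin_two] at hdet hdet'
      rw [Matrix.trace_fin_two] at htr
      simp only [Matrix.sub_apply, Matrix.smul_apply, Matrix.one_apply_eq, Fin.zero_ne_one,
        one_ne_zero, ne_eq, not_false_eq_true, Matrix.one_apply_ne, smul_eq_mul, mul_one,
        mul_zero, sub_zero] at hdet'
      linear_combination hdet' - hdet + μ * htr + q * he
    rcases mul_eq_zero.mp hroot with h | h
    · exact ⟨w, hw, by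
        rw [show T = N + 1 by rw [hN', sub_add_cancel], Matrix.add_mulVec, hNw, Matrix.one_mulVec,
          zero_add], by rw [hμ, sub_eq_zero.mp h]⟩
    · exfalso
      have hμe := sub_eq_zero.mp h
      -- the column space of `N` is the eigenline
      have hΦN : Φ * N = e • N := by
        ext i j
        have hcol : N.mulVec (fun k => N k j) = 0 := funext fun k => by
          have := congrFun (congrFun hN k) j
          simpa [Matrix.mulVec, dotProduct, Matrix.mul_apply] using this
        have hk := hker _ hcol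
        have h3 := congrFun hμ i
        simp only [Matrix.mulVec, dotProduct, Fin.sum_univ_two, Pi.smul_apply, smul_eq_mul,
          hμe] at h3
        obtain ⟨l, hl⟩ := hw
        have hc : ∀ k, N k j * w l = w k * N l j := fun k => by
          fin_cases k <;> fin_cases l <;> simp only [Fin.zero_eta, Fin.mk_one] <;>
            first | ring | linear_combination hk | linear_combination -hk
        rw [Matrix.mul_apply, Fin.sum_univ_two, Matrix.smul_apply, smul_eq_mul]
        refine hl.mul_right_cancel ?_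
        linear_combination Φ i 0 * hc 0 + Φ i 1 * hc 1 - e * hc i + N l j * h3
      have hNΦ : q • (N * Φ) = e • N := by rw [← hrel, hΦN]
      have hCH : Φ * Φ - (e * (q + 1)) • Φ + q • (1 : Matrix (Fin 2) (Fin 2) C) = 0 := by
        rw [Matrix.det_fin_two] at hdet
        rw [Matrix.trace_fin_two] at htr
        rw [← htr, ← hdet]
        ext i j
        fin_cases i <;> fin_cases j <;> simp [Matrix.mul_apply, Fin.sum_univ_two] <;> ring
      have h6 : ((q - 1) * (q - 1) * (q + 1)) • N = 0 := by
        have h7 : (q * q) • (N * (Φ * Φ)) = N :=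
          calc (q * q) • (N * (Φ * Φ)) = q • ((q • (N * Φ)) * Φ) := by
                rw [Matrix.smul_mul, smul_smul, mul_assoc]
            _ = e • (q • (N * Φ)) := by rw [hNΦ, Matrix.smul_mul, smul_comm, hNΦ]
            _ = N := by rw [hNΦ, smul_smul, he, one_smul]
        have h8 := congrArg (fun M => (q * q) • (N * M)) hCH
        simp only [mul_add, mul_sub, Matrix.mul_smul, mul_one, mul_zero, smul_add, smul_sub,
          smul_zero, h7, smul_smul] at h8
        rw [show q * q * (e * q) + q * q * e = q * (e * (q + 1)) * q by ring, mul_smul, hNΦ,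
          smul_smul] at h8
        have h9 : q * (e * (q + 1)) * e = q * (q + 1) := by linear_combination q * (q + 1) * he
        rw [h9] at h8
        have h10 : (1 : C) • N - (q * (q + 1)) • N + (q * q * q) • N = 0 := by rwa [one_smul]
        rw [← sub_smul, ← add_smul] at h10
        convert h10 using 2
        ring
      exact hT ((smul_eq_zero.mp h6).resolve_left (mul_ne_zero (mul_ne_zero h1 h1) h2))

section Params

variable {P : Type} [CommRing P] [IsLocalRing P]

/-- A common primitive eigenvector residually on the first axis gives triangular parameters. -/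
theorem exists_tri_param {J : Type} (A : J → Matrix (Fin 2) (Fin 2) P) (a d : J → P)
    (ha : ∀ j, IsUnit (a j)) (w : Fin 2 → P) (hw : ∃ i, IsUnit (w i))
    (heig : ∀ j, (A j).mulVec w = a j • w) (hdet : ∀ j, (A j).det = a j * d j) (j₀ : J)
    (h10 : A j₀ 1 0 ∈ maximalIdeal P) (h00 : A j₀ 0 0 - a j₀ ∈ maximalIdeal P)
    (hne : IsUnit (a j₀ - d j₀) ∨ IsUnit (A j₀ 0 1)) :
    ∃ t ∈ maximalIdeal P, ∀ j, A j = triEntry (a j) (d j) (A j 0 1) t := by
  have hrow : ∀ j, (A j 0 0 - a j) * w 0 + A j 0 1 * w 1 = 0 ∧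
      A j 1 0 * w 0 + (A j 1 1 - a j) * w 1 = 0 := fun j => by
    have h0 := congrFun (heig j) 0
    have h1 := congrFun (heig j) 1
    simp only [Matrix.mulVec, dotProduct, Fin.sum_univ_two, Pi.smul_apply, smul_eq_mul] at h0 h1
    exact ⟨by linear_combination h0, by linear_combination h1⟩
  have hw1 : w 1 ∈ maximalIdeal P := by
    rcases hne with h | h
    · have h11 : A j₀ 1 1 - d j₀ ∈ maximalIdeal P := by
        have := hdet j₀
        rw [Matrix.det_fin_two] at this
        have e : a j₀ * (A j₀ 1 1 - d j₀) =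
            A j₀ 0 1 * A j₀ 1 0 - (A j₀ 0 0 - a j₀) * A j₀ 1 1 := by linear_combination this
        refine (Ideal.unit_mul_mem_iff_mem _ (ha j₀)).mp ?_
        rw [e]
        exact sub_mem (Ideal.mul_mem_left _ _ h10) (Ideal.mul_mem_right _ _ h00)
      refine (Ideal.unit_mul_mem_iff_mem _ h).mp ?_
      have e : (a j₀ - d j₀) * w 1 = A j₀ 1 0 * w 0 + (A j₀ 1 1 - d j₀) * w 1 := by
        linear_combination -(hrow j₀).2
      rw [e]
      exact add_mem (Ideal.mul_mem_right _ _ h10) (Ideal.mul_mem_right _ _ h11)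
    · refine (Ideal.unit_mul_mem_iff_mem _ h).mp ?_
      have e : A j₀ 0 1 * w 1 = -((A j₀ 0 0 - a j₀) * w 0) := by linear_combination (hrow j₀).1
      rw [e]
      exact neg_mem (Ideal.mul_mem_right _ _ h00)
  obtain ⟨u, hu⟩ : IsUnit (w 0) := by
    obtain ⟨i, hi⟩ := hw
    fin_cases i
    · exact hi
    · exact absurd hi ((mem_maximalIdeal _).mp hw1)
  have hu' : w 0 * ↑u⁻¹ = 1 := by rw [← hu]; exact u.mul_inv
  set t := w 1 * ↑u⁻¹
  refine ⟨t, Ideal.mul_mem_right _ _ hw1, fun j => ?_⟩
  have e0 : A j 0 0 = a j - A j 0 1 * t := by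
    linear_combination (↑u⁻¹ : P) * (hrow j).1 - (A j 0 0 - a j) * hu'
  have e1 : A j 1 0 = t * (a j - A j 1 1) := by
    linear_combination (↑u⁻¹ : P) * (hrow j).2 - A j 1 0 * hu'
  have e3 : A j 1 1 = d j + A j 0 1 * t := by
    refine (ha j).mul_left_cancel ?_
    have := hdet j
    rw [Matrix.det_fin_two] at this
    linear_combination this - A j 1 1 * e0 + A j 0 1 * e1
  ext i k
  fin_cases i <;> fin_cases k <;> simp [triEntry] <;>
    first | linear_combination e0 | linear_combination e1 - t * e3 | linear_combination e3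

/-- A primitive eigenvector at a scalar residual point gives parameters of the cone. -/
theorem exists_cone_param (Φ T : Matrix (Fin 2) (Fin 2) P) {q ε x₀ n₀ : P} (hε : ε * ε = 1)
    (hq : q - 1 ∈ maximalIdeal P) (hx : x₀ ∈ maximalIdeal P) (hn : n₀ ∈ maximalIdeal P)
    (hΦdet : Φ.det = q) (hTdet : T.det = 1) (w : Fin 2 → P) (hw : ∃ i, IsUnit (w i))
    (hΦ : Φ.mulVec w = (ε * q) • w) (hT : T.mulVec w = w)
    (hΦres : ∀ i k, (Φ - ε • (1 : Matrix (Fin 2) (Fin 2) P)) i k ∈ maximalIdeal P)
    (hTres : ∀ i k, (T - 1) i k ∈ maximalIdeal P) :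
    ∃ a t x n : P, x ∈ maximalIdeal P ∧ n ∈ maximalIdeal P ∧
      Φ = coneMat q ε (x₀ + x) (n₀ + n) a t 0 ∧ T = coneMat q ε (x₀ + x) (n₀ + n) a t 1 := by
  obtain ⟨a, t, c, hc, h0, h1⟩ : ∃ a t c : P, IsUnit c ∧
      w 0 = c * (1 + a * t) ∧ w 1 = c * t := by
    obtain ⟨i, hi⟩ := hw
    obtain ⟨u, hu⟩ := hi
    fin_cases i
    · refine ⟨0, w 1 * ↑u⁻¹, w 0, ⟨u, hu⟩, by ring, ?_⟩
      have hu' : w 0 * ↑u⁻¹ = 1 := by
        simp only [Fin.zero_eta, Fin.isValue] at hu; rw [← hu]; exact u.mul_inv
      linear_combination -(w 1) * hu'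
    · refine ⟨w 0 * ↑u⁻¹ - 1, 1, w 1, ⟨u, hu⟩, ?_, by ring⟩
      have hu' : w 1 * ↑u⁻¹ = 1 := by
        simp only [Fin.mk_one, Fin.isValue] at hu; rw [← hu]; exact u.mul_inv
      linear_combination -(w 0) * hu'
  let g : Matrix (Fin 2) (Fin 2) P := !![1 + a * t, a; t, 1]
  let g' : Matrix (Fin 2) (Fin 2) P := !![1, -a; -t, 1 + a * t]
  have hgg' : g * g' = 1 := by
    ext i k
    fin_cases i <;> fin_cases k <;> simp [g, g', Matrix.mul_apply, Fin.sum_univ_two] <;> ring
  have hg'g : g' * g = 1 := by
    ext i k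
    fin_cases i <;> fin_cases k <;> simp [g, g', Matrix.mul_apply, Fin.sum_univ_two] <;> ring
  have key : ∀ (M : Matrix (Fin 2) (Fin 2) P) (lam μ b : P), M.det = lam * μ → IsUnit lam →
      M.mulVec w = lam • w →
        (∀ i k, (M - b • (1 : Matrix (Fin 2) (Fin 2) P)) i k ∈ maximalIdeal P) →
      ∃ y ∈ maximalIdeal P, g' * M * g = !![lam, y; 0, μ] := by
    intro M lam μ b hdet hlam heig hres
    set Y := g' * M * g with hY
    have hYdet : Y.det = lam * μ := by
      rw [hY, Matrix.det_mul, Matrix.det_mul, mul_right_comm, ← Matrix.det_mul, hg'g,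
        Matrix.det_one, one_mul, hdet]
    have hwg : w = c • g.mulVec ![1, 0] := funext fun i => by
      fin_cases i <;> simp [g, h0, h1]
    have hcol : Y.mulVec ![1, 0] = lam • ![1, 0] := by
      rw [hwg, Matrix.mulVec_smul, smul_comm lam c] at heig
      have h := hc.smul_left_cancel.mp heig
      rw [hY, ← Matrix.mulVec_mulVec, ← Matrix.mulVec_mulVec, h, Matrix.mulVec_smul,
        Matrix.mulVec_mulVec, hg'g, Matrix.one_mulVec]
    have hY00 : Y 0 0 = lam := by
      simpa [Matrix.mulVec, dotProduct, Fin.sum_univ_two] using congrFun hcol 0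
    have hY10 : Y 1 0 = 0 := by
      simpa [Matrix.mulVec, dotProduct, Fin.sum_univ_two] using congrFun hcol 1
    refine ⟨Y 0 1, ?_, ?_⟩
    · have e : Y = g' * (M - b • 1) * g + b • 1 := by
        rw [hY, mul_sub, sub_mul, Matrix.mul_smul, mul_one, Matrix.smul_mul, hg'g, sub_add_cancel]
      rw [e, Matrix.add_apply, Matrix.smul_apply, Matrix.one_apply_ne (by decide), smul_zero,
        add_zero, Matrix.mul_apply]
      exact sum_mem fun l _ => Ideal.mul_mem_right _ _ (by
        rw [Matrix.mul_apply]; exact sum_mem fun m _ => Ideal.mul_mem_left _ _ (hres m l))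
    · have hY11 : Y 1 1 = μ := by
        rw [Matrix.det_fin_two, hY00, hY10, mul_zero, sub_zero] at hYdet
        exact hlam.mul_left_cancel hYdet
      ext i k; fin_cases i <;> fin_cases k <;> simp [hY00, hY10, hY11]
  have hqu : IsUnit q := by
    refine Classical.not_not.mp fun hq' => ?_
    have := sub_mem ((mem_maximalIdeal q).mpr hq') hq
    rw [sub_sub_cancel] at this
    exact (mem_maximalIdeal _).mp this isUnit_one
  obtain ⟨y, hy, hY⟩ := key Φ (ε * q) ε ε (by rw [hΦdet]; linear_combination -q * hε) (.mul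
    (IsUnit.of_mul_eq_one _ hε) hqu) hΦ hΦres
  obtain ⟨z, hz, hZ⟩ := key T 1 1 1 (by rw [hTdet, one_mul]) isUnit_one (by rw [hT, one_smul])
    (by simpa using hTres)
  refine ⟨a, t, ε * y - x₀, z - n₀, sub_mem (Ideal.mul_mem_left _ _ hy) hx, sub_mem hz hn, ?_, ?_⟩
  · have : Φ = g * !![ε * q, y; 0, ε] * g' := by
      rw [← hY, mul_assoc g', ← mul_assoc g, hgg', one_mul, mul_assoc, hgg', mul_one]
    rw [this, coneMat, if_pos rfl, conjUL, add_sub_cancel, ← mul_assoc, hε, one_mul]
  · have : T = g * !![1, z; 0, 1] * g' := by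
      rw [← hZ, mul_assoc g', ← mul_assoc g, hgg', one_mul, mul_assoc, hgg', mul_one]
    rw [this, coneMat, if_neg (by decide), conjUL, add_sub_cancel]

end Params

end FLTAgent.ModularityLifting
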