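import Fermat.Agent.ModularityLifting.Engine.Relations

/-!
# What vanishes at the good points of a level

The component of a level, the relations for the variables and the given relation.
-/

set_option autoImplicit false

noncomputable section

open IsLocalRing

namespace FLTAgent.ModularityLifting

open FLTAgent.DefRing Engine

variable {O : Type} [CommRing O] [IsDomain O] [IsDiscreteValuationRing O]

/-- A ring map commutes with evaluation of an integral polynomial. -/
theorem map_aeval_int {R S ι : Type} [CommRing R] [CommRing S] (φ : R →+* S) (f : ι → R)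
    (F : MvPolynomial ι ℤ) :
    φ (MvPolynomial.aeval f F) = MvPolynomial.aeval (fun i => φ (f i)) F := by
  have h : φ.toIntAlgHom.comp (MvPolynomial.aeval f) = MvPolynomial.aeval fun i => φ (f i) :=
    MvPolynomial.algHom_ext fun i => by simp
  exact AlgHom.congr_fun h F

namespace LevelDatum.Choice

variable [IsAdicComplete (maximalIdeal O) O] {P : LiftProblem O} {d : Finset ℕ → ℕ} {n : ℕ}
  {D : LevelDatum P d n} {F : Frames P} (ch : D.Choice F)

omit [IsAdicComplete (maximalIdeal O) O] in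
theorem repAt_unram {J : Finset ℕ} (hJ : J ⊆ P.raise) {θ : D.Pt} (hθ : θ ∈ D.pts J) {v : ℕ}
    (hv : v ∈ P.loc) (hvp : v ≠ P.p) (hvJ : v ∉ P.minimal ∪ J) :
    UnramifiedAt (ch.repAt (some θ)) v := by
  obtain ⟨g, hg⟩ := ch.repAt_some θ
  exact (localProps_conj hg v (1 : D.Coeff)).1 (D.pts_unram J hJ θ hθ v hv hvp hvJ)

omit [IsAdicComplete (maximalIdeal O) O] in
theorem repAt_strict {θ : D.Pt} (h : some θ ∈ D.goodPts) (hp : P.p ∈ P.loc) :
    StrictAt (ch.repAt (some θ)) P.p (algebraMap O D.Coeff (P.ε P.p)) := by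
  obtain ⟨g, hg⟩ := ch.repAt_some θ
  exact (localProps_conj hg P.p _).2.2.1 ((h θ rfl).2 hp)

/-- A good point of a level with the signs of the problem lies on the component. -/
theorem val_component (hF : F.IsNormal) {J : Finset ℕ} (hJ : J ⊆ P.raise) {θ : D.Pt}
    (hθ : θ ∈ D.pts J) (hgood : some θ ∈ D.goodPts)
    (hst : ∀ v ∈ J, v ≠ P.p → SteinbergAt (ch.repAt (some θ)) v (algebraMap O D.Coeff (P.ε v)))
    {f : P.RRing} (hf : f ∈ P.component F J) : ch.val (some θ) (P.inclR f) = 0 := by
  rw [val_inclR]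
  refine eval_component F (ch.repAt (some θ)) hF D.coeff_inj (ch.M_cont _) (ch.repAt_res _)
    (ch.repAt_det _) hJ (fun v hv hvp => ?_) (fun v hv hvp hvJ => ch.repAt_unram hJ hθ hv hvp hvJ)
    (fun hp => ch.repAt_strict hgood hp) _ (ch.coordVals_mem (some θ)) hf
  rcases Finset.mem_union.mp hv with hm | hvJ
  · exact (ch.steinberg_or_signElem hF hJ hθ ⟨v, Finset.mem_erase.mpr ⟨hvp,
      Finset.mem_union_left _ (Finset.mem_union_left _ hm)⟩⟩ hv).2 hm
  · exact hst v hvJ hvp

/-- A component element times the sign series vanishes at the good points with the sign of the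
problem at the other primes. -/
theorem val_component_signProd (hF : F.IsNormal) {J J' : Finset ℕ} (hJ : J ⊆ P.raise)
    (hJ' : J' ⊆ J) {θ : D.Pt} (hθ : θ ∈ D.pts J) (hgood : some θ ∈ D.goodPts)
    (hst : ∀ v ∈ J, v ∉ J' → v ≠ P.p →
      SteinbergAt (ch.repAt (some θ)) v (algebraMap O D.Coeff (P.ε v)))
    {f : P.RRing} (hf : f ∈ P.component F J) :
    ch.val (some θ) (P.inclR (f * P.signProd F J')) = 0 := by
  by_cases h : ∀ v ∈ J', v ≠ P.p →
      SteinbergAt (ch.repAt (some θ)) v (algebraMap O D.Coeff (P.ε v))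
  · rw [map_mul, map_mul, ch.val_component hF hJ hθ hgood (fun v hv hvp => ?_) hf, zero_mul]
    by_cases hv' : v ∈ J'
    exacts [h v hv' hvp, hst v hv hv' hvp]
  · push Not at h
    obtain ⟨v, hv, hvp, hns⟩ := h
    have hloc : v ∈ P.loc := Finset.mem_union_left _ (Finset.mem_union_right _ (hJ (hJ' hv)))
    let v' : P.tameLoc := ⟨v, Finset.mem_erase.mpr ⟨hvp, hloc⟩⟩
    have h0 : ch.val (some θ) (P.inclR (P.signElem F v')) = 0 :=
      (ch.steinberg_or_signElem hF hJ hθ v' (Finset.mem_union_right _ (hJ' hv))).1.resolve_left hns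
    rw [LiftProblem.signProd, ← Finset.mul_prod_erase _ _
      (Finset.mem_filter.mpr ⟨Finset.mem_attach _ v', hv⟩)]
    simp only [map_mul, h0, zero_mul, mul_zero]

/-- The component of a level, times sign series and the separating element, vanishes at the
points of the level. -/
theorem val_pts_eq_zero (hF : F.IsNormal) (hflat : ch.FlatEq) {J : Finset ℕ} (hJ : J ⊆ P.raise)
    {θ : D.Pt} (hθ : θ ∈ D.pts J) {f : P.RRing} (hf : f ∈ P.component F J) :
    ch.val (some θ) (ch.hLevel * P.inclR (f * P.signProd F J)) = 0 := by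
  rcases ch.good_or_killed hflat hJ hθ with h | h
  · rw [map_mul, ch.val_component_signProd hF hJ subset_rfl hθ h
      (fun v hv hv' => absurd hv hv') hf, mul_zero]
  · rw [map_mul, h, zero_mul]

omit [IsAdicComplete (maximalIdeal O) O] in
theorem newPts_steinberg' {J : Finset ℕ} (hJ : J ⊆ P.raise) {v : ℕ} (hv : v ∈ P.raise)
    (hvJ : v ∉ J) {θ : D.Pt} (hθ : θ ∈ D.newPts J v) :
    ∀ w ∈ insert v J, w ∉ J → w ≠ P.p →
      SteinbergAt (ch.repAt (some θ)) w (algebraMap O D.Coeff (P.ε w)) := by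
  intro w hw hwJ hwp
  obtain rfl : w = v := (Finset.mem_insert.mp hw).resolve_right hwJ
  obtain ⟨g, hg⟩ := ch.repAt_some θ
  exact (localProps_conj hg w _).2.1 (D.newPts_steinberg J hJ w hv hvJ hwp θ hθ)

/-- The component of a level times the sign series of the previous one and the separating element
vanishes at the new points. -/
theorem val_newPts_eq_zero (hF : F.IsNormal) (hflat : ch.FlatEq) {J : Finset ℕ} (hJ : J ⊆ P.raise)
    {v : ℕ} (hv : v ∈ P.raise) (hvJ : v ∉ J) {θ : D.Pt} (hθ : θ ∈ D.newPts J v) {f : P.RRing}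
    (hf : f ∈ P.component F (insert v J)) :
    ch.val (some θ) (ch.hLevel * P.inclR (f * P.signProd F J)) = 0 := by
  have hJv := Finset.insert_subset hv hJ
  have hθ' := D.newPts_subset J hJ v hv hvJ hθ
  rcases ch.good_or_killed hflat hJv hθ' with h | h
  · rw [map_mul, ch.val_component_signProd hF hJv (Finset.subset_insert v J) hθ' h
      (ch.newPts_steinberg' hJ hv hvJ hθ) hf, mul_zero]
  · rw [map_mul, h, zero_mul]

omit [IsAdicComplete (maximalIdeal O) O] in
theorem good_of_newPts_p {J : Finset ℕ} (hJ : J ⊆ P.raise) (hp : P.p ∈ P.raise) (hpJ : P.p ∉ J)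
    {θ : D.Pt} (hθ : θ ∈ D.newPts J P.p) : some θ ∈ D.goodPts := fun θ' h => by
  obtain rfl := Option.some.inj h
  exact ⟨⟨_, Finset.insert_subset hp hJ, D.newPts_subset J hJ P.p hp hpJ hθ⟩,
    fun _ => D.newPts_strict J hJ hp hpJ θ hθ⟩

/-- The component of a level times the sign series vanishes at the points new at `p`. -/
theorem val_newPts_p_eq_zero (hF : F.IsNormal) {J : Finset ℕ} (hJ : J ⊆ P.raise)
    (hp : P.p ∈ P.raise) (hpJ : P.p ∉ J) {θ : D.Pt} (hθ : θ ∈ D.newPts J P.p) {f : P.RRing}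
    (hf : f ∈ P.component F (insert P.p J)) :
    ch.val (some θ) (P.inclR (f * P.signProd F J)) = 0 :=
  ch.val_component_signProd hF (Finset.insert_subset hp hJ) (Finset.subset_insert _ J)
    (D.newPts_subset J hJ P.p hp hpJ hθ) (good_of_newPts_p hJ hp hpJ hθ)
    (ch.newPts_steinberg' hJ hp hpJ hθ) hf

theorem exists_series_constant (hgs : ch.GoodSurj) (t : D.traceRing D.goodPts) :
    ∃ r : P.RRing, (∀ x : D.goodPts, ch.val x (P.inclR r) =
        MvPowerSeries.C (D.evalPt D.goodPts x t)) ∧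
      algebraMap O D.Coeff (MvPowerSeries.constantCoeff r) =
        D.evalPt D.goodPts ⟨none, D.none_mem_goodPts⟩ t := by
  obtain ⟨r, hr⟩ := hgs (MvPowerSeries.C t)
  refine ⟨r, fun x => by rw [hr x, MvPowerSeries.map_C]; rfl, ?_⟩
  rw [← ch.constantCoeff_val_none r,
    show ch.val none (P.inclR r) = _ from hr ⟨none, D.none_mem_goodPts⟩, MvPowerSeries.map_C,
    MvPowerSeries.constantCoeff_C]
  rfl

/-- Frame variables are series in the coordinates on good points. -/
theorem exists_frame_series (hgs : ch.GoodSurj) (z : P.FrameVar) :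
    ∃ r : P.RRing, MvPowerSeries.constantCoeff r = 0 ∧ ∀ x : D.goodPts,
      ch.val x (P.inclR r) = ch.val x (P.inclS (MvPowerSeries.X (Sum.inr z))) := by
  obtain ⟨r, hr⟩ := hgs (MvPowerSeries.X z)
  refine ⟨r, ?_, fun x => ?_⟩
  · refine D.coeff_inj ?_
    rw [← ch.constantCoeff_val_none r,
      show ch.val none (P.inclR r) = _ from hr ⟨none, D.none_mem_goodPts⟩, MvPowerSeries.map_X,
      MvPowerSeries.constantCoeff_X, map_zero]
  · rw [hr x, MvPowerSeries.map_X, P.inclS_X, ch.val_X]
    exact (MvPowerSeries.map_X _ z).symm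

omit [IsAdicComplete (maximalIdeal O) O] in
theorem xrep_tame_trace_none (i : Fin P.r) : (D.xrep none (D.tame i)).trace = 2 := by
  obtain ⟨hq, hqloc, hqp⟩ := D.q_prime i
  obtain ⟨A, hA, hτ⟩ := D.tame_mem i
  have h := P.unram (D.q i) hq (fun h => hqloc (Finset.mem_union_left _ h)) hqp A hA _ hτ
  show (mapRep (algebraMap O D.Coeff) P.ρ (D.tame i)).trace = 2
  rw [mapRep_eq_map, h, Matrix.map_one _ (map_zero _) (map_one _), Matrix.trace_one,
    Fintype.card_fin, Nat.cast_ofNat]

/-- The diamond values satisfy quadratic equations over the coordinates on good points. -/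
theorem exists_diamond_series (hgs : ch.GoodSurj) (i : Fin P.r) :
    ∃ r : P.RRing, MvPowerSeries.constantCoeff r = 2 ∧ ∀ x : D.goodPts,
      ch.val x ((1 + P.inclS (MvPowerSeries.X (Sum.inl i))) *
        (1 + P.inclS (MvPowerSeries.X (Sum.inl i))) + 1 -
          P.inclR r * (1 + P.inclS (MvPowerSeries.X (Sum.inl i)))) = 0 := by
  obtain ⟨r, hr, hr0⟩ := ch.exists_series_constant hgs (D.trPt D.goodPts (D.tame i))
  refine ⟨r, D.coeff_inj ?_, ?_⟩
  · rw [hr0, D.evalPt_trPt, map_ofNat]
    exact xrep_tame_trace_none i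
  · rintro ⟨x, hx⟩
    have hy : ch.val x (1 + P.inclS (MvPowerSeries.X (Sum.inl i))) =
        MvPowerSeries.C (D.xu x i) := by
      rw [map_add, map_one, P.inclS_X, ch.val_X]
      show 1 + MvPowerSeries.map _ (MvPowerSeries.C (uElem O D.xrep D.xu i - 1)) = _
      rw [MvPowerSeries.map_C]
      show 1 + MvPowerSeries.C (D.evX x (uElem O D.xrep D.xu i - 1)) = _
      rw [map_sub, map_one, D.evX_uElem, map_sub, map_one, add_sub_cancel]
    have htr : (D.xrep x (D.tame i)).trace * D.xu x i = D.xu x i * D.xu x i + 1 := by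
      cases x with
      | none => rw [xrep_tame_trace_none i]; simp only [LevelDatum.xu, Pi.one_apply]; norm_num
      | some θ => rw [← sq]; exact D.tame_trace θ i
    rw [map_sub, map_add, map_mul, map_mul, map_one, hy, hr ⟨x, hx⟩, D.evalPt_trPt, ← map_mul,
      ← map_mul, ← map_one (MvPowerSeries.C (σ := P.FrameVar) (R := D.Coeff)), ← map_add, ← map_sub]
    rw [show (1 : D.Coeff) = 1 from rfl, htr, sub_self, map_zero]

/-- The relation is a series in the coordinates on good points. -/
theorem exists_relation_series (hgs : ch.GoodSurj) (Q : MvPolynomial ℕ ℤ) :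
    ∃ r : P.RRing,
      MvPowerSeries.constantCoeff r =
        MvPolynomial.aeval (fun ℓ : ℕ => (P.ρ (P.frob ℓ)).trace) Q ∧
      ∀ θ, ∀ _ : some θ ∈ D.goodPts,
        MvPolynomial.aeval (fun ℓ : ℕ => (D.rep θ (P.frob ℓ)).trace) Q = 0 →
          ch.val (some θ) (P.inclR r) = 0 := by
  set t : D.traceRing D.goodPts :=
    MvPolynomial.aeval (fun ℓ : ℕ => D.trPt D.goodPts (P.frob ℓ)) Q
  obtain ⟨r, hr, hr0⟩ := ch.exists_series_constant hgs t
  have he : ∀ x : D.goodPts, D.evalPt D.goodPts x t =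
      MvPolynomial.aeval (fun ℓ : ℕ => (D.xrep x (P.frob ℓ)).trace) Q := fun x =>
    map_aeval_int (D.evalPt D.goodPts x).toRingHom _ Q
  refine ⟨r, D.coeff_inj ?_, fun θ h hQ => ?_⟩
  · rw [hr0, he, map_aeval_int]
    congr 2 with ℓ
    show (mapRep (algebraMap O D.Coeff) P.ρ (P.frob ℓ)).trace = _
    simp [Matrix.trace, mapRep_apply]
  · rw [hr ⟨some θ, h⟩, he]
    exact (congrArg _ hQ).trans (map_zero _)

end LevelDatum.Choice

end FLTAgent.ModularityLifting
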