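import Fermat.Agent.ModularityLifting.Engine.Psi

/-!
# Relations at the points

At a point of a level every site is either on the component of the level or killed by a sign series
or by the separating element; on the good points the frame variables, the diamond traces and the
given relation are series in the coordinates.
-/

set_option autoImplicit false

noncomputable section

open IsLocalRing
open scoped Pointwise

namespace FLTAgent.ModularityLifting

open FLTAgent.DefRing Engine

local notation "Qbar" => AlgebraicClosure ℚ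

variable {O : Type} [CommRing O] [IsDomain O] [IsDiscreteValuationRing O]

namespace LiftProblem

variable (P : LiftProblem O)

/-- Residual inertia at a minimal prime is not trivial at the tame element. -/
theorem isUnit_tau_corner {F : Frames P} (hF : F.IsNormal) {v : ℕ} (hv : v ∈ P.minimal)
    (hvp : v ≠ P.p) : IsUnit (F.rho v (F.τ v) 0 1) := by
  have hvr : v ∈ P.minimal ∪ P.raise := Finset.mem_union_left _ hv
  have hloc : v ∈ P.loc := Finset.mem_union_left _ hvr
  have hv' := P.mem_loc_prime hloc
  have hB := P.place_spec v hv'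
  refine Classical.not_not.mp fun hu => P.minimal_ram v hv hvp fun Q hQ σ hσ => ?_
  have : IsHausdorff (maximalIdeal (ResidueField O)) (ResidueField O) := by
    rw [IsLocalRing.maximalIdeal_eq_bot]
    exact isHausdorff_of_pow_eq_bot _ 1 (pow_one _)
  set Mb := mapRep (residue O) P.ρ
  have hτ1 : Mb (F.τ v) = 1 := by
    have hr : mapRep (residue O) (F.rho v) (F.τ v) = 1 := by
      ext i j
      rw [mapRep_apply, hF.tau_matrix hvr hvp]
      have hn : residue O (F.rho v (F.τ v) 0 1) = 0 :=
        (residue_eq_zero_iff _).mpr ((mem_maximalIdeal _).mpr hu)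
      fin_cases i <;> fin_cases j <;> simp [hn]
    rw [Frames.rho, LevelDatum.mapRep_conjRep] at hr
    rw [conjRep_apply, Units.mul_inv_eq_iff_eq_mul, one_mul] at hr
    exact (Units.mul_right_inj _).mp (hr.trans (mul_one _).symm)
  obtain ⟨x, hx, hτx⟩ := F.τ_root v hloc hvp
  have hpk : (P.p : ResidueField O) ∈ maximalIdeal (ResidueField O) := by
    rw [← map_natCast (residue O), (residue_eq_zero_iff _).mpr P.p_mem]
    exact zero_mem _
  have hI := (tame_relations P.hp hpk hv' hvp hB hx (F.τ_mem v hloc hvp) hτx Mb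
    (P.cont.map _ inferInstance) fun s hs i k => by
      have h := congrArg (residue O).mapMatrix ((P.steinberg v hvr hvp).1 _ hB |>.1 s hs)
      rw [map_pow, map_sub, map_one, map_zero, sq] at h
      rw [show Mb s = (residue O).mapMatrix (P.ρ s) from rfl, h]
      exact zero_mem _).1 hτ1
  obtain ⟨g, hg⟩ := FLTAgent.Density.exists_smul_eq_of_liesOverPrime hv' hB hQ
  subst hg
  have h1 := hI (g⁻¹ * σ * g) (by
    have h := FLTAgent.Density.mem_inertiaSubgroupIn_smul hσ g⁻¹
    rw [inv_inv] at h
    convert h using 2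
    exact (inv_smul_smul g (P.place v)).symm)
  rw [map_mul, map_mul] at h1
  have h2 : Mb g⁻¹ * Mb g = 1 := by rw [← map_mul, inv_mul_cancel, map_one]
  have h3 : Mb g * Mb g⁻¹ = 1 := by rw [← map_mul, mul_inv_cancel, map_one]
  calc Mb σ = Mb g * (Mb g⁻¹ * Mb σ * Mb g) * Mb g⁻¹ := by
        simp only [mul_assoc, h3, mul_one]; rw [← mul_assoc, h3, one_mul]
    _ = 1 := by rw [h1, mul_one, h3]

variable [IsAdicComplete (maximalIdeal O) O]

/-- The coordinate of the tame element at a position, moved back to its value. -/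
def tauEntry (F : Frames P) (v : P.tameLoc) (c : Chart.TameCoord) : P.RRing :=
  MvPowerSeries.C (F.rho v (F.τ v) c.pos.2.1 c.pos.2.2) +
    MvPowerSeries.X (.inl (.inl ⟨v, c⟩))

/-- A series vanishing at unramified points and at Steinberg points of the wrong sign. -/
def signElem (F : Frames P) (v : P.tameLoc) : P.RRing :=
  MvPowerSeries.C (P.ε v) * (P.frobEntry F v .phi00 * P.tauEntry F v .tau01 -
      P.frobEntry F v .phi01 * (P.tauEntry F v .tau00 - 1)) +
    MvPowerSeries.C ((v : ℕ) : O) * P.tauEntry F v .tau01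

/-- The product of the sign series of a set. -/
def signProd (F : Frames P) (J : Finset ℕ) : P.RRing :=
  ∏ v ∈ P.tameLoc.attach.filter (fun v : P.tameLoc => (v : ℕ) ∈ J), P.signElem F v

/-- The entry separating flat from strict points. -/
def sepSeries (F : Frames P) : P.ARing :=
  if hp : P.p ∈ P.loc then
    P.inclR (MvPowerSeries.C (F.rho P.p (P.pElem 1) 0 1) +
      MvPowerSeries.X (.inl (.inr ⟨(1, 0, 1), hp⟩)))
  else 0

/-- The element killing flat points. -/
def hElem (F : Frames P) (e : P.ARing) : P.ARing :=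
  if P.p ∈ P.raise then P.sepSeries F - algebraMap O P.ARing LiftProblem.unif * e else 1

/-- The last variable. -/
def wVar : P.ARing := MvPowerSeries.X (Sum.inr ())

end LiftProblem

/-- The sign identity. -/
theorem sign_identity {T : Type} [CommRing T] [IsDomain T] (Φ N : Matrix (Fin 2) (Fin 2) T)
    (q ε : T) (hε : ε * ε = 1) (w : Fin 2 → T) (hw : w ≠ 0)
    (hN : N.mulVec w = w) (hΦ : Φ.mulVec w = (-ε * q) • w) :
    ε * (Φ 0 0 * N 0 1 - Φ 0 1 * (N 0 0 - 1)) + q * N 0 1 = 0 := by
  have a := congrFun hN 0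
  have b := congrFun hΦ 0
  simp only [Matrix.mulVec, dotProduct, Fin.sum_univ_two, Pi.smul_apply, smul_eq_mul] at a b
  by_cases h1 : w 1 = 0
  · have h0 : w 0 ≠ 0 := fun h => hw (funext fun i => by fin_cases i <;> assumption)
    have e1 : N 0 0 - 1 = 0 := by
      refine (mul_eq_zero.mp (?_ : (N 0 0 - 1) * w 0 = 0)).resolve_right h0
      rw [h1] at a; linear_combination a
    have e2 : Φ 0 0 + ε * q = 0 := by
      refine (mul_eq_zero.mp (?_ : (Φ 0 0 + ε * q) * w 0 = 0)).resolve_right h0
      rw [h1] at b; linear_combination b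
    linear_combination (ε * N 0 1) * e2 - ε * Φ 0 1 * e1 - q * N 0 1 * hε
  · refine (mul_eq_zero.mp (?_ : w 1 * (ε * (Φ 0 0 * N 0 1 - Φ 0 1 * (N 0 0 - 1)) + q * N 0 1) =
      0)).resolve_left h1
    linear_combination (ε * Φ 0 0 + q) * a - ε * (N 0 0 - 1) * b +
      (q * (N 0 0 - 1) * w 0) * hε

namespace LevelDatum

variable [IsAdicComplete (maximalIdeal O) O] {P : LiftProblem O} {d : Finset ℕ → ℕ} {n : ℕ}
  {D : LevelDatum P d n} {F : Frames P} (ch : D.Choice F)

namespace Choice

theorem val_C (x : D.XPt) (o : O) :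
    ch.val x (P.inclR (MvPowerSeries.C o)) =
      algebraMap O (MvPowerSeries P.FrameVar D.Coeff) o := by
  have := ((ch.val x).comp P.inclR).commutes o
  rwa [MvPowerSeries.algebraMap_apply, Algebra.algebraMap_self, RingHom.id_apply,
    AlgHom.comp_apply] at this

theorem val_coordX (x : D.XPt) (c : P.LocCoord) :
    ch.val x (P.inclR (MvPowerSeries.X (.inl c))) = P.coord F (ch.repAt x) c := by
  rw [val_inclR, evalAdic_X]
  rfl

theorem val_sepSeries (x : D.XPt) (hp : P.p ∈ P.loc) :
    ch.val x (P.sepSeries F) = P.framed F P.p (ch.repAt x (P.pElem 1)) 0 1 := by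
  rw [LiftProblem.sepSeries, dif_pos hp, map_add, map_add, val_C, val_coordX,
    MvPowerSeries.algebraMap_apply]
  simp [LiftProblem.coord, LiftProblem.coordPrime, LiftProblem.coordElem, LiftProblem.coordPos,
    Frames.rho, conjRep_apply]

omit [IsAdicComplete (maximalIdeal O) O] in
theorem repAt_some (θ : D.Pt) :
    ∃ g : GL (Fin 2) D.Coeff, ∀ σ, ch.repAt (some θ) σ =
      (g : Matrix (Fin 2) (Fin 2) D.Coeff) * D.rep θ σ * (g⁻¹ : GL (Fin 2) D.Coeff) :=
  ch.M_conj (some θ)

/-- The per-level element killing flat points. -/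
def hLevel : P.ARing := P.hElem F (algebraMap O P.ARing ch.c + P.wVar)

theorem val_hLevel_eq_zero (hflat : ch.FlatEq) (hp : P.p ∈ P.raise) {θ : D.Pt} (hθ : θ ∈ D.allPts)
    (hfl : FlatAt (D.rep θ) P.p) : ch.val (some θ) ch.hLevel = 0 := by
  have hploc : P.p ∈ P.loc := Finset.mem_union_left _ (Finset.mem_union_right _ hp)
  rw [hLevel, LiftProblem.hElem, if_pos hp, map_sub, map_mul, map_add, AlgHom.commutes,
    AlgHom.commutes, val_sepSeries ch _ hploc, hflat θ hθ hfl, sub_eq_zero,
    LiftProblem.wVar, val_X]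
  rfl

/-- Every point of a level is good or killed. -/
theorem good_or_killed (hflat : ch.FlatEq) {J : Finset ℕ} (hJ : J ⊆ P.raise) {θ : D.Pt}
    (hθ : θ ∈ D.pts J) : some θ ∈ D.goodPts ∨ ch.val (some θ) ch.hLevel = 0 := by
  have hall : θ ∈ D.allPts := ⟨J, hJ, hθ⟩
  by_cases hs : P.p ∈ P.loc → StrictAt (D.rep θ) P.p (algebraMap O D.Coeff (P.ε P.p))
  · left
    rintro θ' h
    obtain rfl := Option.some.inj h
    exact ⟨hall, hs⟩
  · push Not at hs
    obtain ⟨hploc, hns⟩ := hs
    rcases Finset.mem_union.mp (P.p_mem_loc_iff.mp hploc) with hm | hr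
    · exact absurd (D.pts_strict J hJ θ hθ hm) hns
    · right
      refine ch.val_hLevel_eq_zero hflat hr hall ?_
      by_cases hpJ : P.p ∈ J
      · exact (D.pts_p J hJ θ hθ hpJ).resolve_right hns
      · refine D.pts_flat J hJ θ hθ fun h => ?_
        rcases Finset.mem_union.mp h with h | h
        exacts [Finset.disjoint_left.mp P.disjoint_raise h hr, hpJ h]

theorem val_signElem (x : D.XPt) (v : P.tameLoc) :
    ch.val x (P.inclR (P.signElem F v)) =
      algebraMap O _ (P.ε v) *
        (P.framed F v (ch.repAt x (P.frob v)) 0 0 * P.framed F v (ch.repAt x (F.τ v)) 0 1 -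
          P.framed F v (ch.repAt x (P.frob v)) 0 1 *
            (P.framed F v (ch.repAt x (F.τ v)) 0 0 - 1)) +
        algebraMap O _ ((v : ℕ) : O) * P.framed F v (ch.repAt x (F.τ v)) 0 1 := by
  rw [LiftProblem.signElem, LiftProblem.frobEntry, LiftProblem.frobEntry, LiftProblem.tauEntry,
    LiftProblem.tauEntry]
  simp only [map_add, map_mul, map_sub, map_one, val_C, val_coordX, MvPowerSeries.algebraMap_apply]
  simp [LiftProblem.coord, LiftProblem.coordPrime, LiftProblem.coordElem, LiftProblem.coordPos,
    Frames.rho, conjRep_apply, Chart.TameCoord.pos]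

/-- Points at a prime of the level have the sign of the problem or are killed by the sign series;
at minimal primes the sign is that of the problem. -/
theorem steinberg_or_signElem (hF : F.IsNormal) {J : Finset ℕ} (hJ : J ⊆ P.raise) {θ : D.Pt}
    (hθ : θ ∈ D.pts J) (v : P.tameLoc) (hv : (v : ℕ) ∈ P.minimal ∪ J) :
    (SteinbergAt (ch.repAt (some θ)) v (algebraMap O D.Coeff (P.ε v)) ∨
      ch.val (some θ) (P.inclR (P.signElem F v)) = 0) ∧
    ((v : ℕ) ∈ P.minimal → SteinbergAt (ch.repAt (some θ)) v (algebraMap O D.Coeff (P.ε v))) := by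
  obtain ⟨hvp, hloc⟩ := Finset.mem_erase.mp v.2
  have hv' := P.mem_loc_prime hloc
  obtain ⟨g, hg⟩ := ch.repAt_some θ
  set M := ch.repAt (some θ)
  set x : D.XPt := some θ
  set T := MvPowerSeries P.FrameVar D.Coeff
  have : IsDomain T := NoZeroDivisors.to_isDomain _
  have hε : P.ε (v : ℕ) * P.ε (v : ℕ) = 1 := by rcases P.sign (v : ℕ) with h | h <;> simp [h]
  have key : (UnramifiedAt M v ∨ SteinbergAt M v (-algebraMap O D.Coeff (P.ε v))) →
      ch.val x (P.inclR (P.signElem F v)) = 0 := by
    rintro (hu | hst)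
    · rw [val_signElem, hu _ (P.place_spec _ hv') _ (F.τ_mem _ hloc hvp), framed_one]
      simp
    · have he : -algebraMap O D.Coeff (P.ε v) * -algebraMap O D.Coeff (P.ε v) = 1 := by
        rw [neg_mul_neg, ← map_mul, hε, map_one]
      obtain ⟨w, hw, hτw, hΦw⟩ := exists_steinberg_eigenvector F M D.coeff_inj (ch.M_cont x)
        (ch.repAt_det x) hloc hvp he hst
      have hΦ' := framed_mulVec F v _ w _ hΦw
      have hτ' := framed_mulVec F v _ w 1 (by rw [one_smul]; exact hτw)
      rw [map_one, one_smul] at hτ'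
      obtain ⟨i, hi⟩ := exists_isUnit_unit_mulVec (F.unit D.Coeff v)
        (fun i => MvPowerSeries.C (w i)) (hw.imp fun i hi => hi.map MvPowerSeries.C)
      rw [val_signElem]
      refine sign_identity _ _ _ _ (by rw [← map_mul, hε, map_one]) _
        (fun h => hi.ne_zero (congrFun h i)) hτ' ?_
      rw [hΦ']
      congr 1
      rw [map_mul, map_neg, map_natCast, map_natCast, MvPowerSeries.algebraMap_apply]
  have hmin : (v : ℕ) ∈ P.minimal →
      ¬ (UnramifiedAt M v ∨ SteinbergAt M v (-algebraMap O D.Coeff (P.ε v))) := by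
    intro hm h
    have h0 := key h
    rw [val_signElem] at h0
    have hvr : (v : ℕ) ∈ P.minimal ∪ P.raise := Finset.mem_union_left _ hm
    have hmemT : ∀ (σ : AbsGal) (i j : Fin 2), P.framed F v (M σ) i j -
        algebraMap O T (F.rho v σ i j) ∈ maximalIdeal T :=
      fun σ i j => framed_sub_mem F M (ch.repAt_res x) v σ i j
    let π := residue T
    have hres : ∀ (σ : AbsGal) (i j : Fin 2), π (P.framed F v (ch.repAt x σ) i j) =
        π (algebraMap O T (F.rho v σ i j)) := fun σ i j => by
      rw [← sub_eq_zero, ← map_sub]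
      exact (residue_eq_zero_iff _).mpr (hmemT σ i j)
    have h1 := congrArg π h0
    simp only [map_add, map_mul, map_sub, map_one, map_zero, hres, hF.frob00 _ hvr hvp,
      hF.tau00 _ hvr hvp] at h1
    have h2 : π (algebraMap O T ((2 * ((v : ℕ) : O)) * F.rho v (F.τ v) 0 1)) = 0 := by
      rw [map_mul, map_mul (algebraMap O T), map_ofNat, map_mul π, map_mul π, map_ofNat]
      have hεπ : π (algebraMap O T (P.ε v)) * π (algebraMap O T (P.ε v)) = 1 := by
        rw [← map_mul, ← map_mul, hε, map_one, map_one]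
      linear_combination h1 - (π (algebraMap O T ((v : ℕ) : O)) *
        π (algebraMap O T (F.rho v (F.τ v) 0 1))) * hεπ
    have hunit : IsUnit (π (algebraMap O T ((2 * ((v : ℕ) : O)) * F.rho v (F.τ v) 0 1))) :=
      (((LiftProblem.isUnit_two (P := P)).mul (isUnit_natCast_prime P.hp P.p_mem hv' hvp)).mul
        (P.isUnit_tau_corner hF hm hvp)).map (π.comp (algebraMap O T))
    exact hunit.ne_zero h2
  have hcases : SteinbergAt M v (algebraMap O D.Coeff (P.ε v)) ∨
      (UnramifiedAt M v ∨ SteinbergAt M v (-algebraMap O D.Coeff (P.ε v))) := by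
    rcases D.pts_steinberg J hJ θ hθ v hv hvp with h | ⟨e, he, h⟩
    · exact Or.inr (Or.inl ((localProps_conj hg v (1 : D.Coeff)).1 h))
    · have h' := (localProps_conj hg v e).2.1 h
      rcases P.sign (v : ℕ) with hs | hs <;> rw [hs] <;> rcases he with rfl | rfl <;>
        simp only [map_one, map_neg, neg_neg] <;>
        first | exact Or.inl h' | exact Or.inr (Or.inr h')
  exact ⟨hcases.imp id key, fun hm => hcases.resolve_right (hmin hm)⟩

end Choice

end LevelDatum

end FLTAgent.ModularityLifting
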