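import Fermat.Agent.ModularityLifting.Engine.Component
import Fermat.Agent.ModularityLifting.Engine.Relations

/-!
# Special points of the components

A curve in the special fibre of the component of a level, on which the upper entries of the tame
inertia at the primes of the level and of one element at `p` move, and the origin of the component
of the top level.
-/

set_option autoImplicit false

noncomputable section

open IsLocalRing

namespace FLTAgent.ModularityLifting

open FLTAgent.DefRing Chart Engine

/-- The origin of a chart in an algebra where the constant terms vanish. -/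
theorem onChart_zero {O : Type} [CommRing O] [IsLocalRing O] {T : Type} [CommRing T] [IsLocalRing T]
    [Algebra O T] {ι : Type} (C : Chart O ι)
    (h : ∀ i, algebraMap O T (MvPolynomial.constantCoeff (C.entry i)) = 0) :
    OnChart C fun _ => (0 : T) :=
  ⟨fun _ => 0, fun _ _ => zero_mem _, fun i => by rw [MvPolynomial.aeval_zero', h]⟩

theorem constantCoeff_tri_entry {O : Type} [CommRing O] [IsLocalRing O] {J : Type} [Fintype J]
    (a d c : J → O) (x : J × Fin 2 × Fin 2) :
    MvPolynomial.constantCoeff ((tri a d c).entry x) = 0 := by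
  rw [map_sub, map_triEntry]
  simp

theorem constantCoeff_stChart_entry {O : Type} [CommRing O] [IsLocalRing O] [IsNoetherianRing O]
    [IsAdicComplete (maximalIdeal O) O] (q ε c n : O) (x : TameCoord) :
    MvPolynomial.constantCoeff ((stChart q ε c n).entry x) = 0 := by
  unfold stChart
  by_cases h : q - 1 ∈ maximalIdeal O ∧ ε * c ∈ maximalIdeal O ∧ n ∈ maximalIdeal O
  · rw [dif_pos h]
    show MvPolynomial.constantCoeff (coneEntry q ε (ε * c) n x) = 0
    rw [coneEntry, map_sub, map_coneMat]
    simp
  · rw [dif_neg h]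
    exact constantCoeff_tri_entry ![ε * q, 1] ![ε, 1] ![c, n] x.pos

theorem constantCoeff_urChart_entry {O : Type} [CommRing O] [IsLocalRing O] [IsNoetherianRing O]
    [IsAdicComplete (maximalIdeal O) O] (N : Fin 2 → Fin 2 → O)
    (hN : ∀ i k, N i k = (1 : Matrix (Fin 2) (Fin 2) O) i k) (x : TameCoord) :
    MvPolynomial.constantCoeff ((urChart N).entry x) = 0 := by
  classical
  cases x <;> simp [urChart, hN] <;> exact MvPolynomial.constantCoeff_X _ _

namespace LiftProblem

variable {O : Type} [CommRing O] [IsDomain O] [IsDiscreteValuationRing O]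

/-- Series in one variable over the residue field. -/
abbrev CurveRing (_P : LiftProblem O) : Type := MvPowerSeries Unit (ResidueField O)

variable (P : LiftProblem O)

/-- The coordinates of the curve. -/
def curveVal (J : Finset ℕ) : P.Coord → P.CurveRing
  | .inl (.inl ⟨v, c⟩) => if (v : ℕ) ∈ P.minimal ∪ J ∧ c = .tau01 then MvPowerSeries.X () else 0
  | .inl (.inr x) => if x.1 = (1, 0, 1) then MvPowerSeries.X () else 0
  | .inr _ => 0

theorem curveVal_mem (J : Finset ℕ) (c : P.Coord) :
    P.curveVal J c ∈ maximalIdeal P.CurveRing := by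
  rcases c with (⟨v, c⟩ | x) | k <;> simp only [curveVal] <;> (try split_ifs) <;>
    first | exact DefRing.X_mem_maximalIdeal () | exact zero_mem _

instance : IsLocalHom (algebraMap O (ResidueField O)) :=
  ⟨fun a h => Classical.not_not.mp fun hu => h.ne_zero
    ((residue_eq_zero_iff a).mpr ((mem_maximalIdeal a).mpr hu))⟩

theorem algebraMap_curveRing {x : O} (h : x ∈ maximalIdeal O) :
    algebraMap O P.CurveRing x = 0 := by
  rw [MvPowerSeries.algebraMap_apply, ResidueField.algebraMap_eq, (residue_eq_zero_iff x).mpr h,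
    map_zero]

variable [IsAdicComplete (maximalIdeal O) O]

/-- The map of the coordinate ring to the curve. -/
def curveMap (J : Finset ℕ) : P.RRing →ₐ[O] P.CurveRing :=
  evalAdic (maximalIdeal P.CurveRing) (P.curveVal J) (P.curveVal_mem J)

omit [IsAdicComplete (maximalIdeal O) O] in
theorem curveMap_X (J : Finset ℕ) (c : P.Coord) :
    P.curveMap J (MvPowerSeries.X c) = P.curveVal J c := evalAdic_X _ _ _ _

omit [IsAdicComplete (maximalIdeal O) O] in
theorem curveMap_C (J : Finset ℕ) (x : O) :
    P.curveMap J (MvPowerSeries.C x) = MvPowerSeries.C (residue O x) := by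
  have h := (P.curveMap J).commutes x
  simpa [MvPowerSeries.algebraMap_apply] using h

/-- The prime of the curve. -/
def curvePrime (J : Finset ℕ) : Ideal P.RRing := RingHom.ker (P.curveMap J)

instance isPrime_curvePrime (J : Finset ℕ) : (P.curvePrime J).IsPrime :=
  haveI : IsDomain P.CurveRing := NoZeroDivisors.to_isDomain _
  RingHom.ker_isPrime _

variable {F : Frames P} {J : Finset ℕ}

theorem component_le_curvePrime :
    P.component F J ≤ P.curvePrime J := by
  classical
  have h : ∀ s, OnChart (P.siteChart F J s) fun x => P.curveVal J (P.siteEquiv.symm ⟨s, x⟩) := by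
    rintro (v | u | u)
    · show OnChart (P.siteChart F J (.inl v))
        fun x : TameCoord => P.curveVal J (.inl (.inl ⟨v, x⟩))
      by_cases hv : (v : ℕ) ∈ P.minimal ∪ J
      · obtain ⟨hvp, hloc⟩ := Finset.mem_erase.mp v.2
        have hv' := P.mem_loc_prime hloc
        have hε : P.ε (v : ℕ) * P.ε (v : ℕ) = 1 := by
          rcases P.sign (v : ℕ) with h | h <;> simp [h]
        have hεT : algebraMap O P.CurveRing (P.ε v) * algebraMap O P.CurveRing (P.ε v) = 1 := by
          rw [← map_mul, hε, map_one]
        set c := F.rho v (P.frob v) 0 1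
        set n := F.rho v (F.τ v) 0 1
        let Φ : Matrix (Fin 2) (Fin 2) P.CurveRing :=
          !![algebraMap O _ (P.ε v * ((v : ℕ) : O)), algebraMap O _ c; 0, algebraMap O _ (P.ε v)]
        let τ : Matrix (Fin 2) (Fin 2) P.CurveRing :=
          !![1, algebraMap O _ n + MvPowerSeries.X (); 0, 1]
        have hon := onChart_stChart ((v : ℕ) : O) (P.ε v) c n hε
          (isUnit_natCast_prime P.hp P.p_mem hv' hvp) Φ τ
          (fun i k => by fin_cases i <;> fin_cases k <;> simp [Φ])
          (fun i k => by
            fin_cases i <;> fin_cases k <;>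
              simp [τ, DefRing.X_mem_maximalIdeal, -IsLocalRing.mem_maximalIdeal])
          (by
            rw [Matrix.det_fin_two]
            simp [Φ, map_mul, map_natCast]
            linear_combination ((v : ℕ) : P.CurveRing) * hεT)
          (by rw [Matrix.det_fin_two]; simp [τ])
          ![1, 0] ⟨0, by simp⟩
          (by
            funext i
            fin_cases i <;> simp [Φ, Matrix.mulVec, dotProduct, Fin.sum_univ_two])
          (by
            funext i
            fin_cases i <;> simp [τ, Matrix.mulVec, dotProduct, Fin.sum_univ_two])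
        show OnChart (ι := TameCoord) (if (v : ℕ) ∈ P.minimal ∪ J then _ else _) _
        rw [if_pos hv]
        convert hon using 1
        funext x
        cases x <;> simp [curveVal, hv, TameCoord.pos, Φ, τ]
      · have e : (fun x : TameCoord => P.curveVal J (.inl (.inl ⟨v, x⟩))) = fun _ => 0 := by
          funext x
          simp [curveVal, hv]
        rw [e]
        exact onChart_zero _ fun i =>
          P.algebraMap_curveRing ((P.siteChart F J (.inl v)).entry_small i 0 fun _ _ => rfl)
    · set a := fun j => F.rho P.p (P.pElem j) 0 0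
      set d := fun j => F.rho P.p (P.pElem j) 1 1
      set c₀ := fun j => F.rho P.p (P.pElem j) 0 1
      obtain ⟨w, hw, he⟩ := onChart_tri a d c₀ (T := P.CurveRing) (zero_mem _)
        (fun j => triEntry (algebraMap O _ (a j)) (algebraMap O _ (d j))
          (algebraMap O _ (c₀ j) + if j = 1 then MvPowerSeries.X () else 0) 0)
        (fun j => by simp [triEntry])
        (fun j => by
          split_ifs <;>
            simp [triEntry, DefRing.X_mem_maximalIdeal, -IsLocalRing.mem_maximalIdeal, *])
      refine ⟨w, hw, fun x : Fin 3 × Fin 2 × Fin 2 => ?_⟩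
      refine Eq.trans ?_ (he x)
      obtain ⟨j, i, k⟩ := x
      show P.curveVal J (.inl (.inr ⟨(j, i, k), u.2⟩)) = _
      fin_cases i <;> fin_cases k <;> simp [curveVal, triEntry]
    · exact onChart_zero _ fun i =>
        P.algebraMap_curveRing ((P.siteChart F J (.inr (.inr u))).entry_small i 0 fun _ _ => rfl)
  obtain ⟨w, hw, hwe⟩ := onChart_reindex (Chart.sigma (P.siteChart F J)) P.siteEquiv
    (fun y => P.curveVal J (P.siteEquiv.symm y)) (onChart_sigma _ _ h)
  simp only [Equiv.symm_apply_apply] at hwe
  intro f hf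
  rw [curvePrime, RingHom.mem_ker]
  refine (P.levelChart F J).eval_eq_zero (maximalIdeal _) ?_ w hw _ (P.curveVal_mem J) hwe hf
  refine Ideal.map_le_iff_le_comap.mpr fun x hx => ?_
  rw [Ideal.mem_comap, P.algebraMap_curveRing hx]
  exact zero_mem _

omit [IsAdicComplete (maximalIdeal O) O] in
theorem unif_mem_curvePrime (J : Finset ℕ) :
    algebraMap O P.RRing LiftProblem.unif ∈ P.curvePrime J := by
  rw [curvePrime, RingHom.mem_ker, AlgHom.commutes, P.algebraMap_curveRing unif_mem]

omit [IsAdicComplete (maximalIdeal O) O] in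
/-- A series which is a constant plus the variable is not zero. -/
theorem C_add_X_ne_zero (a : ResidueField O) :
    (MvPowerSeries.C a + MvPowerSeries.X () : P.CurveRing) ≠ 0 := fun h => by
  classical
  have h' := congrArg (MvPowerSeries.coeff (Finsupp.single () 1)) h
  rw [map_add, MvPowerSeries.coeff_index_single_self_X, MvPowerSeries.coeff_C,
    if_neg (Finsupp.single_ne_zero.mpr one_ne_zero), zero_add, map_zero] at h'
  exact one_ne_zero h'

omit [IsAdicComplete (maximalIdeal O) O] in
theorem signProd_notMem_curvePrime (hF : F.IsNormal) (hJ : J ⊆ P.raise) {J' : Finset ℕ}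
    (h : J' ⊆ J) : P.signProd F J' ∉ P.curvePrime J := by
  classical
  intro hmem
  obtain ⟨v, hv, hv0⟩ := Ideal.IsPrime.prod_mem_iff.mp hmem
  have hvJ : (v : ℕ) ∈ J := h (Finset.mem_filter.mp hv).2
  have hvm : (v : ℕ) ∈ P.minimal ∪ J := Finset.mem_union_right _ hvJ
  have hvr : (v : ℕ) ∈ P.minimal ∪ P.raise := Finset.mem_union_right _ (hJ hvJ)
  obtain ⟨hvp, hloc⟩ := Finset.mem_erase.mp v.2
  rw [curvePrime, RingHom.mem_ker, signElem] at hv0
  simp only [frobEntry, tauEntry, map_add, map_mul, map_sub, map_one, curveMap_C, curveMap_X,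
    curveVal, TameCoord.pos, hvm, true_and, reduceCtorEq, if_false, if_true, add_zero,
    hF.frob00 _ hvr hvp, hF.tau00 _ hvr hvp] at hv0
  have hεT : (MvPowerSeries.C (residue O (P.ε v)) : P.CurveRing) *
      MvPowerSeries.C (residue O (P.ε v)) = 1 := by
    rw [← map_mul, ← map_mul]
    rcases P.sign (v : ℕ) with h | h <;> simp [h]
  have h2 : (MvPowerSeries.C (residue O (2 * ((v : ℕ) : O))) : P.CurveRing) *
      (MvPowerSeries.C (residue O (F.rho v (F.τ v) 0 1)) + MvPowerSeries.X ()) = 0 := by
    rw [map_mul, map_mul, map_ofNat, map_ofNat]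
    linear_combination hv0 - (MvPowerSeries.C (residue O ((v : ℕ) : O)) *
      (MvPowerSeries.C (residue O (F.rho v (F.τ v) 0 1)) + MvPowerSeries.X ())) * hεT
  have : IsDomain P.CurveRing := NoZeroDivisors.to_isDomain _
  refine (mul_eq_zero.mp h2).elim (fun h => ?_) (P.C_add_X_ne_zero _)
  exact ((((isUnit_two (P := P)).mul
    (isUnit_natCast_prime P.hp P.p_mem (P.mem_loc_prime hloc) hvp)).map
    (residue O)).map (MvPowerSeries.C (σ := Unit))).ne_zero h

omit [IsAdicComplete (maximalIdeal O) O] in
theorem trFrob_sub_mem_curvePrime (hF : F.IsNormal) {v : P.tameLoc} (hv : (v : ℕ) ∈ P.raise)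
    (hvJ : (v : ℕ) ∉ J) :
    P.trFrob F v - MvPowerSeries.C (P.ε v) * (MvPowerSeries.C ((v : ℕ) : O) + 1) ∈
      P.curvePrime J := by
  classical
  have hvr : (v : ℕ) ∈ P.minimal ∪ P.raise := Finset.mem_union_right _ hv
  have hvm : (v : ℕ) ∉ P.minimal ∪ J := fun h => (Finset.mem_union.mp h).elim
    (fun h => Finset.disjoint_left.mp P.disjoint_raise h hv) hvJ
  have hvp := (Finset.mem_erase.mp v.2).1
  rw [curvePrime, RingHom.mem_ker, map_sub, sub_eq_zero]
  set φ := P.curveMap J
  have h00 : φ (P.frobEntry F v .phi00) =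
      MvPowerSeries.C (residue O (P.ε v)) * MvPowerSeries.C (residue O ((v : ℕ) : O)) := by
    simp [φ, frobEntry, curveMap_C, curveMap_X, curveVal, hvm, TameCoord.pos, hF.frob00 _ hvr hvp]
  have h10 : φ (P.frobEntry F v .phi10) = 0 := by
    simp only [φ, frobEntry, map_add, curveMap_C, curveMap_X, curveVal, TameCoord.pos,
      show F.rho v (P.frob v) 1 0 = 0 from F.upper_frob v hvr hvp]
    simp [hvm]
  have hinv : φ (P.frobEntry F v .phi00) *
      φ (((P.isUnit_frobEntry F v).unit⁻¹ : P.RRingˣ) : P.RRing) = 1 := by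
    rw [← map_mul, IsUnit.mul_val_inv, map_one]
  have hεT : (MvPowerSeries.C (residue O (P.ε v)) : P.CurveRing) *
      MvPowerSeries.C (residue O (P.ε v)) = 1 := by
    rw [← map_mul, ← map_mul]
    rcases P.sign (v : ℕ) with h | h <;> simp [h]
  rw [h00] at hinv
  simp only [trFrob, map_add, map_mul, h00, h10, mul_zero, add_zero, map_one, φ, curveMap_C]
    at hinv ⊢
  linear_combination (MvPowerSeries.C (residue O (P.ε v))) * hinv -
    (MvPowerSeries.C (residue O ((v : ℕ) : O)) *
      P.curveMap J (((P.isUnit_frobEntry F v).unit⁻¹ : P.RRingˣ) : P.RRing)) * hεT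

/-- The upper entry of the separating element as a series in the coordinates. -/
def sepEntry (F : Frames P) (hp : P.p ∈ P.loc) : P.RRing :=
  MvPowerSeries.C (F.rho P.p (P.pElem 1) 0 1) + MvPowerSeries.X (.inl (.inr ⟨(1, 0, 1), hp⟩))

theorem sepSeries_eq (hp : P.p ∈ P.loc) : P.sepSeries F = P.inclR (P.sepEntry F hp) :=
  dif_pos hp

omit [IsAdicComplete (maximalIdeal O) O] in
theorem sepEntry_notMem_curvePrime (hp : P.p ∈ P.loc) :
    P.sepEntry F hp ∉ P.curvePrime J := by
  rw [curvePrime, RingHom.mem_ker, sepEntry, map_add, curveMap_C, curveMap_X]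
  simpa [curveVal] using P.C_add_X_ne_zero _

/-- A prime over the curve avoids the element killing flat points. -/
theorem hElem_notMem {e : P.ARing} {Q : Ideal P.ARing} [Q.IsPrime]
    (hQ : Q.comap P.inclR = P.curvePrime J) : P.hElem F e ∉ Q := by
  intro h
  rw [hElem] at h
  split_ifs at h with hr
  · have hp : P.p ∈ P.loc := Finset.mem_union_left _ (Finset.mem_union_right _ hr)
    have hu : algebraMap O P.ARing LiftProblem.unif ∈ Q := by
      have := P.unif_mem_curvePrime J
      rwa [← hQ, Ideal.mem_comap, AlgHom.commutes] at this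
    have h2 := add_mem h (Ideal.mul_mem_right e _ hu)
    rw [sub_add_cancel, P.sepSeries_eq hp, ← Ideal.mem_comap, hQ] at h2
    exact P.sepEntry_notMem_curvePrime hp h2
  · exact ‹Q.IsPrime›.ne_top (Q.eq_top_of_isUnit_mem h isUnit_one)

/-- The component of the top level passes through the origin. -/
theorem constantCoeff_eq_zero_of_mem_component {f : P.RRing}
    (hf : f ∈ P.component F P.raise) : MvPowerSeries.constantCoeff f = 0 := by
  classical
  have hcc : ∀ c : P.Coord,
      MvPolynomial.constantCoeff ((P.levelChart F P.raise).entry c) = 0 := by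
    intro c
    show MvPolynomial.constantCoeff (MvPolynomial.rename _ ((P.siteChart F P.raise
      (P.siteEquiv c).1).entry (P.siteEquiv c).2)) = 0
    rw [MvPolynomial.constantCoeff_rename]
    generalize P.siteEquiv c = y
    obtain ⟨(v | u | u), x⟩ := y
    · obtain ⟨hvp, hloc⟩ := Finset.mem_erase.mp v.2
      show MvPolynomial.constantCoeff (Chart.entry (ι := TameCoord)
        (if (v : ℕ) ∈ P.minimal ∪ P.raise then _ else _) x) = 0
      by_cases hv : (v : ℕ) ∈ P.minimal ∪ P.raise
      · rw [if_pos hv]
        exact constantCoeff_stChart_entry ((v : ℕ) : O) (P.ε v) (F.rho v (P.frob v) 0 1)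
          (F.rho v (F.τ v) 0 1) x
      · rw [if_neg hv]
        refine constantCoeff_urChart_entry _ (fun i k => ?_) x
        have hu := P.unram v (P.mem_loc_prime hloc) hv hvp _
          (P.place_spec _ (P.mem_loc_prime hloc)) _ (F.τ_mem v hloc hvp)
        rw [Frames.rho, conjRep_apply, hu, mul_one, Units.mul_inv]
    · show MvPolynomial.constantCoeff ((tri (fun j => F.rho P.p (P.pElem j) 0 0)
        (fun j => F.rho P.p (P.pElem j) 1 1) (fun j => F.rho P.p (P.pElem j) 0 1)).entry x) = 0
      exact constantCoeff_tri_entry _ _ _ _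
    · show MvPolynomial.constantCoeff (MvPolynomial.X x : MvPolynomial (Fin P.globalCount) O) = 0
      exact MvPolynomial.constantCoeff_X _ _
  have hz : ∀ c, ((P.levelChart F P.raise).entry c).aeval
      (fun _ => (0 : O)) = 0 := fun c => by
    simp [MvPolynomial.aeval_zero', hcc c]
  have h0 := (P.levelChart F P.raise).eval_eq_zero (T := O) (maximalIdeal O)
    (by simp) (fun _ => 0) (fun _ _ => zero_mem _) (fun _ => 0) (fun _ => zero_mem _)
    (fun c => (hz c).symm) hf
  have h1 := comp_evalAdic_constant (O := O) (maximalIdeal O) (AlgHom.id O O)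
    (fun _ : P.Coord => (0 : O)) (fun _ => zero_mem _) (fun _ => by simp) f
  rw [AlgHom.id_apply, h0] at h1
  simpa using h1.symm

end LiftProblem

end FLTAgent.ModularityLifting
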