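import Fermat.Agent.ModularityLifting.Engine.Modules
import Fermat.Agent.ModularityLifting.Engine.Special

/-!
# Induction on the level

The kernel of the action of the coordinates on the module of a level, away from the flat points,
lies in the component of the level: for the first level this is the support lemma, and adding a
prime passes through the cokernel of the degeneracy map at the special curve of the smaller level.
-/

set_option autoImplicit false

noncomputable section

open IsLocalRing

namespace FLTAgent.ModularityLifting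

open FLTAgent.DefRing Engine

/-- Rows of the composite of the degeneracy maps. -/
theorem frobBlock_mulVec {T : Type} [CommRing T] {k : ℕ} (v : ℕ) (M : Matrix (Fin k) (Fin k) T)
    (y : Fin 2 → Fin k → T) :
    (fun c => (frobBlock v M).mulVec (fun z => y z.1 z.2) (0, c)) =
        ((v : T) + 1) • y 0 + M.mulVec (y 1) ∧
      (fun c => (frobBlock v M).mulVec (fun z => y z.1 z.2) (1, c)) =
        M.mulVec (y 0) + ((v : T) + 1) • y 1 := by
  constructor <;> funext c <;>
    simp [frobBlock, Matrix.mulVec, dotProduct, Fintype.sum_prod_type, Fin.sum_univ_two,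
      Finset.sum_ite_eq, ite_mul]

/-- Rows of the matrix intertwined with the projector. -/
theorem signBlock_mulVec {T : Type} [CommRing T] {k : ℕ} (v : ℕ) (e : T)
    (M : Matrix (Fin k) (Fin k) T) (y : Fin 2 × Fin k → T) :
    (fun c => (signBlock v e M).mulVec y (0, c)) =
        (fun c => y (0, c)) + (e * (v : T)) • (fun c => y (1, c)) ∧
      (fun c => (signBlock v e M).mulVec y (1, c)) =
        (fun c => y (1, c)) + e • M.mulVec (fun c => y (1, c)) - e • fun c => y (0, c) := by
  constructor <;> funext c <;>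
    simp [signBlock, Matrix.mulVec, dotProduct, Fintype.sum_prod_type, Fin.sum_univ_two,
      Finset.sum_add_distrib, Finset.sum_ite_eq, ite_mul, add_mul, mul_assoc, Finset.mul_sum,
      Prod.ext_iff]
  all_goals ring

variable {O : Type} [CommRing O] [IsDomain O] [IsDiscreteValuationRing O]
  [IsAdicComplete (maximalIdeal O) O]

namespace Patched

variable {P : LiftProblem O} {F : Frames P} {d : Finset ℕ → ℕ} {Q : MvPolynomial ℕ ℤ}
  (pt : Patched P F d Q)

/-- The element killing flat points. -/
def h : P.ARing := P.hElem F pt.e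

/-- The module of a level, cut by the element killing flat points. -/
def hL (J : P.Level) : pt.Mod J →ₗ[P.ARing] pt.Mod J := LinearMap.lsmul P.ARing (pt.Mod J) pt.h

theorem relsKill_hL (J : P.Level) : pt.RelsKill (pt.hL J) := by
  constructor <;> intro a y <;> show _ • pt.h • y = 0 <;> rw [smul_smul, mul_comm]
  · exact pt.smul_eq_zero_of_Ψ (pt.rel_frame J a) y
  · exact pt.smul_eq_zero_of_Ψ (pt.rel_diamond J a) y

/-- The conclusion of the induction at a level. -/
def Supported (J : P.Level) : Prop :=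
  ∀ g : P.RRing, (∀ y, P.inclR g • pt.hL J y = 0) → g ∈ P.component F J.1

theorem inclR_signProd_notMem (hF : F.IsNormal) {J₀ J : Finset ℕ} (hJ₀ : J₀ ⊆ P.raise)
    (hJ : J ⊆ J₀) {Q' : Ideal P.ARing} (hQ : Q'.comap P.inclR = P.curvePrime J₀) :
    P.inclR (P.signProd F J) ∉ Q' := fun hm => by
  rw [← Ideal.mem_comap, hQ] at hm
  exact P.signProd_notMem_curvePrime hF hJ₀ hJ hm

/-- The criterion for the next level. -/
theorem supported_next (hF : F.IsNormal) (hr : P.p ∈ P.loc → 1 ≤ P.r) (x : P.Step)
    {J₀ : Finset ℕ} (hJ₀ : J₀ ⊆ P.raise) (hsub : x.J.1 ⊆ J₀) {Q' : Ideal P.ARing} [Q'.IsPrime]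
    (hQ : Q'.comap P.inclR = P.curvePrime J₀)
    (hQ' : ∀ t, (∀ m, t • pt.EL x m ∈ LinearMap.range (pt.αL x)) → t ∈ Q') :
    pt.Supported x.next := by
  intro g hg
  let f : pt.Mod x.next →ₗ[P.ARing] pt.Coker x :=
    (LinearMap.range (pt.αL x)).mkQ.comp (pt.h • pt.EL x)
  have happ : ∀ a y, a • f y = (LinearMap.range (pt.αL x)).mkQ ((a * pt.h) • pt.EL x y) :=
    fun a y => by rw [mul_smul, map_smul]; rfl
  have hrels : pt.RelsKill f := by
    constructor <;> intro a y <;> rw [happ, mul_comm]
    · exact (congrArg _ (pt.smul_eq_zero_of_Ψ (J := x.next) (a := pt.h * pt.zRel a)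
        (pt.rel_frame x.next a) (pt.EL x y))).trans (map_zero _)
    · exact (congrArg _ (pt.smul_eq_zero_of_Ψ (J := x.next) (a := pt.h * pt.yRel a)
        (pt.rel_diamond x.next a) (pt.EL x y))).trans (map_zero _)
  refine kernel_le_component hF hr hrels (Q' := Q') (fun t ht => ?_) (fun g hg => ?_) fun y => ?_
  · refine (Ideal.IsPrime.mem_or_mem ‹_› (hQ' (t * pt.h) fun m => ?_)).resolve_right
      (P.hElem_notMem hQ)
    have h1 := ht m
    rw [happ] at h1
    exact (Submodule.Quotient.mk_eq_zero _).mp h1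
  · refine ⟨P.inclR (P.signProd F x.J.1), inclR_signProd_notMem hF hJ₀ hsub hQ, fun y => ?_⟩
    rw [happ, pt.mkQ_eq_zero_iff]
    show (pt.pr x).mulVec ((pt.Ψ x.next _).mulVec ((pt.E x).mulVec y)) = 0
    rw [Matrix.mulVec_mulVec, Matrix.mulVec_mulVec, pr,
      show P.inclR (P.signProd F x.J.1) * P.inclR g * pt.h =
        P.hElem F pt.e * P.inclR (g * P.signProd F x.J.1) by rw [map_mul, h]; ring,
      pt.coker_kills x g hg, Matrix.zero_mulVec]
  · rw [happ, mul_smul, show P.inclR g • pt.h • pt.EL x y = 0 from hg (pt.EL x y), map_zero]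

/-- Raising the level at a prime other than `p`. -/
theorem supported_step (hF : F.IsNormal) (hr : P.p ∈ P.loc → 1 ≤ P.r) (x : P.Step)
    (hp : x.v ≠ P.p) (hJ : pt.Supported x.J) : pt.Supported x.next := by
  have hloc : x.v ∈ P.loc := Finset.mem_union_left _ (Finset.mem_union_right _ x.mem)
  have htame : x.v ∈ P.tameLoc := Finset.mem_erase.mpr ⟨hp, hloc⟩
  obtain ⟨Q', hQp, hQ', hQ⟩ := exists_prime_of_kernel_le (pt.relsKill_hL x.J) (P.curvePrime x.J.1)
    fun g hg => P.component_le_curvePrime (hJ g hg)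
  refine pt.supported_next hF hr x x.J.2 subset_rfl hQ fun t ht => ?_
  set e : P.ARing := P.inclS (algebraMap O P.SRing (P.ε x.v)) with he
  set v : P.ARing := P.inclS (x.v : P.SRing) with hv
  set T : P.ARing := P.inclR (P.trFrob F ⟨x.v, htame⟩)
  have he1 : e = algebraMap O P.ARing (P.ε x.v) := P.inclS.commutes _
  have hee : e * e = 1 := by
    rw [he1, ← map_mul]
    rcases P.sign x.v with h | h <;> simp [h]
  have hδ : T - e * (v + 1) ∈ Q' := by
    have h := P.trFrob_sub_mem_curvePrime (J := x.J.1) hF (v := ⟨x.v, htame⟩) x.mem x.notMem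
    rw [← hQ, Ideal.mem_comap, map_sub, map_mul, map_add, map_one] at h
    have hC : ∀ c : O, P.inclR (MvPowerSeries.C c) = algebraMap O P.ARing c := fun c => by
      have h := P.inclR.commutes c
      rwa [MvPowerSeries.algebraMap_apply, Algebra.algebraMap_self, RingHom.id_apply] at h
    rw [hC, hC, map_natCast] at h
    rwa [he1, hv, map_natCast]
  let E' : (Fin 2 → pt.Mod x.J) →ₗ[P.ARing] (Fin 2 → pt.Mod x.J) :=
    LinearMap.pi ![LinearMap.proj 0 + (e * v) • LinearMap.proj 1,
      LinearMap.proj 1 + (e * T) • LinearMap.proj 1 - e • LinearMap.proj 0]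
  let π : (Fin 2 → pt.Mod x.J) →ₗ[P.ARing] pt.Mod x.J := LinearMap.proj 1 - e • LinearMap.proj 0
  have hS : ∀ (s : P.SRing) (m : pt.Mod x.J), P.inclS s • m = s • m :=
    fun s m => pt.algebraMap_smul' s m
  have hT : ∀ m : pt.Mod x.J, T • m = ((pt.Ψ x.J T).mulVec m : Fin (d x.J.1) → P.SRing) :=
    fun m => rfl
  refine Patching.mem_of_forall_smul_mem_range (pt.αL x) (pt.βL x hp) (pt.βL_surjective x hp)
    (pt.EL x) E' ?_ (LinearMap.single P.ARing (fun _ => pt.Mod x.J) 0) π (P := Q') ?_ ?_
    (u := -(2 * e)) ?_ ?_ ht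
  · refine LinearMap.ext fun m => funext fun i => ?_
    show (fun k => (pt.β x).mulVec ((pt.E x).mulVec m) (i, k)) = _
    rw [Matrix.mulVec_mulVec, pt.β_E x htame, ← Matrix.mulVec_mulVec]
    obtain ⟨h0, h1⟩ := signBlock_mulVec x.v (algebraMap O P.SRing (P.ε x.v)) (pt.Ψ x.J T)
      ((pt.β x).mulVec m)
    fin_cases i
    · refine h0.trans ?_
      simp only [E', LinearMap.comp_apply, LinearMap.pi_apply]
      show _ = pt.βL x hp m 0 + (e * v) • pt.βL x hp m 1
      rw [he, hv, ← map_mul, hS]
      rfl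
    · refine h1.trans ?_
      simp only [E', LinearMap.comp_apply, LinearMap.pi_apply]
      show _ = pt.βL x hp m 1 + (e * T) • pt.βL x hp m 1 - e • pt.βL x hp m 0
      rw [mul_smul, he, hS, hS, hT]
      rfl
  · exact fun t ht => hQ' t fun y => Module.mem_annihilator.mp ht _
  · intro y
    obtain ⟨h0, h1⟩ := frobBlock_mulVec x.v (pt.Ψ x.J T) y
    have hrow : ∀ i, pt.βL x hp (pt.αL x y) i =
        (fun k => (frobBlock x.v (pt.Ψ x.J T)).mulVec (fun z => y z.1 z.2) (i, k) :
          Fin (d x.J.1) → P.SRing) := fun i => by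
      show (fun k => (pt.β x).mulVec ((pt.α x).mulVec fun z => y z.1 z.2) (i, k)) = _
      rw [Matrix.mulVec_mulVec, pt.β_α x htame]
    have hy0 : pt.βL x hp (pt.αL x y) 0 = (v + 1) • y 0 + T • y 1 := by
      rw [hrow, h0, hv, ← map_one P.inclS, ← map_add, hS, hT]
      try rfl
    have hy1 : pt.βL x hp (pt.αL x y) 1 = T • y 0 + (v + 1) • y 1 := by
      rw [hrow, h1, hv, ← map_one P.inclS, ← map_add, hS, hT]
      try rfl
    have : π (pt.βL x hp (pt.αL x y)) =
        (T - e * (v + 1)) • y 0 + (-(e * (T - e * (v + 1)))) • y 1 := by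
      show pt.βL x hp (pt.αL x y) 1 - e • pt.βL x hp (pt.αL x y) 0 = _
      rw [hy0, hy1]
      rw [smul_add, smul_smul, smul_smul, sub_smul T,
        show -(e * (T - e * (v + 1))) = (v + 1) - e * T by linear_combination (v + 1) * hee,
        sub_smul (v + 1)]
      abel
    rw [this]
    exact add_mem (Submodule.smul_mem_smul hδ Submodule.mem_top)
      (Submodule.smul_mem_smul (neg_mem (Ideal.mul_mem_left _ _ hδ)) Submodule.mem_top)
  · intro hu
    have h2 : IsUnit ((2 : O) * P.ε x.v) :=
      (LiftProblem.isUnit_two (P := P)).mul (IsUnit.of_mul_eq_one (P.ε x.v) (by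
        rcases P.sign x.v with h | h <;> simp [h]))
    refine ‹Q'.IsPrime›.ne_top (Q'.eq_top_of_isUnit_mem hu ?_)
    have := (h2.map (algebraMap O P.ARing)).neg
    rwa [map_mul, map_ofNat, ← he1] at this
  · intro z
    have : π (E' (LinearMap.single P.ARing (fun _ => pt.Mod x.J) 0 z)) - (-(2 * e)) • z = 0 := by
      simp only [π, E', LinearMap.sub_apply, LinearMap.proj_apply, LinearMap.smul_apply,
        LinearMap.pi_apply, LinearMap.add_apply, LinearMap.single_apply, Matrix.cons_val_zero,
        Matrix.cons_val_one, Pi.single_eq_same, Pi.single_eq_of_ne, ne_eq, one_ne_zero,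
        not_false_eq_true, smul_zero]
      rw [neg_smul, two_mul, add_smul]
      abel_nf
    rw [this]
    exact zero_mem _

/-- The level `{p}`. -/
theorem supported_singleton (hF : F.IsNormal) (hr : P.p ∈ P.loc → 1 ≤ P.r) (x : P.Step)
    (hx : x.v = P.p) (hx0 : x.J.1 = ∅) : pt.Supported x.next := by
  classical
  let f : pt.Mod x.next →ₗ[P.ARing] pt.Coker x := (LinearMap.range (pt.αL x)).mkQ
  have hrels : pt.RelsKill f :=
    ⟨fun z y => pt.smul_mkQ_eq_zero x (pt.rel_frame_p x hx z) y,
      fun i y => pt.smul_mkQ_eq_zero x (pt.rel_diamond_p x hx i) y⟩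
  have hmax : ∀ t, (∀ y, t • f y = 0) → t ∈ maximalIdeal P.ARing := fun t ht => by
    refine (mem_maximalIdeal t).mpr fun hu => ?_
    obtain ⟨u, rfl⟩ := hu
    obtain ⟨a, b, hab⟩ := pt.coker_p_ne x hx hx0
    have : Nontrivial P.SRing :=
      (MvPowerSeries.constantCoeff : P.SRing →+* O).domain_nontrivial
    have h1 : f ((Pi.single b 1 : Fin (d x.next.1) → P.SRing)) = 0 := by
      have h2 := congrArg (fun m => ((u⁻¹ : P.ARingˣ) : P.ARing) • m)
        (ht (Pi.single b 1 : Fin (d x.next.1) → P.SRing))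
      simp only [smul_smul, Units.inv_mul, one_smul, smul_zero] at h2
      exact h2
    rw [pt.mkQ_eq_zero_iff] at h1
    have h3 : pt.pr x a b = 0 := by
      have h4 := congrFun h1 a
      rw [Matrix.mulVec_single_one] at h4
      exact h4
    exact hab.ne_zero h3
  have hs1 : P.signProd F x.J.1 = 1 := by simp [LiftProblem.signProd, hx0]
  have hker : ∀ g, (∀ y, P.inclR g • f y = 0) → g ∈ P.component F x.next.1 := fun g hg =>
    kernel_le_component hF hr hrels (Q' := maximalIdeal P.ARing) hmax
      (fun g hg => ⟨P.inclR (P.signProd F x.J.1),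
        fun hm => (maximalIdeal.isMaximal P.ARing).ne_top (Ideal.eq_top_of_isUnit_mem _ hm (by
          rw [hs1, map_one]; exact isUnit_one)),
        fun y => pt.smul_mkQ_eq_zero x (by
          rw [← map_mul, mul_comm]; exact pt.coker_p_kills x hx g hg) y⟩) hg
  obtain ⟨Q', hQp, hQ', hQ⟩ := exists_prime_of_kernel_le hrels (P.curvePrime x.next.1)
    fun g hg => P.component_le_curvePrime (hker g hg)
  refine pt.supported_next hF hr x x.next.2 (by rw [hx0]; exact Finset.empty_subset _) hQ
    fun t ht => hQ' t fun y => ?_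
  have h1 := ht y
  rw [show pt.EL x y = y from (congrArg (fun M => Matrix.mulVec M y) (pt.E_p x hx)).trans
    (Matrix.one_mulVec y)] at h1
  rw [← map_smul]
  exact (Submodule.Quotient.mk_eq_zero _).mpr h1

/-- The least levels. -/
theorem supported_base (hF : F.IsNormal) (hr : P.p ∈ P.loc → 1 ≤ P.r) (hd : 0 < d ∅) {J : P.Level}
    (hsub : ∀ v ∈ J.1, v = P.p) (hp : P.p ∈ P.raise → P.p ∈ J.1) : pt.Supported J := by
  classical
  by_cases hpr : P.p ∈ P.raise
  · -- the level `{p}`
    let x : P.Step := ⟨⟨∅, Finset.empty_subset _⟩, P.p, hpr, Finset.notMem_empty _⟩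
    have hJ : x.next = J := Subtype.ext (by
      show insert P.p ∅ = J.1
      rw [Finset.insert_empty]
      exact (Finset.eq_singleton_iff_unique_mem.mpr ⟨hp hpr, hsub⟩).symm)
    exact hJ ▸ pt.supported_singleton hF hr x rfl rfl
  · -- the empty level
    obtain rfl : J = ⟨∅, Finset.empty_subset _⟩ :=
      Subtype.ext (Finset.eq_empty_iff_forall_notMem.mpr
      fun v hv => hpr (hsub v hv ▸ J.2 hv))
    have hh : pt.h = 1 := if_neg hpr
    intro g hg
    refine kernel_le_component hF hr (pt.relsKill_hL _) (Q' := maximalIdeal P.ARing)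
      (fun t ht => ?_)
      (fun g hg => ⟨1, fun hm => (maximalIdeal.isMaximal P.ARing).ne_top
        (Ideal.eq_top_of_isUnit_mem _ hm isUnit_one), fun y => ?_⟩) hg
    · refine (mem_maximalIdeal t).mpr fun hu => ?_
      obtain ⟨u, rfl⟩ := hu
      have : Nontrivial P.SRing :=
        (MvPowerSeries.constantCoeff : P.SRing →+* O).domain_nontrivial
      have h1 : (Pi.single (⟨0, hd⟩ : Fin (d ∅)) 1 : Fin (d ∅) → P.SRing) = 0 := by
        have h2 := congrArg (fun m => ((u⁻¹ : P.ARingˣ) : P.ARing) • m)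
          (ht (Pi.single (⟨0, hd⟩ : Fin (d ∅)) 1 : Fin (d ∅) → P.SRing))
        simp only [hL, LinearMap.lsmul_apply, hh, one_smul, smul_smul, Units.inv_mul, smul_zero]
          at h2
        exact h2
      simpa using congrFun h1 ⟨0, hd⟩
    · show (1 * P.inclR g) • pt.h • y = 0
      rw [one_mul, smul_smul, mul_comm]
      have := pt.component_kills ⟨∅, Finset.empty_subset _⟩ g hg
      simp only [LiftProblem.signProd, Finset.notMem_empty, Finset.filter_false,
        Finset.prod_empty, mul_one] at this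
      exact pt.smul_eq_zero_of_Ψ this y

/-- Every level containing `p`, if it is raised, is supported on its component. -/
theorem supported (hF : F.IsNormal) (hr : P.p ∈ P.loc → 1 ≤ P.r) (hd : 0 < d ∅) (J : P.Level)
    (hp : P.p ∈ P.raise → P.p ∈ J.1) : pt.Supported J := by
  obtain ⟨J, hJ⟩ := J
  induction hn : J.card using Nat.strong_induction_on generalizing J with
  | _ n ih =>
    by_cases h : ∀ v ∈ J, v = P.p
    · exact pt.supported_base hF hr hd h hp
    · push Not at h
      obtain ⟨v, hv, hvp⟩ := h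
      let x : P.Step := ⟨⟨J.erase v, (Finset.erase_subset _ _).trans hJ⟩, v, hJ hv,
        Finset.notMem_erase _ _⟩
      have hx : x.next = ⟨J, hJ⟩ := Subtype.ext (Finset.insert_erase hv)
      rw [← hx]
      refine pt.supported_step hF hr x hvp (ih _ ?_ _ _ (fun h => Finset.mem_erase.mpr
        ⟨Ne.symm hvp, hp h⟩) rfl)
      rw [← hn]
      exact Finset.card_erase_lt_of_mem hv

end Patched

end FLTAgent.ModularityLifting
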