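import Fermat.Agent.DefRing.PowerSeries
import Mathlib.RingTheory.AdicCompletion.Functoriality
import Mathlib.RingTheory.Filtration
import Mathlib.RingTheory.IntegralClosure.IsIntegralClosure.Basic
import Mathlib.LinearAlgebra.Pi
import Mathlib.LinearAlgebra.Finsupp.LinearCombination

/-!
# Images of power series rings finite over a smaller one

If the extra variables of `O⟦X, Y⟧` are nilpotent in a quotient modulo the maximal ideal of
`O⟦X⟧`, the quotient is finite, hence integral, over `O⟦X⟧`.
-/

set_option autoImplicit false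

noncomputable section

open IsLocalRing

namespace FLTAgent.ModularityLifting.Engine

variable {O : Type} [CommRing O] [IsLocalRing O] [IsNoetherianRing O]
  [IsAdicComplete (maximalIdeal O) O] {X Y : Type} [Finite X] [Finite Y]

/-- The free module of finite rank: membership in `I • ⊤` is coordinatewise. -/
theorem mem_smul_top_pi {R D : Type} [CommRing R] [Fintype D] (I : Ideal R) (x : D → R) :
    x ∈ I • (⊤ : Submodule R (D → R)) ↔ ∀ e, x e ∈ I := by
  classical
  refine ⟨fun h e => ?_, fun h => ?_⟩
  · refine Submodule.smul_induction_on h (fun r hr y _ => ?_) fun y z hy hz => ?_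
    · exact Ideal.mul_mem_right _ _ hr
    · exact add_mem hy hz
  · rw [pi_eq_sum_univ x]
    exact sum_mem fun e _ => Submodule.smul_mem_smul (h e) Submodule.mem_top

open MvPowerSeries in
/-- The image is integral over the smaller ring. -/
theorem isIntegralElem_of_nilpotent (ι : MvPowerSeries X O →ₐ[O] MvPowerSeries (X ⊕ Y) O)
    (hι : ∀ x, ι (MvPowerSeries.X x) = MvPowerSeries.X (Sum.inl x)) {B : Type} [CommRing B]
    (Φ : MvPowerSeries (X ⊕ Y) O →+* B) (N : ℕ)
    (hN : ∀ y, ∃ a ∈ (maximalIdeal (MvPowerSeries X O)).map ι.toRingHom,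
      Φ (MvPowerSeries.X (Sum.inr y)) ^ N = Φ a)
    (p : MvPowerSeries (X ⊕ Y) O) : (Φ.comp ι.toRingHom).IsIntegralElem (Φ p) := by
  classical
  have := Fintype.ofFinite X
  have := Fintype.ofFinite Y
  rcases subsingleton_or_nontrivial B with hB | hB
  · exact ⟨Polynomial.X, Polynomial.monic_X, Subsingleton.elim _ _⟩
  let T := Φ.range
  let Φ' : MvPowerSeries (X ⊕ Y) O →+* T := Φ.rangeRestrict
  have hΦ' : Function.Surjective Φ' := Φ.rangeRestrict_surjective
  have : IsNoetherianRing T := isNoetherianRing_of_surjective _ _ Φ' hΦ'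
  have : IsLocalRing T := IsLocalRing.of_surjective' Φ' hΦ'
  let g : MvPowerSeries X O →+* T := Φ'.comp ι.toRingHom
  let : Algebra (MvPowerSeries X O) T := g.toAlgebra
  set 𝔪 := maximalIdeal (MvPowerSeries X O) with h𝔪
  have hι𝔪 : ∀ r ∈ 𝔪, ι r ∈ maximalIdeal (MvPowerSeries (X ⊕ Y) O) := fun r hr => by
    have h := DefRing.mem_pow_of_algHom (maximalIdeal (MvPowerSeries (X ⊕ Y) O)) ι
      (fun x => by rw [hι]; exact DefRing.X_mem_maximalIdeal _) 1
      (r - C (constantCoeff r)) (DefRing.mem_span_X_pow fun e he => by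
        obtain rfl : e = 0 := (Finsupp.degree_eq_zero_iff e).mp (by omega)
        simp)
    rw [pow_one, map_sub] at h
    have hc := ι.commutes (constantCoeff r)
    simp only [MvPowerSeries.algebraMap_apply, Algebra.algebraMap_self, RingHom.id_apply] at hc
    rw [hc] at h
    refine (Submodule.sub_mem_iff_left _ ?_).mp h
    rw [DefRing.mem_maximalIdeal_iff_constantCoeff, constantCoeff_C]
    exact (DefRing.mem_maximalIdeal_iff_constantCoeff _).mp hr
  have hle : 𝔪.map g ≤ maximalIdeal T := by
    refine Ideal.map_le_iff_le_comap.mpr fun r hr => ?_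
    have hu : ¬ IsUnit (Φ' (ι r)) := fun hu => by
      have : IsLocalHom Φ' := IsLocalHom.of_surjective Φ' hΦ'
      exact (mem_maximalIdeal _).mp (hι𝔪 r hr) (isUnit_of_map_unit Φ' _ hu)
    exact (mem_maximalIdeal _).mpr hu
  -- Hausdorff for the smaller maximal ideal
  have : IsHausdorff 𝔪 T := by
    refine ⟨fun x hx => IsHausdorff.haus (I := maximalIdeal T) inferInstance x fun n => ?_⟩
    have h := hx n
    rw [SModEq.zero] at h ⊢
    rw [Ideal.smul_top_eq_map] at h
    rw [smul_eq_mul, Ideal.mul_top]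
    refine Ideal.pow_right_mono hle n ?_
    rw [← Ideal.map_pow]
    exact h
  set J : Ideal T := 𝔪.map g with hJ
  have hXJ : ∀ x, Φ' (MvPowerSeries.X (Sum.inl x)) ∈ J := fun x => by
    rw [← hι]; exact Ideal.mem_map_of_mem g (DefRing.X_mem_maximalIdeal x)
  have hYJ : ∀ y, Φ' (MvPowerSeries.X (Sum.inr y)) ^ N ∈ J := fun y => by
    obtain ⟨a, ha, he⟩ := hN y
    have he' : Φ' (MvPowerSeries.X (Sum.inr y)) ^ N = Φ' a := Subtype.ext he
    rw [he', hJ, ← Ideal.map_map]
    exact Ideal.mem_map_of_mem _ ha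
  let K : Ideal T :=
    Ideal.span (Set.range fun i : X ⊕ Y => Φ' (MvPowerSeries.X i))
  obtain ⟨M, hM⟩ : ∃ M, K ^ M ≤ J := by
    refine Ideal.exists_pow_le_of_le_radical_of_fg (Ideal.span_le.mpr ?_)
      (IsNoetherian.noetherian K)
    rintro _ ⟨x | y, rfl⟩
    · exact Ideal.le_radical (hXJ x)
    · exact ⟨N, hYJ y⟩
  -- monomials spanning modulo the maximal ideal
  let D := ((X ⊕ Y) → Fin M)
  let mon : D → T := fun e => Φ' (∏ i, MvPowerSeries.X i ^ (e i : ℕ))
  let L : (D → MvPowerSeries X O) →ₗ[MvPowerSeries X O] T :=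
    Fintype.linearCombination (MvPowerSeries X O) mon
  have : IsPrecomplete 𝔪 (D → MvPowerSeries X O) := by
    refine ⟨fun f hf => ?_⟩
    have hk : ∀ e : D, ∃ l : MvPowerSeries X O, ∀ n, f n e ≡ l [SMOD 𝔪 ^ n • (⊤ : Ideal _)] :=
      fun e => IsPrecomplete.prec (I := 𝔪) inferInstance fun {m n} hmn => by
        have h := hf hmn
        rw [SModEq.sub_mem, mem_smul_top_pi] at h
        rw [SModEq.sub_mem, smul_eq_mul, Ideal.mul_top]
        exact h e
    choose l hl using hk
    refine ⟨l, fun n => ?_⟩
    rw [SModEq.sub_mem, mem_smul_top_pi]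
    intro e
    have := hl e n
    rw [SModEq.sub_mem, smul_eq_mul, Ideal.mul_top] at this
    exact this
  have hL : Function.Surjective L := by
    refine surjective_of_mkQ_comp_surjective (I := 𝔪) fun z => ?_
    obtain ⟨t, rfl⟩ := Submodule.Quotient.mk_surjective _ z
    obtain ⟨q, rfl⟩ := hΦ' t
    have htail : Φ' q - Φ' ((MvPowerSeries.truncTotal M q : MvPolynomial (X ⊕ Y) O) :
        MvPowerSeries (X ⊕ Y) O) ∈ J := by
      have h := Ideal.mem_map_of_mem Φ' (DefRing.sub_trunc_mem_span_X_pow M q)
      rw [Ideal.map_pow, Ideal.map_span, ← Set.range_comp] at h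
      rw [← map_sub]
      exact hM h
    have hsmul : ∀ t : T, t ∈ J → t ∈ 𝔪 • (⊤ : Submodule (MvPowerSeries X O) T) := fun t ht => by
      rw [Ideal.smul_top_eq_map]
      exact ht
    have hpoly : Φ' ((MvPowerSeries.truncTotal M q : MvPolynomial (X ⊕ Y) O) :
        MvPowerSeries (X ⊕ Y) O) ∈ LinearMap.range L := by
      rw [(MvPowerSeries.truncTotal M q).as_sum, ← MvPolynomial.coeToMvPowerSeries.ringHom_apply,
        map_sum, map_sum]
      refine sum_mem fun e he => ?_
      have hdeg : ∀ i, e i < M := fun i => by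
        rw [MvPolynomial.mem_support_iff] at he
        by_contra hlt
        apply he
        rw [MvPowerSeries.coeff_truncTotal_eq_zero]
        have : e i ≤ Finsupp.degree e := Finsupp.le_degree i e
        omega
      refine ⟨Pi.single (fun i => ⟨e i, hdeg i⟩)
        (C (MvPolynomial.coeff e (MvPowerSeries.truncTotal M q))), ?_⟩
      rw [show L = Fintype.linearCombination (MvPowerSeries X O) mon from rfl,
        Fintype.linearCombination_apply, Finset.sum_eq_single (fun i => ⟨e i, hdeg i⟩)
          (fun b _ hb => by rw [Pi.single_eq_of_ne hb, zero_smul])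
          (fun h => absurd (Finset.mem_univ _) h), Pi.single_eq_same]
      rw [MvPolynomial.monomial_eq, map_mul, Finsupp.prod_fintype _ _ (by simp), map_prod]
      simp only [map_pow, MvPolynomial.coeToMvPowerSeries.ringHom_apply, MvPolynomial.coe_C,
        MvPolynomial.coe_X]
      have hc := ι.commutes (MvPolynomial.coeff e (MvPowerSeries.truncTotal M q))
      simp only [MvPowerSeries.algebraMap_apply, Algebra.algebraMap_self, RingHom.id_apply] at hc
      rw [Algebra.smul_def, map_mul]
      exact congrArg₂ (· * ·) (congrArg Φ' hc) rfl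
    obtain ⟨l, hl⟩ := hpoly
    refine ⟨l, ?_⟩
    rw [LinearMap.comp_apply, Submodule.mkQ_apply, Submodule.Quotient.eq, hl]
    rw [← neg_mem_iff, neg_sub]
    exact hsmul _ htail
  have hmod : Module.Finite (MvPowerSeries X O) T := Module.Finite.of_surjective L hL
  have hint : IsIntegral (MvPowerSeries X O) (Φ' p) := IsIntegral.of_finite _ _
  obtain ⟨P, hP, hPp⟩ := hint
  refine ⟨P, hP, ?_⟩
  have := congrArg T.subtype hPp
  rw [Polynomial.hom_eval₂, map_zero] at this
  exact this

end FLTAgent.ModularityLifting.Engine
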