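import Fermat.Agent.ModularityLifting.Patching.Compactness
import Fermat.Agent.DefRing.Compactness
import Fermat.Agent.DefRing.PowerSeries

/-!
# The limit of a patching system

Finitely many families of approximate representations of a power series ring on free modules over
another, together with finitely many sequences of matrices between them and of auxiliary series,
have a common subsequence along which everything converges.
-/

set_option autoImplicit false

noncomputable section

open IsLocalRing Filter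

namespace FLTAgent.ModularityLifting.Engine

open Patching

variable {O : Type} [CommRing O] [IsLocalRing O] [IsNoetherianRing O]
  [IsAdicComplete (maximalIdeal O) O] [Finite (ResidueField O)] {Y V : Type} [Finite Y] [Finite V]

omit [IsNoetherianRing O] [IsAdicComplete (maximalIdeal O) O] in
theorem finite_residueField (σ : Type) [Finite σ] :
    Finite (ResidueField (MvPowerSeries σ O)) :=
  Finite.of_surjective
    (fun x : ResidueField O =>
      IsLocalRing.ResidueField.map (algebraMap O (MvPowerSeries σ O)) x) fun y => by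
    obtain ⟨o, ho⟩ := DefRing.residue_algebraMap_surjective_mvPowerSeries (σ := σ) (O := O) y
    exact ⟨residue O o, by simpa [IsLocalRing.ResidueField.map_residue] using ho⟩

omit [IsAdicComplete (maximalIdeal O) O] in
theorem finite_quotient_pow (σ : Type) [Finite σ] (k : ℕ) :
    Finite (MvPowerSeries σ O ⧸ maximalIdeal (MvPowerSeries σ O) ^ k) :=
  haveI := finite_residueField (O := O) σ
  DefRing.finite_quotient_maximalIdeal_pow k

/-- A patching system: at level `n` approximate representations modulo `a n`. -/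
structure PatchSeq (O : Type) [CommRing O] [IsLocalRing O] (Y V κ : Type) (d : κ → ℕ) where
  a : ℕ → Ideal (MvPowerSeries Y O)
  tendsZero : IdealTendsZero (maximalIdeal (MvPowerSeries Y O)) a
  ψ : ℕ → ∀ j, MvPowerSeries V O → Matrix (Fin (d j)) (Fin (d j)) (MvPowerSeries Y O)
  map_add : ∀ n j x y i k, (ψ n j (x + y) - (ψ n j x + ψ n j y)) i k ∈ a n
  map_mul : ∀ n j x y i k, (ψ n j (x * y) - ψ n j x * ψ n j y) i k ∈ a n
  map_one : ∀ n j i k, (ψ n j 1 - 1) i k ∈ a n
  nil : ℕ
  map_nil : ∀ n j, ∀ x ∈ maximalIdeal (MvPowerSeries V O) ^ nil, ∀ i k,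
    ψ n j x i k ∈ maximalIdeal (MvPowerSeries Y O)

namespace PatchSeq

variable {κ : Type} [Finite κ] {d : κ → ℕ} (P : PatchSeq O Y V κ d)

/-- Everything converges along one subsequence: the representations, finitely many sequences of
matrices `μ` and finitely many sequences of series `e`. -/
theorem exists_limit {L : Type} [Finite L] {row col : L → Type} [∀ l, Finite (row l)]
    [∀ l, Finite (col l)] (μ : ∀ l, ℕ → Matrix (row l) (col l) (MvPowerSeries Y O))
    {E : Type} [Finite E] (e : E → ℕ → MvPowerSeries V O) :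
    ∃ (φ : ℕ → ℕ) (Ψ : ∀ j, MvPowerSeries V O →+*
        Matrix (Fin (d j)) (Fin (d j)) (MvPowerSeries Y O))
      (M : ∀ l, Matrix (row l) (col l) (MvPowerSeries Y O)) (x : E → MvPowerSeries V O),
      StrictMono φ ∧
      (∀ j y, MatTends (maximalIdeal (MvPowerSeries Y O)) (fun n => P.ψ (φ n) j y) (Ψ j y)) ∧
      (∀ l, MatTends (maximalIdeal (MvPowerSeries Y O)) (fun n => μ l (φ n)) (M l)) ∧
      (∀ i, Tends (maximalIdeal (MvPowerSeries V O)) (fun n => e i (φ n)) (x i)) ∧
      ∀ i j, MatTends (maximalIdeal (MvPowerSeries Y O)) (fun n => P.ψ (φ n) j (e i (φ n)))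
        (Ψ j (x i)) := by
  classical
  set m := maximalIdeal (MvPowerSeries V O) with hm
  set mS := maximalIdeal (MvPowerSeries Y O) with hmS
  have : ∀ k, Finite (MvPowerSeries V O ⧸ m ^ k) := finite_quotient_pow V
  have : ∀ k, Countable (MvPowerSeries V O ⧸ m ^ k) := fun k => Finite.to_countable
  obtain ⟨φ₁, x, hφ₁, hx⟩ := exists_subseq_tends (I := m) (finite_quotient_pow V)
    (fun n (i : E) => e i n)
  let I := ((Σ j : κ, (Σ k : ℕ, MvPowerSeries V O ⧸ m ^ k) × Fin (d j) × Fin (d j)) ⊕
    (Σ l : L, row l × col l))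
  let seq : ℕ → I → MvPowerSeries Y O := fun n i => match i with
    | .inl ⟨j, y, i, k⟩ => P.ψ (φ₁ n) j (reps m y) i k
    | .inr ⟨l, i, k⟩ => μ l (φ₁ n) i k
  obtain ⟨φ₂, Lim, hφ₂, hLim⟩ := exists_subseq_tends (I := mS) (finite_quotient_pow Y) seq
  let φ := φ₁ ∘ φ₂
  have hφ : StrictMono φ := hφ₁.comp hφ₂
  have ha : IdealTendsZero mS fun n => P.a (φ n) :=
    fun k => hφ.tendsto_atTop.eventually (P.tendsZero k)
  have hhom : ∀ j, ∃ Ψ : MvPowerSeries V O →+*
      Matrix (Fin (d j)) (Fin (d j)) (MvPowerSeries Y O),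
      ∀ y, MatTends mS (fun n => P.ψ (φ n) j y) (Ψ y) := fun j =>
    exists_limit_hom ha (fun n => P.map_add (φ n) j) (fun n => P.map_mul (φ n) j)
      (fun n => P.map_one (φ n) j) P.nil (fun n => P.map_nil (φ n) j)
      fun y => ⟨Matrix.of fun i k => Lim (.inl ⟨j, y, i, k⟩),
        fun i k => hLim (.inl ⟨j, y, i, k⟩)⟩
  choose Ψ hΨ using hhom
  refine ⟨φ, Ψ, fun l => Matrix.of fun i k => Lim (.inr ⟨l, i, k⟩), x, hφ, hΨ,
    fun l i k => hLim (.inr ⟨l, i, k⟩), fun i => (hx i).comp hφ₂, fun i j a b k => ?_⟩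
  have h1 := eventually_mem_pow ha (fun n => P.map_add (φ n) j) (fun n => P.map_mul (φ n) j)
    P.nil (fun n => P.map_nil (φ n) j) k
  have h2 := (hx i).comp hφ₂ (P.nil * k)
  refine (((h1.and h2).and (ha k)).and (hΨ j (x i) a b k)).mono fun n hn => ?_
  obtain ⟨⟨⟨h1, h2⟩, h3⟩, h4⟩ := hn
  have h5 := h3 (P.map_add (φ n) j (x i) (e i (φ n) - x i) a b)
  rw [add_sub_cancel] at h5
  have h6 := add_mem (add_mem h5 (h1 _ h2 a b)) h4
  convert h6 using 1
  simp only [Matrix.sub_apply, Matrix.add_apply, φ, Function.comp_apply]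
  abel

end PatchSeq

end FLTAgent.ModularityLifting.Engine
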