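import Fermat.Agent.ModularityLifting.Engine.GoodSeries
import Fermat.Agent.ModularityLifting.Engine.Limit

/-!
# Limits of matrices over the rings of the levels

A sequence of matrices over the rings of the levels converges along a subsequence when lifts to the
ring of diamond and frame variables do; relations holding at every level then hold in the limit.
-/

set_option autoImplicit false

noncomputable section

open IsLocalRing Filter

namespace FLTAgent.ModularityLifting

open FLTAgent.DefRing Engine Patching LevelDatum.Choice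

variable {O : Type} [CommRing O] [IsDomain O] [IsDiscreteValuationRing O]
  [IsAdicComplete (maximalIdeal O) O]

/-- In a finite local ring the maximal ideal to the power the cardinality vanishes. -/
theorem pow_natCard_eq_bot (B : Type) [CommRing B] [IsLocalRing B] [Finite B] :
    maximalIdeal B ^ Nat.card B = ⊥ := by
  classical
  set m := maximalIdeal B
  have key : ∀ i : ℕ, m ^ i = ⊥ ∨ Nat.card (m ^ i : Ideal B) + i ≤ Nat.card B := by
    intro i
    induction i with
    | zero => exact Or.inr (by simp)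
    | succ i ih =>
      rcases ih with h | h
      · exact Or.inl (by rw [pow_succ, h, Ideal.bot_mul])
      by_cases he : m ^ (i + 1) = m ^ i
      · have hfg : (m ^ i : Ideal B).FG := IsNoetherian.noetherian _
        have hsm : (m ^ i : Ideal B) ≤ m • (m ^ i : Ideal B) := by
          rw [smul_eq_mul, ← pow_succ', he]
        exact Or.inl (by
          rw [he]
          exact Submodule.eq_bot_of_le_smul_of_le_jacobson_bot m _ hfg hsm
            (by rw [IsLocalRing.jacobson_eq_maximalIdeal ⊥ bot_ne_top]))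
      · have hlt : (m ^ (i + 1) : Ideal B) < m ^ i :=
          lt_of_le_of_ne (Ideal.pow_le_pow_right (Nat.le_succ i)) he
        have := Set.Finite.card_lt_card (Set.toFinite _) (SetLike.coe_ssubset_coe.mpr hlt)
        simp only [SetLike.coe_sort_coe] at this
        exact Or.inr (by omega)
  rcases key (Nat.card B) with h | h
  · exact h
  · have : 0 < Nat.card (m ^ Nat.card B : Ideal B) := Nat.card_pos
    omega

/-- A ring map from a local ring into a finite ring kills a bounded power of the maximal ideal. -/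
theorem pow_natCard_map_eq_zero {A M : Type} [CommRing A] [IsLocalRing A] [Ring M] [Finite M]
    (χ : A →+* M) {x : A} (hx : x ∈ maximalIdeal A ^ Nat.card M) : χ x = 0 := by
  by_cases htop : RingHom.ker χ = ⊤
  · exact RingHom.mem_ker.mp (htop ▸ Submodule.mem_top)
  have : Nontrivial (A ⧸ RingHom.ker χ) := Ideal.Quotient.nontrivial_iff.mpr htop
  let q := Ideal.Quotient.mk (RingHom.ker χ)
  have : IsLocalRing (A ⧸ RingHom.ker χ) :=
    IsLocalRing.of_surjective' q Ideal.Quotient.mk_surjective
  let j : A ⧸ RingHom.ker χ →+* M := RingHom.kerLift χ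
  have hj : Function.Injective j := RingHom.kerLift_injective χ
  have : Finite (A ⧸ RingHom.ker χ) := Finite.of_injective j hj
  have : IsLocalHom q := IsLocalHom.of_surjective q Ideal.Quotient.mk_surjective
  have hle : (maximalIdeal A).map q ≤ maximalIdeal (A ⧸ RingHom.ker χ) :=
    Ideal.map_le_iff_le_comap.mpr fun a ha => map_nonunit q a ha
  have h1 : q x ∈ maximalIdeal (A ⧸ RingHom.ker χ) ^ Nat.card M :=
    Ideal.pow_right_mono hle _ (Ideal.map_pow q _ _ ▸ Ideal.mem_map_of_mem q hx)
  have h2 := Ideal.pow_le_pow_right (Nat.card_le_card_of_injective j hj) h1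
  rw [pow_natCard_eq_bot, Ideal.mem_bot] at h2
  exact RingHom.mem_ker.mp (Ideal.Quotient.eq_zero_iff_mem.mp h2)

variable (P : LiftProblem O)

/-- The residue at the origin of the ring of a level. -/
def LiftProblem.levelResidue (n : ℕ) : P.LevelRing n →+* ResidueField O :=
  (Ideal.Quotient.lift
      (Ideal.span (Set.range fun i : Fin P.r =>
        (1 + MvPowerSeries.X i : MvPowerSeries (Fin P.r) O) ^ P.p ^ n - 1))
      ((residue O).comp (MvPowerSeries.constantCoeff : MvPowerSeries (Fin P.r) O →+* O))
      fun f hf => by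
        induction hf using Submodule.span_induction with
        | mem f hf => obtain ⟨i, rfl⟩ := hf; simp
        | zero => simp
        | add f g _ _ hf hg => rw [map_add, hf, hg, add_zero]
        | smul c f _ hf => rw [smul_eq_mul, map_mul, hf, mul_zero]).comp
    MvPowerSeries.constantCoeff

omit [IsAdicComplete (maximalIdeal O) O] in
theorem LiftProblem.levelResidue_toLevel (n : ℕ) (s : P.SRing) :
    P.levelResidue n (P.toLevel n s) = residue O (MvPowerSeries.constantCoeff s) := by
  rw [LiftProblem.levelResidue, RingHom.comp_apply, LiftProblem.toLevel, modLevel,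
    AlgHom.comp_apply]
  have e : ∀ p : MvPowerSeries P.FrameVar (MvPowerSeries (Fin P.r) O),
      MvPowerSeries.constantCoeff (MvPowerSeries.mapAlgHom (σ := P.FrameVar)
        (Ideal.Quotient.mkₐ O (Ideal.span (Set.range fun i : Fin P.r =>
          (1 + MvPowerSeries.X i : MvPowerSeries (Fin P.r) O) ^ P.p ^ n - 1))) p) =
        Ideal.Quotient.mk _ (MvPowerSeries.constantCoeff p) := fun p =>
    MvPowerSeries.constantCoeff_map _ p
  rw [e, Ideal.Quotient.lift_mk, RingHom.comp_apply,
    ← MvPowerSeries.coeff_zero_eq_constantCoeff_apply,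
      ← MvPowerSeries.coeff_zero_eq_constantCoeff_apply,
    coeff_curry, sumExp_zero, MvPowerSeries.coeff_zero_eq_constantCoeff_apply]

/-- Lifting matrices from a level. -/
def LiftProblem.liftMat (n : ℕ) {ι ι' : Type} (X : Matrix ι ι' (P.LevelRing n)) :
    Matrix ι ι' P.SRing :=
  X.map (Function.surjInv (P.toLevel_surjective n))

omit [IsAdicComplete (maximalIdeal O) O] in
theorem LiftProblem.toLevel_liftMat (n : ℕ) {ι ι' : Type} (X : Matrix ι ι' (P.LevelRing n))
    (i : ι) (k : ι') : P.toLevel n (P.liftMat n X i k) = X i k :=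
  Function.surjInv_eq (P.toLevel_surjective n) _

/-- Reduction of a matrix to a level. -/
def LiftProblem.redMat (n : ℕ) {ι ι' : Type} (X : Matrix ι ι' P.SRing) :
    Matrix ι ι' (P.LevelRing n) :=
  X.map (P.toLevel n)

/-- The kernels of reduction to the levels. -/
def LiftProblem.levelKer (n : ℕ) : Ideal P.SRing := RingHom.ker (P.toLevel n)

omit [IsAdicComplete (maximalIdeal O) O] in
theorem LiftProblem.idealTendsZero_levelKer :
    IdealTendsZero (maximalIdeal P.SRing) P.levelKer :=
  idealTendsZero_ker _ (idealTendsZero_diamond P.p_mem)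

omit [IsAdicComplete (maximalIdeal O) O] in
theorem LiftProblem.sub_mem_levelKer {n : ℕ} {ι ι' : Type} {X Y : Matrix ι ι' P.SRing}
    (h : P.redMat n X = P.redMat n Y) (i : ι) (k : ι') : (X - Y) i k ∈ P.levelKer n := by
  rw [LiftProblem.levelKer, RingHom.mem_ker, Matrix.sub_apply, map_sub, sub_eq_zero]
  exact congrFun (congrFun h i) k

/-- Convergence of matrices over the levels. -/
def LiftProblem.Lim (φ : ℕ → ℕ) {ι ι' : Type} (X : ∀ n, Matrix ι ι' (P.LevelRing n))
    (L : Matrix ι ι' P.SRing) : Prop :=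
  MatTends (maximalIdeal P.SRing) (fun n => P.liftMat (φ n) (X (φ n))) L

variable {P}

/-- The corner entry of the sign matrix. -/
theorem signBlock_apply_eq {T : Type} [CommRing T] {k : ℕ} (v : ℕ) (e : T)
    (M : Matrix (Fin k) (Fin k) T) (x y : Fin 2 × Fin k) :
    signBlock v e M x y = signBlock v e (0 : Matrix (Fin k) (Fin k) T) x y +
      (if x.1 = 1 ∧ y.1 = 1 then e else 0) * M x.2 y.2 := by
  obtain ⟨x, i⟩ := x
  obtain ⟨y, j⟩ := y
  fin_cases x <;> fin_cases y <;> simp [signBlock]

theorem map_signBlock {T T' F' : Type} [CommRing T] [CommRing T'] [FunLike F' T T']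
    [RingHomClass F' T T'] (f : F') {k : ℕ} (v : ℕ) (e : T) (M : Matrix (Fin k) (Fin k) T) :
    (signBlock v e M).map f = signBlock v (f e) (M.map f) := by
  ext x y
  obtain ⟨x, i⟩ := x
  obtain ⟨y, j⟩ := y
  simp only [signBlock, Matrix.map_apply, Matrix.of_apply, map_add, map_mul]
  fin_cases x <;> fin_cases y <;> simp [apply_ite f]

namespace LiftProblem.Lim

variable {φ : ℕ → ℕ} {ι ι' ι'' : Type}

omit [IsAdicComplete (maximalIdeal O) O] in
theorem redMat_liftMat (n : ℕ) (X : Matrix ι ι' (P.LevelRing n)) :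
    P.redMat n (P.liftMat n X) = X :=
  Matrix.ext fun i k => P.toLevel_liftMat n X i k

omit [IsAdicComplete (maximalIdeal O) O] in
theorem of_red (hφ : StrictMono φ) {X : ∀ n, Matrix ι ι' (P.LevelRing n)}
    {Y : ℕ → Matrix ι ι' P.SRing} {L : Matrix ι ι' P.SRing}
    (hY : MatTends (maximalIdeal P.SRing) (fun n => Y (φ n)) L)
    (h : ∀ n, P.redMat n (Y n) = X n) : P.Lim φ X L :=
  hY.congr (a := fun n => P.levelKer (φ n))
    (fun k => hφ.tendsto_atTop.eventually (P.idealTendsZero_levelKer k))
    (y := fun n => P.liftMat (φ n) (X (φ n))) fun n i k => by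
    refine P.sub_mem_levelKer ?_ i k
    rw [redMat_liftMat, h]

omit [IsAdicComplete (maximalIdeal O) O] in
theorem congr' {X Y : ∀ n, Matrix ι ι' (P.LevelRing n)} {L : Matrix ι ι' P.SRing}
    (hX : P.Lim φ X L) (h : ∀ n, X n = Y n) : P.Lim φ Y L := by
  rwa [← funext h]

omit [IsAdicComplete (maximalIdeal O) O] in
theorem const (hφ : StrictMono φ) (L : Matrix ι ι' P.SRing) :
    P.Lim φ (fun n => P.redMat n L) L :=
  of_red hφ (Y := fun _ => L) (MatTends.const L) fun _ => rfl

omit [IsAdicComplete (maximalIdeal O) O] in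
theorem unique {X : ∀ n, Matrix ι ι' (P.LevelRing n)} {L M : Matrix ι ι' P.SRing}
    (hX : P.Lim φ X L) (hM : P.Lim φ X M) : L = M :=
  MatTends.unique hX hM

omit [IsAdicComplete (maximalIdeal O) O] in
theorem add (hφ : StrictMono φ) {X Y : ∀ n, Matrix ι ι' (P.LevelRing n)}
    {L M : Matrix ι ι' P.SRing} (hX : P.Lim φ X L) (hY : P.Lim φ Y M) :
    P.Lim φ (fun n => X n + Y n) (L + M) :=
  of_red hφ (Y := fun n => P.liftMat n (X n) + P.liftMat n (Y n)) (MatTends.add hX hY) fun n => by
    ext i k : 1
    simp [LiftProblem.redMat, P.toLevel_liftMat]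

omit [IsAdicComplete (maximalIdeal O) O] in
theorem mul (hφ : StrictMono φ) [Fintype ι'] {X : ∀ n, Matrix ι ι' (P.LevelRing n)}
    {Y : ∀ n, Matrix ι' ι'' (P.LevelRing n)} {L : Matrix ι ι' P.SRing} {M : Matrix ι' ι'' P.SRing}
    (hX : P.Lim φ X L) (hY : P.Lim φ Y M) : P.Lim φ (fun n => X n * Y n) (L * M) :=
  of_red hφ (Y := fun n => P.liftMat n (X n) * P.liftMat n (Y n)) (MatTends.mul hX hY) fun n => by
    ext i k : 1
    simp [LiftProblem.redMat, Matrix.mul_apply, P.toLevel_liftMat]

omit [IsAdicComplete (maximalIdeal O) O] in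
theorem zero (hφ : StrictMono φ) :
    P.Lim φ (fun n => (0 : Matrix ι ι' (P.LevelRing n))) 0 :=
  (const hφ (0 : Matrix ι ι' P.SRing)).congr' fun n => by ext i k : 1; simp [LiftProblem.redMat]

omit [IsAdicComplete (maximalIdeal O) O] in
theorem one (hφ : StrictMono φ) [DecidableEq ι] :
    P.Lim φ (fun n => (1 : Matrix ι ι (P.LevelRing n))) 1 :=
  (const hφ (1 : Matrix ι ι P.SRing)).congr' fun n => by
    ext i k : 1
    by_cases h : i = k <;> simp [LiftProblem.redMat, h, Matrix.one_apply]

omit [IsAdicComplete (maximalIdeal O) O] in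
theorem neg (hφ : StrictMono φ) {X : ∀ n, Matrix ι ι' (P.LevelRing n)}
    {L : Matrix ι ι' P.SRing} (hX : P.Lim φ X L) : P.Lim φ (fun n => -X n) (-L) :=
  of_red hφ (Y := fun n => -P.liftMat n (X n)) (fun i k => (hX i k).neg) fun n => by
    ext i k : 1
    simp [LiftProblem.redMat, P.toLevel_liftMat]

omit [IsAdicComplete (maximalIdeal O) O] in
theorem sub (hφ : StrictMono φ) {X Y : ∀ n, Matrix ι ι' (P.LevelRing n)}
    {L M : Matrix ι ι' P.SRing} (hX : P.Lim φ X L) (hY : P.Lim φ Y M) :
    P.Lim φ (fun n => X n - Y n) (L - M) := by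
  simp only [sub_eq_add_neg]
  exact add hφ hX (neg hφ hY)

omit [IsAdicComplete (maximalIdeal O) O] in
theorem eq_zero (hφ : StrictMono φ) {X : ∀ n, Matrix ι ι' (P.LevelRing n)}
    {L : Matrix ι ι' P.SRing} (hX : P.Lim φ X L) (h : ∀ n, X n = 0) : L = 0 :=
  unique (hX.congr' h) (zero hφ)

omit [IsAdicComplete (maximalIdeal O) O] in
theorem blockPair {k : ℕ} (hφ : StrictMono φ) {X : ∀ n, Matrix (Fin k) (Fin k) (P.LevelRing n)}
    {L : Matrix (Fin k) (Fin k) P.SRing} (hX : P.Lim φ X L) :
    P.Lim φ (fun n => ModularityLifting.blockPair (X n)) (ModularityLifting.blockPair L) :=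
  of_red hφ (Y := fun n => ModularityLifting.blockPair (P.liftMat n (X n)))
    (fun x y => by
      by_cases h : x.1 = y.1
      · simpa [ModularityLifting.blockPair, h] using hX x.2 y.2
      · simpa [ModularityLifting.blockPair, h] using Tends.const (I := maximalIdeal P.SRing) 0)
    fun n => by
      ext x y : 1
      simp only [LiftProblem.redMat, ModularityLifting.blockPair, Matrix.map_apply, Matrix.of_apply]
      split <;> simp [P.toLevel_liftMat]

omit [IsAdicComplete (maximalIdeal O) O] in
theorem frobBlock {k : ℕ} (hφ : StrictMono φ) (v : ℕ)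
    {X : ∀ n, Matrix (Fin k) (Fin k) (P.LevelRing n)}
    {L : Matrix (Fin k) (Fin k) P.SRing} (hX : P.Lim φ X L) :
    P.Lim φ (fun n => ModularityLifting.frobBlock v (X n)) (ModularityLifting.frobBlock v L) :=
  of_red hφ (Y := fun n => ModularityLifting.frobBlock v (P.liftMat n (X n)))
    (fun x y => by
      by_cases h : x.1 = y.1
      · simpa [ModularityLifting.frobBlock, h] using Tends.const (I := maximalIdeal P.SRing)
          (if x.2 = y.2 then (v : P.SRing) + 1 else 0)
      · simpa [ModularityLifting.frobBlock, h] using hX x.2 y.2)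
    fun n => by
      ext x y : 1
      simp only [LiftProblem.redMat, ModularityLifting.frobBlock, Matrix.map_apply, Matrix.of_apply]
      split_ifs <;> simp [P.toLevel_liftMat]

omit [IsAdicComplete (maximalIdeal O) O] in
theorem signBlock {k : ℕ} (hφ : StrictMono φ) (v : ℕ) (o : O)
    {X : ∀ n, Matrix (Fin k) (Fin k) (P.LevelRing n)}
    {L : Matrix (Fin k) (Fin k) P.SRing} (hX : P.Lim φ X L) :
    P.Lim φ (fun n => ModularityLifting.signBlock v (algebraMap O (P.LevelRing n) o) (X n))
      (ModularityLifting.signBlock v (algebraMap O P.SRing o) L) :=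
  of_red hφ
    (Y := fun n => ModularityLifting.signBlock v (algebraMap O P.SRing o) (P.liftMat n (X n)))
    (fun x y => by
      have h := Tends.add
        (Tends.const (I := maximalIdeal P.SRing)
          (ModularityLifting.signBlock v (algebraMap O P.SRing o)
            (0 : Matrix (Fin k) (Fin k) _) x y))
        (Tends.mul (Tends.const (I := maximalIdeal P.SRing)
          (if x.1 = 1 ∧ y.1 = 1 then algebraMap O P.SRing o else 0)) (hX x.2 y.2))
      have e := fun n => signBlock_apply_eq v (algebraMap O P.SRing o)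
        (P.liftMat (φ n) (X (φ n))) x y
      unfold Tends
      rw [signBlock_apply_eq v (algebraMap O P.SRing o) L x y]
      exact fun t => (h t).mono fun n hn => by simp only [e n]; exact hn)
    fun n => by
      rw [LiftProblem.redMat, map_signBlock, AlgHom.commutes]
      congr 1
      exact redMat_liftMat n (X n)

end LiftProblem.Lim

/-- The ideal of the diamond variables. -/
def LiftProblem.augS (P : LiftProblem O) : Ideal P.SRing :=
  Ideal.span (Set.range fun i : Fin P.r => MvPowerSeries.X (Sum.inl i))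

omit [IsAdicComplete (maximalIdeal O) O] in
theorem LiftProblem.exists_augS_toLevel (P : LiftProblem O) (n : ℕ) {y : P.LevelRing n}
    (hy : y ∈ coeffwise (augIdeal O P.p P.r n)) : ∃ s ∈ P.augS, P.toLevel n s = y := by
  classical
  have hc : ∀ e, ∃ c : Fin P.r → TWRing O P.p P.r n,
      ∑ i, c i * Ideal.Quotient.mk _ (MvPowerSeries.X i) = MvPowerSeries.coeff e y := fun e =>
    Ideal.mem_span_range_iff_exists_fun.mp (mem_coeffwise.mp hy e)
  choose c hc using hc
  let p : Fin P.r → P.LevelRing n := fun i e => c e i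
  choose s hs using fun i => P.toLevel_surjective n (p i)
  refine ⟨∑ i, s i * MvPowerSeries.X (Sum.inl i), sum_mem fun i _ =>
    Ideal.mul_mem_left _ _ (Ideal.subset_span ⟨i, rfl⟩), ?_⟩
  have hX : ∀ i, P.toLevel n (MvPowerSeries.X (Sum.inl i)) =
      MvPowerSeries.C (Ideal.Quotient.mk _ (MvPowerSeries.X i)) := fun i => by
    show MvPowerSeries.map (Ideal.Quotient.mk _) (curry (MvPowerSeries.X (Sum.inl i))) = _
    rw [curry_X_inl, MvPowerSeries.map_C]
  ext e
  simp only [map_sum, map_mul, hs, hX, MvPowerSeries.coeff_mul_C, ← hc e]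
  rfl

theorem mem_of_forall_mem_sup_pow {S : Type} [CommRing S] [IsLocalRing S] [IsNoetherianRing S]
    (I : Ideal S) {L : S} (h : ∀ k : ℕ, L ∈ I ⊔ maximalIdeal S ^ k) : L ∈ I := by
  by_cases hI : I = ⊤
  · rw [hI]; exact Submodule.mem_top
  have : Nontrivial (S ⧸ I) := Ideal.Quotient.nontrivial_iff.mpr hI
  let q := Ideal.Quotient.mk I
  have : IsLocalRing (S ⧸ I) := IsLocalRing.of_surjective' q Ideal.Quotient.mk_surjective
  have : IsLocalHom q := IsLocalHom.of_surjective q Ideal.Quotient.mk_surjective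
  have hle : (maximalIdeal S).map q ≤ maximalIdeal (S ⧸ I) :=
    Ideal.map_le_iff_le_comap.mpr fun a ha => map_nonunit q a ha
  rw [← Ideal.Quotient.eq_zero_iff_mem, ← Ideal.mem_bot,
    ← Ideal.iInf_pow_eq_bot_of_isLocalRing (maximalIdeal (S ⧸ I)) (maximalIdeal.isMaximal _).ne_top,
    Submodule.mem_iInf]
  intro k
  obtain ⟨a, ha, b, hb, hab⟩ := Submodule.mem_sup.mp (h k)
  rw [← hab, map_add, Ideal.Quotient.eq_zero_iff_mem.mpr ha, zero_add]
  exact Ideal.pow_right_mono hle k (Ideal.map_pow q _ _ ▸ Ideal.mem_map_of_mem q hb)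

omit [IsAdicComplete (maximalIdeal O) O] in
theorem LiftProblem.Lim.mem_augS {φ : ℕ → ℕ} (hφ : StrictMono φ) {ι ι' : Type}
    {X : ∀ n, Matrix ι ι' (P.LevelRing n)} {L : Matrix ι ι' P.SRing} (hX : P.Lim φ X L)
    (h : ∀ n i k, X n i k ∈ coeffwise (augIdeal O P.p P.r n)) (i : ι) (k : ι') :
    L i k ∈ P.augS := by
  refine mem_of_forall_mem_sup_pow _ fun t => ?_
  obtain ⟨n, hn, hker⟩ := ((hX i k t).and
    (hφ.tendsto_atTop.eventually (P.idealTendsZero_levelKer t))).exists
  obtain ⟨s, hs, hsX⟩ := P.exists_augS_toLevel (φ n) (h (φ n) i k)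
  have h1 : P.liftMat (φ n) (X (φ n)) i k - s ∈ maximalIdeal P.SRing ^ t := hker (by
    rw [LiftProblem.levelKer, RingHom.mem_ker, map_sub, P.toLevel_liftMat, hsX, sub_self])
  have h2 := sub_mem h1 hn
  simp only [sub_sub_sub_cancel_left] at h2
  have h3 := add_mem (Ideal.mem_sup_left (T := maximalIdeal P.SRing ^ t) hs)
    (Ideal.mem_sup_right (S := P.augS) h2)
  simpa using h3

end FLTAgent.ModularityLifting
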