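import Fermat.Agent.ModularityLifting.Engine.NormalRep
import Fermat.Agent.ModularityLifting.Engine.TameLocal
import Fermat.Agent.ModularityLifting.Engine.Eigenline
import Fermat.Agent.Density.Inertia
import Fermat.Agent.GaloisAttach.Cyclotomic
import Fermat.Agent.TWPrimes.LocalPlace

/-!
# Determinants, tame relations and diagonal characters at the local primes

For representations with cyclotomic determinant: determinants at Frobenius elements and on inertia,
the linear tame relation of Steinberg representations, and the comparison of diagonal characters of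
triangular representations of a decomposition group.
-/

set_option autoImplicit false

noncomputable section

open IsLocalRing

namespace FLTAgent.ModularityLifting

open FLTAgent.DefRing Engine

local notation "Qbar" => AlgebraicClosure ℚ

variable {A : Type} [CommRing A] [IsLocalRing A]

theorem matCont_conjRep {M : MatRep A} (h : MatCont M) (g : GL (Fin 2) A) :
    MatCont (conjRep g M) := matCont_conj h g fun _ => rfl

variable [IsHausdorff (maximalIdeal A) A] {p v : ℕ}

theorem eq_of_forall_sub_mem_pow {x y : A} (h : ∀ k, x - y ∈ maximalIdeal A ^ k) : x = y :=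
  sub_eq_zero.mp (IsHausdorff.haus (I := maximalIdeal A) inferInstance _ fun k => by
    rw [SModEq.zero, smul_eq_mul, Ideal.mul_top]; exact h k)

theorem det_eq_of_forall_roots (hp : (p : A) ∈ maximalIdeal A) {ρ : MatRep A}
    (h : DetCyclotomic ρ p) {σ : AbsGal} {a : ℕ}
    (ha : ∀ (n : ℕ) (μ : Qbar), μ ^ p ^ n = 1 → σ μ = μ ^ a) : (ρ σ).det = (a : A) := by
  refine eq_of_forall_sub_mem_pow fun k => ?_
  refine (Ideal.span_singleton_le_iff_mem _).mpr ?_ (h k σ a (ha k))
  rw [Nat.cast_pow]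
  exact Ideal.pow_mem_pow hp k

theorem det_frobenius (hp : p.Prime) (hpA : (p : A) ∈ maximalIdeal A) (hv : v.Prime) (hvp : v ≠ p)
    {ρ : MatRep A} (h : DetCyclotomic ρ p) {B : ValuationSubring Qbar} (hB : B.LiesOverPrime v)
    {Φ : AbsGal} (hΦ : B.IsFrobeniusAt Φ v) : (ρ Φ).det = (v : A) :=
  det_eq_of_forall_roots hpA h fun _ _ hμ =>
    FLTAgent.Density.isFrobeniusAt_apply_of_pow_eq_one hv hB hΦ
      (fun hd => hvp ((Nat.prime_dvd_prime_iff_eq hv hp).mp (hv.dvd_of_dvd_pow hd))) hμ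

theorem det_inertia (hp : p.Prime) (hpA : (p : A) ∈ maximalIdeal A) (hv : v.Prime) (hvp : v ≠ p)
    {ρ : MatRep A} (h : DetCyclotomic ρ p) {B : ValuationSubring Qbar} (hB : B.LiesOverPrime v)
    {τ : AbsGal} (hτ : τ ∈ B.inertiaSubgroupIn ℚ) : (ρ τ).det = 1 := by
  rw [det_eq_of_forall_roots (a := 1) hpA h fun n μ hμ => by
    rw [pow_one]
    exact FLTAgent.GaloisAttach.inertia_apply_rootOfUnity hv hB hτ
      (fun hd => hvp ((Nat.prime_dvd_prime_iff_eq hv hp).mp (hv.dvd_of_dvd_pow hd))) hμ,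
    Nat.cast_one]

omit [IsHausdorff (maximalIdeal A) A] in
/-- A prime other than `p` is a unit. -/
theorem isUnit_natCast_prime (hp : p.Prime) (hpA : (p : A) ∈ maximalIdeal A) (hv : v.Prime)
    (hvp : v ≠ p) : IsUnit (v : A) := by
  obtain ⟨a, b, hab⟩ := Nat.Coprime.isCoprime ((Nat.coprime_primes hv hp).mpr hvp)
  refine Classical.not_not.mp fun hu => (mem_maximalIdeal (1 : A)).mp ?_ isUnit_one
  have h := congrArg (Int.cast : ℤ → A) hab
  push_cast at h
  rw [← h]
  exact add_mem (Ideal.mul_mem_left _ _ hu) (Ideal.mul_mem_left _ _ hpA)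

/-- At a tame prime with residually unipotent inertia the tame relation is linear when inertia is
unipotent. -/
theorem steinberg_rel (hp : p.Prime) (hpA : (p : A) ∈ maximalIdeal A) (hv : v.Prime) (hvp : v ≠ p)
    {B : ValuationSubring Qbar} (hB : B.LiesOverPrime v) {x : Qbar} (hx : x ^ p = (v : Qbar))
    {τ : AbsGal} (hτ : τ ∈ B.inertiaSubgroupIn ℚ) (hτx : τ x ≠ x) (M : MatRep A) (hM : MatCont M)
    (hsq : ∀ σ ∈ B.inertiaSubgroupIn ℚ, (M σ - 1) * (M σ - 1) = 0) {Φ : AbsGal}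
    (hΦ : B.IsFrobeniusAt Φ v) : M Φ * (M τ - 1) = (v : A) • ((M τ - 1) * M Φ) := by
  have h := (tame_relations hp hpA hv hvp hB hx hτ hτx M hM
    fun σ hσ i k => by rw [hsq σ hσ]; exact zero_mem _).2 Φ hΦ
  have hpow : ∀ s : ℕ, M τ ^ s = 1 + (s : A) • (M τ - 1) := by
    intro s
    induction s with
    | zero => simp
    | succ s ih =>
      rw [pow_succ, ih, Nat.cast_succ, add_smul, one_smul, add_mul, one_mul, Matrix.smul_mul]
      have e : (M τ - 1) * M τ = M τ - 1 := by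
        have := hsq τ hτ
        rwa [mul_sub, mul_one, sub_eq_zero] at this
      rw [e]; abel
  rw [hpow, add_mul, one_mul, Matrix.smul_mul] at h
  rw [mul_sub, mul_one, h]
  abel

/-- Two continuous characters of a decomposition group which agree on inertia and at a Frobenius
element agree. -/
theorem character_eq_of_inertia_frobenius (hv : v.Prime) {B : ValuationSubring Qbar}
    (hB : B.LiesOverPrime v) (f f' : AbsGal → A) (h1 : f 1 = f' 1)
    (hmul : ∀ a ∈ B.decompositionSubgroup ℚ, ∀ b ∈ B.decompositionSubgroup ℚ,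
      f (a * b) = f a * f b)
    (hmul' : ∀ a ∈ B.decompositionSubgroup ℚ, ∀ b ∈ B.decompositionSubgroup ℚ,
      f' (a * b) = f' a * f' b)
    (hc : ∀ k : ℕ, ∃ L : IntermediateField ℚ Qbar, FiniteDimensional ℚ L ∧
      ∀ σ : AbsGal, (∀ x ∈ L, σ x = x) →
        f σ - 1 ∈ maximalIdeal A ^ k ∧ f' σ - 1 ∈ maximalIdeal A ^ k)
    (hI : ∀ σ ∈ B.inertiaSubgroupIn ℚ, f σ = f' σ) {Φ : AbsGal}
    (hΦ : B.IsFrobeniusAt Φ v) (hF : f Φ = f' Φ) :
    ∀ σ ∈ B.decompositionSubgroup ℚ, f σ = f' σ := by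
  have : Fact v.Prime := ⟨hv⟩
  intro σ hσ
  refine eq_of_forall_sub_mem_pow fun k => ?_
  obtain ⟨L₁, hL₁, hf⟩ := hc k
  let L := IntermediateField.normalClosure ℚ L₁ Qbar
  have : FiniteDimensional ℚ L := normalClosure.is_finiteDimensional ℚ _ Qbar
  have : IsGalois ℚ L := IsGalois.normalClosure ℚ _ Qbar
  obtain ⟨n, s, hs, hσs⟩ := TWPrimes.exists_frobenius_pow_mul hB L hΦ hσ
  have hΦd : Φ ∈ B.decompositionSubgroup ℚ := (FLTAgent.Density.isFrobeniusAt_iff.mp hΦ).1
  have hsd : s ∈ B.decompositionSubgroup ℚ := (FLTAgent.Density.mem_inertiaSubgroupIn_iff.mp hs).1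
  set w := σ⁻¹ * (Φ ^ n * s) with hw
  have hwd : w ∈ B.decompositionSubgroup ℚ :=
    mul_mem (inv_mem hσ) (mul_mem (pow_mem hΦd n) hsd)
  have hwL : ∀ x ∈ L₁, w x = x := fun x hx => by
    rw [hw, AlgEquiv.mul_apply, ← hσs x (IntermediateField.le_normalClosure L₁ hx),
      ← AlgEquiv.mul_apply, inv_mul_cancel, AlgEquiv.one_apply]
  have hpow : ∀ m : ℕ, f (Φ ^ m) = f' (Φ ^ m) := by
    intro m
    induction m with
    | zero => rw [pow_zero]; exact h1
    | succ m ih =>
      rw [pow_succ, hmul _ (pow_mem hΦd m) _ hΦd, hmul' _ (pow_mem hΦd m) _ hΦd, ih, hF]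
  have he : f (σ * w) = f' (σ * w) := by
    rw [hw, mul_inv_cancel_left, hmul _ (pow_mem hΦd n) _ hsd, hmul' _ (pow_mem hΦd n) _ hsd, hpow,
      hI s hs]
  rw [hmul _ hσ _ hwd, hmul' _ hσ _ hwd] at he
  have := sub_mem (Ideal.mul_mem_left _ (f' σ) (hf w hwL).2)
    (Ideal.mul_mem_left _ (f σ) (hf w hwL).1)
  convert this using 1
  linear_combination he

omit [IsLocalRing A] [IsHausdorff (maximalIdeal A) A] in
/-- The lower right entry of a triangular matrix representation is multiplicative. -/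
theorem diag_mul {M : MatRep A} {B : ValuationSubring Qbar}
    (h10 : ∀ σ ∈ B.decompositionSubgroup ℚ, M σ 1 0 = 0) :
    ∀ a ∈ B.decompositionSubgroup ℚ, ∀ b ∈ B.decompositionSubgroup ℚ,
      M (a * b) 1 1 = M a 1 1 * M b 1 1 := fun a ha b _ => by
  rw [map_mul, Matrix.mul_apply, Fin.sum_univ_two, h10 a ha, zero_mul, zero_add]

/-- Two triangular representations of a decomposition group with the same diagonal entry on
inertia and at a Frobenius element have the same diagonal entry. -/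
theorem diag_eq_of_inertia_frobenius (hv : v.Prime) {B : ValuationSubring Qbar}
    (hB : B.LiesOverPrime v) (M M' : MatRep A) (hM : MatCont M) (hM' : MatCont M')
    (h10 : ∀ σ ∈ B.decompositionSubgroup ℚ, M σ 1 0 = 0)
    (h10' : ∀ σ ∈ B.decompositionSubgroup ℚ, M' σ 1 0 = 0)
    (hI : ∀ σ ∈ B.inertiaSubgroupIn ℚ, M σ 1 1 = M' σ 1 1) {Φ : AbsGal}
    (hΦ : B.IsFrobeniusAt Φ v) (hF : M Φ 1 1 = M' Φ 1 1) :
    ∀ σ ∈ B.decompositionSubgroup ℚ, M σ 1 1 = M' σ 1 1 :=
  character_eq_of_inertia_frobenius hv hB (fun σ => M σ 1 1) (fun σ => M' σ 1 1) (by simp)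
    (diag_mul h10) (diag_mul h10')
    (fun k => by
      obtain ⟨L₁, hL₁, h₁⟩ := hM k
      obtain ⟨L₂, hL₂, h₂⟩ := hM' k
      refine ⟨L₁ ⊔ L₂, inferInstance, fun σ hσ => ?_⟩
      have e₁ := h₁ σ (fun x hx => hσ x (le_sup_left (b := L₂) hx)) 1 1
      have e₂ := h₂ σ (fun x hx => hσ x (le_sup_right (a := L₁) hx)) 1 1
      rw [Matrix.sub_apply, Matrix.one_apply_eq] at e₁ e₂
      exact ⟨e₁, e₂⟩)
    hI hΦ hF

/-- A character with values `±1` at a Frobenius element and trivial on inertia squares to one. -/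
theorem diag_sq_eq_one (hv : v.Prime) {B : ValuationSubring Qbar} (hB : B.LiesOverPrime v)
    (M : MatRep A) (hM : MatCont M) (h10 : ∀ σ ∈ B.decompositionSubgroup ℚ, M σ 1 0 = 0)
    (hI : ∀ σ ∈ B.inertiaSubgroupIn ℚ, M σ 1 1 = 1) {Φ : AbsGal} (hΦ : B.IsFrobeniusAt Φ v)
    (hF : M Φ 1 1 * M Φ 1 1 = 1) :
    ∀ σ ∈ B.decompositionSubgroup ℚ, M σ 1 1 * M σ 1 1 = 1 :=
  character_eq_of_inertia_frobenius hv hB (fun σ => M σ 1 1 * M σ 1 1) (fun _ => 1) (by simp)
    (fun a ha b hb => by rw [diag_mul h10 a ha b hb]; ring)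
    (fun _ _ _ _ => (one_mul 1).symm)
    (fun k => by
      obtain ⟨L₁, hL₁, h₁⟩ := hM k
      refine ⟨L₁, hL₁, fun σ hσ => ⟨?_, by simp⟩⟩
      have e₁ := h₁ σ hσ 1 1
      rw [Matrix.sub_apply, Matrix.one_apply_eq] at e₁
      have := Ideal.mul_mem_left _ (M σ 1 1 + 1) e₁
      convert this using 1
      ring)
    (fun σ hσ => by simp [hI σ hσ]) hΦ hF

end FLTAgent.ModularityLifting
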