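import Fermat.Agent.ModularityLifting.Patching.Components

/-!
# Supports along the induction on the level

Algebraic steps: integrality of a quotient through an intermediate ring, primes of the support over
primes containing the kernel of an action, and powers of elements acting as zero modulo an ideal.
-/

set_option autoImplicit false

noncomputable section

namespace FLTAgent.ModularityLifting.Engine

open Patching

variable {S A R : Type*} [CommRing S] [CommRing A] [Algebra S A] [CommRing R]
  {M : Type*} [AddCommGroup M] [Module A M]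

/-- If `A ⧸ I` is finite over `S` and `S` is integral over `R`, then `A ⧸ I` is. -/
theorem isIntegral_mk_comp (f : R →+* A) (I : Ideal A) [Module.Finite S (A ⧸ I)]
    (hint : ∀ s : S, ((Ideal.Quotient.mk I).comp f).IsIntegralElem (algebraMap S (A ⧸ I) s)) :
    ((Ideal.Quotient.mk I).comp f).IsIntegral := by
  intro b
  let g := (Ideal.Quotient.mk I).comp f
  let : Algebra R (A ⧸ I) := g.toAlgebra
  let T := integralClosure R (A ⧸ I)
  have : Algebra.IsIntegral S (A ⧸ I) := Algebra.IsIntegral.of_finite S (A ⧸ I)
  have : Algebra.IsIntegral R T := inferInstance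
  let ψ : S →+* T := (algebraMap S (A ⧸ I)).codRestrict T.toSubring fun s => hint s
  have hb : IsIntegral T b := by
    obtain ⟨p, hp, hpb⟩ := Algebra.IsIntegral.isIntegral (R := S) b
    refine ⟨p.map ψ, hp.map ψ, ?_⟩
    rw [Polynomial.eval₂_map]
    exact hpb
  exact isIntegral_trans b hb

/-- A prime of `R` containing the kernel of the action lies under a prime of the support. -/
theorem exists_prime_over (f : R →+* A) (I : Ideal A)
    (hg : ((Ideal.Quotient.mk I).comp f).IsIntegral) (C : Ideal R) [C.IsPrime]
    (hC : I.comap f ≤ C) : ∃ P : Ideal A, P.IsPrime ∧ I ≤ P ∧ P.comap f = C := by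
  let g := (Ideal.Quotient.mk I).comp f
  let : Algebra R (A ⧸ I) := g.toAlgebra
  have : Algebra.IsIntegral R (A ⧸ I) := ⟨hg⟩
  obtain ⟨Q, -, hQ, hQC⟩ := Ideal.exists_ideal_over_prime_of_isIntegral (S := A ⧸ I) C ⊥ (by
      rw [← RingHom.ker_eq_comap_bot]
      intro x hx
      have hx' : Ideal.Quotient.mk I (f x) = 0 := hx
      exact hC (Ideal.mem_comap.mpr (Ideal.Quotient.eq_zero_iff_mem.mp hx')))
  refine ⟨Q.comap (Ideal.Quotient.mk I), hQ.comap _, fun x hx => ?_, ?_⟩
  · rw [Ideal.mem_comap, Ideal.Quotient.eq_zero_iff_mem.mpr hx]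
    exact Q.zero_mem
  · rw [Ideal.comap_comap]
    exact hQC

/-- If `t` acts as zero modulo `I`, some power of it is in `annihilator + I`. -/
theorem exists_pow_mem_annihilator_sup [Module.Finite A M] {I : Ideal A} {t : A}
    (ht : ∀ m : M, t • m ∈ I • (⊤ : Submodule A M)) :
    ∃ k, t ^ k ∈ Module.annihilator A M ⊔ I := by
  obtain ⟨p, hp, -, hcoeff, hpf⟩ :=
    LinearMap.exists_monic_and_natDegree_eq_and_coeff_mem_pow_and_aeval_eq_zero A
      (LinearMap.lsmul A M t) I (by rintro _ ⟨z, rfl⟩; exact ht z)
  refine ⟨p.natDegree, ?_⟩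
  have hann : p.eval t ∈ Module.annihilator A M := by
    refine Module.mem_annihilator.mpr fun z => ?_
    have := LinearMap.congr_fun hpf z
    rw [show LinearMap.lsmul A M t = algebraMap A (Module.End A M) t from
        LinearMap.ext fun _ => rfl, Polynomial.aeval_algebraMap_apply_eq_algebraMap_eval] at this
    simpa using this
  rw [Polynomial.eval_eq_sum_range, Finset.sum_range_succ, hp.coeff_natDegree, one_mul] at hann
  have hsum : ∑ i ∈ Finset.range p.natDegree, p.coeff i * t ^ i ∈ I :=
    sum_mem fun k hk => Ideal.mul_mem_right _ _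
      (Ideal.pow_le_self (by rw [Finset.mem_range] at hk; omega) (hcoeff k))
  simpa using sub_mem (Ideal.mem_sup_left hann) (Ideal.mem_sup_right hsum)

end FLTAgent.ModularityLifting.Engine
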