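import Fermat.Agent.ModularityLifting.Engine.Patched
import Fermat.Agent.ModularityLifting.Engine.Integral
import Fermat.Agent.ModularityLifting.Engine.SupportSteps
import Fermat.Agent.LevelLowering.Dimension
import Mathlib.LinearAlgebra.Matrix.ToLin

/-!
# The patched modules and their supports

The representations of the patched data as modules over the big ring, the degeneracy maps between
them, and the key lemma: where the relations hold, a component below a prime of the support whose
elements kill the module up to elements outside the prime contains the kernel of the action of the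
coordinate ring.
-/

set_option autoImplicit false

noncomputable section

open IsLocalRing

namespace FLTAgent.ModularityLifting

open FLTAgent.DefRing Engine

/-- A block diagonal matrix acts blockwise. -/
theorem blockPair_mulVec {T : Type} [CommRing T] {k : ℕ} (M : Matrix (Fin k) (Fin k) T)
    (m : Fin 2 → Fin k → T) :
    (blockPair M).mulVec (fun y => m y.1 y.2) = fun x => M.mulVec (m x.1) x.2 := by
  funext x
  simp only [Matrix.mulVec, dotProduct, blockPair, Matrix.of_apply, Fintype.sum_prod_type]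
  rw [Finset.sum_eq_single x.1 (fun b _ hb => Finset.sum_eq_zero fun c _ => by
    rw [if_neg (Ne.symm hb), zero_mul]) (fun h => absurd (Finset.mem_univ _) h)]
  exact Finset.sum_congr rfl fun c _ => by rw [if_pos rfl]

variable {O : Type} [CommRing O] [IsDomain O] [IsDiscreteValuationRing O]
  [IsAdicComplete (maximalIdeal O) O]

namespace LiftProblem

variable (P : LiftProblem O)

/-- The big ring over the ring of diamond and frame variables. -/
instance algebraSA : Algebra P.SRing P.ARing := P.inclS.toRingHom.toAlgebra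

theorem algebraMap_SA (s : P.SRing) : algebraMap P.SRing P.ARing s = P.inclS s := rfl

theorem inclVars_comp {σ τ υ : Type} [Finite σ] [Finite τ] [Finite υ] (u : σ → τ) (w : τ → υ)
    (p : MvPowerSeries σ O) : inclVars O w (inclVars O u p) = inclVars O (w ∘ u) p :=
  AlgHom.congr_fun (algHom_ext_of_hausdorff (maximalIdeal (MvPowerSeries υ O))
    ((inclVars O w).comp (inclVars O u)) (inclVars O (w ∘ u))
    (fun i => by
      rw [AlgHom.comp_apply, inclVars_X, inclVars_X]
      exact DefRing.X_mem_maximalIdeal _)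
    (fun i => by rw [AlgHom.comp_apply, inclVars_X, inclVars_X, inclVars_X]; rfl)) p

omit [IsAdicComplete (maximalIdeal O) O] in
theorem le_ringKrullDim_SRing :
    ((P.r + 4 * P.loc.card : ℕ) : WithBot ℕ∞) ≤ ringKrullDim P.SRing := by
  classical
  rw [ringKrullDim_eq_of_ringEquiv
    (MvPowerSeries.renameEquiv O (Fintype.equivFin P.SVar)).toRingEquiv]
  refine le_trans (le_of_eq ?_)
    (FLTAgent.LevelLowering.le_ringKrullDim_mvPowerSeries O (Fintype.card P.SVar))
  congr 1
  have h2 : 0 < P.loc.card := Finset.card_pos.mpr P.loc_nonempty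
  rw [Fintype.card_sum, Fintype.card_fin, P.card_frameVar]
  omega

end LiftProblem

namespace Patched

variable {P : LiftProblem O} {F : Frames P} {d : Finset ℕ → ℕ} {Q : MvPolynomial ℕ ℤ}

/-- The module of a level. -/
def Mod (_pt : Patched P F d Q) (J : P.Level) : Type := Fin (d J.1) → P.SRing

variable (pt : Patched P F d Q)

instance (J : P.Level) : AddCommGroup (pt.Mod J) :=
  inferInstanceAs (AddCommGroup (Fin (d J.1) → P.SRing))

instance (J : P.Level) : Module P.SRing (pt.Mod J) :=
  inferInstanceAs (Module P.SRing (Fin (d J.1) → P.SRing))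

instance (J : P.Level) : Module.Finite P.SRing (pt.Mod J) :=
  inferInstanceAs (Module.Finite P.SRing (Fin (d J.1) → P.SRing))

instance (J : P.Level) : Module.IsTorsionFree P.SRing (pt.Mod J) :=
  inferInstanceAs (Module.IsTorsionFree P.SRing (Fin (d J.1) → P.SRing))

/-- The action on the module of a level. -/
def act (J : P.Level) : P.ARing →+* Module.End P.SRing (pt.Mod J) :=
  (Matrix.toLinAlgEquiv' (R := P.SRing) (n := Fin (d J.1))).toRingEquiv.toRingHom.comp (pt.Ψ J)

instance (J : P.Level) : Module P.ARing (pt.Mod J) := Module.compHom (pt.Mod J) (pt.act J)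

theorem smul_def {J : P.Level} (a : P.ARing) (m : pt.Mod J) :
    a • m = ((pt.Ψ J a).mulVec m : Fin (d J.1) → P.SRing) := rfl

theorem algebraMap_smul' {J : P.Level} (s : P.SRing) (m : pt.Mod J) :
    P.inclS s • m = s • m := by
  rw [smul_def, pt.Ψ_inclS]
  funext i
  simp only [Matrix.scalar_apply, Matrix.mulVec_diagonal]
  rfl

instance (J : P.Level) : IsScalarTower P.SRing P.ARing (pt.Mod J) :=
  ⟨fun s a m => by rw [Algebra.smul_def, mul_smul, P.algebraMap_SA, algebraMap_smul']⟩

instance (J : P.Level) : Module.Finite P.ARing (pt.Mod J) :=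
  Module.Finite.of_restrictScalars_finite P.SRing P.ARing (pt.Mod J)

/-- The relation of a frame variable. -/
def zRel (z : P.FrameVar) : P.ARing :=
  P.inclS (MvPowerSeries.X (Sum.inr z)) - P.inclR (pt.rz z)

/-- The relation of a diamond variable. -/
def yRel (i : Fin P.r) : P.ARing :=
  (1 + P.inclS (MvPowerSeries.X (Sum.inl i))) * (1 + P.inclS (MvPowerSeries.X (Sum.inl i))) + 1 -
    P.inclR (pt.ru i) * (1 + P.inclS (MvPowerSeries.X (Sum.inl i)))

section Support

variable {M' M : Type} [AddCommGroup M'] [Module P.ARing M'] [AddCommGroup M] [Module P.SRing M]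
  [Module P.ARing M] [IsScalarTower P.SRing P.ARing M]

/-- The relations hold on the image of a map. -/
def RelsKill (f : M' →ₗ[P.ARing] M) : Prop :=
  (∀ z y, pt.zRel z • f y = 0) ∧ ∀ i y, pt.yRel i • f y = 0

variable {pt}

omit [Module P.SRing M] [IsScalarTower P.SRing P.ARing M] in
theorem isIntegralElem_inclS {f : M' →ₗ[P.ARing] M} (hf : pt.RelsKill f) (s : P.SRing) :
    ((Ideal.Quotient.mk (Module.annihilator P.ARing (LinearMap.range f))).comp
      P.inclR.toRingHom).IsIntegralElem
        (algebraMap P.SRing (P.ARing ⧸ Module.annihilator P.ARing (LinearMap.range f)) s) := by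
  set I := Module.annihilator P.ARing (LinearMap.range f)
  have hI : ∀ a : P.ARing, (∀ y, a • f y = 0) → Ideal.Quotient.mk I a = 0 := fun a ha =>
    Ideal.Quotient.eq_zero_iff_mem.mpr (Module.mem_annihilator.mpr fun ⟨m, y, hy⟩ =>
      Subtype.ext (show a • m = 0 by rw [← hy]; exact ha y))
  let jM : P.MRing →ₐ[O] P.ARing := inclVars O fun x => Sum.inl x
  let ι : P.RRing →ₐ[O] P.MRing := inclVars O Sum.inl
  let ιS : P.SRing →ₐ[O] P.MRing := inclVars O Sum.inr
  have hR : ∀ a, jM (ι a) = P.inclR a := fun a => LiftProblem.inclVars_comp _ _ a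
  have hS : ∀ a, jM (ιS a) = P.inclS a := fun a => LiftProblem.inclVars_comp _ _ a
  let Φ : P.MRing →+* P.ARing ⧸ I := (Ideal.Quotient.mk I).comp jM.toRingHom
  have hmem : ∀ a : P.RRing, a ∈ maximalIdeal P.RRing →
      ι a ∈ (maximalIdeal P.RRing).map ι.toRingHom := fun a ha => Ideal.mem_map_of_mem _ ha
  have key : ∀ y : P.SVar, ∃ a ∈ (maximalIdeal P.RRing).map ι.toRingHom,
      Φ (MvPowerSeries.X (Sum.inr y)) ^ 2 = Φ a := by
    rintro (i | z)
    · refine ⟨ι (pt.ru i - 2) * (1 + MvPowerSeries.X (Sum.inr (Sum.inl i))),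
        Ideal.mul_mem_right _ _ (hmem _ ?_), ?_⟩
      · rw [DefRing.mem_maximalIdeal_iff_constantCoeff, map_sub, pt.ru_two, map_ofNat, sub_self]
        exact zero_mem _
      · have h := hI _ (hf.2 i)
        simp only [yRel, map_sub, map_add, map_mul, map_one, LiftProblem.inclS_X] at h
        simp only [Φ, RingHom.comp_apply, AlgHom.toRingHom_eq_coe, RingHom.coe_coe, map_mul,
          map_add, map_one, map_sub, map_ofNat, hR,
            show jM (MvPowerSeries.X (Sum.inr (Sum.inl i))) =
            MvPowerSeries.X (Sum.inl (Sum.inr (Sum.inl i))) from inclVars_X _ _]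
        linear_combination h
    · refine ⟨ι (pt.rz z) * ι (pt.rz z), Ideal.mul_mem_right _ _ (hmem _ ?_), ?_⟩
      · rw [DefRing.mem_maximalIdeal_iff_constantCoeff, pt.rz_zero]
        exact zero_mem _
      · have h := hI _ (hf.1 z)
        simp only [zRel, map_sub, LiftProblem.inclS_X, sub_eq_zero] at h
        simp only [Φ, RingHom.comp_apply, AlgHom.toRingHom_eq_coe, RingHom.coe_coe, map_mul, hR,
          show jM (MvPowerSeries.X (Sum.inr (Sum.inr z))) =
            MvPowerSeries.X (Sum.inl (Sum.inr (Sum.inr z))) from inclVars_X _ _, h, pow_two]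
  have h1 := isIntegralElem_of_nilpotent ι (fun c => inclVars_X _ _) Φ 2 key (ιS s)
  have e1 : Φ.comp ι.toRingHom = (Ideal.Quotient.mk I).comp P.inclR.toRingHom :=
    RingHom.ext fun a => congrArg (Ideal.Quotient.mk I) (hR a)
  have e2 : Φ (ιS s) = algebraMap P.SRing (P.ARing ⧸ I) s :=
    congrArg (Ideal.Quotient.mk I) (hS s)
  rwa [e1, e2] at h1

variable [Module.Finite P.SRing M]

theorem finite_range (f : M' →ₗ[P.ARing] M) : Module.Finite P.SRing (LinearMap.range f) :=
  Module.Finite.of_injective ((LinearMap.range f).subtype.restrictScalars P.SRing)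
    Subtype.val_injective

omit [IsAdicComplete (maximalIdeal O) O] [Module P.SRing M] [IsScalarTower P.SRing P.ARing M]
  [Module.Finite P.SRing M] in
theorem mem_annihilator_range {f : M' →ₗ[P.ARing] M} {t : P.ARing} :
    t ∈ Module.annihilator P.ARing (LinearMap.range f) ↔ ∀ y, t • f y = 0 := by
  refine ⟨fun h y => congrArg Subtype.val (Module.mem_annihilator.mp h ⟨f y, y, rfl⟩),
    fun h => Module.mem_annihilator.mpr ?_⟩
  rintro ⟨_, y, rfl⟩
  exact Subtype.ext (h y)

/-- A prime of the coordinates containing the kernel of the action lies under one of the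
support. -/
theorem exists_prime_of_kernel_le {f : M' →ₗ[P.ARing] M} (hf : pt.RelsKill f) (C : Ideal P.RRing)
    [C.IsPrime] (hC : ∀ g, (∀ y, P.inclR g • f y = 0) → g ∈ C) :
    ∃ Q' : Ideal P.ARing, Q'.IsPrime ∧ (∀ t, (∀ y, t • f y = 0) → t ∈ Q') ∧
      Q'.comap P.inclR = C := by
  have := finite_range f
  have : Module.Finite P.SRing
      (P.ARing ⧸ Module.annihilator P.ARing (LinearMap.range f)) :=
    Patching.finite_quotient_annihilator
  obtain ⟨Q', hQ', hI, hQC⟩ := exists_prime_over P.inclR.toRingHom _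
    (isIntegral_mk_comp (S := P.SRing) _ _ (isIntegralElem_inclS hf)) C
    (fun g hg => hC g (mem_annihilator_range.mp (Ideal.mem_comap.mp hg)))
  exact ⟨Q', hQ', fun t ht => hI (mem_annihilator_range.mpr ht), hQC⟩

variable [Module.IsTorsionFree P.SRing M]

/-- A component killing the image, up to elements outside a prime of its support, contains the
kernel of the action. -/
theorem kernel_le_component (hF : F.IsNormal) (hr : P.p ∈ P.loc → 1 ≤ P.r) {J : Finset ℕ}
    {f : M' →ₗ[P.ARing] M} (hf : pt.RelsKill f) {Q' : Ideal P.ARing} [Q'.IsPrime]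
    (hQ' : ∀ t, (∀ y, t • f y = 0) → t ∈ Q')
    (hC : ∀ g ∈ P.component F J, ∃ s ∉ Q', ∀ y, (s * P.inclR g) • f y = 0)
    {g : P.RRing} (hg : ∀ y, P.inclR g • f y = 0) : g ∈ P.component F J := by
  have := finite_range f
  have : Module.IsTorsionFree P.SRing (LinearMap.range f) :=
    Function.Injective.moduleIsTorsionFree Subtype.val Subtype.val_injective fun _ _ => rfl
  have : IsDomain P.SRing := NoZeroDivisors.to_isDomain _
  refine (Patching.comap_annihilator_le (S := P.SRing) (M := LinearMap.range f) P.inclR.toRingHom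
    (isIntegralElem_inclS hf) ringKrullDim_ne_top
    ((P.ringKrullDim_component_le F J hF hr).trans P.le_ringKrullDim_SRing) (P := Q')
    (fun t ht => hQ' t (mem_annihilator_range.mp ht)) fun g hg => ?_).1
    (Ideal.mem_comap.mpr (mem_annihilator_range.mpr hg))
  obtain ⟨s, hs, hk⟩ := hC g hg
  exact ⟨s, hs, fun ⟨m, y, hy⟩ => Subtype.ext (show (s * P.inclR g) • m = 0 by
    rw [← hy]; exact hk y)⟩

end Support

section Maps

variable (x : P.Step)

/-- The degeneracy map. -/
def αL : (Fin 2 → pt.Mod x.J) →ₗ[P.ARing] pt.Mod x.next where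
  toFun m := ((pt.α x).mulVec fun y => m y.1 y.2 : Fin (d x.next.1) → P.SRing)
  map_add' m m' := Matrix.mulVec_add (pt.α x) (fun y => m y.1 y.2) (fun y => m' y.1 y.2)
  map_smul' a m := by
    show (pt.α x).mulVec (fun y => (pt.Ψ x.J a).mulVec (m y.1) y.2) =
      (pt.Ψ x.next a).mulVec ((pt.α x).mulVec fun y => m y.1 y.2)
    rw [Matrix.mulVec_mulVec, pt.α_comm, ← Matrix.mulVec_mulVec, blockPair_mulVec]

/-- The transposed degeneracy map. -/
def βL (hp : x.v ≠ P.p) : pt.Mod x.next →ₗ[P.ARing] (Fin 2 → pt.Mod x.J) where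
  toFun m := fun i => (fun k => (pt.β x).mulVec m (i, k) : Fin (d x.J.1) → P.SRing)
  map_add' m m' := funext fun i => funext fun k =>
    congrFun (Matrix.mulVec_add (pt.β x) m m') (i, k)
  map_smul' a m := funext fun i => funext fun k => by
    show (pt.β x).mulVec ((pt.Ψ x.next a).mulVec m) (i, k) =
      (pt.Ψ x.J a).mulVec (fun k => (pt.β x).mulVec m (i, k)) k
    rw [Matrix.mulVec_mulVec, pt.β_comm x hp, ← Matrix.mulVec_mulVec]
    exact congrFun (blockPair_mulVec (pt.Ψ x.J a) fun i k => (pt.β x).mulVec m (i, k)) (i, k)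

theorem βL_surjective (hp : x.v ≠ P.p) : Function.Surjective (pt.βL x hp) := fun y => by
  refine ⟨((pt.βInv x).mulVec fun z => y z.1 z.2 : Fin (d x.next.1) → P.SRing),
    funext fun i => funext fun k => ?_⟩
  show (pt.β x).mulVec ((pt.βInv x).mulVec fun z => y z.1 z.2) (i, k) = y i k
  rw [Matrix.mulVec_mulVec, pt.β_mul x hp, Matrix.one_mulVec]

/-- The projector. -/
def EL : pt.Mod x.next →ₗ[P.ARing] pt.Mod x.next where
  toFun m := ((pt.E x).mulVec m : Fin (d x.next.1) → P.SRing)
  map_add' := Matrix.mulVec_add (pt.E x)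
  map_smul' a m := by
    show (pt.E x).mulVec ((pt.Ψ x.next a).mulVec m) = (pt.Ψ x.next a).mulVec ((pt.E x).mulVec m)
    rw [Matrix.mulVec_mulVec, Matrix.mulVec_mulVec, pt.E_comm]

/-- The projection along the degeneracy map. -/
def pr : Matrix (Fin (d x.next.1)) (Fin (d x.next.1)) P.SRing := pt.α x * pt.αInv x - 1

theorem mem_range_αL {m : pt.Mod x.next} :
    m ∈ LinearMap.range (pt.αL x) ↔ (pt.pr x).mulVec m = 0 := by
  rw [pr, Matrix.sub_mulVec, Matrix.one_mulVec, ← Matrix.mulVec_mulVec, sub_eq_zero]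
  constructor
  · rintro ⟨y, rfl⟩
    show (pt.α x).mulVec ((pt.αInv x).mulVec ((pt.α x).mulVec fun z => y z.1 z.2)) = _
    rw [Matrix.mulVec_mulVec _ (pt.αInv x), pt.αInv_mul, Matrix.one_mulVec]
    rfl
  · intro h
    exact ⟨fun i k => (pt.αInv x).mulVec m (i, k), h⟩

/-- The cokernel of the degeneracy map. -/
abbrev Coker : Type := pt.Mod x.next ⧸ LinearMap.range (pt.αL x)

instance : Module.IsTorsionFree P.SRing (pt.Coker x) := by
  refine ⟨fun r hr a b h => ?_⟩
  obtain ⟨a, rfl⟩ := Submodule.mkQ_surjective _ a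
  obtain ⟨b, rfl⟩ := Submodule.mkQ_surjective _ b
  have h' : r • a - r • b ∈ LinearMap.range (pt.αL x) := (Submodule.Quotient.eq _).mp h
  refine (Submodule.Quotient.eq _).mpr ?_
  rw [mem_range_αL] at h' ⊢
  rw [← smul_sub] at h'
  replace h' := (Matrix.mulVec_smul (pt.pr x) r
    (a - b : Fin (d x.next.1) → P.SRing)).symm.trans h'
  funext i
  exact hr.left (by simpa using congrFun h' i)

instance : Module.Finite P.SRing (pt.Coker x) :=
  Module.Finite.of_surjective ((LinearMap.range (pt.αL x)).mkQ.restrictScalars P.SRing)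
    (Submodule.mkQ_surjective _)

theorem mkQ_eq_zero_iff {m : pt.Mod x.next} :
    ((LinearMap.range (pt.αL x)).mkQ m : pt.Coker x) = 0 ↔ (pt.pr x).mulVec m = 0 :=
  (Submodule.Quotient.mk_eq_zero _).trans (pt.mem_range_αL x)

/-- An element acting as zero after the projection kills the cokernel. -/
theorem smul_mkQ_eq_zero {a : P.ARing} (h : pt.pr x * pt.Ψ x.next a = 0) (m : pt.Mod x.next) :
    a • ((LinearMap.range (pt.αL x)).mkQ m : pt.Coker x) = 0 := by
  rw [← map_smul, mkQ_eq_zero_iff]
  show (pt.pr x).mulVec ((pt.Ψ x.next a).mulVec m) = 0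
  rw [Matrix.mulVec_mulVec, h, Matrix.zero_mulVec]

theorem smul_eq_zero_of_Ψ {J : P.Level} {a : P.ARing} (h : pt.Ψ J a = 0) (m : pt.Mod J) :
    a • m = 0 := by
  show (pt.Ψ J a).mulVec m = 0
  rw [h, Matrix.zero_mulVec]

end Maps

end Patched

end FLTAgent.ModularityLifting
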