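import Fermat.Agent.ModularityLifting.Engine.LocalData

/-!
# Frames in which the representation of a problem is in normal form

`Frames.IsNormal` asks that the representation of the problem be, in the frame at each local prime,
in normal form; `LiftProblem.exists_frames` shows that such frames exist, starting from the
Steinberg line at the tame primes of ramification.
-/

set_option autoImplicit false

noncomputable section

open IsLocalRing

namespace FLTAgent.ModularityLifting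

open FLTAgent.DefRing Engine

local notation "Qbar" => AlgebraicClosure ℚ

variable {O : Type} [CommRing O] [IsDomain O] [IsDiscreteValuationRing O] {P : LiftProblem O}

/-- The representation of the problem in the frame at a prime. -/
def Frames.rho (F : Frames P) (v : ℕ) : MatRep O := conjRep (F.g v) P.ρ

/-- The frames put the representation of the problem in normal form. -/
structure Frames.IsNormal (F : Frames P) : Prop where
  frob00 : ∀ v ∈ P.minimal ∪ P.raise, v ≠ P.p → F.rho v (P.frob v) 0 0 = P.ε v * (v : O)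
  frob11 : ∀ v ∈ P.minimal ∪ P.raise, v ≠ P.p → F.rho v (P.frob v) 1 1 = P.ε v
  tau00 : ∀ v ∈ P.minimal ∪ P.raise, v ≠ P.p → F.rho v (F.τ v) 0 0 = 1
  tau11 : ∀ v ∈ P.minimal ∪ P.raise, v ≠ P.p → F.rho v (F.τ v) 1 1 = 1
  p_inertia : P.p ∈ P.minimal ∪ P.raise →
    ∀ σ ∈ (P.place P.p).inertiaSubgroupIn ℚ, F.rho P.p σ 1 1 = 1
  p_frob : P.p ∈ P.minimal ∪ P.raise → F.rho P.p (P.frob P.p) 1 1 = P.ε P.p

variable (P)

theorem LiftProblem.mem_loc_prime {v : ℕ} (hv : v ∈ P.loc) : v.Prime := P.prime v hv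

theorem LiftProblem.charZero (P : LiftProblem O) : CharZero O := by
  obtain ⟨ℓ, hℓ⟩ := CharP.exists O
  rcases CharP.char_is_prime_or_zero O ℓ with h | rfl
  · exfalso
    rcases eq_or_ne ℓ P.p with rfl | hne
    · exact P.p_ne (CharP.cast_eq_zero O P.p)
    · obtain ⟨a, b, hab⟩ := Nat.Coprime.isCoprime ((Nat.coprime_primes h P.hp).mpr hne)
      refine (mem_maximalIdeal (1 : O)).mp ?_ isUnit_one
      have h1 := congrArg (Int.cast : ℤ → O) hab
      push_cast at h1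
      rw [← h1, CharP.cast_eq_zero O ℓ, mul_zero, zero_add]
      exact Ideal.mul_mem_left _ _ P.p_mem
  · exact CharP.charP_to_charZero O

theorem LiftProblem.p_mem_loc_iff : P.p ∈ P.loc ↔ P.p ∈ P.minimal ∪ P.raise := by
  unfold LiftProblem.loc
  rw [Finset.mem_union, or_iff_left P.p_notMem_extra]

omit [IsDomain O] [IsDiscreteValuationRing O] in
/-- Normal forms of two matrices with a common eigenvector. -/
theorem exists_frame_of_line (Φ T : Matrix (Fin 2) (Fin 2) O) {lam μ : O} (w : Fin 2 → O)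
    (hw : ∃ i, IsUnit (w i)) (hΦ : Φ.mulVec w = lam • w) (hT : T.mulVec w = w)
    (hΦt : Φ.trace = lam + μ) (hTt : T.trace = 1 + 1) :
    ∃ g : GL (Fin 2) O,
      ((g : Matrix (Fin 2) (Fin 2) O) * Φ * (g⁻¹ : GL (Fin 2) O)) 1 0 = 0 ∧
      ((g : Matrix (Fin 2) (Fin 2) O) * Φ * (g⁻¹ : GL (Fin 2) O)) 0 0 = lam ∧
      ((g : Matrix (Fin 2) (Fin 2) O) * Φ * (g⁻¹ : GL (Fin 2) O)) 1 1 = μ ∧
      ((g : Matrix (Fin 2) (Fin 2) O) * T * (g⁻¹ : GL (Fin 2) O)) 1 0 = 0 ∧
      ((g : Matrix (Fin 2) (Fin 2) O) * T * (g⁻¹ : GL (Fin 2) O)) 0 0 = 1 ∧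
      ((g : Matrix (Fin 2) (Fin 2) O) * T * (g⁻¹ : GL (Fin 2) O)) 1 1 = 1 := by
  obtain ⟨B, hB, hBw⟩ : ∃ B : Matrix (Fin 2) (Fin 2) O, IsUnit B.det ∧ ∀ i, B i 0 = w i := by
    obtain ⟨i, hi⟩ := hw
    fin_cases i
    · exact ⟨!![w 0, 0; w 1, 1], by simpa [Matrix.det_fin_two_of] using hi,
        fun i => by fin_cases i <;> simp⟩
    · exact ⟨!![w 0, -1; w 1, 0], by simpa [Matrix.det_fin_two_of] using hi,
        fun i => by fin_cases i <;> simp⟩
  let G : GL (Fin 2) O := Matrix.nonsingInvUnit B hB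
  have hG : ∀ (M : Matrix (Fin 2) (Fin 2) O) (c : O), M.mulVec w = c • w →
      (((G⁻¹ : GL (Fin 2) O) : Matrix (Fin 2) (Fin 2) O) * M * (G : GL (Fin 2) O)) 1 0 = 0 ∧
      (((G⁻¹ : GL (Fin 2) O) : Matrix (Fin 2) (Fin 2) O) * M * (G : GL (Fin 2) O)) 0 0 = c := by
    intro M c hM
    have e : ∀ i, ((((G⁻¹ : GL (Fin 2) O) : Matrix (Fin 2) (Fin 2) O) * M) *
        (G : GL (Fin 2) O)) i 0 = c * (1 : Matrix (Fin 2) (Fin 2) O) i 0 := by
      intro i
      have hMB : ∀ j, (M * B) j 0 = c * B j 0 := fun j => by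
        simpa [Matrix.mul_apply, Matrix.mulVec, dotProduct, hBw] using congrFun hM j
      have hinv : ((G⁻¹ : GL (Fin 2) O) : Matrix (Fin 2) (Fin 2) O) * B = 1 :=
        Units.inv_mul G
      rw [mul_assoc, Matrix.mul_apply, show ((G : GL (Fin 2) O) : Matrix (Fin 2) (Fin 2) O) = B
        from rfl]
      simp only [hMB]
      rw [← hinv, Matrix.mul_apply, Finset.mul_sum]
      exact Finset.sum_congr rfl fun j _ => by ring
    exact ⟨by simpa using e 1, by simpa using e 0⟩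
  have h11 : ∀ (M : Matrix (Fin 2) (Fin 2) O) (c c' : O), M.mulVec w = c • w →
      M.trace = c + c' →
      (((G⁻¹ : GL (Fin 2) O) : Matrix (Fin 2) (Fin 2) O) * M * (G : GL (Fin 2) O)) 1 1 = c' := by
    intro M c c' hM ht
    have e : (((G⁻¹ : GL (Fin 2) O) : Matrix (Fin 2) (Fin 2) O) * M *
        (G : GL (Fin 2) O)).trace = c + c' := by rw [Matrix.trace_units_conj', ht]
    rw [Matrix.trace_fin_two, (hG M c hM).2] at e
    exact add_left_cancel e
  have hT1 : T.mulVec w = (1 : O) • w := by rw [hT, one_smul]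
  refine ⟨G⁻¹, ?_, ?_, ?_, ?_, ?_, ?_⟩ <;> rw [inv_inv]
  exacts [(hG Φ lam hΦ).1, (hG Φ lam hΦ).2, h11 Φ lam μ hΦ hΦt, (hG T 1 hT1).1, (hG T 1 hT1).2,
    h11 T 1 1 hT1 hTt]

theorem trace_eq_two_of_sq {A : Type} [CommRing A] [IsDomain A] (N : Matrix (Fin 2) (Fin 2) A)
    (h : N * N = 0) : (N + 1).trace = 1 + 1 := by
  have h0 : N.trace * N.trace = 0 := by
    have e : ∀ i j, (N * N) i j = 0 := fun i j => by rw [h]; rfl
    have h00 := e 0 0
    have h01 := e 0 1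
    have h10 := e 1 0
    have h11 := e 1 1
    simp only [Matrix.mul_apply, Fin.sum_univ_two] at h00 h01 h10 h11
    rw [Matrix.trace_fin_two]
    by_cases hs : N 0 0 + N 1 1 = 0
    · rw [hs, mul_zero]
    · have hb : N 0 1 = 0 :=
        (mul_eq_zero.mp (by linear_combination h01 :
          (N 0 0 + N 1 1) * N 0 1 = 0)).resolve_left hs
      rw [hb] at h00 h11
      have ha : N 0 0 = 0 := mul_self_eq_zero.mp (by linear_combination h00)
      have hd : N 1 1 = 0 := mul_self_eq_zero.mp (by linear_combination h11)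
      rw [ha, hd]; ring
  rw [Matrix.trace_add, mul_self_eq_zero.mp h0, Matrix.trace_one, Fintype.card_fin, zero_add]
  norm_num

variable [IsAdicComplete (maximalIdeal O) O]

omit [IsAdicComplete (maximalIdeal O) O] in
/-- The Steinberg line of the problem at a tame prime of ramification. -/
theorem LiftProblem.exists_frame_steinberg {v : ℕ} (hv : v ∈ P.minimal ∪ P.raise) (hvp : v ≠ P.p)
    {τ : AbsGal} (hτ : τ ∈ (P.place v).inertiaSubgroupIn ℚ) {x : Qbar} (hx : x ^ P.p = (v : Qbar))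
    (hτx : τ x ≠ x) :
    ∃ g : GL (Fin 2) O,
      conjRep g P.ρ (P.frob v) 1 0 = 0 ∧ conjRep g P.ρ (P.frob v) 0 0 = P.ε v * (v : O) ∧
      conjRep g P.ρ (P.frob v) 1 1 = P.ε v ∧
      conjRep g P.ρ τ 1 0 = 0 ∧ conjRep g P.ρ τ 0 0 = 1 ∧ conjRep g P.ρ τ 1 1 = 1 := by
  have hvloc : v ∈ P.minimal ∪ P.raise ∪ P.extra := Finset.mem_union_left _ hv
  have hv' := P.prime v hvloc
  have hB := P.place_spec v hv'
  obtain ⟨hI, htr⟩ := (P.steinberg v hv hvp).1 (P.place v) hB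
  have hΦ := P.frob_spec v hv'
  have := P.charZero
  have hsq : ∀ σ ∈ (P.place v).inertiaSubgroupIn ℚ, (P.ρ σ - 1) * (P.ρ σ - 1) = 0 :=
    fun σ hσ => by rw [← sq]; exact hI σ hσ
  have he : P.ε v * P.ε v = 1 := by rcases P.sign v with h | h <;> simp [h]
  have hne : (v : O) ≠ 0 := Nat.cast_ne_zero.mpr hv'.ne_zero
  have hne1 : (v : O) - 1 ≠ 0 := sub_ne_zero.mpr fun h => hv'.ne_one (Nat.cast_eq_one.mp h)
  have hne2 : (v : O) + 1 ≠ 0 := by exact_mod_cast Nat.succ_ne_zero v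
  obtain ⟨w, hw, hTw, hΦw⟩ := exists_steinberg_line (P.ρ (P.frob v)) (P.ρ τ)
    (det_frobenius P.hp P.p_mem hv' hvp P.det hB hΦ) (htr _ hΦ) (hsq τ hτ)
    (steinberg_rel P.hp P.p_mem hv' hvp hB hx hτ hτx P.ρ P.cont hsq hΦ) he hne hne1 hne2
  obtain ⟨g, h1, h2, h3, h4, h5, h6⟩ := exists_frame_of_line (P.ρ (P.frob v)) (P.ρ τ) w hw hΦw hTw
    (μ := P.ε v) (by rw [htr _ hΦ]; ring)
    (by simpa using trace_eq_two_of_sq _ (hsq τ hτ))
  exact ⟨g, h1, h2, h3, h4, h5, h6⟩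

theorem exists_unit_corner {A : Type} [CommRing A] [IsLocalRing A] (M : Matrix (Fin 2) (Fin 2) A)
    (h : IsUnit M.det) :
    ∃ g : GL (Fin 2) A,
      IsUnit (((g : Matrix (Fin 2) (Fin 2) A) * M * (g⁻¹ : GL (Fin 2) A)) 0 0) := by
  by_cases h00 : IsUnit (M 0 0)
  · exact ⟨1, by simpa using h00⟩
  by_cases h11 : IsUnit (M 1 1)
  · let u : GL (Fin 2) A := ⟨!![0, 1; 1, 0], !![0, 1; 1, 0],
      by ext i j; fin_cases i <;> fin_cases j <;> simp [Matrix.mul_apply, Fin.sum_univ_two],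
      by ext i j; fin_cases i <;> fin_cases j <;> simp [Matrix.mul_apply, Fin.sum_univ_two]⟩
    exact ⟨u, by simpa [u, Matrix.mul_apply, Matrix.vecMul, dotProduct, Fin.sum_univ_two] using h11⟩
  let u : GL (Fin 2) A := ⟨!![1, 1; 0, 1], !![1, -1; 0, 1],
    by ext i j; fin_cases i <;> fin_cases j <;> simp [Matrix.mul_apply, Fin.sum_univ_two],
    by ext i j; fin_cases i <;> fin_cases j <;> simp [Matrix.mul_apply, Fin.sum_univ_two]⟩
  refine ⟨u, ?_⟩
  have h10 : IsUnit (M 1 0) := by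
    refine Classical.not_not.mp fun hu => (mem_maximalIdeal M.det).mp ?_ h
    rw [Matrix.det_fin_two]
    exact sub_mem (Ideal.mul_mem_right _ _ h00) (Ideal.mul_mem_left _ _ hu)
  refine Classical.not_not.mp fun hu => ?_
  refine (mem_maximalIdeal (M 1 0)).mp ?_ h10
  have := sub_mem ((mem_maximalIdeal _).mpr hu) ((mem_maximalIdeal (M 0 0)).mpr h00)
  simpa [u, Matrix.mul_apply, Matrix.vecMul, dotProduct, Fin.sum_univ_two] using this

omit [IsAdicComplete (maximalIdeal O) O] in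
/-- Normal frames exist. -/
theorem LiftProblem.exists_frames : ∃ F : Frames P, F.IsNormal := by
  classical
  have tame : ∀ v : ℕ, ∃ τ : AbsGal, v ∈ P.loc → τ ∈ (P.place v).inertiaSubgroupIn ℚ ∧
      ∃ x : Qbar, x ^ P.p = (v : Qbar) ∧ τ x ≠ x := by
    intro v
    by_cases hv : v ∈ P.loc
    · obtain ⟨x, hx, τ, hτ, hτx⟩ := LevelLowering.exists_tame_element P.hp (P.mem_loc_prime hv)
        (P.place_spec v (P.mem_loc_prime hv))
      exact ⟨τ, fun _ => ⟨hτ, x, hx, hτx⟩⟩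
    · exact ⟨1, fun h => absurd h hv⟩
  choose τ hτ using tame
  have frame : ∀ v : ℕ, ∃ g : GL (Fin 2) O,
      (v ∈ P.loc → v ≠ P.p → IsUnit (conjRep g P.ρ (P.frob v) 0 0)) ∧
      (v ∈ P.minimal ∪ P.raise → v ≠ P.p →
        conjRep g P.ρ (P.frob v) 1 0 = 0 ∧ conjRep g P.ρ (P.frob v) 0 0 = P.ε v * (v : O) ∧
        conjRep g P.ρ (P.frob v) 1 1 = P.ε v ∧ conjRep g P.ρ (τ v) 1 0 = 0 ∧
        conjRep g P.ρ (τ v) 0 0 = 1 ∧ conjRep g P.ρ (τ v) 1 1 = 1) ∧
      (v = P.p → P.p ∈ P.minimal ∪ P.raise → ∀ σ ∈ (P.place P.p).decompositionSubgroup ℚ,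
        conjRep g P.ρ σ 1 0 = 0 ∧
          (σ ∈ (P.place P.p).inertiaSubgroupIn ℚ → conjRep g P.ρ σ 1 1 = 1) ∧
          ((P.place P.p).IsFrobeniusAt σ P.p → conjRep g P.ρ σ 1 1 = P.ε P.p)) := by
    intro v
    by_cases hvp : v = P.p
    · by_cases hp : P.p ∈ P.minimal ∪ P.raise
      · obtain ⟨g, hg⟩ := P.strict hp (P.place P.p) (P.place_spec _ P.hp)
        exact ⟨g, fun _ h => absurd hvp h, fun _ h => absurd hvp h, fun _ _ => hg⟩
      · exact ⟨1, fun _ h => absurd hvp h, fun _ h => absurd hvp h, fun _ h => absurd h hp⟩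
    by_cases hv : v ∈ P.minimal ∪ P.raise
    · obtain ⟨hτv, x, hx, hτx⟩ := hτ v (Finset.mem_union_left _ hv)
      obtain ⟨g, h1, h2, h3, h4, h5, h6⟩ := P.exists_frame_steinberg hv hvp hτv hx hτx
      refine ⟨g, fun hl _ => ?_, fun _ _ => ⟨h1, h2, h3, h4, h5, h6⟩, fun h => absurd h hvp⟩
      rw [h2]
      exact (by rcases P.sign v with h | h <;> simp [h] : IsUnit (P.ε v)).mul
        (isUnit_natCast_prime P.hp P.p_mem (P.mem_loc_prime hl) hvp)
    by_cases hl : v ∈ P.loc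
    · obtain ⟨g, hg⟩ := exists_unit_corner (P.ρ (P.frob v)) (by
        rw [det_frobenius P.hp P.p_mem (P.mem_loc_prime hl) hvp P.det
          (P.place_spec v (P.mem_loc_prime hl)) (P.frob_spec v (P.mem_loc_prime hl))]
        exact isUnit_natCast_prime P.hp P.p_mem (P.mem_loc_prime hl) hvp)
      exact ⟨g, fun _ _ => hg, fun h => absurd h hv, fun h => absurd h hvp⟩
    · exact ⟨1, fun h => absurd h hl, fun h => absurd h hv, fun h => absurd h hvp⟩
  choose g hg using frame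
  exact ⟨{
    g := g
    τ := τ
    τ_mem := fun v hv _ => (hτ v hv).1
    τ_root := fun v hv _ => (hτ v hv).2
    frob_unit := fun v hv hvp => (hg v).1 hv hvp
    upper_frob := fun v hv hvp => ((hg v).2.1 hv hvp).1
    upper_τ := fun v hv hvp => ((hg v).2.1 hv hvp).2.2.2.1
    upper_p := fun hp σ hσ => ((hg _).2.2 rfl hp σ hσ).1 },
  { frob00 := fun v hv hvp => ((hg v).2.1 hv hvp).2.1
    frob11 := fun v hv hvp => ((hg v).2.1 hv hvp).2.2.1
    tau00 := fun v hv hvp => ((hg v).2.1 hv hvp).2.2.2.2.1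
    tau11 := fun v hv hvp => ((hg v).2.1 hv hvp).2.2.2.2.2
    p_inertia := fun hp σ hσ => ((hg _).2.2 rfl hp σ
      (FLTAgent.Density.mem_inertiaSubgroupIn_iff.mp hσ).1).2.1 hσ
    p_frob := fun hp => ((hg _).2.2 rfl hp _ (P.frob_mem _ P.hp)).2.2 (P.frob_spec _ P.hp) }⟩

end FLTAgent.ModularityLifting
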