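import Fermat.Agent.ModularityLifting.Engine.LevelLimit

/-!
# The patched modules

The limit of the levels along a subsequence: representations of the big ring on free modules over
the ring of diamond and frame variables, with degeneracy maps and the relations of every level.
-/

set_option autoImplicit false

noncomputable section

open IsLocalRing Filter

namespace FLTAgent.ModularityLifting

open FLTAgent.DefRing Engine Patching LevelDatum.Choice

variable {O : Type} [CommRing O] [IsDomain O] [IsDiscreteValuationRing O]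
  [IsAdicComplete (maximalIdeal O) O] [Finite (ResidueField O)]

namespace LiftProblem

variable (P : LiftProblem O)

/-- The raising sets. -/
abbrev Level : Type := {J : Finset ℕ // J ⊆ P.raise}

instance : Finite P.Level :=
  Finite.of_injective (fun J : P.Level => (⟨J.1, Finset.mem_powerset.mpr J.2⟩ : P.raise.powerset))
    fun _ _ h => Subtype.ext (congrArg Subtype.val h :)

/-- A raising set with one more prime. -/
structure Step where
  J : P.Level
  v : ℕ
  mem : v ∈ P.raise
  notMem : v ∉ J.1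

variable {P}

/-- The enlarged set. -/
abbrev Step.next (x : P.Step) : P.Level := ⟨insert x.v x.J.1, Finset.insert_subset x.mem x.J.2⟩

instance : Finite P.Step :=
  Finite.of_injective (fun x : P.Step => (x.J, (⟨x.v, x.mem⟩ : P.raise))) fun a b h => by
    obtain ⟨_, _, _, _⟩ := a
    obtain ⟨_, _, _, _⟩ := b
    simp only [Prod.mk.injEq, Subtype.mk.injEq] at h
    obtain ⟨rfl, rfl⟩ := h
    rfl

/-- The matrices attached to a step. -/
inductive DegKind : Type
  | deg | degInv | deg' | deg'Inv | proj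

instance : Finite DegKind :=
  Finite.of_injective (fun k : DegKind => (match k with
    | .deg => 0 | .degInv => 1 | .deg' => 2 | .deg'Inv => 3 | .proj => 4 : Fin 5))
    fun a b h => by cases a <;> cases b <;> first | rfl | simp at h

/-- Rows of a matrix of a step. -/
abbrev degRow (d : Finset ℕ → ℕ) (x : P.Step) : DegKind → Type
  | .deg => Fin (d (insert x.v x.J.1))
  | .degInv => Fin 2 × Fin (d x.J.1)
  | .deg' => Fin 2 × Fin (d x.J.1)
  | .deg'Inv => Fin (d (insert x.v x.J.1))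
  | .proj => Fin (d (insert x.v x.J.1))

/-- Columns of a matrix of a step. -/
abbrev degCol (d : Finset ℕ → ℕ) (x : P.Step) : DegKind → Type
  | .deg => Fin 2 × Fin (d x.J.1)
  | .degInv => Fin (d (insert x.v x.J.1))
  | .deg' => Fin (d (insert x.v x.J.1))
  | .deg'Inv => Fin 2 × Fin (d x.J.1)
  | .proj => Fin (d (insert x.v x.J.1))

end LiftProblem

/-- The patched data. -/
structure Patched (P : LiftProblem O) (F : Frames P) (d : Finset ℕ → ℕ) (Q : MvPolynomial ℕ ℤ) where
  Ψ : ∀ J : P.Level, P.ARing →+* Matrix (Fin (d J.1)) (Fin (d J.1)) P.SRing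
  Ψ_inclS : ∀ J s, Ψ J (P.inclS s) = Matrix.scalar (Fin (d J.1)) s
  e : P.ARing
  rz : P.FrameVar → P.RRing
  rz_zero : ∀ z, MvPowerSeries.constantCoeff (rz z) = 0
  ru : Fin P.r → P.RRing
  ru_two : ∀ i, MvPowerSeries.constantCoeff (ru i) = 2
  rQ : P.RRing
  rQ_val : MvPowerSeries.constantCoeff rQ =
    MvPolynomial.aeval (fun ℓ : ℕ => (P.ρ (P.frob ℓ)).trace) Q
  α : ∀ x : P.Step, Matrix (Fin (d (insert x.v x.J.1))) (Fin 2 × Fin (d x.J.1)) P.SRing
  αInv : ∀ x : P.Step, Matrix (Fin 2 × Fin (d x.J.1)) (Fin (d (insert x.v x.J.1))) P.SRing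
  β : ∀ x : P.Step, Matrix (Fin 2 × Fin (d x.J.1)) (Fin (d (insert x.v x.J.1))) P.SRing
  βInv : ∀ x : P.Step, Matrix (Fin (d (insert x.v x.J.1))) (Fin 2 × Fin (d x.J.1)) P.SRing
  E : ∀ x : P.Step, Matrix (Fin (d (insert x.v x.J.1))) (Fin (d (insert x.v x.J.1))) P.SRing
  αInv_mul : ∀ x, αInv x * α x = 1
  β_mul : ∀ x : P.Step, x.v ≠ P.p → β x * βInv x = 1
  α_comm : ∀ (x : P.Step) a, Ψ x.next a * α x = α x * blockPair (Ψ x.J a)
  β_comm : ∀ x : P.Step, x.v ≠ P.p → ∀ a, β x * Ψ x.next a = blockPair (Ψ x.J a) * β x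
  E_comm : ∀ (x : P.Step) a, E x * Ψ x.next a = Ψ x.next a * E x
  E_p : ∀ x : P.Step, x.v = P.p → E x = 1
  β_α : ∀ x : P.Step, ∀ h : x.v ∈ P.tameLoc,
    β x * α x = frobBlock x.v (Ψ x.J (P.inclR (P.trFrob F ⟨x.v, h⟩)))
  β_E : ∀ x : P.Step, ∀ h : x.v ∈ P.tameLoc,
    β x * E x = signBlock x.v (algebraMap O P.SRing (P.ε x.v))
      (Ψ x.J (P.inclR (P.trFrob F ⟨x.v, h⟩))) * β x
  component_kills : ∀ (J : P.Level), ∀ f ∈ P.component F J.1,
    Ψ J (P.hElem F e * P.inclR (f * P.signProd F J.1)) = 0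
  coker_kills : ∀ (x : P.Step), ∀ f ∈ P.component F (insert x.v x.J.1),
    (α x * αInv x - 1) * Ψ x.next (P.hElem F e * P.inclR (f * P.signProd F x.J.1)) * E x = 0
  coker_p_kills : ∀ (x : P.Step), x.v = P.p → ∀ f ∈ P.component F (insert x.v x.J.1),
    (α x * αInv x - 1) * Ψ x.next (P.inclR (f * P.signProd F x.J.1)) = 0
  rel_frame : ∀ (J : P.Level) z,
    Ψ J (P.hElem F e * (P.inclS (MvPowerSeries.X (Sum.inr z)) - P.inclR (rz z))) = 0
  rel_diamond : ∀ (J : P.Level) i,
    Ψ J (P.hElem F e * ((1 + P.inclS (MvPowerSeries.X (Sum.inl i))) *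
      (1 + P.inclS (MvPowerSeries.X (Sum.inl i))) + 1 -
        P.inclR (ru i) * (1 + P.inclS (MvPowerSeries.X (Sum.inl i))))) = 0
  rel_frame_p : ∀ (x : P.Step), x.v = P.p → ∀ z,
    (α x * αInv x - 1) * Ψ x.next (P.inclS (MvPowerSeries.X (Sum.inr z)) - P.inclR (rz z)) = 0
  rel_diamond_p : ∀ (x : P.Step), x.v = P.p → ∀ i,
    (α x * αInv x - 1) * Ψ x.next ((1 + P.inclS (MvPowerSeries.X (Sum.inl i))) *
      (1 + P.inclS (MvPowerSeries.X (Sum.inl i))) + 1 -
        P.inclR (ru i) * (1 + P.inclS (MvPowerSeries.X (Sum.inl i)))) = 0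
  flat_kills : P.p ∈ P.raise → ∀ J : P.Level, P.p ∉ J.1 → Ψ J (P.hElem F e) = 0
  coker_p_ne : ∀ x : P.Step, x.v = P.p → x.J.1 = ∅ → ∃ a b,
    IsUnit ((α x * αInv x - 1 : Matrix (Fin (d x.next.1)) (Fin (d x.next.1)) P.SRing) a b)
  top : P.p ∉ P.raise → ∀ a b, Ψ ⟨P.raise, subset_rfl⟩ (P.inclR rQ) a b ∈ P.augS
  top_p : ∀ x : P.Step, x.v = P.p → x.J.1 = P.raise.erase P.p → ∀ a b,
    ((α x * αInv x - 1) * Ψ x.next (P.inclR rQ) :
      Matrix (Fin (d x.next.1)) (Fin (d x.next.1)) P.SRing) a b ∈ P.augS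

theorem toSeries_one {σ T ι : Type} [CommRing T] [DecidableEq ι] :
    toSeries σ (1 : Matrix ι ι T) = 1 :=
  Matrix.map_one _ (map_zero _) (map_one _)

namespace LevelDatum.Choice

variable {P : LiftProblem O} {d : Finset ℕ → ℕ} {n : ℕ} {D : LevelDatum P d n} {F : Frames P}
  (ch : D.Choice F)

omit [Finite (ResidueField O)] in
theorem hLevel_kills {J : Finset ℕ} (hJ : J ⊆ P.raise) (hflat : ch.FlatEq) {a : P.ARing}
    (h : ∀ θ, some θ ∈ D.goodPts → ch.val (some θ) a = 0) :
    ch.levelAct J (ch.hLevel * a) = 0 :=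
  ch.levelAct_eq_zero hJ fun θ hθ => by
    rw [map_mul]
    rcases ch.good_or_killed hflat hJ hθ with hg | hk
    · rw [h θ hg, mul_zero]
    · rw [hk, zero_mul]

omit [Finite (ResidueField O)] in
theorem coker_p_kills_good {J : Finset ℕ} (hJ : J ⊆ P.raise) (hp : P.p ∈ P.raise) (hpJ : P.p ∉ J)
    {a : P.ARing} (h : ∀ θ, some θ ∈ D.goodPts → ch.val (some θ) a = 0) :
    toSeries P.FrameVar (D.α J P.p * D.αInv J P.p - 1) * ch.levelAct (insert P.p J) a = 0 := by
  have h1 := ch.levelAct_coker hJ hp hpJ (a := a) fun θ hθ => h θ (good_of_newPts_p hJ hp hpJ hθ)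
  rwa [D.E_p J hJ hp hpJ, toSeries_one, mul_one] at h1

end LevelDatum.Choice

/-- Uniform nilpotence of the action. -/
theorem LevelDatum.Choice.liftMat_mem {P : LiftProblem O} {d : Finset ℕ → ℕ} {n : ℕ}
    {D : LevelDatum P d n} {F : Frames P} (ch : D.Choice F) (J : Finset ℕ) {x : P.ARing}
    (hx : x ∈ maximalIdeal P.ARing ^ Nat.card (Matrix (Fin (d J)) (Fin (d J)) (ResidueField O)))
    (i k : Fin (d J)) : P.liftMat n (ch.levelAct J x) i k ∈ maximalIdeal P.SRing := by
  have h := congrFun (congrFun (pow_natCard_map_eq_zero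
    ((P.levelResidue n).mapMatrix.comp (ch.levelAct J)) hx) i) k
  rw [RingHom.comp_apply, RingHom.mapMatrix_apply, Matrix.map_apply,
    ← P.toLevel_liftMat n (ch.levelAct J x) i k,
    P.levelResidue_toLevel, Matrix.zero_apply, residue_eq_zero_iff] at h
  exact (DefRing.mem_maximalIdeal_iff_constantCoeff _).mpr h

omit [Finite (ResidueField O)] in
/-- A limit of series without the auxiliary variable has none, and keeps the constant term. -/
private theorem LiftProblem.eq_inclR_retrR_of_tends {P : LiftProblem O} {φ : ℕ → ℕ}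
    {r : ℕ → P.RRing} {c : O} {L : P.ARing}
    (hL : Tends (maximalIdeal P.ARing) (fun n => P.inclR (r (φ n))) L)
    (hc : ∀ n, MvPowerSeries.constantCoeff (r n) = c) :
    L = P.inclR (P.retrR L) ∧ MvPowerSeries.constantCoeff (P.retrR L) = c := by
  have hretr : ∀ a ∈ maximalIdeal P.ARing, P.retrR a ∈ maximalIdeal P.RRing := fun a ha =>
    evalAdic_mem (maximalIdeal P.RRing) map_maximalIdeal_le P.retrVal P.retrVal_mem ha
  have hincl : ∀ a ∈ maximalIdeal P.RRing, P.inclR a ∈ maximalIdeal P.ARing := fun a ha =>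
    inclVars_mem_maximalIdeal _ ha
  have hR : Tends (maximalIdeal P.RRing) (fun n => r (φ n)) (P.retrR L) := fun k =>
    (hL k).mono fun n hn => by
      have := Ideal.pow_right_mono (Ideal.map_le_iff_le_comap.mpr fun a ha =>
        Ideal.mem_comap.mpr (hretr a ha)) k (Ideal.map_pow P.retrR.toRingHom
          (maximalIdeal P.ARing) k ▸ Ideal.mem_map_of_mem P.retrR.toRingHom hn)
      simpa [map_sub, P.retrR_inclR] using this
  refine ⟨hL.unique fun k => (hR k).mono fun n hn => ?_, ?_⟩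
  · have := Ideal.pow_right_mono (Ideal.map_le_iff_le_comap.mpr fun a ha =>
      Ideal.mem_comap.mpr (hincl a ha)) k
      (Ideal.map_pow P.inclR.toRingHom (maximalIdeal P.RRing) k ▸
        Ideal.mem_map_of_mem P.inclR.toRingHom hn)
    simpa [map_sub] using this
  · have h2 : Tends (maximalIdeal O) (fun _ => c)
        (MvPowerSeries.constantCoeff (P.retrR L)) := fun k => (hR k).mono fun n hn => by
      have := (DefRing.mem_maximalIdeal_pow_iff k _).mp hn 0
      simpa [MvPowerSeries.coeff_zero_eq_constantCoeff_apply, hc] using this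
    exact h2.unique (Tends.const c)

omit [Finite (ResidueField O)] in
/-- The special series of the levels tend to the special series of the limit. -/
private theorem LiftProblem.eq_hElem_of_tends {P : LiftProblem O} (F : Frames P) {c : ℕ → P.ARing}
    {h e : P.ARing} (hh : Tends (maximalIdeal P.ARing) (fun n => P.hElem F (c n)) h)
    (he : Tends (maximalIdeal P.ARing) c e) : h = P.hElem F e := by
  refine hh.unique ?_
  by_cases hp : P.p ∈ P.raise
  · have h1 := (Tends.const (I := maximalIdeal P.ARing) (P.sepSeries F)).add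
      ((Tends.const (I := maximalIdeal P.ARing) (algebraMap O P.ARing LiftProblem.unif)).mul
        he).neg
    rw [LiftProblem.hElem, if_pos hp, sub_eq_add_neg]
    exact fun k => (h1 k).mono fun n hn => by
      simpa [LiftProblem.hElem, hp, sub_eq_add_neg] using hn
  · rw [LiftProblem.hElem, if_neg hp]
    exact fun k => Eventually.of_forall fun n => by simp [LiftProblem.hElem, hp]

section Limit

variable {P : LiftProblem O} {F : Frames P} {d : Finset ℕ → ℕ} {D : ∀ n, LevelDatum P d n}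
  {Q : MvPolynomial ℕ ℤ}

/-- The patching sequence of the levels. -/
private def patchSeq (ch : ∀ n, (D n).Choice F) :
    PatchSeq O P.SVar P.AVar P.Level fun J => d J.1 where
  a := P.levelKer
  tendsZero := P.idealTendsZero_levelKer
  ψ n J x := P.liftMat n ((ch n).levelAct J.1 x)
  map_add n J x y i k := P.sub_mem_levelKer (by
    ext a b : 1
    simp [LiftProblem.redMat, P.toLevel_liftMat]) i k
  map_mul n J x y i k := P.sub_mem_levelKer (by
    ext a b : 1
    simp [LiftProblem.redMat, P.toLevel_liftMat, Matrix.mul_apply]) i k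
  map_one n J i k := P.sub_mem_levelKer (by
    ext a b : 1
    by_cases h : a = b <;> simp [LiftProblem.redMat, P.toLevel_liftMat, h]) i k
  nil := ∑ᶠ J : P.Level, Nat.card (Matrix (Fin (d J.1)) (Fin (d J.1)) (ResidueField O))
  map_nil n J x hx := (ch n).liftMat_mem J.1 (Ideal.pow_le_pow_right
    (single_le_finsum J (Set.toFinite _) fun _ => Nat.zero_le _) hx)

omit [Finite (ResidueField O)] [IsAdicComplete (maximalIdeal O) O] in
private theorem finite_degRow (l : P.Step × LiftProblem.DegKind) :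
    Finite (LiftProblem.degRow d l.1 l.2) := by
  obtain ⟨x, k⟩ := l; cases k <;> dsimp only [LiftProblem.degRow] <;> infer_instance

omit [Finite (ResidueField O)] [IsAdicComplete (maximalIdeal O) O] in
private theorem finite_degCol (l : P.Step × LiftProblem.DegKind) :
    Finite (LiftProblem.degCol d l.1 l.2) := by
  obtain ⟨x, k⟩ := l; cases k <;> dsimp only [LiftProblem.degCol] <;> infer_instance

/-- The matrices of a step at one level, lifted to the ring of the limit. -/
private def stepMat {n : ℕ} (D : LevelDatum P d n) : ∀ l : P.Step × LiftProblem.DegKind,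
    Matrix (LiftProblem.degRow d l.1 l.2) (LiftProblem.degCol d l.1 l.2) P.SRing
  | (x, .deg) => P.liftMat n (toSeries P.FrameVar (D.α x.J.1 x.v))
  | (x, .degInv) => P.liftMat n (toSeries P.FrameVar (D.αInv x.J.1 x.v))
  | (x, .deg') => P.liftMat n (toSeries P.FrameVar (D.β x.J.1 x.v))
  | (x, .deg'Inv) => P.liftMat n (toSeries P.FrameVar (D.βInv x.J.1 x.v))
  | (x, .proj) => P.liftMat n (toSeries P.FrameVar (D.E x.J.1 x.v))

/-- The series chosen at the levels and the limits of everything along a subsequence. -/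
private structure PatchLimit (P : LiftProblem O) (F : Frames P) (d : Finset ℕ → ℕ)
    (D : ∀ n, LevelDatum P d n) (Q : MvPolynomial ℕ ℤ) where
  ch : ∀ n, (D n).Choice F
  flat : ∀ n, (ch n).FlatEq
  φ : ℕ → ℕ
  strictMono : StrictMono φ
  rz : ℕ → P.FrameVar → P.RRing
  frame : ∀ n z, ∀ x : (D n).goodPts, (ch n).val x (P.inclR (rz n z)) =
    (ch n).val x (P.inclS (MvPowerSeries.X (Sum.inr z)))
  ru : ℕ → Fin P.r → P.RRing
  diamond : ∀ n i, ∀ x : (D n).goodPts, (ch n).val x ((1 + P.inclS (MvPowerSeries.X (Sum.inl i))) *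
    (1 + P.inclS (MvPowerSeries.X (Sum.inl i))) + 1 -
      P.inclR (ru n i) * (1 + P.inclS (MvPowerSeries.X (Sum.inl i)))) = 0
  rQ : ℕ → P.RRing
  relation : ∀ n θ, some θ ∈ (D n).goodPts →
    MvPolynomial.aeval (fun ℓ : ℕ => ((D n).rep θ (P.frob ℓ)).trace) Q = 0 →
      (ch n).val (some θ) (P.inclR (rQ n)) = 0
  Ψ : ∀ J : P.Level, P.ARing →+* Matrix (Fin (d J.1)) (Fin (d J.1)) P.SRing
  e : P.ARing
  Rz : P.FrameVar → P.RRing
  Rz_zero : ∀ z, MvPowerSeries.constantCoeff (Rz z) = 0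
  Ru : Fin P.r → P.RRing
  Ru_two : ∀ i, MvPowerSeries.constantCoeff (Ru i) = 2
  RQ : P.RRing
  RQ_val : MvPowerSeries.constantCoeff RQ =
    MvPolynomial.aeval (fun ℓ : ℕ => (P.ρ (P.frob ℓ)).trace) Q
  α : ∀ x : P.Step, Matrix (Fin (d (insert x.v x.J.1))) (Fin 2 × Fin (d x.J.1)) P.SRing
  αInv : ∀ x : P.Step, Matrix (Fin 2 × Fin (d x.J.1)) (Fin (d (insert x.v x.J.1))) P.SRing
  β : ∀ x : P.Step, Matrix (Fin 2 × Fin (d x.J.1)) (Fin (d (insert x.v x.J.1))) P.SRing
  βInv : ∀ x : P.Step, Matrix (Fin (d (insert x.v x.J.1))) (Fin 2 × Fin (d x.J.1)) P.SRing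
  E : ∀ x : P.Step, Matrix (Fin (d (insert x.v x.J.1))) (Fin (d (insert x.v x.J.1))) P.SRing
  lim : ∀ (J : P.Level) a, P.Lim φ (fun n => (ch n).levelAct J.1 a) (Ψ J a)
  lim_h : ∀ J : P.Level,
    P.Lim φ (fun n => (ch n).levelAct J.1 (ch n).hLevel) (Ψ J (P.hElem F e))
  lim_z : ∀ (J : P.Level) z,
    P.Lim φ (fun n => (ch n).levelAct J.1 (P.inclR (rz n z))) (Ψ J (P.inclR (Rz z)))
  lim_u : ∀ (J : P.Level) i,
    P.Lim φ (fun n => (ch n).levelAct J.1 (P.inclR (ru n i))) (Ψ J (P.inclR (Ru i)))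
  lim_Q : ∀ J : P.Level,
    P.Lim φ (fun n => (ch n).levelAct J.1 (P.inclR (rQ n))) (Ψ J (P.inclR RQ))
  lim_α : ∀ x, P.Lim φ (fun n => toSeries P.FrameVar ((D n).α x.J.1 x.v)) (α x)
  lim_αInv : ∀ x, P.Lim φ (fun n => toSeries P.FrameVar ((D n).αInv x.J.1 x.v)) (αInv x)
  lim_β : ∀ x, P.Lim φ (fun n => toSeries P.FrameVar ((D n).β x.J.1 x.v)) (β x)
  lim_βInv : ∀ x, P.Lim φ (fun n => toSeries P.FrameVar ((D n).βInv x.J.1 x.v)) (βInv x)
  lim_E : ∀ x, P.Lim φ (fun n => toSeries P.FrameVar ((D n).E x.J.1 x.v)) (E x)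

/-- Everything at the levels converges along one subsequence. -/
private theorem nonempty_patchLimit (D : ∀ n, LevelDatum P d n) (F : Frames P)
    (Q : MvPolynomial ℕ ℤ) : Nonempty (PatchLimit P F d D Q) := by
  choose ch hflat hgs using fun n => (D n).exists_choice F
  choose rz hrz0 hrz using fun n => (ch n).exists_frame_series (hgs n)
  choose ru hru0 hru using fun n => (ch n).exists_diamond_series (hgs n)
  choose rQ hrQ0 hrQ using fun n => (ch n).exists_relation_series (hgs n) Q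
  have := finite_degRow (P := P) (d := d)
  have := finite_degCol (P := P) (d := d)
  let es : (Unit ⊕ Unit) ⊕ (P.FrameVar ⊕ (Fin P.r ⊕ Unit)) → ℕ → P.ARing := fun i n =>
    match i with
    | .inl (.inl _) => (ch n).hLevel
    | .inl (.inr _) => algebraMap O P.ARing (ch n).c + P.wVar
    | .inr (.inl z) => P.inclR (rz n z)
    | .inr (.inr (.inl i)) => P.inclR (ru n i)
    | .inr (.inr (.inr _)) => P.inclR (rQ n)
  obtain ⟨φ, Ψ, M, x, hφ, hΨ, hM, hx, hψx⟩ :=
    (patchSeq ch).exists_limit (fun l n => stepMat (D n) l) es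
  have hh : x (.inl (.inl ())) = P.hElem F (x (.inl (.inr ()))) :=
    LiftProblem.eq_hElem_of_tends F (hx (.inl (.inl ()))) (hx (.inl (.inr ())))
  have hRz := fun z => LiftProblem.eq_inclR_retrR_of_tends (r := fun n => rz n z)
    (hx (.inr (.inl z))) fun n => hrz0 n z
  have hRu := fun i => LiftProblem.eq_inclR_retrR_of_tends (r := fun n => ru n i)
    (hx (.inr (.inr (.inl i)))) fun n => hru0 n i
  have hRQ := LiftProblem.eq_inclR_retrR_of_tends (r := rQ) (hx (.inr (.inr (.inr ())))) hrQ0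
  exact ⟨{
    ch := ch
    flat := hflat
    φ := φ
    strictMono := hφ
    rz := rz
    frame := hrz
    ru := ru
    diamond := hru
    rQ := rQ
    relation := hrQ
    Ψ := Ψ
    e := x (.inl (.inr ()))
    Rz := fun z => P.retrR (x (.inr (.inl z)))
    Rz_zero := fun z => (hRz z).2
    Ru := fun i => P.retrR (x (.inr (.inr (.inl i))))
    Ru_two := fun i => (hRu i).2
    RQ := P.retrR (x (.inr (.inr (.inr ()))))
    RQ_val := hRQ.2
    α := fun x => M (x, .deg)
    αInv := fun x => M (x, .degInv)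
    β := fun x => M (x, .deg')
    βInv := fun x => M (x, .deg'Inv)
    E := fun x => M (x, .proj)
    lim := fun J a => hΨ J a
    lim_h := fun J => hh ▸ hψx (.inl (.inl ())) J
    lim_z := fun J z => (hRz z).1 ▸ hψx (.inr (.inl z)) J
    lim_u := fun J i => (hRu i).1 ▸ hψx (.inr (.inr (.inl i))) J
    lim_Q := fun J => hRQ.1 ▸ hψx (.inr (.inr (.inr ()))) J
    lim_α := fun x => hM (x, .deg)
    lim_αInv := fun x => hM (x, .degInv)
    lim_β := fun x => hM (x, .deg')
    lim_βInv := fun x => hM (x, .deg'Inv)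
    lim_E := fun x => hM (x, .proj) }⟩

namespace PatchLimit

variable (L : PatchLimit P F d D Q)
omit [Finite (ResidueField O)]

/-- The cokernel projector of a step in the limit. -/
private theorem lim_proj (x : P.Step) : P.Lim L.φ
    (fun n => toSeries P.FrameVar ((D n).α x.J.1 x.v * (D n).αInv x.J.1 x.v - 1))
    (L.α x * L.αInv x - 1) :=
  (LiftProblem.Lim.sub L.strictMono (LiftProblem.Lim.mul L.strictMono (L.lim_α x) (L.lim_αInv x))
    (LiftProblem.Lim.one L.strictMono)).congr' fun n => by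
      rw [← toSeries_mul]
      ext a b : 1
      simp only [toSeries, Matrix.sub_apply, Matrix.map_apply, Matrix.one_apply, map_sub]
      split_ifs <;> simp

/-- Products of actions converge to the product of the limits. -/
private theorem lim_mul {J : P.Level} {u v : ℕ → P.ARing} {U V : P.ARing}
    (hu : P.Lim L.φ (fun n => (L.ch n).levelAct J.1 (u n)) (L.Ψ J U))
    (hv : P.Lim L.φ (fun n => (L.ch n).levelAct J.1 (v n)) (L.Ψ J V)) :
    P.Lim L.φ (fun n => (L.ch n).levelAct J.1 (u n * v n)) (L.Ψ J (U * V)) := by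
  simpa only [map_mul] using LiftProblem.Lim.mul L.strictMono hu hv

/-- Differences of actions converge to the difference of the limits. -/
private theorem lim_sub {J : P.Level} {u v : ℕ → P.ARing} {U V : P.ARing}
    (hu : P.Lim L.φ (fun n => (L.ch n).levelAct J.1 (u n)) (L.Ψ J U))
    (hv : P.Lim L.φ (fun n => (L.ch n).levelAct J.1 (v n)) (L.Ψ J V)) :
    P.Lim L.φ (fun n => (L.ch n).levelAct J.1 (u n - v n)) (L.Ψ J (U - V)) := by
  simpa only [map_sub] using LiftProblem.Lim.sub L.strictMono hu hv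

/-- The relation of a frame variable at the levels tends to the one of the limit. -/
private theorem lim_frame (J : P.Level) (z : P.FrameVar) : P.Lim L.φ
    (fun n => (L.ch n).levelAct J.1 (P.inclS (MvPowerSeries.X (Sum.inr z)) - P.inclR (L.rz n z)))
    (L.Ψ J (P.inclS (MvPowerSeries.X (Sum.inr z)) - P.inclR (L.Rz z))) :=
  L.lim_sub (L.lim J _) (L.lim_z J z)

/-- The relation of a diamond variable at the levels tends to the one of the limit. -/
private theorem lim_diamond (J : P.Level) (i : Fin P.r) : P.Lim L.φ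
    (fun n => (L.ch n).levelAct J.1 ((1 + P.inclS (MvPowerSeries.X (Sum.inl i))) *
      (1 + P.inclS (MvPowerSeries.X (Sum.inl i))) + 1 -
        P.inclR (L.ru n i) * (1 + P.inclS (MvPowerSeries.X (Sum.inl i)))))
    (L.Ψ J ((1 + P.inclS (MvPowerSeries.X (Sum.inl i))) *
      (1 + P.inclS (MvPowerSeries.X (Sum.inl i))) + 1 -
        P.inclR (L.Ru i) * (1 + P.inclS (MvPowerSeries.X (Sum.inl i))))) :=
  L.lim_sub (L.lim J _) (L.lim_mul (L.lim_u J i) (L.lim J _))

/-- The relation of a frame variable holds at good points. -/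
private theorem frame_sub_eq_zero (n : ℕ) (z : P.FrameVar) (θ) (h : some θ ∈ (D n).goodPts) :
    (L.ch n).val (some θ)
      (P.inclS (MvPowerSeries.X (Sum.inr z)) - P.inclR (L.rz n z)) = 0 := by
  rw [map_sub, sub_eq_zero]; exact (L.frame n z ⟨some θ, h⟩).symm

/-- The projector at `p` kills whatever vanishes at the good points. -/
private theorem coker_p_kills_of_good {x : P.Step} (hp : x.v = P.p) {u : ℕ → P.ARing}
    {U : P.ARing} (hu : P.Lim L.φ (fun n => (L.ch n).levelAct x.next.1 (u n)) (L.Ψ x.next U))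
    (h : ∀ n θ, some θ ∈ (D n).goodPts → (L.ch n).val (some θ) (u n) = 0) :
    (L.α x * L.αInv x - 1) * L.Ψ x.next U = 0 := by
  obtain ⟨J, v, hv, hvJ⟩ := x
  simp only at hp
  subst hp
  exact LiftProblem.Lim.eq_zero L.strictMono
    (LiftProblem.Lim.mul L.strictMono (L.lim_proj ⟨J, P.p, hv, hvJ⟩) hu)
    fun n => (L.ch n).coker_p_kills_good J.2 hv hvJ (h n)

/-- The projector at `p` kills the component. -/
private theorem coker_p_kills (hF : F.IsNormal) (x : P.Step) (hp : x.v = P.p) {f : P.RRing}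
    (hf : f ∈ P.component F (insert x.v x.J.1)) :
    (L.α x * L.αInv x - 1) * L.Ψ x.next (P.inclR (f * P.signProd F x.J.1)) = 0 := by
  obtain ⟨J, v, hv, hvJ⟩ := x
  simp only at hp
  subst hp
  refine LiftProblem.Lim.eq_zero L.strictMono (LiftProblem.Lim.mul L.strictMono
    (L.lim_proj ⟨J, P.p, hv, hvJ⟩)
    (L.lim (LiftProblem.Step.next ⟨J, P.p, hv, hvJ⟩) _)) fun n => ?_
  have h := (L.ch n).levelAct_coker J.2 hv hvJ fun θ hθ =>
    (L.ch n).val_newPts_p_eq_zero hF J.2 hv hvJ hθ hf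
  rwa [(D n).E_p _ J.2 hv hvJ, toSeries_one, mul_one] at h

/-- The projector at `p` from the empty set keeps a unit entry in the limit. -/
private theorem coker_p_ne (x : P.Step) (hp : x.v = P.p) (hJ : x.J.1 = ∅) : ∃ a b,
    IsUnit ((L.α x * L.αInv x - 1 :
      Matrix (Fin (d x.next.1)) (Fin (d x.next.1)) P.SRing) a b) := by
  obtain ⟨J, v, hv, hvJ⟩ := x
  simp only at hp hJ
  subst hp
  obtain ⟨J, hJsub⟩ := J
  simp only at hJ
  subst hJ
  by_contra hne
  push Not at hne
  have hm : ∀ a b, (L.α ⟨⟨∅, hJsub⟩, P.p, hv, hvJ⟩ * L.αInv ⟨⟨∅, hJsub⟩, P.p, hv, hvJ⟩ - 1 :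
      Matrix (Fin (d (insert P.p ∅))) (Fin (d (insert P.p ∅))) P.SRing) a b ∈
        maximalIdeal P.SRing := fun a b => (mem_maximalIdeal _).mpr (hne a b)
  obtain ⟨n, hn⟩ := (eventually_all.mpr fun a : Fin (d (insert P.p ∅)) =>
    eventually_all.mpr fun b : Fin (d (insert P.p ∅)) =>
      L.lim_proj ⟨⟨∅, hJsub⟩, P.p, hv, hvJ⟩ a b 1).exists
  obtain ⟨a, b, hab⟩ := (D (L.φ n)).coker_p hv
  have h1 := hn a b
  rw [pow_one] at h1
  have h2 := add_mem h1 (hm a b)
  rw [sub_add_cancel] at h2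
  have h3 : P.toLevel (L.φ n) (P.liftMat (L.φ n)
      (toSeries P.FrameVar ((D (L.φ n)).α ∅ P.p * (D (L.φ n)).αInv ∅ P.p - 1)) a b) =
      MvPowerSeries.C (((D (L.φ n)).α ∅ P.p * (D (L.φ n)).αInv ∅ P.p - 1 :
        Matrix (Fin (d (insert P.p ∅))) (Fin (d (insert P.p ∅)))
          (TWRing O P.p P.r (L.φ n))) a b) :=
    P.toLevel_liftMat _ _ a b
  have := nontrivial_twRing P (L.φ n)
  have : IsLocalHom (P.toLevel (L.φ n)).toRingHom :=
    IsLocalHom.of_surjective _ (P.toLevel_surjective _)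
  refine (mem_maximalIdeal _).mp h2 (isUnit_of_map_unit (P.toLevel (L.φ n)).toRingHom _ ?_)
  rw [AlgHom.toRingHom_eq_coe, RingHom.coe_coe, h3]
  exact hab.map MvPowerSeries.C

/-- The relation series lies in the augmentation ideal at the top level. -/
private theorem top_mem (hQ : ∀ n, ∀ θ ∈ (D n).topPts,
      MvPolynomial.aeval (fun ℓ : ℕ => ((D n).rep θ (P.frob ℓ)).trace) Q = 0)
    (hp : P.p ∉ P.raise) (a b) : L.Ψ ⟨P.raise, subset_rfl⟩ (P.inclR L.RQ) a b ∈ P.augS := by
  refine LiftProblem.Lim.mem_augS L.strictMono (L.lim_Q _)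
    (fun n => (L.ch n).levelAct_mem_aug subset_rfl fun θ hθ hu => ?_) a b
  have hg : some θ ∈ (D n).goodPts := fun θ' h => by
    obtain rfl := Option.some.inj h
    refine ⟨⟨P.raise, subset_rfl, hθ⟩, fun hl => ?_⟩
    have hm := (Finset.mem_union.mp (P.p_mem_loc_iff.mp hl)).resolve_right hp
    exact (D n).pts_strict _ subset_rfl θ hθ hm
  exact L.relation n θ hg (hQ n θ ⟨by rw [if_neg hp]; exact hθ, hu⟩)

/-- The projector at `p` sends the relation series into the augmentation ideal. -/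
private theorem top_p_mem (hQ : ∀ n, ∀ θ ∈ (D n).topPts,
      MvPolynomial.aeval (fun ℓ : ℕ => ((D n).rep θ (P.frob ℓ)).trace) Q = 0)
    (x : P.Step) (hp : x.v = P.p) (hJ : x.J.1 = P.raise.erase P.p) (a b) :
    ((L.α x * L.αInv x - 1) * L.Ψ x.next (P.inclR L.RQ) :
      Matrix (Fin (d x.next.1)) (Fin (d x.next.1)) P.SRing) a b ∈ P.augS := by
  obtain ⟨J, v, hv, hvJ⟩ := x
  simp only at hp hJ
  subst hp
  refine LiftProblem.Lim.mem_augS L.strictMono (LiftProblem.Lim.mul L.strictMono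
    (L.lim_proj ⟨J, P.p, hv, hvJ⟩) (L.lim_Q (LiftProblem.Step.next ⟨J, P.p, hv, hvJ⟩)))
    (fun n a b => ?_) a b
  have h := (L.ch n).levelAct_coker_zero J.2 hv hvJ (a := P.inclR (L.rQ n))
    (fun θ hθ hu => L.relation n θ (good_of_newPts_p J.2 hv hvJ hθ)
      (hQ n θ ⟨by rw [if_pos hv]; exact hJ ▸ hθ, hu⟩)) a b
  simpa [(D n).E_p _ J.2 hv hvJ, toSeries] using h

/-- The special series kills the levels without `p`. -/
private theorem flat_kills (hp : P.p ∈ P.raise) (J : P.Level) (hpJ : P.p ∉ J.1) :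
    L.Ψ J (P.hElem F L.e) = 0 := by
  refine LiftProblem.Lim.eq_zero L.strictMono (L.lim_h J) fun n =>
    (L.ch n).levelAct_eq_zero J.2 fun θ hθ => ?_
  refine (L.ch n).val_hLevel_eq_zero (L.flat n) hp ⟨J.1, J.2, hθ⟩
    ((D n).pts_flat J.1 J.2 θ hθ ?_)
  intro h
  rcases Finset.mem_union.mp h with h | h
  exacts [Finset.disjoint_left.mp P.disjoint_raise h hp, hpJ h]

end PatchLimit

end Limit

theorem exists_patched (P : LiftProblem O) (F : Frames P) (hF : F.IsNormal) (d : Finset ℕ → ℕ)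
    (D : ∀ n, LevelDatum P d n) (Q : MvPolynomial ℕ ℤ)
    (hQ : ∀ n, ∀ θ ∈ (D n).topPts,
      MvPolynomial.aeval (fun ℓ : ℕ => ((D n).rep θ (P.frob ℓ)).trace) Q = 0) :
    Nonempty (Patched P F d Q) := by
  obtain ⟨L⟩ := nonempty_patchLimit D F Q
  have hφ := L.strictMono
  refine ⟨{
    Ψ := L.Ψ, e := L.e, α := L.α, αInv := L.αInv, β := L.β, βInv := L.βInv, E := L.E
    Ψ_inclS := fun J s => ?_
    rz := L.Rz, rz_zero := L.Rz_zero, ru := L.Ru, ru_two := L.Ru_two
    rQ := L.RQ, rQ_val := L.RQ_val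
    αInv_mul := fun x => ?_
    β_mul := fun x hp => ?_
    α_comm := fun x a => ?_
    β_comm := fun x hp a => ?_
    E_comm := fun x a => ?_
    E_p := fun x hp => ?_
    β_α := fun x h => ?_
    β_E := fun x h => ?_
    component_kills := fun J f hf => LiftProblem.Lim.eq_zero hφ
      (L.lim_mul (L.lim_h J) (L.lim J _)) fun n => (L.ch n).levelAct_eq_zero J.2 fun θ hθ =>
        (L.ch n).val_pts_eq_zero hF (L.flat n) J.2 hθ hf
    coker_kills := fun x f hf => LiftProblem.Lim.eq_zero hφ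
      (LiftProblem.Lim.mul hφ (LiftProblem.Lim.mul hφ (L.lim_proj x)
        (L.lim_mul (L.lim_h x.next) (L.lim x.next _))) (L.lim_E x))
      fun n => (L.ch n).levelAct_coker x.J.2 x.mem x.notMem fun θ hθ =>
        (L.ch n).val_newPts_eq_zero hF (L.flat n) x.J.2 x.mem x.notMem hθ hf
    coker_p_kills := fun x hp f hf => L.coker_p_kills hF x hp hf
    rel_frame := fun J z => LiftProblem.Lim.eq_zero hφ (L.lim_mul (L.lim_h J) (L.lim_frame J z))
      fun n => (L.ch n).hLevel_kills J.2 (L.flat n) (L.frame_sub_eq_zero n z)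
    rel_diamond := fun J i => LiftProblem.Lim.eq_zero hφ
      (L.lim_mul (L.lim_h J) (L.lim_diamond J i))
      fun n => (L.ch n).hLevel_kills J.2 (L.flat n) fun θ hg => L.diamond n i ⟨some θ, hg⟩
    rel_frame_p := fun x hp z =>
      L.coker_p_kills_of_good hp (L.lim_frame x.next z) fun n => L.frame_sub_eq_zero n z
    rel_diamond_p := fun x hp i => L.coker_p_kills_of_good hp (L.lim_diamond x.next i)
      fun n θ hg => L.diamond n i ⟨some θ, hg⟩
    flat_kills := L.flat_kills
    coker_p_ne := L.coker_p_ne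
    top := L.top_mem hQ
    top_p := L.top_p_mem hQ }⟩
  · refine LiftProblem.Lim.unique (L.lim J (P.inclS s))
      ((LiftProblem.Lim.const hφ _).congr' fun n => ?_)
    rw [(L.ch n).levelAct_inclS J.2]
    ext a b : 1
    simp only [Matrix.scalar_apply, Matrix.map_apply, LiftProblem.redMat, Matrix.diagonal_apply]
    split_ifs <;> simp
  · refine LiftProblem.Lim.unique ((LiftProblem.Lim.mul hφ (L.lim_αInv x) (L.lim_α x)).congr'
      fun n => ?_) (LiftProblem.Lim.one hφ)
    rw [← toSeries_mul, (D n).αInv_mul _ x.J.2 _ x.mem x.notMem, toSeries_one]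
  · refine LiftProblem.Lim.unique ((LiftProblem.Lim.mul hφ (L.lim_β x) (L.lim_βInv x)).congr'
      fun n => ?_) (LiftProblem.Lim.one hφ)
    rw [← toSeries_mul, (D n).β_mul _ x.J.2 _ x.mem x.notMem hp, toSeries_one]
  · exact LiftProblem.Lim.unique ((LiftProblem.Lim.mul hφ (L.lim x.next a) (L.lim_α x)).congr'
        fun n => (L.ch n).levelAct_α x.J.2 x.mem x.notMem a)
      (LiftProblem.Lim.mul hφ (L.lim_α x) (LiftProblem.Lim.blockPair hφ (L.lim x.J a)))
  · exact LiftProblem.Lim.unique ((LiftProblem.Lim.mul hφ (L.lim_β x) (L.lim x.next a)).congr'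
        fun n => (L.ch n).levelAct_β x.J.2 x.mem x.notMem hp a)
      (LiftProblem.Lim.mul hφ (LiftProblem.Lim.blockPair hφ (L.lim x.J a)) (L.lim_β x))
  · exact LiftProblem.Lim.unique ((LiftProblem.Lim.mul hφ (L.lim_E x) (L.lim x.next a)).congr'
        fun n => (L.ch n).levelAct_E x.J.2 x.mem x.notMem a)
      (LiftProblem.Lim.mul hφ (L.lim x.next a) (L.lim_E x))
  · obtain ⟨J, v, hv, hvJ⟩ := x
    simp only at hp
    subst hp
    refine LiftProblem.Lim.unique ((L.lim_E _).congr' fun n => ?_) (LiftProblem.Lim.one hφ)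
    rw [(D n).E_p _ J.2 hv hvJ, toSeries_one]
  · exact LiftProblem.Lim.unique ((LiftProblem.Lim.mul hφ (L.lim_β x) (L.lim_α x)).congr'
        fun n => (L.ch n).levelAct_β_α x.J.2 ⟨x.v, h⟩ x.mem x.notMem)
      (LiftProblem.Lim.frobBlock hφ x.v (L.lim x.J _))
  · exact LiftProblem.Lim.unique ((LiftProblem.Lim.mul hφ (L.lim_β x) (L.lim_E x)).congr'
        fun n => (L.ch n).levelAct_β_E x.J.2 ⟨x.v, h⟩ x.mem x.notMem)
      (LiftProblem.Lim.mul hφ (LiftProblem.Lim.signBlock hφ x.v (P.ε x.v) (L.lim x.J _))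
        (L.lim_β x))

end FLTAgent.ModularityLifting
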