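import Fermat.Agent.ModularityLifting.Engine.TraceRing

/-!
# The algebra of traces and diamond values on the points and the problem

It is a complete local ring, finite over the coefficients, mapping to the algebra of the points of
a level and receiving the trace ring of all points.
-/

set_option autoImplicit false

noncomputable section

open IsLocalRing

namespace FLTAgent.ModularityLifting

open FLTAgent.DefRing

variable {O : Type} [CommRing O] [IsDomain O] [IsDiscreteValuationRing O]

namespace LevelDatum

variable {P : LiftProblem O} {d : Finset ℕ → ℕ} {n : ℕ} (D : LevelDatum P d n)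

/-- The algebra of traces and diamond values on all points and the problem. -/
abbrev PointAlg : Subalgebra O (D.XPt → D.Coeff) := traceAlg O D.xrep D.xu

/-- The value at a point. -/
def evX (x : D.XPt) : D.PointAlg →ₐ[O] D.Coeff :=
  (Pi.evalAlgHom O (fun _ : D.XPt => D.Coeff) x).comp D.PointAlg.val

theorem ext_evX {s t : D.PointAlg} (h : ∀ x, D.evX x s = D.evX x t) : s = t :=
  Subtype.ext (funext h)

theorem evX_trElem (x : D.XPt) (σ : AbsGal) :
    D.evX x (trElem O D.xrep D.xu σ) = (D.xrep x σ).trace := rfl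

theorem evX_uElem (x : D.XPt) (i : Fin P.r) : D.evX x (uElem O D.xrep D.xu i) = D.xu x i := rfl

theorem xu_sub_one_mem (x : D.XPt) (i : Fin P.r) : D.xu x i - 1 ∈ maximalIdeal D.Coeff := by
  cases x with
  | none => simp [xu]
  | some θ => exact D.u_mem θ i

/-- An induction principle. -/
theorem induction_pointAlg {motive : D.PointAlg → Prop}
    (tr : ∀ σ, motive (trElem O D.xrep D.xu σ)) (u : ∀ i, motive (uElem O D.xrep D.xu i))
    (const : ∀ o, motive (algebraMap O D.PointAlg o))
    (add : ∀ a b, motive a → motive b → motive (a + b))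
    (mul : ∀ a b, motive a → motive b → motive (a * b)) (t : D.PointAlg) : motive t := by
  obtain ⟨t, ht⟩ := t
  induction ht using Algebra.adjoin_induction with
  | mem a ha =>
    rcases ha with ⟨σ, rfl⟩ | ⟨i, rfl⟩
    exacts [tr σ, u i]
  | algebraMap o => exact const o
  | add a b ha hb ha' hb' => exact add ⟨a, ha⟩ ⟨b, hb⟩ ha' hb'
  | mul a b ha hb ha' hb' => exact mul ⟨a, ha⟩ ⟨b, hb⟩ ha' hb'

/-- Every element is congruent to a constant. -/
theorem exists_const_sub_mem_pointAlg (t : D.PointAlg) :
    ∃ o : O, ∀ x, D.evX x t - algebraMap O D.Coeff o ∈ maximalIdeal D.Coeff :=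
  exists_const_sub_mem_of_mem_adjoin (by
    rintro _ (⟨σ, rfl⟩ | ⟨i, rfl⟩)
    · exact ⟨_, fun x => D.xrep_trace_sub_mem x σ⟩
    · exact ⟨1, fun x => by rw [map_one]; exact D.xu_sub_one_mem x i⟩) t.2

theorem evX_sub_evX_mem (x y : D.XPt) (t : D.PointAlg) :
    D.evX x t - D.evX y t ∈ maximalIdeal D.Coeff := by
  obtain ⟨o, ho⟩ := D.exists_const_sub_mem_pointAlg t
  simpa using sub_mem (ho x) (ho y)

instance finite_pointAlg : Module.Finite O D.PointAlg :=
  Module.Finite.iff_fg.mpr (IsNoetherian.noetherian (Subalgebra.toSubmodule D.PointAlg))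

instance isNoetherian_pointAlg : IsNoetherianRing D.PointAlg := IsNoetherianRing.of_finite O _

/-- An element which is a unit at one point is a unit. -/
theorem isUnit_of_isUnit_evX (x₀ : D.XPt) {t : D.PointAlg} (h : IsUnit (D.evX x₀ t)) :
    IsUnit t :=
  isUnit_of_isUnit_apply (fun t x y => D.evX_sub_evX_mem x y t) x₀ h

instance isLocalRing_pointAlg : IsLocalRing D.PointAlg := by
  have : Nontrivial D.PointAlg := ⟨⟨0, 1, fun h => zero_ne_one (α := D.Coeff) (by
    simpa using congrArg (D.evX none) h)⟩⟩
  refine IsLocalRing.of_nonunits_add fun a b ha hb hab => ?_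
  have h : ∀ {t : D.PointAlg}, t ∈ nonunits D.PointAlg → D.evX none t ∈ nonunits D.Coeff :=
    fun {t} ht hu => ht (D.isUnit_of_isUnit_evX _ hu)
  have h' := hab.map (D.evX none)
  rw [map_add] at h'
  exact IsLocalRing.nonunits_add (h ha) (h hb) h'

theorem mem_maximalIdeal_pointAlg_iff (x : D.XPt) (t : D.PointAlg) :
    t ∈ maximalIdeal D.PointAlg ↔ D.evX x t ∈ maximalIdeal D.Coeff := by
  simp only [IsLocalRing.mem_maximalIdeal, mem_nonunits_iff]
  exact not_congr ⟨fun h => h.map _, D.isUnit_of_isUnit_evX x⟩

instance isLocalHom_algebraMap_pointAlg : IsLocalHom (algebraMap O D.PointAlg) :=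
  ⟨fun o ho => by
    have := ho.map (D.evX none)
    rw [AlgHom.commutes] at this
    exact (isUnit_map_iff (algebraMap O D.Coeff) o).mp this⟩

instance isAdicComplete_pointAlg [IsAdicComplete (maximalIdeal O) O] :
    IsAdicComplete (maximalIdeal D.PointAlg) D.PointAlg :=
  IsLocalRing.isAdicComplete_of_module_finite (𝒪 := O)

/-- A function in the algebra, restricted to the points, is in the algebra of the points. -/
theorem restrict_pts_mem (t : D.PointAlg) :
    (fun θ : D.Pt => D.evX (some θ) t) ∈ traceAlg O D.rep D.u := by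
  induction t using D.induction_pointAlg with
  | tr σ => exact Algebra.subset_adjoin (Or.inl ⟨σ, rfl⟩)
  | u i => exact Algebra.subset_adjoin (Or.inr ⟨i, rfl⟩)
  | const o =>
    simp only [AlgHom.commutes]
    exact (traceAlg O D.rep D.u).algebraMap_mem o
  | add a b ha hb => (simp only [map_add]; exact add_mem ha hb)
  | mul a b ha hb => (simp only [map_mul]; exact mul_mem ha hb)

/-- Restriction to the points. -/
def toPts : D.PointAlg →ₐ[O] traceAlg O D.rep D.u where
  toFun t := ⟨_, D.restrict_pts_mem t⟩
  map_one' := rfl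
  map_mul' _ _ := rfl
  map_zero' := rfl
  map_add' _ _ := rfl
  commutes' _ := rfl

theorem toPts_apply (t : D.PointAlg) (θ : D.Pt) :
    (D.toPts t : D.Pt → D.Coeff) θ = D.evX (some θ) t := rfl

theorem toPts_trElem (σ : AbsGal) :
    D.toPts (trElem O D.xrep D.xu σ) = trElem O D.rep D.u σ := rfl

theorem toPts_uElem (i : Fin P.r) : D.toPts (uElem O D.xrep D.xu i) = uElem O D.rep D.u i := rfl

theorem toPointAlg_mem (t : D.traceRing Set.univ) :
    (fun x : D.XPt => D.evalPt Set.univ ⟨x, trivial⟩ t) ∈ D.PointAlg := by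
  induction t using D.induction_traceRing with
  | tr σ => exact Algebra.subset_adjoin (Or.inl ⟨σ, rfl⟩)
  | const o =>
    simp only [AlgHom.commutes]
    exact D.PointAlg.algebraMap_mem o
  | add a b ha hb => (simp only [map_add]; exact add_mem ha hb)
  | mul a b ha hb => (simp only [map_mul]; exact mul_mem ha hb)

/-- The trace ring of all points inside the algebra. -/
def toPointAlg : D.traceRing Set.univ →ₐ[O] D.PointAlg where
  toFun t := ⟨_, D.toPointAlg_mem t⟩
  map_one' := rfl
  map_mul' _ _ := rfl
  map_zero' := rfl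
  map_add' _ _ := rfl
  commutes' _ := rfl

theorem evX_toPointAlg (x : D.XPt) (t : D.traceRing Set.univ) :
    D.evX x (D.toPointAlg t) = D.evalPt Set.univ ⟨x, trivial⟩ t := rfl

/-- Restriction of trace rings is surjective. -/
theorem restrict_surjective {E E' : Set D.XPt} (h : E ⊆ E') :
    Function.Surjective (D.restrict h) := by
  intro t
  induction t using D.induction_traceRing with
  | tr σ => exact ⟨D.trPt E' σ, rfl⟩
  | const o => exact ⟨algebraMap O _ o, AlgHom.commutes _ o⟩
  | add a b ha hb =>
    obtain ⟨a, rfl⟩ := ha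
    obtain ⟨b, rfl⟩ := hb
    exact ⟨a + b, map_add _ a b⟩
  | mul a b ha hb =>
    obtain ⟨a, rfl⟩ := ha
    obtain ⟨b, rfl⟩ := hb
    exact ⟨a * b, map_mul _ a b⟩

end LevelDatum

end FLTAgent.ModularityLifting
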