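import Fermat.Agent.ModularityLifting.Engine.Interface
import Fermat.Agent.ModularityLifting.Local.Cone
import Mathlib.LinearAlgebra.Matrix.GeneralLinearGroup.Defs
import Mathlib.LinearAlgebra.Matrix.NonsingularInverse

/-!
# Points, trace rings and framed coordinates at a level

The representation of the problem is adjoined to the points of a level. For a set `E` of points the
trace ring is generated by the traces; framed coordinates are entries, in fixed local frames moved
by variables, of representations in normal form.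
-/

set_option autoImplicit false

noncomputable section

open IsLocalRing

namespace FLTAgent.ModularityLifting

open FLTAgent.DefRing

local notation "Qbar" => AlgebraicClosure ℚ

variable {O : Type} [CommRing O] [IsDomain O] [IsDiscreteValuationRing O]

/-- Local frames of a problem: a change of basis and a tame inertia element at each prime. -/
structure Frames (P : LiftProblem O) where
  g : ℕ → GL (Fin 2) O
  τ : ℕ → AbsGal
  τ_mem : ∀ v ∈ P.loc, v ≠ P.p → τ v ∈ (P.place v).inertiaSubgroupIn ℚ
  τ_root : ∀ v ∈ P.loc, v ≠ P.p → ∃ x : Qbar, x ^ P.p = (v : Qbar) ∧ τ v x ≠ x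
  frob_unit : ∀ v ∈ P.loc, v ≠ P.p → IsUnit
    (((g v : Matrix (Fin 2) (Fin 2) O) * P.ρ (P.frob v) * ((g v)⁻¹ : GL (Fin 2) O)) 0 0)
  upper_frob : ∀ v ∈ P.minimal ∪ P.raise, v ≠ P.p →
    ((g v : Matrix (Fin 2) (Fin 2) O) * P.ρ (P.frob v) * ((g v)⁻¹ : GL (Fin 2) O)) 1 0 = 0
  upper_τ : ∀ v ∈ P.minimal ∪ P.raise, v ≠ P.p →
    ((g v : Matrix (Fin 2) (Fin 2) O) * P.ρ (τ v) * ((g v)⁻¹ : GL (Fin 2) O)) 1 0 = 0
  upper_p : P.p ∈ P.minimal ∪ P.raise → ∀ σ ∈ (P.place P.p).decompositionSubgroup ℚ,
    ((g P.p : Matrix (Fin 2) (Fin 2) O) * P.ρ σ * ((g P.p)⁻¹ : GL (Fin 2) O)) 1 0 = 0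

namespace LiftProblem

variable (P : LiftProblem O)

/-- The primes with tame coordinates. -/
def tameLoc : Finset ℕ := P.loc.erase P.p

/-- A prime at which the global scalar of the framings is fixed. -/
def pivot : ℕ := P.loc.min' P.loc_nonempty

/-- The local coordinates: seven at each tame prime, twelve at `p` when it is a local prime. -/
abbrev LocCoord : Type :=
  (Σ _ : P.tameLoc, Chart.TameCoord) ⊕ ({_x : Fin 3 × Fin 2 × Fin 2 // P.p ∈ P.loc})

/-- The framing variables. -/
abbrev FrameVar : Type :=
  {x : P.loc × Fin 2 × Fin 2 // ¬ ((x.1 : ℕ) = P.pivot ∧ x.2 = (0, 0))}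

/-- The number of global coordinates. -/
def globalCount : ℕ := P.r + P.loc.card - 1 - (if P.p ∈ P.loc then 1 else 0)

/-- The prime of a coordinate. -/
def coordPrime : P.LocCoord → ℕ
  | .inl x => x.1
  | .inr _ => P.p

/-- The Galois element of a coordinate. -/
def coordElem (F : Frames P) : P.LocCoord → AbsGal
  | .inl x => if x.2.pos.1 = 0 then P.frob x.1 else F.τ x.1
  | .inr x => P.pElem x.1.1

/-- The position of a coordinate in its matrix. -/
def coordPos : P.LocCoord → Fin 2 × Fin 2
  | .inl x => x.2.pos.2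
  | .inr x => x.1.2

/-- The frame variable matrix at a prime. -/
def frameMatrix (T : Type) [CommRing T] (v : ℕ) :
    Matrix (Fin 2) (Fin 2) (MvPowerSeries P.FrameVar T) :=
  Matrix.of fun i j =>
    if h : v ∈ P.loc ∧ ¬ (v = P.pivot ∧ (i, j) = (0, 0)) then
      MvPowerSeries.X ⟨(⟨v, h.1⟩, i, j), h.2⟩
    else 0

/-- A matrix moved into the local frame at `v` and by its frame variables. -/
def framed (F : Frames P) {T : Type} [CommRing T] [Algebra O T] (v : ℕ)
    (M : Matrix (Fin 2) (Fin 2) T) : Matrix (Fin 2) (Fin 2) (MvPowerSeries P.FrameVar T) :=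
  (1 + P.frameMatrix T v) *
    (((F.g v : Matrix (Fin 2) (Fin 2) O).map (algebraMap O T) * M *
      (((F.g v)⁻¹ : GL (Fin 2) O) : Matrix (Fin 2) (Fin 2) O).map (algebraMap O T)).map
        MvPowerSeries.C) *
    (1 + P.frameMatrix T v)⁻¹

/-- A local coordinate of a representation, centred at the representation of the problem. -/
def coord (F : Frames P) {T : Type} [CommRing T] [Algebra O T] (M : MatRep T) (c : P.LocCoord) :
    MvPowerSeries P.FrameVar T :=
  P.framed F (P.coordPrime c) (M (P.coordElem F c)) (P.coordPos c).1 (P.coordPos c).2 -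
    MvPowerSeries.C (algebraMap O T
      (((F.g (P.coordPrime c) : Matrix (Fin 2) (Fin 2) O) * P.ρ (P.coordElem F c) *
        ((F.g (P.coordPrime c))⁻¹ : GL (Fin 2) O)) (P.coordPos c).1 (P.coordPos c).2))

end LiftProblem

namespace LevelDatum

variable {P : LiftProblem O} {d : Finset ℕ → ℕ} {n : ℕ} (D : LevelDatum P d n)

/-- The points together with the representation of the problem. -/
abbrev XPt : Type := Option D.Pt

/-- The representations at the points. -/
def xrep : D.XPt → MatRep D.Coeff
  | none => mapRep (algebraMap O D.Coeff) P.ρ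
  | some θ => D.rep θ

/-- The diamond values at the points. -/
def xu : D.XPt → Fin P.r → D.Coeff
  | none => 1
  | some θ => D.u θ

/-- The points of some level. -/
def allPts : Set D.Pt := {θ | ∃ J ⊆ P.raise, θ ∈ D.pts J}

/-- The points at which a trace ring is used: those strict at `p` when `p` is a local prime, and
the representation of the problem. -/
def goodPts : Set D.XPt :=
  {x | ∀ θ, x = some θ → θ ∈ D.allPts ∧
    (P.p ∈ P.loc → StrictAt (D.rep θ) P.p (algebraMap O D.Coeff (P.ε P.p)))}

theorem none_mem_goodPts : (none : D.XPt) ∈ D.goodPts := fun _ h => by cases h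

/-- The algebra generated by traces on a set of points. -/
def traceRing (E : Set D.XPt) : Subalgebra O (E → D.Coeff) :=
  Algebra.adjoin O (Set.range fun σ : AbsGal => fun x : E => (D.xrep x σ).trace)

/-- The value of an element of a trace ring at a point. -/
def evalPt (E : Set D.XPt) (x : E) : D.traceRing E →ₐ[O] D.Coeff :=
  (Pi.evalAlgHom O (fun _ : E => D.Coeff) x).comp (D.traceRing E).val

theorem restrict_mem {E E' : Set D.XPt} (h : E ⊆ E') (t : D.traceRing E') :
    (fun x : E => (t : E' → D.Coeff) ⟨x, h x.2⟩) ∈ D.traceRing E := by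
  obtain ⟨t, ht⟩ := t
  induction ht using Algebra.adjoin_induction with
  | mem t ht =>
    obtain ⟨σ, rfl⟩ := ht
    exact Algebra.subset_adjoin ⟨σ, rfl⟩
  | algebraMap c => exact (D.traceRing E).algebraMap_mem c
  | add a b _ _ ha hb => exact add_mem ha hb
  | mul a b _ _ ha hb => exact mul_mem ha hb

/-- Restriction of trace rings to fewer points. -/
def restrict {E E' : Set D.XPt} (h : E ⊆ E') : D.traceRing E' →ₐ[O] D.traceRing E where
  toFun t := ⟨_, D.restrict_mem h t⟩
  map_one' := rfl
  map_mul' _ _ := rfl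
  map_zero' := rfl
  map_add' _ _ := rfl
  commutes' _ := rfl

end LevelDatum

end FLTAgent.ModularityLifting
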