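import Fermat.Agent.ModularityLifting.Patching.Compactness
import Fermat.Agent.DefRing.PowerSeries
import Mathlib.Data.Finsupp.Basic
import Mathlib.Data.Matrix.Mul
import Mathlib.RingTheory.Ideal.Operations

/-!
# Series in two sets of variables and series of matrices

`curry` regards a series in `Y ⊕ Z` as a series in `Z` over series in `Y`, `modLevel` reduces the
inner coefficients modulo an ideal (for instance the diamond relations of a level), and
`seriesMatrix` turns a series of matrices into a matrix of series.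
-/

set_option autoImplicit false

noncomputable section

open IsLocalRing Filter

namespace FLTAgent.ModularityLifting.Engine

variable {O : Type} [CommRing O] {Y Z : Type}

/-- An exponent in two sets of variables. -/
def sumExp (f : Y →₀ ℕ) (e : Z →₀ ℕ) : (Y ⊕ Z) →₀ ℕ :=
  Finsupp.sumFinsuppAddEquivProdFinsupp.symm (f, e)

theorem sumExp_add (f f' : Y →₀ ℕ) (e e' : Z →₀ ℕ) :
    sumExp (f + f') (e + e') = sumExp f e + sumExp f' e' := by
  rw [sumExp, ← Prod.mk_add_mk, map_add]
  rfl

theorem sumExp_fst_snd (x : (Y ⊕ Z) →₀ ℕ) :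
    sumExp (Finsupp.sumFinsuppAddEquivProdFinsupp x).1
      (Finsupp.sumFinsuppAddEquivProdFinsupp x).2 = x :=
  Finsupp.sumFinsuppAddEquivProdFinsupp.symm_apply_apply x

theorem sumExp_eq_zero {f : Y →₀ ℕ} {e : Z →₀ ℕ} (h : sumExp f e = 0) : f = 0 ∧ e = 0 := by
  have := congrArg Finsupp.sumFinsuppAddEquivProdFinsupp h
  rw [sumExp, AddEquiv.apply_symm_apply, map_zero] at this
  exact Prod.mk_eq_zero.mp this

theorem sumExp_zero : sumExp (0 : Y →₀ ℕ) (0 : Z →₀ ℕ) = 0 := by
  rw [sumExp, Prod.mk_zero_zero, map_zero]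

/-- The underlying map of `curry`. -/
def curryFun (p : MvPowerSeries (Y ⊕ Z) O) : MvPowerSeries Z (MvPowerSeries Y O) :=
  fun e => (fun f => MvPowerSeries.coeff (sumExp f e) p : MvPowerSeries Y O)

theorem coeff_curryFun (p : MvPowerSeries (Y ⊕ Z) O) (e : Z →₀ ℕ) (f : Y →₀ ℕ) :
    MvPowerSeries.coeff f (MvPowerSeries.coeff e (curryFun p)) =
      MvPowerSeries.coeff (sumExp f e) p := rfl

theorem curryFun_C (c : O) : curryFun (MvPowerSeries.C c : MvPowerSeries (Y ⊕ Z) O) =
    MvPowerSeries.C (MvPowerSeries.C c) := by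
  classical
  ext e f
  rw [coeff_curryFun, MvPowerSeries.coeff_C, MvPowerSeries.coeff_C]
  by_cases he : e = 0
  · subst he
    rw [if_pos rfl, MvPowerSeries.coeff_C]
    by_cases hf : f = 0
    · rw [hf, sumExp_zero, if_pos rfl, if_pos rfl]
    · rw [if_neg hf, if_neg fun h => hf (sumExp_eq_zero h).1]
  · rw [if_neg he, map_zero, if_neg fun h => he (sumExp_eq_zero h).2]

/-- Series in two sets of variables as series of series. -/
def curry : MvPowerSeries (Y ⊕ Z) O →ₐ[O] MvPowerSeries Z (MvPowerSeries Y O) where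
  toFun := curryFun
  map_zero' := by ext e f; simp [coeff_curryFun]
  map_add' p q := by ext e f; simp [coeff_curryFun]
  map_one' := by simpa using curryFun_C (Y := Y) (Z := Z) (1 : O)
  map_mul' p q := by
    classical
    ext e f
    rw [coeff_curryFun, MvPowerSeries.coeff_mul, MvPowerSeries.coeff_mul, map_sum]
    simp only [MvPowerSeries.coeff_mul, coeff_curryFun]
    rw [← Finset.sum_product']
    let S := Finsupp.sumFinsuppAddEquivProdFinsupp (M := ℕ) (α := Y) (β := Z)
    refine Finset.sum_nbij'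
      (fun x => (((S x.1).2, (S x.2).2), ((S x.1).1, (S x.2).1)))
      (fun x => (sumExp x.2.1 x.1.1, sumExp x.2.2 x.1.2)) ?_ ?_ ?_ ?_ ?_
    · rintro ⟨a, b⟩ h
      rw [Finset.HasAntidiagonal.mem_antidiagonal] at h
      have := congrArg S h
      rw [map_add, show S (sumExp f e) = (f, e) from S.apply_symm_apply (f, e)] at this
      simp only [Finset.mem_product, Finset.HasAntidiagonal.mem_antidiagonal]
      exact ⟨congrArg Prod.snd this, congrArg Prod.fst this⟩
    · rintro ⟨⟨e₁, e₂⟩, ⟨f₁, f₂⟩⟩ h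
      simp only [Finset.mem_product, Finset.HasAntidiagonal.mem_antidiagonal] at h
      rw [Finset.HasAntidiagonal.mem_antidiagonal, ← sumExp_add, h.1, h.2]
    · rintro ⟨a, b⟩ _
      exact Prod.ext (sumExp_fst_snd a) (sumExp_fst_snd b)
    · rintro ⟨⟨e₁, e₂⟩, ⟨f₁, f₂⟩⟩ _
      simp [S, sumExp]
    · rintro ⟨a, b⟩ _
      simp only [S, sumExp_fst_snd]
  commutes' c := by
    rw [MvPowerSeries.algebraMap_apply, MvPowerSeries.algebraMap_apply,
      MvPowerSeries.algebraMap_apply, Algebra.algebraMap_self, RingHom.id_apply]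
    exact curryFun_C c

theorem coeff_curry (p : MvPowerSeries (Y ⊕ Z) O) (e : Z →₀ ℕ) (f : Y →₀ ℕ) :
    MvPowerSeries.coeff f (MvPowerSeries.coeff e (curry p)) =
      MvPowerSeries.coeff (sumExp f e) p := rfl

theorem curry_surjective : Function.Surjective (curry (O := O) (Y := Y) (Z := Z)) := by
  intro q
  let p : MvPowerSeries (Y ⊕ Z) O := fun x =>
    q (Finsupp.sumFinsuppAddEquivProdFinsupp x).2 (Finsupp.sumFinsuppAddEquivProdFinsupp x).1
  refine ⟨p, ?_⟩
  ext e f
  rw [coeff_curry, MvPowerSeries.coeff_apply]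
  show q _ _ = _
  rw [sumExp, AddEquiv.apply_symm_apply]
  rfl

theorem curry_X_inl (y : Y) :
    curry (MvPowerSeries.X (Sum.inl y) : MvPowerSeries (Y ⊕ Z) O) =
      MvPowerSeries.C (MvPowerSeries.X y) := by
  classical
  ext e f
  rw [coeff_curry, MvPowerSeries.coeff_X, MvPowerSeries.coeff_C]
  have h1 : Finsupp.single (Sum.inl y : Y ⊕ Z) 1 = sumExp (Finsupp.single y 1) 0 := by
    rw [eq_comm, sumExp, AddEquiv.symm_apply_eq]
    ext x <;> simp
  by_cases he : e = 0
  · subst he
    rw [if_pos rfl, MvPowerSeries.coeff_X]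
    refine if_congr ⟨fun h => ?_, fun h => by rw [h, h1]⟩ rfl rfl
    rw [h1, sumExp, sumExp, EmbeddingLike.apply_eq_iff_eq] at h
    exact congrArg Prod.fst h
  · rw [if_neg he, map_zero, if_neg]
    intro h
    rw [h1, sumExp, sumExp, EmbeddingLike.apply_eq_iff_eq] at h
    exact he (congrArg Prod.snd h)

theorem curry_X_inr (z : Z) :
    curry (MvPowerSeries.X (Sum.inr z) : MvPowerSeries (Y ⊕ Z) O) = MvPowerSeries.X z := by
  classical
  ext e f
  rw [coeff_curry, MvPowerSeries.coeff_X, MvPowerSeries.coeff_X]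
  have h1 : Finsupp.single (Sum.inr z : Y ⊕ Z) 1 = sumExp 0 (Finsupp.single z 1) := by
    rw [eq_comm, sumExp, AddEquiv.symm_apply_eq]
    ext x <;> simp
  by_cases he : e = Finsupp.single z 1
  · rw [if_pos he, MvPowerSeries.coeff_one]
    refine if_congr ⟨fun h => ?_, fun h => by rw [h, he, h1]⟩ rfl rfl
    rw [h1, sumExp, sumExp, EmbeddingLike.apply_eq_iff_eq] at h
    exact congrArg Prod.fst h
  · rw [if_neg he, map_zero, if_neg]
    intro h
    rw [h1, sumExp, sumExp, EmbeddingLike.apply_eq_iff_eq] at h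
    exact he (congrArg Prod.snd h)

section Levels

variable [IsLocalRing O] [Finite Y] [Finite Z]

/-- Series in two sets of variables modulo a family of ideals in the first set. -/
def modLevel (I : Ideal (MvPowerSeries Y O)) :
    MvPowerSeries (Y ⊕ Z) O →ₐ[O] MvPowerSeries Z (MvPowerSeries Y O ⧸ I) :=
  (MvPowerSeries.mapAlgHom (σ := Z) (Ideal.Quotient.mkₐ O I)).comp curry

omit [IsLocalRing O] [Finite Y] [Finite Z] in
theorem modLevel_surjective (I : Ideal (MvPowerSeries Y O)) :
    Function.Surjective (modLevel (Z := Z) I) := by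
  intro q
  let r : MvPowerSeries Z (MvPowerSeries Y O) := fun e => Quotient.out (q e)
  obtain ⟨p, hp⟩ := curry_surjective r
  refine ⟨p, ?_⟩
  ext e
  show Ideal.Quotient.mk I (MvPowerSeries.coeff e (curry p)) = _
  rw [hp, MvPowerSeries.coeff_apply, MvPowerSeries.coeff_apply]
  exact Quotient.out_eq (q e)

/-- If the ideals tend to zero, so do the kernels of reduction modulo them. -/
theorem idealTendsZero_ker (I : ℕ → Ideal (MvPowerSeries Y O))
    (hI : Patching.IdealTendsZero (maximalIdeal (MvPowerSeries Y O)) I) :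
    Patching.IdealTendsZero (maximalIdeal (MvPowerSeries (Y ⊕ Z) O))
      (fun n => RingHom.ker (modLevel (Z := Z) (I n))) := by
  intro k
  filter_upwards [hI k] with n hn p hp
  rw [DefRing.mem_maximalIdeal_pow_iff]
  intro x
  have h1 : MvPowerSeries.coeff (Finsupp.sumFinsuppAddEquivProdFinsupp x).2 (curry p) ∈ I n := by
    rw [← Ideal.Quotient.eq_zero_iff_mem]
    have := congrArg (MvPowerSeries.coeff (Finsupp.sumFinsuppAddEquivProdFinsupp x).2)
      (RingHom.mem_ker.mp hp)
    rwa [map_zero] at this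
  have h2 := (DefRing.mem_maximalIdeal_pow_iff k _).mp (hn h1)
    (Finsupp.sumFinsuppAddEquivProdFinsupp x).1
  rw [coeff_curry, sumExp_fst_snd] at h2
  refine Ideal.pow_le_pow_right ?_ h2
  have : Finsupp.degree (Finsupp.sumFinsuppAddEquivProdFinsupp x).1 ≤ Finsupp.degree x := by
    classical
    have := Fintype.ofFinite Y
    have := Fintype.ofFinite Z
    rw [Finsupp.degree_eq_sum, Finsupp.degree_eq_sum, Fintype.sum_sum_type]
    simp
  omega

omit [Finite Y] in
/-- The ideals of `p`-power diamond relations tend to zero. -/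
theorem idealTendsZero_diamond {p : ℕ} (hp : (p : O) ∈ maximalIdeal O) :
    Patching.IdealTendsZero (maximalIdeal (MvPowerSeries Y O)) fun n =>
      Ideal.span (Set.range fun i : Y =>
        (1 + MvPowerSeries.X i : MvPowerSeries Y O) ^ p ^ n - 1) := by
  intro k
  refine eventually_atTop.mpr ⟨k, fun n hn => Ideal.span_le.mpr ?_⟩
  rintro _ ⟨i, rfl⟩
  refine Ideal.pow_le_pow_right (Nat.le_succ_of_le hn) ?_
  set m := maximalIdeal (MvPowerSeries Y O)
  have hpm : (p : MvPowerSeries Y O) ∈ m := by
    rw [DefRing.mem_maximalIdeal_iff_constantCoeff, map_natCast]; exact hp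
  clear hn
  induction n with
  | zero =>
    show (1 + MvPowerSeries.X i : MvPowerSeries Y O) ^ p ^ 0 - 1 ∈ m ^ (0 + 1)
    rw [zero_add, pow_zero]; simp only [pow_one, add_sub_cancel_left]
    exact DefRing.X_mem_maximalIdeal i
  | succ n ih =>
    set a := (1 + MvPowerSeries.X i : MvPowerSeries Y O) ^ p ^ n
    show (1 + MvPowerSeries.X i : MvPowerSeries Y O) ^ p ^ (n + 1) - 1 ∈ m ^ (n + 1 + 1)
    rw [pow_succ p n, pow_mul, ← mul_geom_sum a p, pow_succ m (n + 1)]
    refine Ideal.mul_mem_mul ih ?_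
    have e : ∑ j ∈ Finset.range p, a ^ j = (p : MvPowerSeries Y O) +
        ∑ j ∈ Finset.range p, (a ^ j - 1) := by
      simp [Finset.sum_sub_distrib]
    rw [e]
    refine add_mem hpm (sum_mem fun j _ => ?_)
    rw [← mul_geom_sum a j]
    exact Ideal.mul_mem_right _ _ (Ideal.pow_le_self (by omega) ih)

end Levels

/-- A series of matrices as a matrix of series. -/
def seriesMatrix {T : Type} [CommRing T] {ι : Type} [Fintype ι] [DecidableEq ι] :
    MvPowerSeries Z (Matrix ι ι T) →+* Matrix ι ι (MvPowerSeries Z T) where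
  toFun p := Matrix.of fun i j => (fun e => p e i j)
  map_zero' := by ext i j e; rfl
  map_add' p q := by ext i j e; rfl
  map_one' := by
    classical
    ext i j e
    rw [MvPowerSeries.coeff_apply]
    show (1 : MvPowerSeries Z (Matrix ι ι T)) e i j = _
    rw [← MvPowerSeries.coeff_apply (f := (1 : MvPowerSeries Z (Matrix ι ι T))),
      MvPowerSeries.coeff_one, Matrix.one_apply]
    by_cases he : e = 0 <;> by_cases h : i = j <;>
      simp [he, h, MvPowerSeries.coeff_one, Matrix.one_apply]
  map_mul' p q := by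
    classical
    ext i j e
    rw [MvPowerSeries.coeff_apply, Matrix.mul_apply, map_sum]
    show (p * q) e i j = _
    rw [← MvPowerSeries.coeff_apply (f := p * q), MvPowerSeries.coeff_mul, Matrix.sum_apply]
    simp only [MvPowerSeries.coeff_mul, Matrix.mul_apply]
    rw [Finset.sum_comm]
    rfl

theorem coeff_seriesMatrix {T : Type} [CommRing T] {ι : Type} [Fintype ι] [DecidableEq ι]
    (p : MvPowerSeries Z (Matrix ι ι T)) (e : Z →₀ ℕ) (i j : ι) :
    MvPowerSeries.coeff e (seriesMatrix p i j) = MvPowerSeries.coeff e p i j := rfl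

end FLTAgent.ModularityLifting.Engine
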