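import Fermat.Agent.ModularityLifting.Engine.Choice
import Fermat.Agent.ModularityLifting.Engine.Series

/-!
# The action of the big ring at a level

Series over the algebra of the points act on series over the coefficient ring of the level, and the
identities of a level datum hold coefficient by coefficient.
-/

set_option autoImplicit false

noncomputable section

open IsLocalRing

namespace FLTAgent.ModularityLifting

open FLTAgent.DefRing Engine

/-- A matrix as a matrix of constant series. -/
def toSeries (σ : Type) {T ι₁ ι₂ : Type} [CommRing T] (A : Matrix ι₁ ι₂ T) :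
    Matrix ι₁ ι₂ (MvPowerSeries σ T) :=
  A.map MvPowerSeries.C

theorem toSeries_mul {σ T ι₁ ι₂ ι₃ : Type} [CommRing T] [Fintype ι₂] (A : Matrix ι₁ ι₂ T)
    (B : Matrix ι₂ ι₃ T) : toSeries σ (A * B) = toSeries σ A * toSeries σ B :=
  Matrix.map_mul

/-- A block diagonal matrix with two equal blocks. -/
def blockPair {T : Type} [Zero T] {k : ℕ} (M : Matrix (Fin k) (Fin k) T) :
    Matrix (Fin 2 × Fin k) (Fin 2 × Fin k) T :=
  Matrix.of fun x y => if x.1 = y.1 then M x.2 y.2 else 0

/-- The matrix of the composite of the two degeneracy maps. -/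
def frobBlock {T : Type} [CommRing T] {k : ℕ} (v : ℕ) (M : Matrix (Fin k) (Fin k) T) :
    Matrix (Fin 2 × Fin k) (Fin 2 × Fin k) T :=
  Matrix.of fun x y =>
    if x.1 = y.1 then (if x.2 = y.2 then (v : T) + 1 else 0) else M x.2 y.2

/-- The matrix intertwined with the projector to a sign. -/
def signBlock {T : Type} [CommRing T] {k : ℕ} (v : ℕ) (e : T) (M : Matrix (Fin k) (Fin k) T) :
    Matrix (Fin 2 × Fin k) (Fin 2 × Fin k) T :=
  Matrix.of fun x y => (if x = y then 1 else 0) + e *
    (if x.1 = 0 ∧ y.1 = 1 then (if x.2 = y.2 then (v : T) else 0)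
    else if x.1 = 1 ∧ y.1 = 0 then (if x.2 = y.2 then -1 else 0)
    else if x.1 = 1 ∧ y.1 = 1 then M x.2 y.2
    else 0)

variable {O : Type} [CommRing O] [IsDomain O] [IsDiscreteValuationRing O]

/-- The coefficient ring with frame variables. -/
abbrev LiftProblem.LevelRing (P : LiftProblem O) (n : ℕ) : Type :=
  MvPowerSeries P.FrameVar (TWRing O P.p P.r n)

/-- Reduction to the level. -/
def LiftProblem.toLevel (P : LiftProblem O) (n : ℕ) : P.SRing →ₐ[O] P.LevelRing n :=
  modLevel (Ideal.span (Set.range fun i : Fin P.r =>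
    (1 + MvPowerSeries.X i : MvPowerSeries (Fin P.r) O) ^ P.p ^ n - 1))

theorem LiftProblem.toLevel_surjective (P : LiftProblem O) (n : ℕ) :
    Function.Surjective (P.toLevel n) := modLevel_surjective _

theorem nontrivial_twRing (P : LiftProblem O) (n : ℕ) : Nontrivial (TWRing O P.p P.r n) := by
  refine Ideal.Quotient.nontrivial_iff.mpr fun h => ?_
  have hle : Ideal.span (Set.range fun i : Fin P.r =>
      (1 + MvPowerSeries.X i : MvPowerSeries (Fin P.r) O) ^ P.p ^ n - 1) ≤
      maximalIdeal (MvPowerSeries (Fin P.r) O) := by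
    refine Ideal.span_le.mpr ?_
    rintro _ ⟨i, rfl⟩
    rw [SetLike.mem_coe, DefRing.mem_maximalIdeal_iff_constantCoeff]
    simp
  exact (maximalIdeal.isMaximal _).ne_top (eq_top_iff.mpr (h ▸ hle))

namespace LiftProblem

variable [IsAdicComplete (maximalIdeal O) O] (P : LiftProblem O)

/-- The coordinate of Frobenius at a position, moved back to its value. -/
def frobEntry (F : Frames P) (v : P.tameLoc) (c : Chart.TameCoord) : P.RRing :=
  MvPowerSeries.C (F.rho v (P.frob v) c.pos.2.1 c.pos.2.2) +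
    MvPowerSeries.X (.inl (.inl ⟨v, c⟩))

omit [IsAdicComplete (maximalIdeal O) O] in
theorem isUnit_frobEntry (F : Frames P) (v : P.tameLoc) :
    IsUnit (P.frobEntry F v .phi00) := by
  rw [MvPowerSeries.isUnit_iff_constantCoeff, frobEntry, map_add, MvPowerSeries.constantCoeff_C,
    MvPowerSeries.constantCoeff_X, add_zero]
  exact F.frob_unit v (Finset.mem_erase.mp v.2).2 (Finset.mem_erase.mp v.2).1

/-- The trace of Frobenius as a series in the coordinates. -/
def trFrob (F : Frames P) (v : P.tameLoc) : P.RRing :=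
  P.frobEntry F v .phi00 +
    (MvPowerSeries.C ((v : ℕ) : O) + P.frobEntry F v .phi01 * P.frobEntry F v .phi10) *
      (((P.isUnit_frobEntry F v).unit⁻¹ : P.RRingˣ) : P.RRing)

end LiftProblem

namespace LevelDatum

variable [IsAdicComplete (maximalIdeal O) O] {P : LiftProblem O} {d : Finset ℕ → ℕ} {n : ℕ}
  {D : LevelDatum P d n} {F : Frames P} (ch : D.Choice F)

/-- Series over the algebra acting on series over the level. -/
def seriesAct (D : LevelDatum P d n) (J : Finset ℕ) :
    MvPowerSeries P.FrameVar D.PointAlg →+*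
      Matrix (Fin (d J)) (Fin (d J)) (P.LevelRing n) :=
  seriesMatrix.comp (MvPowerSeries.map ((D.act J).comp D.toPts).toRingHom)

omit [IsAdicComplete (maximalIdeal O) O] in
theorem coeff_seriesAct (D : LevelDatum P d n) (J : Finset ℕ)
    (b : MvPowerSeries P.FrameVar D.PointAlg) (e : P.FrameVar →₀ ℕ) (i j : Fin (d J)) :
    MvPowerSeries.coeff e (D.seriesAct J b i j) =
      D.act J (D.toPts (MvPowerSeries.coeff e b)) i j := by
  rw [seriesAct, RingHom.comp_apply, coeff_seriesMatrix, MvPowerSeries.coeff_map]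
  rfl

namespace Choice

/-- The action of the big ring at a level. -/
def levelAct (J : Finset ℕ) : P.ARing →+* Matrix (Fin (d J)) (Fin (d J)) (P.LevelRing n) :=
  (D.seriesAct J).comp ch.ev.toRingHom

theorem coeff_levelAct (J : Finset ℕ) (a : P.ARing) (e : P.FrameVar →₀ ℕ) (i j : Fin (d J)) :
    MvPowerSeries.coeff e (ch.levelAct J a i j) =
      D.act J (D.toPts (MvPowerSeries.coeff e (ch.ev a))) i j :=
  D.coeff_seriesAct J _ e i j

theorem val_trFrob (x : D.XPt) (v : P.tameLoc) :
    ch.val x (P.inclR (P.trFrob F v)) =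
      MvPowerSeries.C ((D.xrep x (P.frob v)).trace) := by
  obtain ⟨hvp, hv⟩ := Finset.mem_erase.mp v.2
  set T := MvPowerSeries P.FrameVar D.Coeff
  let φ : P.RRing →ₐ[O] T := (ch.val x).comp P.inclR
  have hC : ∀ o : O, φ (MvPowerSeries.C o) = algebraMap O T o := fun o => by
    have := φ.commutes o
    rwa [MvPowerSeries.algebraMap_apply, Algebra.algebraMap_self, RingHom.id_apply] at this
  set Φ := P.framed F v (ch.repAt x (P.frob v)) with hΦ
  have hentry : ∀ c : Chart.TameCoord, c.pos.1 = 0 →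
      φ (P.frobEntry F v c) = Φ c.pos.2.1 c.pos.2.2 := by
    intro c hc
    rw [LiftProblem.frobEntry, map_add, hC, show φ (MvPowerSeries.X (.inl (.inl ⟨v, c⟩))) =
      P.coord F (ch.repAt x) (.inl ⟨v, c⟩) by
        show ch.val x (P.inclR _) = _
        rw [val_inclR, evalAdic_X]
        rfl]
    rw [MvPowerSeries.algebraMap_apply, LiftProblem.coord]
    simp [LiftProblem.coordPrime, LiftProblem.coordElem, LiftProblem.coordPos, hc, hΦ, Frames.rho,
      conjRep_apply]
  have hu : φ (P.frobEntry F v .phi00) *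
      φ (((P.isUnit_frobEntry F v).unit⁻¹ : P.RRingˣ) : P.RRing) = 1 := by
    rw [← map_mul, IsUnit.mul_val_inv, map_one]
  have hdet : Φ 0 0 * Φ 1 1 - Φ 0 1 * Φ 1 0 = algebraMap O T ((v : ℕ) : O) := by
    rw [← Matrix.det_fin_two, hΦ, det_framed, ch.repAt_det,
      det_frobenius P.hp P.p_mem (P.mem_loc_prime hv) hvp P.det
        (P.place_spec _ (P.mem_loc_prime hv)) (P.frob_spec _ (P.mem_loc_prime hv)),
      MvPowerSeries.algebraMap_apply]
  have htr : Φ 0 0 + Φ 1 1 = MvPowerSeries.C ((D.xrep x (P.frob v)).trace) := by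
    rw [← Matrix.trace_fin_two, hΦ, trace_framed, ch.repAt_trace]
  rw [hentry .phi00 rfl] at hu
  show φ (P.trFrob F v) = _
  rw [LiftProblem.trFrob, map_add, map_mul, map_add, map_mul, hC, hentry .phi00 rfl,
    hentry .phi01 rfl, hentry .phi10 rfl, ← htr, ← hdet]
  simp only [Chart.TameCoord.pos] at hu ⊢
  linear_combination Φ 1 1 * hu

theorem ev_trFrob (v : P.tameLoc) :
    ch.ev (P.inclR (P.trFrob F v)) =
      MvPowerSeries.C (trElem O D.xrep D.xu (P.frob v)) := by
  classical
  ext e : 1
  refine D.ext_evX fun x => ?_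
  have h := congrArg (MvPowerSeries.coeff e) (ch.val_trFrob x v)
  rw [val_apply, MvPowerSeries.coeff_map, MvPowerSeries.coeff_C] at h
  rw [MvPowerSeries.coeff_C]
  refine h.trans ?_
  split <;> simp [evX_trElem]

theorem levelAct_trFrob (J : Finset ℕ) (v : P.tameLoc) :
    ch.levelAct J (P.inclR (P.trFrob F v)) =
      toSeries P.FrameVar (D.act J (trElem O D.rep D.u (P.frob v))) := by
  classical
  ext i j e
  rw [coeff_levelAct, ch.ev_trFrob, MvPowerSeries.coeff_C, toSeries, Matrix.map_apply,
    MvPowerSeries.coeff_C]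
  by_cases he : e = 0
  · rw [if_pos he, if_pos he, D.toPts_trElem]
  · simp [he]

theorem toPts_coeff_vanish {a : P.ARing} {θ : D.Pt} (h : ch.val (some θ) a = 0)
    (e : P.FrameVar →₀ ℕ) : (D.toPts (MvPowerSeries.coeff e (ch.ev a)) : D.Pt → D.Coeff) θ = 0 := by
  rw [D.toPts_apply]
  have := congrArg (MvPowerSeries.coeff e) h
  rwa [val_apply, MvPowerSeries.coeff_map, map_zero] at this

theorem levelAct_eq_zero {J : Finset ℕ} (hJ : J ⊆ P.raise) {a : P.ARing}
    (h : ∀ θ ∈ D.pts J, ch.val (some θ) a = 0) : ch.levelAct J a = 0 := by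
  ext i j e
  rw [coeff_levelAct, D.act_vanish J hJ _ fun θ hθ => ch.toPts_coeff_vanish (h θ hθ) e]
  simp

/-- Series with every coefficient in an ideal. -/
def coeffwise {T σ : Type} [CommRing T] (I : Ideal T) : Ideal (MvPowerSeries σ T) :=
  RingHom.ker (MvPowerSeries.map (σ := σ) (Ideal.Quotient.mk I))

theorem mem_coeffwise {T σ : Type} [CommRing T] {I : Ideal T} {p : MvPowerSeries σ T} :
    p ∈ coeffwise I ↔ ∀ e, MvPowerSeries.coeff e p ∈ I := by
  rw [coeffwise, RingHom.mem_ker, MvPowerSeries.ext_iff]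
  simp [Ideal.Quotient.eq_zero_iff_mem]

theorem levelAct_mem_aug {J : Finset ℕ} (hJ : J ⊆ P.raise) {a : P.ARing}
    (h : ∀ θ ∈ D.pts J, (∀ i, D.u θ i = 1) → ch.val (some θ) a = 0) (i j : Fin (d J)) :
    ch.levelAct J a i j ∈ coeffwise (augIdeal O P.p P.r n) :=
  mem_coeffwise.mpr fun e => by
    rw [coeff_levelAct]
    exact D.act_vanish_zero J hJ _ (fun θ hθ hu => ch.toPts_coeff_vanish (h θ hθ hu) e) i j

theorem coeff_mul_map_C {T σ ι₁ ι₂ ι₃ : Type} [CommRing T] [Fintype ι₂]
    (X : Matrix ι₁ ι₂ (MvPowerSeries σ T)) (A : Matrix ι₂ ι₃ T) (e : σ →₀ ℕ) (i : ι₁) (k : ι₃) :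
    MvPowerSeries.coeff e
        ((X * toSeries σ A) i k) =
      ((Matrix.of fun i j => MvPowerSeries.coeff e (X i j)) * A : Matrix ι₁ ι₃ T) i k := by
  simp [toSeries, Matrix.mul_apply, map_sum, MvPowerSeries.coeff_mul_C]

theorem coeff_map_C_mul {T σ ι₁ ι₂ ι₃ : Type} [CommRing T] [Fintype ι₂]
    (A : Matrix ι₁ ι₂ T) (X : Matrix ι₂ ι₃ (MvPowerSeries σ T)) (e : σ →₀ ℕ) (i : ι₁) (k : ι₃) :
    MvPowerSeries.coeff e
        ((toSeries σ A * X) i k) =
      (A * Matrix.of fun i j => MvPowerSeries.coeff e (X i j) : Matrix ι₁ ι₃ T) i k := by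
  simp [toSeries, Matrix.mul_apply, map_sum, MvPowerSeries.coeff_C_mul]

theorem coeff_blockPair {T σ : Type} [CommRing T] {k : ℕ}
    (X : Matrix (Fin k) (Fin k) (MvPowerSeries σ T)) (e : σ →₀ ℕ) :
    (Matrix.of fun x y => MvPowerSeries.coeff e (blockPair X x y)) =
      blockPair (Matrix.of fun i j => MvPowerSeries.coeff e (X i j)) := by
  ext x y
  simp only [blockPair, Matrix.of_apply]
  split <;> simp

theorem coeffMatrix_levelAct (J : Finset ℕ) (a : P.ARing) (e : P.FrameVar →₀ ℕ) :
    (Matrix.of fun i j => MvPowerSeries.coeff e (ch.levelAct J a i j)) =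
      D.act J (D.toPts (MvPowerSeries.coeff e (ch.ev a))) := by
  ext i j
  exact ch.coeff_levelAct J a e i j

theorem levelAct_α {J : Finset ℕ} (hJ : J ⊆ P.raise) {v : ℕ} (hv : v ∈ P.raise) (hvJ : v ∉ J)
    (a : P.ARing) :
    ch.levelAct (insert v J) a * toSeries P.FrameVar (D.α J v) =
      toSeries P.FrameVar (D.α J v) * blockPair (ch.levelAct J a) := by
  ext i k e
  rw [coeff_mul_map_C, coeff_map_C_mul, coeff_blockPair, coeffMatrix_levelAct, coeffMatrix_levelAct]
  exact congrFun (congrFun (D.α_comm J hJ v hv hvJ _) i) k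

theorem levelAct_β {J : Finset ℕ} (hJ : J ⊆ P.raise) {v : ℕ} (hv : v ∈ P.raise) (hvJ : v ∉ J)
    (hvp : v ≠ P.p) (a : P.ARing) :
    toSeries P.FrameVar (D.β J v) * ch.levelAct (insert v J) a =
      blockPair (ch.levelAct J a) * toSeries P.FrameVar (D.β J v) := by
  ext i k e
  rw [coeff_mul_map_C, coeff_map_C_mul, coeff_blockPair, coeffMatrix_levelAct, coeffMatrix_levelAct]
  exact congrFun (congrFun (D.β_comm J hJ v hv hvJ hvp _) i) k

theorem levelAct_E {J : Finset ℕ} (hJ : J ⊆ P.raise) {v : ℕ} (hv : v ∈ P.raise) (hvJ : v ∉ J)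
    (a : P.ARing) :
    toSeries P.FrameVar (D.E J v) * ch.levelAct (insert v J) a =
      ch.levelAct (insert v J) a * toSeries P.FrameVar (D.E J v) := by
  ext i k e
  rw [coeff_mul_map_C, coeff_map_C_mul, coeffMatrix_levelAct]
  exact congrFun (congrFun (D.E_comm J hJ v hv hvJ _) i) k

theorem coeff_coker_expr {J : Finset ℕ} {v : ℕ} (a : P.ARing) (e : P.FrameVar →₀ ℕ)
    (i k : Fin (d (insert v J))) :
    MvPowerSeries.coeff e (((toSeries P.FrameVar (D.α J v * D.αInv J v - 1)) *
      ch.levelAct (insert v J) a * toSeries P.FrameVar (D.E J v) :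
        Matrix (Fin (d (insert v J))) (Fin (d (insert v J))) (P.LevelRing n)) i k) =
      ((D.α J v * D.αInv J v - 1) *
        D.act (insert v J) (D.toPts (MvPowerSeries.coeff e (ch.ev a))) * D.E J v :
          Matrix (Fin (d (insert v J))) (Fin (d (insert v J))) (TWRing O P.p P.r n)) i k := by
  rw [coeff_mul_map_C, ← ch.coeffMatrix_levelAct (insert v J) a e]
  refine congrFun (congrFun (congrArg (· * D.E J v) ?_) i) k
  ext x y
  exact coeff_map_C_mul (D.α J v * D.αInv J v - 1) (ch.levelAct (insert v J) a) e x y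

theorem levelAct_coker {J : Finset ℕ} (hJ : J ⊆ P.raise) {v : ℕ} (hv : v ∈ P.raise) (hvJ : v ∉ J)
    {a : P.ARing} (h : ∀ θ ∈ D.newPts J v, ch.val (some θ) a = 0) :
    toSeries P.FrameVar (D.α J v * D.αInv J v - 1) * ch.levelAct (insert v J) a *
      toSeries P.FrameVar (D.E J v) =
        (0 : Matrix (Fin (d (insert v J))) (Fin (d (insert v J))) (P.LevelRing n)) := by
  ext i k e
  rw [coeff_coker_expr, D.coker J hJ v hv hvJ _ fun θ hθ => ch.toPts_coeff_vanish (h θ hθ) e]
  simp

theorem levelAct_coker_zero {J : Finset ℕ} (hJ : J ⊆ P.raise) {v : ℕ} (hv : v ∈ P.raise)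
    (hvJ : v ∉ J) {a : P.ARing}
    (h : ∀ θ ∈ D.newPts J v, (∀ i, D.u θ i = 1) → ch.val (some θ) a = 0)
    (i k : Fin (d (insert v J))) :
    (toSeries P.FrameVar (D.α J v * D.αInv J v - 1) * ch.levelAct (insert v J) a *
      toSeries P.FrameVar (D.E J v) :
        Matrix (Fin (d (insert v J))) (Fin (d (insert v J))) (P.LevelRing n)) i k ∈
      coeffwise (augIdeal O P.p P.r n) :=
  mem_coeffwise.mpr fun e => by
    rw [coeff_coker_expr]
    exact D.coker_zero J hJ v hv hvJ _ (fun θ hθ hu => ch.toPts_coeff_vanish (h θ hθ hu) e) i k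

theorem levelAct_β_α {J : Finset ℕ} (hJ : J ⊆ P.raise) (v : P.tameLoc) (hv : (v : ℕ) ∈ P.raise)
    (hvJ : (v : ℕ) ∉ J) :
    toSeries P.FrameVar (D.β J v) * toSeries P.FrameVar (D.α J v) =
      frobBlock v (ch.levelAct J (P.inclR (P.trFrob F v))) := by
  rw [← toSeries_mul, D.β_α J hJ v hv hvJ (Finset.mem_erase.mp v.2).1, ch.levelAct_trFrob]
  ext x y : 1
  simp only [frobBlock, toSeries, Matrix.map_apply, Matrix.of_apply]
  split_ifs <;> simp

theorem levelAct_β_E {J : Finset ℕ} (hJ : J ⊆ P.raise) (v : P.tameLoc) (hv : (v : ℕ) ∈ P.raise)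
    (hvJ : (v : ℕ) ∉ J) :
    toSeries P.FrameVar (D.β J v) * toSeries P.FrameVar (D.E J v) =
      signBlock v (algebraMap O (P.LevelRing n) (P.ε v))
          (ch.levelAct J (P.inclR (P.trFrob F v))) *
        toSeries P.FrameVar (D.β J v) := by
  rw [← toSeries_mul, D.β_E J hJ v hv hvJ (Finset.mem_erase.mp v.2).1, ch.levelAct_trFrob,
    toSeries_mul]
  congr 1
  ext x y : 1
  simp only [signBlock, toSeries, Matrix.map_apply, Matrix.of_apply, MvPowerSeries.algebraMap_apply]
  split_ifs <;> simp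

/-- The map of the diamond series into the algebra. -/
def diamondMap : MvPowerSeries (Fin P.r) O →ₐ[O] D.PointAlg :=
  evalAdic (maximalIdeal D.PointAlg) (fun i => uElem O D.xrep D.xu i - 1) fun i => by
    rw [D.mem_maximalIdeal_pointAlg_iff none, map_sub, map_one, D.evX_uElem]
    exact D.xu_sub_one_mem none i

theorem ev_inclS (s : P.SRing) :
    ch.ev (P.inclS s) = MvPowerSeries.map (diamondMap (D := D)).toRingHom (curry s) := by
  have h : ch.ev.comp P.inclS =
      (MvPowerSeries.mapAlgHom (σ := P.FrameVar) (diamondMap (D := D))).comp curry := by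
    refine algHom_ext_of_hausdorff (maximalIdeal (MvPowerSeries P.FrameVar D.PointAlg)) _ _
      (fun y => ?_) fun y => ?_
    · rw [AlgHom.comp_apply, P.inclS_X, ev, evalAdic_X]
      exact ch.vals_mem _
    · rw [AlgHom.comp_apply, AlgHom.comp_apply, P.inclS_X, ev, evalAdic_X]
      rcases y with i | z
      · rw [curry_X_inl]
        show MvPowerSeries.C (uElem O D.xrep D.xu i - 1) =
          MvPowerSeries.map (diamondMap (D := D)).toRingHom (MvPowerSeries.C (MvPowerSeries.X i))
        rw [MvPowerSeries.map_C]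
        refine congrArg _ ?_
        show _ = diamondMap (D := D) (MvPowerSeries.X i)
        rw [diamondMap, evalAdic_X]
      · rw [curry_X_inr]
        show MvPowerSeries.X z = MvPowerSeries.map _ (MvPowerSeries.X z)
        rw [MvPowerSeries.map_X]
  exact AlgHom.congr_fun h s

theorem act_diamondMap {J : Finset ℕ} (hJ : J ⊆ P.raise) (f : MvPowerSeries (Fin P.r) O) :
    D.act J (D.toPts (diamondMap (D := D) f)) =
      Matrix.scalar (Fin (d J)) (Ideal.Quotient.mk _ f : TWRing O P.p P.r n) := by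
  classical
  have := nontrivial_twRing P n
  set g : MvPowerSeries (Fin P.r) O →ₐ[O] Matrix (Fin (d J)) (Fin (d J)) (TWRing O P.p P.r n) :=
    ((D.act J).comp D.toPts).comp (diamondMap (D := D)) with hg
  let s : MvPowerSeries (Fin P.r) O →ₐ[O] Matrix (Fin (d J)) (Fin (d J)) (TWRing O P.p P.r n) :=
    (Matrix.scalarAlgHom (Fin (d J)) O).comp (Ideal.Quotient.mkₐ O _)
  show g f = s f
  have hX : ∀ i, g (MvPowerSeries.X i) = s (MvPowerSeries.X i) := fun i => by
    show D.act J (D.toPts (diamondMap (D := D) (MvPowerSeries.X i))) = _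
    rw [diamondMap, evalAdic_X, map_sub, map_one, map_sub, map_one, D.toPts_uElem, D.act_u J hJ]
    show Matrix.scalar (Fin (d J)) _ - 1 = Matrix.scalar (Fin (d J)) _
    rw [map_add, map_one, add_sub_cancel_left]
    rfl
  have hpoly : g.comp (MvPolynomial.coeToMvPowerSeries.algHom O) =
      s.comp (MvPolynomial.coeToMvPowerSeries.algHom O) :=
    MvPolynomial.algHom_ext fun i => by
      simpa [MvPolynomial.coeToMvPowerSeries.algHom_apply] using hX i
  let I : Ideal (TWRing O P.p P.r n) :=
    Ideal.span (Set.range fun i : Fin P.r => Ideal.Quotient.mk _ (MvPowerSeries.X i))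
  have hI : I ≠ ⊤ := by
    intro h
    have hle : I ≤ (maximalIdeal (MvPowerSeries (Fin P.r) O)).map (Ideal.Quotient.mk _) :=
      Ideal.span_le.mpr (by
        rintro _ ⟨i, rfl⟩; exact Ideal.mem_map_of_mem _ (DefRing.X_mem_maximalIdeal i))
    have : IsLocalRing (TWRing O P.p P.r n) :=
      IsLocalRing.of_surjective' _ Ideal.Quotient.mk_surjective
    refine (maximalIdeal.isMaximal (TWRing O P.p P.r n)).ne_top (eq_top_iff.mpr ?_)
    rw [← h]
    refine hle.trans (Ideal.map_le_iff_le_comap.mpr fun x hx => ?_)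
    have : IsLocalHom (Ideal.Quotient.mk (Ideal.span (Set.range fun i : Fin P.r =>
        (1 + MvPowerSeries.X i : MvPowerSeries (Fin P.r) O) ^ P.p ^ n - 1))) :=
      IsLocalHom.of_surjective _ Ideal.Quotient.mk_surjective
    exact map_nonunit _ x hx
  have key : ∀ (N : ℕ) (x : MvPowerSeries (Fin P.r) O),
      x ∈ Ideal.span (Set.range (MvPowerSeries.X : Fin P.r → MvPowerSeries (Fin P.r) O)) ^ N →
      ∀ i j, g x i j ∈ I ^ N ∧ s x i j ∈ I ^ N := by
    intro N
    induction N with
    | zero => intro x _ i j; simp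
    | succ N ih =>
      intro x hx
      rw [pow_succ] at hx
      refine Submodule.mul_induction_on hx (fun a ha b hb i j => ?_) fun a b ha hb i j => ?_
      · have hone : ∀ b ∈ Ideal.span (Set.range
            (MvPowerSeries.X : Fin P.r → MvPowerSeries (Fin P.r) O)),
            ∀ i j, g b i j ∈ I ∧ s b i j ∈ I := by
          intro b hb
          induction hb using Submodule.span_induction with
          | mem b hb =>
            obtain ⟨l, rfl⟩ := hb
            intro i j
            rw [hX]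
            refine ⟨?_, ?_⟩ <;>
            · show Matrix.scalar (Fin (d J)) _ i j ∈ I
              by_cases h : i = j
              · subst h
                simp only [Matrix.scalar_apply, Matrix.diagonal_apply_eq]
                exact Ideal.subset_span ⟨l, rfl⟩
              · simp [h]
          | zero => intro i j; simp
          | add a b _ _ ha hb =>
            intro i j
            rw [map_add, map_add]
            exact ⟨add_mem (ha i j).1 (hb i j).1, add_mem (ha i j).2 (hb i j).2⟩
          | smul c b _ hb =>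
            intro i j
            rw [smul_eq_mul, map_mul, map_mul, Matrix.mul_apply, Matrix.mul_apply]
            exact ⟨sum_mem fun l _ => Ideal.mul_mem_left _ _ (hb l j).1,
              sum_mem fun l _ => Ideal.mul_mem_left _ _ (hb l j).2⟩
        rw [map_mul, map_mul, Matrix.mul_apply, Matrix.mul_apply,
          show I ^ (N + 1) = I ^ N * I from pow_succ I N]
        exact ⟨sum_mem fun l _ => Ideal.mul_mem_mul (ih a ha i l).1 (hone b hb l j).1,
          sum_mem fun l _ => Ideal.mul_mem_mul (ih a ha i l).2 (hone b hb l j).2⟩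
      · rw [map_add, map_add]
        exact ⟨add_mem (ha i j).1 (hb i j).1, add_mem (ha i j).2 (hb i j).2⟩
  ext i j
  refine sub_eq_zero.mp ?_
  have : IsLocalRing (TWRing O P.p P.r n) :=
    IsLocalRing.of_surjective' _ Ideal.Quotient.mk_surjective
  have hbot := Ideal.iInf_pow_eq_bot_of_isLocalRing I hI
  rw [← Ideal.mem_bot, ← hbot, Submodule.mem_iInf]
  intro N
  obtain ⟨h1, h2⟩ := key N _ (sub_trunc_mem_span_X_pow N f) i j
  have hp := AlgHom.congr_fun hpoly (MvPowerSeries.truncTotal N f)
  simp only [AlgHom.comp_apply, MvPolynomial.coeToMvPowerSeries.algHom_apply,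
    Algebra.algebraMap_self, MvPowerSeries.map_id, RingHom.id_apply] at hp
  rw [map_sub, Matrix.sub_apply] at h1 h2
  rw [hp] at h1
  simpa using sub_mem h1 h2

theorem levelAct_inclS {J : Finset ℕ} (hJ : J ⊆ P.raise) (s : P.SRing) :
    ch.levelAct J (P.inclS s) = Matrix.scalar (Fin (d J)) (P.toLevel n s) := by
  ext i j e
  rw [coeff_levelAct, ch.ev_inclS, MvPowerSeries.coeff_map]
  show D.act J (D.toPts (diamondMap (D := D) _)) i j = _
  rw [act_diamondMap hJ]
  by_cases h : i = j
  · subst h
    simp only [Matrix.scalar_apply, Matrix.diagonal_apply_eq]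
    rfl
  · simp [h]

end Choice

end LevelDatum

end FLTAgent.ModularityLifting
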