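import Fermat.Agent.ModularityLifting.Engine.NormalFrames
import Fermat.Agent.ModularityLifting.Local.Product

/-!
# The component of a level

Steinberg charts at the primes of the minimal level and of the raising set, free charts at the
other tame primes, the strictly ordinary chart at `p` and free global coordinates.
-/

set_option autoImplicit false

noncomputable section

open IsLocalRing

namespace FLTAgent.ModularityLifting

open FLTAgent.DefRing Chart Engine

variable {O : Type} [CommRing O] [IsLocalRing O]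

/-- The Steinberg chart at `q` centred at `[[εq, c], [0, ε]]`, `[[1, n], [0, 1]]`. -/
def stChart (q ε c n : O) : Chart O TameCoord := by
  classical
  exact if h : q - 1 ∈ maximalIdeal O ∧ ε * c ∈ maximalIdeal O ∧ n ∈ maximalIdeal O then
      cone q ε (ε * c) n h.1 h.2.1 h.2.2
    else (tri ![ε * q, 1] ![ε, 1] ![c, n]).reindex TameCoord.pos

/-- The unramified chart at a tame site whose inertia matrix is centred at `N`. -/
def urChart (N : Fin 2 → Fin 2 → O) : Chart O TameCoord := by
  classical
  exact free fun x =>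
    let c : Fin 2 × Fin 2 → Fin 3 ⊕ maximalIdeal O := fun y =>
      if h : (1 : Matrix (Fin 2) (Fin 2) O) y.1 y.2 - N y.1 y.2 ∈ maximalIdeal O then .inr ⟨_, h⟩
      else .inr 0
    match x with
    | .phi00 => .inl 0
    | .phi01 => .inl 1
    | .phi10 => .inl 2
    | .tau00 => c (0, 0)
    | .tau01 => c (0, 1)
    | .tau10 => c (1, 0)
    | .tau11 => c (1, 1)

variable [IsNoetherianRing O] [IsAdicComplete (maximalIdeal O) O]

theorem stChart_hasSop (q ε c n : O) (hε : ε * ε = 1) {ϖ : O}
    (hϖ : maximalIdeal O = Ideal.span {ϖ}) : (stChart q ε c n).HasSop ϖ 3 := by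
  classical
  unfold stChart
  split_ifs with h
  · exact cone_hasSop q ε (ε * c) n hε h.1 h.2.1 h.2.2 hϖ
  have hu : ∀ x, IsUnit (ε * x) → IsUnit x := fun x hx => isUnit_of_mul_isUnit_right hx
  have hεu : IsUnit ε := IsUnit.of_mul_eq_one ε hε
  have key : ∃ j₀ : Fin 2, IsUnit (![ε * q, 1] j₀ - ![ε, 1] j₀) ∨ IsUnit (![c, n] j₀) := by
    rcases not_and_or.mp h with hq | h'
    · refine ⟨0, Or.inl ?_⟩
      have : IsUnit (q - 1) := Classical.not_not.mp hq
      simpa [mul_sub] using hεu.mul this
    rcases not_and_or.mp h' with hc | hn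
    · exact ⟨0, Or.inr (hu c (Classical.not_not.mp hc))⟩
    · exact ⟨1, Or.inr (by simpa using (Classical.not_not.mp hn : IsUnit n))⟩
  obtain ⟨j₀, hj⟩ := key
  have := tri_hasSop ![ε * q, 1] ![ε, 1] ![c, n] TameCoord.pos hϖ
    (fun j => by fin_cases j; exacts [⟨.phi01, rfl⟩, ⟨.tau01, rfl⟩])
    (j₀ := j₀) (by fin_cases j₀; exacts [⟨.phi00, rfl⟩, ⟨.tau00, rfl⟩])
    (by fin_cases j₀; exacts [⟨.phi10, rfl⟩, ⟨.tau10, rfl⟩]) hj
  simpa using this

theorem urChart_hasSop (N : Fin 2 → Fin 2 → O) {ϖ : O} (hϖ : maximalIdeal O = Ideal.span {ϖ}) :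
    (urChart N).HasSop ϖ 3 := by
  classical
  unfold urChart
  refine free_hasSop (κ := Fin 3) _ hϖ fun k => ?_
  fin_cases k
  exacts [⟨.phi00, rfl⟩, ⟨.phi01, rfl⟩, ⟨.phi10, rfl⟩]

/-- Reindexing along an equivalence preserves systems of parameters. -/
theorem hasSop_reindex {ι ι' : Type} [Finite ι] [Finite ι'] (C : Chart O ι) (e : ι' ≃ ι) {ϖ : O}
    {d : ℕ} (h : C.HasSop ϖ d) : (C.reindex e).HasSop ϖ d := by
  obtain ⟨f, hf, hX⟩ := h
  let φ : MvPowerSeries ι O →ₐ[O] MvPowerSeries ι' O :=
    evalAdic (maximalIdeal _) (fun i => MvPowerSeries.X (e.symm i))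
      fun i => DefRing.X_mem_maximalIdeal (e.symm i)
  have hmap : (C.reindex e).map.comp φ = C.map := by
    refine (algHom_ext_of_hausdorff (maximalIdeal (MvPowerSeries C.Param O)) C.map _ (fun i => ?_)
      fun i => ?_).symm
    · rw [map_X]; exact C.filt_one_le (C.entry_mem_filt i)
    · rw [map_X, AlgHom.comp_apply, show φ (MvPowerSeries.X i) = MvPowerSeries.X (e.symm i) from
        evalAdic_X _ _ _ _, map_X]
      simp
  have hφm : ∀ p ∈ maximalIdeal (MvPowerSeries ι O), φ p ∈ maximalIdeal (MvPowerSeries ι' O) := by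
    intro p hp
    have h := mem_pow_of_algHom (maximalIdeal (MvPowerSeries ι' O)) φ
      (fun i => by rw [evalAdic_X]; exact DefRing.X_mem_maximalIdeal (e.symm i)) 1
      (p - MvPowerSeries.C (MvPowerSeries.constantCoeff p)) (DefRing.mem_span_X_pow fun x hx => by
        obtain rfl : x = 0 := (Finsupp.degree_eq_zero_iff x).mp (by omega)
        simp)
    rw [pow_one, map_sub] at h
    have hc := φ.commutes (MvPowerSeries.constantCoeff p)
    simp only [MvPowerSeries.algebraMap_apply, Algebra.algebraMap_self, RingHom.id_apply] at hc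
    rw [hc] at h
    refine (Submodule.sub_mem_iff_left _ ?_).mp h
    rw [DefRing.mem_maximalIdeal_iff_constantCoeff, MvPowerSeries.constantCoeff_C]
    exact (DefRing.mem_maximalIdeal_iff_constantCoeff _).mp hp
  refine ⟨fun k => φ (f k), fun k => hφm _ (hf k), fun i' => ?_⟩
  set I : Ideal (MvPowerSeries ι' O) := (C.reindex e).component ⊔
    Ideal.span (insert (MvPowerSeries.C ϖ) (Set.range fun k => φ (f k))) with hI
  have hle : (C.component ⊔ Ideal.span (insert (MvPowerSeries.C ϖ) (Set.range f))).map φ.toRingHom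
      ≤ I := by
    rw [Ideal.map_sup, Ideal.map_span]
    refine sup_le (Ideal.map_le_iff_le_comap.mpr fun p hp => Ideal.mem_sup_left ?_)
      (Ideal.span_le.mpr ?_)
    · have h' : C.map p = 0 := mem_component.mp hp
      exact mem_component.mpr ((AlgHom.congr_fun hmap p).trans h')
    · rintro _ ⟨_, (rfl | ⟨k, rfl⟩), rfl⟩
      · refine Ideal.mem_sup_right (Ideal.subset_span (Or.inl ?_))
        simpa [MvPowerSeries.algebraMap_apply] using φ.commutes ϖ
      · exact Ideal.mem_sup_right (Ideal.subset_span (Or.inr ⟨k, rfl⟩))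
  obtain ⟨m, hm⟩ := hX (e i')
  refine ⟨m, ?_⟩
  have h2 := hle (Ideal.mem_map_of_mem _ hm)
  rw [map_pow] at h2
  simpa [φ] using h2

end FLTAgent.ModularityLifting

namespace FLTAgent.ModularityLifting

open FLTAgent.DefRing Chart Engine

variable {O : Type} [CommRing O] [IsDomain O] [IsDiscreteValuationRing O]

namespace LiftProblem

variable (P : LiftProblem O)

/-- All coordinates: local and global. -/
abbrev Coord : Type := P.LocCoord ⊕ Fin P.globalCount

/-- The sites: the tame primes, possibly `p`, and the global coordinates. -/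
abbrev Site : Type := P.tameLoc ⊕ ({_u : Unit // P.p ∈ P.loc} ⊕ Unit)

/-- The coordinates at a site. -/
def siteCoord : P.Site → Type
  | .inl _ => TameCoord
  | .inr (.inl _) => Fin 3 × Fin 2 × Fin 2
  | .inr (.inr _) => Fin P.globalCount

instance (s : P.Site) : Finite (P.siteCoord s) := by
  rcases s with _ | _ | _ <;> simp only [siteCoord] <;> infer_instance

/-- Every coordinate belongs to one site. -/
def siteEquiv : P.Coord ≃ Σ s, P.siteCoord s where
  toFun
    | .inl (.inl x) => ⟨.inl x.1, x.2⟩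
    | .inl (.inr x) => ⟨.inr (.inl ⟨(), x.2⟩), x.1⟩
    | .inr k => ⟨.inr (.inr ()), k⟩
  invFun
    | ⟨.inl v, c⟩ => .inl (.inl ⟨v, c⟩)
    | ⟨.inr (.inl u), x⟩ => .inl (.inr ⟨x, u.2⟩)
    | ⟨.inr (.inr _), k⟩ => .inr k
  left_inv := by rintro ((_ | _) | _) <;> rfl
  right_inv := by rintro ⟨_ | _ | _, _⟩ <;> rfl

variable (F : Frames P) (J : Finset ℕ)

/-- The chart at a site. -/
def siteChart : ∀ s : P.Site, Chart O (P.siteCoord s)
  | .inl v =>
      if (v : ℕ) ∈ P.minimal ∪ J then
        stChart ((v : ℕ) : O) (P.ε v) (F.rho v (P.frob v) 0 1) (F.rho v (F.τ v) 0 1)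
      else urChart fun i j => F.rho v (F.τ v) i j
  | .inr (.inl _) =>
      tri (fun j => F.rho P.p (P.pElem j) 0 0) (fun j => F.rho P.p (P.pElem j) 1 1)
        (fun j => F.rho P.p (P.pElem j) 0 1)
  | .inr (.inr _) => free fun k : Fin P.globalCount => Sum.inl k

/-- The chart of a level. -/
abbrev levelChart : Chart O P.Coord :=
  (Chart.sigma (P.siteChart F J)).reindex P.siteEquiv

variable [IsAdicComplete (maximalIdeal O) O]

/-- The component of a level. -/
def component : Ideal (MvPowerSeries P.Coord O) := (P.levelChart F J).component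

instance isPrime_component : (P.component F J).IsPrime :=
  inferInstanceAs (P.levelChart F J).component.IsPrime

omit [IsAdicComplete (maximalIdeal O) O] in
theorem card_loc : P.loc.card = P.tameLoc.card + if P.p ∈ P.loc then 1 else 0 := by
  rw [tameLoc]
  by_cases h : P.p ∈ P.loc
  · rw [if_pos h, Finset.card_erase_add_one h]
  · rw [if_neg h, Finset.erase_eq_of_notMem h, add_zero]

omit [IsAdicComplete (maximalIdeal O) O] in
theorem card_frameVar : Fintype.card P.FrameVar = 4 * P.loc.card - 1 := by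
  classical
  rw [Fintype.card_subtype_compl, Fintype.card_subtype]
  have e : (Finset.univ.filter fun x : P.loc × Fin 2 × Fin 2 =>
      (x.1 : ℕ) = P.pivot ∧ x.2 = (0, 0)) =
      {(⟨P.pivot, P.loc.min'_mem P.loc_nonempty⟩, (0, 0))} := by
    ext ⟨v, y⟩
    simp [Subtype.ext_iff]
  rw [e, Finset.card_singleton]
  simp [Fintype.card_coe, mul_comm]

omit [IsAdicComplete (maximalIdeal O) O] in
/-- The unit difference of the diagonal at the first element at `p`. -/
theorem isUnit_pElem_zero (hF : F.IsNormal) (hp : P.p ∈ P.loc) :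
    IsUnit (F.rho P.p (P.pElem 0) 0 0 - F.rho P.p (P.pElem 0) 1 1) := by
  have hp' := P.p_mem_loc_iff.mp hp
  have hB := P.place_spec _ P.hp
  have hsq := diag_sq_eq_one P.hp hB (F.rho P.p) (matCont_conjRep P.cont (F.g P.p))
    (F.upper_p hp') (hF.p_inertia hp') (P.frob_spec _ P.hp)
    (by rw [hF.p_frob hp']; rcases P.sign P.p with h | h <;> simp [h]) _ (P.pElem_mem 0)
  have hdet : (F.rho P.p (P.pElem 0)).det = (P.ρ (P.pElem 0)).det :=
    Matrix.det_units_conj (F.g P.p) (P.ρ (P.pElem 0))
  rw [Matrix.det_fin_two, show F.rho P.p (P.pElem 0) 1 0 = 0 from F.upper_p hp' _ (P.pElem_mem 0),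
    mul_zero, sub_zero] at hdet
  set a := F.rho P.p (P.pElem 0) 0 0
  set b := F.rho P.p (P.pElem 0) 1 1
  refine Classical.not_not.mp fun h => P.pElem_zero ?_
  have h' : residue O (a - b) = 0 := (residue_eq_zero_iff _).mpr ((mem_maximalIdeal _).mpr h)
  rw [map_sub, sub_eq_zero] at h'
  rw [← hdet, map_mul, h', ← map_mul, hsq, map_one]

theorem component_hasSop (hF : F.IsNormal) {ϖ : O} (hϖ : maximalIdeal O = Ideal.span {ϖ}) :
    (P.levelChart F J).HasSop ϖ
      (P.tameLoc.card * 3 + (if P.p ∈ P.loc then 4 else 0) + P.globalCount) := by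
  classical
  let d : P.Site → ℕ
    | .inl _ => 3
    | .inr (.inl _) => 4
    | .inr (.inr _) => P.globalCount
  have h : ∀ s, (P.siteChart F J s).HasSop ϖ (d s) := by
    rintro (v | u | u)
    · show Chart.HasSop (ι := TameCoord) (if (v : ℕ) ∈ P.minimal ∪ J then _ else _) ϖ 3
      split_ifs
      · exact stChart_hasSop _ _ _ _ (by rcases P.sign (v : ℕ) with h | h <;> simp [h]) hϖ
      · exact urChart_hasSop _ hϖ
    · have h0 := P.isUnit_pElem_zero F hF u.2
      have := tri_hasSop (ι := Fin 3 × Fin 2 × Fin 2) (fun j => F.rho P.p (P.pElem j) 0 0)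
        (fun j => F.rho P.p (P.pElem j) 1 1) (fun j => F.rho P.p (P.pElem j) 0 1) id hϖ
        (fun j => ⟨_, rfl⟩) (j₀ := 0) ⟨_, rfl⟩ ⟨_, rfl⟩ (Or.inl h0)
      rw [show d (.inr (.inl u)) = Fintype.card (Fin 3) + 1 from rfl]
      exact this
    · have := free_hasSop (ι := Fin P.globalCount) (κ := Fin P.globalCount)
        (fun k : Fin P.globalCount => Sum.inl k) hϖ fun k => ⟨k, rfl⟩
      rw [Fintype.card_fin] at this
      exact this
  have := hasSop_reindex _ P.siteEquiv (Chart.sigma_hasSop (P.siteChart F J) ϖ d h)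
  convert this using 2
  rw [Fintype.sum_sum_type, Fintype.sum_sum_type]
  by_cases hp : P.p ∈ P.loc
  · simp [d, hp, Fintype.card_subtype, add_assoc]
  · simp [d, hp]

/-- The component has at most the dimension of the ring of frames and diamonds. -/
theorem ringKrullDim_component_le (hF : F.IsNormal) (hr : P.p ∈ P.loc → 1 ≤ P.r) :
    ringKrullDim (MvPowerSeries P.Coord O ⧸ P.component F J) ≤ (P.r + 4 * P.loc.card : ℕ) := by
  obtain ⟨ϖ, hϖ⟩ := IsDiscreteValuationRing.exists_irreducible O
  refine (ringKrullDim_quotient_component_le (P.levelChart F J) hϖ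
    (P.component_hasSop F J hF hϖ.maximalIdeal_eq)).trans ?_
  have h1 := P.card_loc
  have h2 : 0 < P.loc.card := Finset.card_pos.mpr P.loc_nonempty
  refine le_of_eq ?_
  congr 1
  unfold LiftProblem.globalCount
  by_cases hp : P.p ∈ P.loc
  · have := hr hp
    simp only [if_pos hp] at h1 ⊢
    omega
  · simp only [if_neg hp] at h1 ⊢
    omega

end LiftProblem

end FLTAgent.ModularityLifting
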