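import Fermat.Agent.ModularityLifting.Engine.NormalRep
import Fermat.Agent.ModularityLifting.Engine.Derivation
import Fermat.Agent.ModularityLifting.Engine.LocalVanish
import Fermat.Agent.ModularityLifting.Engine.FlatTangent
import Mathlib.Algebra.TrivSqZeroExt.Basic
import Mathlib.RingTheory.MvPowerSeries.Inverse

/-!
# The cocycle and framings of a tangent vector

A tangent vector of the framed trace ring gives a cocycle and a frame vector at each local prime.
When it kills the local coordinates the cocycle is a frame coboundary on each decomposition group.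
-/

set_option autoImplicit false

noncomputable section

open IsLocalRing

namespace FLTAgent.ModularityLifting

open FLTAgent.DefRing Engine

local notation "Qbar" => AlgebraicClosure ℚ

variable {O : Type} [CommRing O] [IsDomain O] [IsDiscreteValuationRing O]

theorem LiftProblem.two_ne_zero_residue (P : LiftProblem O) : (2 : (ResidueField O)) ≠ 0 := by
  rw [← map_ofNat (residue O) 2, residue_ne_zero_iff_isUnit]
  exact P.isUnit_two

theorem LiftProblem.charP_residue (P : LiftProblem O) : CharP (ResidueField O) P.p :=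
  (CharP.charP_iff_prime_eq_zero P.hp).mpr (by
    rw [← map_natCast (residue O), residue_eq_zero_iff]; exact P.p_mem)

/-- The residual frame at a prime. -/
def Frames.resFrame {P : LiftProblem O} (F : Frames P) (v : ℕ) : GL (Fin 2) (ResidueField O) :=
  Units.map ((residue O).mapMatrix (m := Fin 2)).toMonoidHom (F.g v)

namespace LevelDatum

variable {P : LiftProblem O} {d : Finset ℕ → ℕ} {n : ℕ} (D : LevelDatum P d n)

/-- The value at the representation of the problem. -/
def problemHom {E : Set D.XPt} (hE : none ∈ E) : D.traceRing E →ₐ[O] O :=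
  (AlgEquiv.ofInjective (Algebra.ofId O D.Coeff) D.coeff_inj).symm.toAlgHom.comp
    ((D.evalPt E ⟨none, hE⟩).codRestrict (Algebra.ofId O D.Coeff).range fun t =>
      let ⟨o, ho⟩ := D.exists_evalPt_none hE t
      ⟨o, ho.symm⟩)

theorem algebraMap_problemHom {E : Set D.XPt} (hE : none ∈ E) (t : D.traceRing E) :
    algebraMap O D.Coeff (D.problemHom hE t) = D.evalPt E ⟨none, hE⟩ t := by
  have h := congrArg Subtype.val ((AlgEquiv.ofInjective (Algebra.ofId O D.Coeff)
    D.coeff_inj).apply_symm_apply ((D.evalPt E ⟨none, hE⟩).codRestrict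
      (Algebra.ofId O D.Coeff).range (fun t =>
        let ⟨o, ho⟩ := D.exists_evalPt_none hE t
        ⟨o, ho.symm⟩) t))
  exact h

/-- The residual point of the trace ring. -/
def resPoint {E : Set D.XPt} (hE : none ∈ E) : D.traceRing E →ₐ[O] (ResidueField O) :=
  (Algebra.ofId O (ResidueField O)).comp (D.problemHom hE)

theorem resPoint_apply {E : Set D.XPt} (hE : none ∈ E) (t : D.traceRing E) :
    D.resPoint hE t = residue O (D.problemHom hE t) := rfl

/-- The residual point of the framed trace ring. -/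
def seriesPoint : MvPowerSeries P.FrameVar (D.traceRing D.goodPts) →ₐ[O] (ResidueField O) where
  toRingHom := (D.resPoint D.none_mem_goodPts).toRingHom.comp MvPowerSeries.constantCoeff
  commutes' o := by
    show D.resPoint D.none_mem_goodPts (MvPowerSeries.constantCoeff _) = _
    rw [MvPowerSeries.algebraMap_apply, MvPowerSeries.constantCoeff_C, AlgHom.commutes]

theorem seriesPoint_C (t : D.traceRing D.goodPts) :
    D.seriesPoint (MvPowerSeries.C t) = D.resPoint D.none_mem_goodPts t := by
  show D.resPoint D.none_mem_goodPts (MvPowerSeries.constantCoeff (MvPowerSeries.C t)) = _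
  rw [MvPowerSeries.constantCoeff_C]

theorem seriesPoint_X (x : P.FrameVar) :
    D.seriesPoint (MvPowerSeries.X x : MvPowerSeries P.FrameVar (D.traceRing D.goodPts)) = 0 := by
  show D.resPoint D.none_mem_goodPts (MvPowerSeries.constantCoeff (MvPowerSeries.X x)) = _
  rw [MvPowerSeries.constantCoeff_X, map_zero]

end LevelDatum

/-- A representation over the trace ring of good points in normal form. -/
structure LevelDatum.IsNormalRep {P : LiftProblem O} {d : Finset ℕ → ℕ} {n : ℕ}
    (D : LevelDatum P d n) (N : MatRep (D.traceRing D.goodPts)) : Prop where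
  none_eq : ∀ σ i j, D.evalPt D.goodPts ⟨none, D.none_mem_goodPts⟩ (N σ i j) =
    algebraMap O D.Coeff (P.ρ σ i j)
  cont : ∀ x, MatCont (mapRep (D.evalPt D.goodPts x).toRingHom N)
  conj : ∀ x, ∃ g : GL (Fin 2) D.Coeff, ∀ σ, mapRep (D.evalPt D.goodPts x).toRingHom N σ =
    (g : Matrix (Fin 2) (Fin 2) D.Coeff) * D.xrep x σ * (g⁻¹ : GL (Fin 2) D.Coeff)

namespace LevelDatum

variable {P : LiftProblem O} {d : Finset ℕ → ℕ} {n : ℕ} {D : LevelDatum P d n}
  {N : MatRep (D.traceRing D.goodPts)}

theorem IsNormalRep.map_resPoint (hN : D.IsNormalRep N) (σ : AbsGal) :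
    (N σ).map (D.resPoint D.none_mem_goodPts) = P.ρbar σ := by
  ext i j
  rw [Matrix.map_apply, resPoint_apply]
  show _ = residue O (P.ρ σ i j)
  congr 1
  apply D.coeff_inj
  rw [D.algebraMap_problemHom, hN.none_eq]

theorem IsNormalRep.trace_eq (hN : D.IsNormalRep N) (σ : AbsGal) :
    (N σ).trace = D.trPt D.goodPts σ := D.ext_evalPt fun x => by
  obtain ⟨g, hg⟩ := hN.conj x
  have h := congrArg Matrix.trace (hg σ)
  rw [Matrix.trace_units_conj] at h
  rw [evalPt_trPt, ← h, Matrix.trace_fin_two, Matrix.trace_fin_two, map_add]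
  rfl

theorem IsNormalRep.det_eq (hN : D.IsNormalRep N) (σ : AbsGal) :
    (N σ).det = algebraMap O (D.traceRing D.goodPts) (P.ρ σ).det := D.ext_evalPt fun x => by
  obtain ⟨g, hg⟩ := hN.conj x
  rw [AlgHom.commutes, AlgHom.map_det]
  show (mapRep (D.evalPt D.goodPts x).toRingHom N σ).det = _
  rw [hg, Matrix.det_units_conj, D.xrep_det]

theorem IsNormalRep.unramified (hN : D.IsNormalRep N) {ℓ : ℕ} (hℓ : ℓ.Prime) (h₁ : ℓ ∉ P.loc)
    (h₂ : ℓ ≠ P.p) (h₃ : ∀ i, D.q i ≠ ℓ) : UnramifiedAt N ℓ := fun A hA σ hσ =>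
  Matrix.ext fun i j => D.ext_evalPt fun x => by
    obtain ⟨g, hg⟩ := hN.conj x
    have hu : D.xrep x σ = 1 := by
      rcases x with ⟨_ | θ, hx⟩
      · show mapRep (algebraMap O D.Coeff) P.ρ σ = 1
        have h := P.unram ℓ hℓ (fun h => h₁ (Finset.mem_union_left _ h)) h₂ A hA σ hσ
        show (algebraMap O D.Coeff).mapMatrix (P.ρ σ) = 1
        rw [h, map_one]
      · exact D.rep_unram θ ℓ hℓ h₁ h₂ h₃ A hA σ hσ
    have h := hg σ
    rw [hu, mul_one, ← Units.val_mul, mul_inv_cancel, Units.val_one] at h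
    exact (congrFun (congrFun h i) j).trans (by
      rw [Matrix.one_apply, Matrix.one_apply]; split <;> simp)

/-- At every finite order the representations at all good points are trivial on an open subgroup,
so that tangent vectors vanish there. -/
theorem IsNormalRep.exists_level [IsAdicComplete (maximalIdeal O) O] [Finite (ResidueField O)]
    (hN : D.IsNormalRep N) :
    ∃ (m : ℕ) (L : IntermediateField ℚ Qbar), FiniteDimensional ℚ L ∧
      (∀ σ : AbsGal, (∀ y ∈ L, σ y = y) →
        ∀ i j (x : D.goodPts), D.evalPt D.goodPts x ((N σ - 1) i j) ∈ maximalIdeal D.Coeff ^ m) ∧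
      ∀ t : D.traceRing D.goodPts, (∀ x, D.evalPt D.goodPts x t ∈ maximalIdeal D.Coeff ^ m) →
        D.resPoint D.none_mem_goodPts t = 0 ∧
          ∀ δ ∈ pointDer (D.resPoint D.none_mem_goodPts), δ t = 0 := by
  classical
  let := isLocalRing_traceRing D D.goodPts D.none_mem_goodPts
  have := isNoetherian_traceRing D D.goodPts
  have := isAdicComplete_traceRing D D.goodPts D.none_mem_goodPts
  have := isLocalHom_algebraMap_traceRing D D.goodPts D.none_mem_goodPts
  have : Finite (ResidueField (D.traceRing D.goodPts)) := finite_residueField_of_finite (A := O)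
  let J : ℕ → Ideal (D.traceRing D.goodPts) := fun m =>
    ⨅ x, (maximalIdeal D.Coeff ^ m).comap (D.evalPt D.goodPts x)
  have hJ : ∀ m, maximalIdeal (D.traceRing D.goodPts) ^ m ≤ J m := fun m => le_iInf fun x => by
    refine le_trans (Ideal.pow_right_mono (fun t ht => ?_) m) (Ideal.le_comap_pow _ m)
    exact (mem_maximalIdeal_traceRing_iff D D.goodPts x t).mp ht
  obtain ⟨m, hm⟩ := DefRing.exists_le_sup_maximalIdeal_pow J
    (fun m => iInf_mono fun x => Ideal.comap_mono (Ideal.pow_le_pow_right m.le_succ))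
    (fun m => ⟨m, hJ m⟩) 2
  have hbot : (⨅ m, J m) = ⊥ := (Submodule.eq_bot_iff _).mpr fun t ht => D.ext_evalPt fun x => by
    rw [map_zero]
    refine IsHausdorff.haus (I := maximalIdeal D.Coeff) inferInstance _ fun m => ?_
    rw [SModEq.zero, smul_eq_mul, Ideal.mul_top]
    exact (Submodule.mem_iInf _).mp ((Submodule.mem_iInf J).mp ht m) x
  rw [hbot, bot_sup_eq] at hm
  choose L hL hLm using fun x => hN.cont x m
  have := hL
  refine ⟨m, ⨆ x, L x, IntermediateField.finiteDimensional_iSup_of_finite,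
    fun σ hσ i j x => ?_, fun t ht => ?_⟩
  · have h := hLm x σ (fun y hy => hσ y (le_iSup L x hy)) i j
    convert h using 1
    rw [Matrix.sub_apply, Matrix.sub_apply, map_sub, mapRep_apply, Matrix.one_apply,
      Matrix.one_apply]
    split <;> simp
  · have h2 := hm ((Submodule.mem_iInf _).mpr ht)
    exact ⟨(eq_zero_iff_mem _ t).mpr (Ideal.pow_le_self two_ne_zero h2),
      fun δ hδ => pointDer_eq_zero_of_mem_sq hδ h2⟩

variable (N)

/-- The derivative of the representation. -/
def deriv (δ : MvPowerSeries P.FrameVar (D.traceRing D.goodPts) → (ResidueField O)) (σ : AbsGal) :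
    Matrix (Fin 2) (Fin 2) (ResidueField O) :=
  (N σ).map fun t => δ (MvPowerSeries.C t)

/-- The cocycle of a tangent vector. -/
def cocycle (δ : MvPowerSeries P.FrameVar (D.traceRing D.goodPts) → (ResidueField O)) (σ : AbsGal) :
    Matrix (Fin 2) (Fin 2) (ResidueField O) :=
  deriv N δ σ * P.ρbar σ⁻¹

variable {N}

/-- The frame vector of a tangent vector at a prime, moved back from the local frame. -/
def frameVec (F : Frames P)
    (δ : MvPowerSeries P.FrameVar (D.traceRing D.goodPts) → (ResidueField O)) (v : ℕ) :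
    Matrix (Fin 2) (Fin 2) (ResidueField O) :=
  ((F.resFrame v)⁻¹ : GL (Fin 2) (ResidueField O)) *
    (P.frameMatrix (D.traceRing D.goodPts) v).map δ *
    (F.resFrame v : Matrix (Fin 2) (Fin 2) (ResidueField O))

variable {δ : MvPowerSeries P.FrameVar (D.traceRing D.goodPts) → (ResidueField O)}

theorem comp_C_mem (hδ : δ ∈ pointDer D.seriesPoint) :
    (fun t => δ (MvPowerSeries.C t)) ∈ pointDer (D.resPoint D.none_mem_goodPts) :=
  ⟨fun a b => by simp only [map_add]; exact hδ.1 _ _,
    fun a b => by simp only [map_mul, hδ.2.1, seriesPoint_C],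
    fun o => by
      have := hδ.2.2 o
      rw [MvPowerSeries.algebraMap_apply] at this
      exact this⟩

theorem ρbar_mul_inv (σ : AbsGal) : P.ρbar σ * P.ρbar σ⁻¹ = 1 := by
  rw [← map_mul, mul_inv_cancel, map_one]

theorem ρbar_inv_mul (σ : AbsGal) : P.ρbar σ⁻¹ * P.ρbar σ = 1 := by
  rw [← map_mul, inv_mul_cancel, map_one]

theorem cocycle_mul_ρbar (σ : AbsGal) : cocycle N δ σ * P.ρbar σ = deriv N δ σ := by
  rw [cocycle, mul_assoc, ρbar_inv_mul, mul_one]

theorem cocycle_mul (hN : D.IsNormalRep N) (hδ : δ ∈ pointDer D.seriesPoint) (σ τ : AbsGal) :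
    cocycle N δ (σ * τ) = cocycle N δ σ + P.ρbar σ * cocycle N δ τ * P.ρbar σ⁻¹ := by
  have h := pointDer_map_mul (comp_C_mem hδ) (N σ) (N τ)
  rw [← map_mul, hN.map_resPoint, hN.map_resPoint] at h
  simp only [cocycle, deriv]
  rw [h, mul_inv_rev, map_mul, add_mul, add_comm]
  congr 1
  · rw [mul_assoc, ← mul_assoc (P.ρbar τ), ρbar_mul_inv, one_mul]
  · simp only [mul_assoc]

theorem trace_cocycle (hN : D.IsNormalRep N) (hδ : δ ∈ pointDer D.seriesPoint) (σ : AbsGal) :
    (cocycle N δ σ).trace = 0 := by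
  have h := pointDer_det (comp_C_mem hδ) (N σ)
  rw [hN.det_eq, hN.map_resPoint] at h
  rw [show δ (MvPowerSeries.C (algebraMap O _ (P.ρ σ).det)) = 0 from (comp_C_mem hδ).2.2 _] at h
  have e : (P.ρbar σ).adjugate = (P.ρbar σ).det • P.ρbar σ⁻¹ := by
    conv_lhs => rw [← mul_one (P.ρbar σ).adjugate, ← ρbar_mul_inv σ, ← mul_assoc,
      Matrix.adjugate_mul, smul_mul_assoc, one_mul]
  rw [e, smul_mul_assoc, Matrix.trace_smul, smul_eq_mul, Matrix.trace_mul_comm] at h
  refine (mul_eq_zero.mp h.symm).resolve_left fun h0 => ?_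
  have := congrArg Matrix.det (ρbar_mul_inv (P := P) σ)
  rw [Matrix.det_mul, h0, zero_mul, Matrix.det_one] at this
  exact zero_ne_one this

/-- The tangent vector of the representation moved into the frame at `v`. -/
def movedDeriv (F : Frames P) (N : MatRep (D.traceRing D.goodPts))
    (δ : MvPowerSeries P.FrameVar (D.traceRing D.goodPts) → (ResidueField O)) (v : ℕ) (σ : AbsGal) :
    Matrix (Fin 2) (Fin 2) (ResidueField O) :=
  deriv N δ σ + (frameVec F δ v * P.ρbar σ - P.ρbar σ * frameVec F δ v)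

/-- The derivative of the framed matrices. -/
theorem map_framed (hN : D.IsNormalRep N) (hδ : δ ∈ pointDer D.seriesPoint) (F : Frames P) (v : ℕ)
    (σ : AbsGal) :
    (P.framed F v (N σ)).map δ = (F.resFrame v : Matrix (Fin 2) (Fin 2) (ResidueField O)) *
      movedDeriv F N δ v σ * ((F.resFrame v)⁻¹ : GL (Fin 2) (ResidueField O)) := by
  set Z : Matrix (Fin 2) (Fin 2) (MvPowerSeries P.FrameVar (D.traceRing D.goodPts)) :=
    P.frameMatrix (D.traceRing D.goodPts) v
  have hZ : Z.map MvPowerSeries.constantCoeff = 0 := by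
    ext i j
    simp only [Z, LiftProblem.frameMatrix, Matrix.map_apply, Matrix.of_apply, Matrix.zero_apply]
    split <;> simp [MvPowerSeries.constantCoeff_X]
  have hZπ : Z.map D.seriesPoint = 0 := by
    ext i j
    show D.resPoint D.none_mem_goodPts (MvPowerSeries.constantCoeff (Z i j)) = 0
    rw [show MvPowerSeries.constantCoeff (Z i j) = 0 from congrFun (congrFun hZ i) j, map_zero]
  have h1π : (1 + Z).map D.seriesPoint = 1 := by
    rw [Matrix.map_add _ (map_add D.seriesPoint),
      Matrix.map_one _ (map_zero D.seriesPoint) (map_one D.seriesPoint), hZπ, add_zero]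
  have hdet : IsUnit (1 + Z).det := by
    rw [MvPowerSeries.isUnit_iff_constantCoeff, RingHom.map_det]
    show IsUnit ((1 + Z).map MvPowerSeries.constantCoeff).det
    rw [Matrix.map_add _ (map_add _), Matrix.map_one _ (map_zero _) (map_one _), hZ, add_zero,
      Matrix.det_one]
    exact isUnit_one
  set U := (1 + Z)⁻¹ with hU
  have hUZ : (1 + Z) * U = 1 := Matrix.mul_nonsing_inv _ hdet
  have hUπ : U.map D.seriesPoint = 1 := by
    have := congrArg (fun A : Matrix (Fin 2) (Fin 2)
      (MvPowerSeries P.FrameVar (D.traceRing D.goodPts)) => A.map D.seriesPoint) hUZ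
    simpa [Matrix.map_mul, h1π, Matrix.map_one _ (map_zero D.seriesPoint) (map_one D.seriesPoint)]
      using this
  set a := Z.map δ with ha
  have h1δ : (1 + Z).map δ = a := by rw [pointDer_map_add hδ, pointDer_map_one hδ, zero_add]
  have hUδ : U.map δ = -a := by
    have := congrArg (fun A :
      Matrix (Fin 2) (Fin 2) (MvPowerSeries P.FrameVar (D.traceRing D.goodPts)) => A.map δ) hUZ
    simp only [pointDer_map_mul hδ, h1π, h1δ, hUπ, one_mul, mul_one, pointDer_map_one hδ] at this
    exact eq_neg_of_add_eq_zero_left this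
  set G : Matrix (Fin 2) (Fin 2) (D.traceRing D.goodPts) :=
    (F.g v : Matrix (Fin 2) (Fin 2) O).map (algebraMap O (D.traceRing D.goodPts))
  set G' : Matrix (Fin 2) (Fin 2) (D.traceRing D.goodPts) :=
    ((F.g v)⁻¹ : GL (Fin 2) O).val.map (algebraMap O (D.traceRing D.goodPts))
  set δ' : (D.traceRing D.goodPts) → (ResidueField O) := fun t => δ (MvPowerSeries.C t)
  have hδ' : δ' ∈ pointDer (D.resPoint D.none_mem_goodPts) := comp_C_mem hδ
  have hGδ : ∀ A : Matrix (Fin 2) (Fin 2) O,
      (A.map (algebraMap O (D.traceRing D.goodPts))).map δ' = 0 := fun A =>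
    Matrix.ext fun i j => hδ'.2.2 (A i j)
  have hGπ : ∀ A : Matrix (Fin 2) (Fin 2) O,
      (A.map (algebraMap O (D.traceRing D.goodPts))).map (D.resPoint D.none_mem_goodPts) =
        A.map (residue O) := fun A =>
    Matrix.ext fun i j => (D.resPoint D.none_mem_goodPts).commutes (A i j)
  have hmid : ((G * N σ * G').map MvPowerSeries.C).map δ =
      (F.resFrame v : Matrix (Fin 2) (Fin 2) (ResidueField O)) * deriv N δ σ *
        ((F.resFrame v)⁻¹ : GL (Fin 2) (ResidueField O)) := by
    rw [show ((G * N σ * G').map MvPowerSeries.C).map δ = (G * N σ * G').map δ' from rfl,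
      pointDer_map_mul hδ', pointDer_map_mul hδ', Matrix.map_mul, hGπ, hGπ, hGδ, hGδ]
    simp only [mul_zero, zero_mul, add_zero, zero_add]
    rfl
  have hmidπ : ((G * N σ * G').map MvPowerSeries.C).map D.seriesPoint =
      (F.resFrame v : Matrix (Fin 2) (Fin 2) (ResidueField O)) * P.ρbar σ *
        ((F.resFrame v)⁻¹ : GL (Fin 2) (ResidueField O)) := by
    rw [show ((G * N σ * G').map MvPowerSeries.C).map D.seriesPoint =
      (G * N σ * G').map (D.resPoint D.none_mem_goodPts) from
        Matrix.ext fun i j => D.seriesPoint_C _, Matrix.map_mul, Matrix.map_mul, hN.map_resPoint,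
      hGπ, hGπ]
    rfl
  have hgg : (F.resFrame v : Matrix (Fin 2) (Fin 2) (ResidueField O)) *
      ((F.resFrame v)⁻¹ : GL (Fin 2) (ResidueField O)) = 1 := by
    rw [← Units.val_mul, mul_inv_cancel, Units.val_one]
  rw [show P.framed F v (N σ) = (1 + Z) * (G * N σ * G').map MvPowerSeries.C * U from rfl,
    pointDer_map_mul hδ, pointDer_map_mul hδ, Matrix.map_mul, h1π, h1δ, hUπ, hUδ, hmid, hmidπ,
    movedDeriv, frameVec]
  simp only [one_mul, mul_one, mul_add, add_mul, mul_sub, sub_mul, mul_neg]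
  simp only [← mul_assoc]
  simp only [hgg, one_mul]
  simp only [mul_assoc, hgg, mul_one]
  abel

/-- The frame cocycle. -/
def movedCocycle (F : Frames P) (N : MatRep (D.traceRing D.goodPts))
    (δ : MvPowerSeries P.FrameVar (D.traceRing D.goodPts) → (ResidueField O)) (v : ℕ) (σ : AbsGal) :
    Matrix (Fin 2) (Fin 2) (ResidueField O) :=
  cocycle N δ σ + (frameVec F δ v - P.ρbar σ * frameVec F δ v * P.ρbar σ⁻¹)

theorem movedCocycle_eq (F : Frames P) (v : ℕ) (σ : AbsGal) :
    movedCocycle F N δ v σ = movedDeriv F N δ v σ * P.ρbar σ⁻¹ := by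
  simp only [movedCocycle, movedDeriv, cocycle, add_mul, sub_mul, mul_assoc, ρbar_mul_inv, mul_one]

theorem movedCocycle_mul (hN : D.IsNormalRep N) (hδ : δ ∈ pointDer D.seriesPoint) (F : Frames P)
    (v : ℕ) (σ τ : AbsGal) :
    movedCocycle F N δ v (σ * τ) = movedCocycle F N δ v σ +
      P.ρbar σ * movedCocycle F N δ v τ * P.ρbar σ⁻¹ := by
  simp only [movedCocycle, cocycle_mul hN hδ, mul_inv_rev, map_mul, mul_add, add_mul, mul_sub,
    sub_mul, mul_assoc]
  abel

theorem movedCocycle_eq_zero_of_level (F : Frames P) (v : ℕ) {σ : AbsGal}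
    (hρ : P.ρbar σ = 1) (hd : deriv N δ σ = 0) : movedCocycle F N δ v σ = 0 := by
  have hρ' : P.ρbar σ⁻¹ = 1 := by simpa [hρ] using ρbar_mul_inv (P := P) σ
  simp [movedCocycle, cocycle, hρ, hρ', hd]

/-- A tangent vector kills the local coordinates. -/
def KillsCoords (F : Frames P) (N : MatRep (D.traceRing D.goodPts))
    (δ : MvPowerSeries P.FrameVar (D.traceRing D.goodPts) → (ResidueField O)) : Prop :=
  ∀ c, δ (P.coord F N c) = 0

theorem map_framed_apply_of_kills (hδ : δ ∈ pointDer D.seriesPoint) {F : Frames P}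
    (hk : KillsCoords F N δ) (c : P.LocCoord) :
    (P.framed F (P.coordPrime c) (N (P.coordElem F c))).map δ (P.coordPos c).1 (P.coordPos c).2
      = 0 := by
  have h := hk c
  rw [LiftProblem.coord, pointDer_sub hδ] at h
  rw [show ∀ o : O, δ (MvPowerSeries.C (algebraMap O (D.traceRing D.goodPts) o)) = 0 from
    fun o => (comp_C_mem hδ).2.2 o, sub_zero] at h
  exact h

variable [IsAdicComplete (maximalIdeal O) O] [Finite (ResidueField O)]

omit [IsAdicComplete (maximalIdeal O) O] [Finite (ResidueField O)] in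
theorem frob_zero_of_three {g : GL (Fin 2) (ResidueField O)}
    {R R' Ed : Matrix (Fin 2) (Fin 2) (ResidueField O)}
    (hR : R' * R = 1) (hu : ((g : Matrix (Fin 2) (Fin 2) (ResidueField O)) * R *
      (g⁻¹ : GL (Fin 2) (ResidueField O))) 0 0 ≠ 0)
    (htr : (Ed * R').trace = 0)
    (h : ∀ i j : Fin 2, (i, j) ≠ (1, 1) →
      ((g : Matrix (Fin 2) (Fin 2) (ResidueField O)) * Ed *
        (g⁻¹ : GL (Fin 2) (ResidueField O))) i j = 0) :
    Ed = 0 := by
  set X := (g : Matrix (Fin 2) (Fin 2) (ResidueField O)) * Ed *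
    (g⁻¹ : GL (Fin 2) (ResidueField O)) with hX
  set Y := (g : Matrix (Fin 2) (Fin 2) (ResidueField O)) * R' *
    (g⁻¹ : GL (Fin 2) (ResidueField O)) with hY
  set B := (g : Matrix (Fin 2) (Fin 2) (ResidueField O)) * R *
    (g⁻¹ : GL (Fin 2) (ResidueField O)) with hB
  have hgg :
      ((g⁻¹ : GL (Fin 2) (ResidueField O)) : Matrix (Fin 2) (Fin 2) (ResidueField O)) * g = 1 := by
    rw [← Units.val_mul, inv_mul_cancel, Units.val_one]
  have hgg' :
      (g : Matrix (Fin 2) (Fin 2) (ResidueField O)) * (g⁻¹ : GL (Fin 2) (ResidueField O)) = 1 := by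
    rw [← Units.val_mul, mul_inv_cancel, Units.val_one]
  have hmul : ∀ U V : Matrix (Fin 2) (Fin 2) (ResidueField O),
      ((g : Matrix (Fin 2) (Fin 2) (ResidueField O)) * U * (g⁻¹ : GL (Fin 2) (ResidueField O))) *
        ((g : Matrix (Fin 2) (Fin 2) (ResidueField O)) * V * (g⁻¹ : GL (Fin 2) (ResidueField O))) =
      (g : Matrix (Fin 2) (Fin 2) (ResidueField O)) * (U * V) *
        (g⁻¹ : GL (Fin 2) (ResidueField O)) := fun U V => by
    simp only [mul_assoc]
    rw [← mul_assoc ((g⁻¹ : GL (Fin 2) (ResidueField O)) : Matrix (Fin 2) (Fin 2) (ResidueField O)),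
      hgg, one_mul]
  have hYB : Y * B = 1 := by rw [hY, hB, hmul, hR, mul_one, hgg']
  have hXY : (X * Y).trace = 0 := by rw [hX, hY, hmul, Matrix.trace_units_conj]; exact htr
  have hadj : Y.det • B = Y.adjugate := by
    calc Y.det • B = Y.adjugate * Y * B := by rw [Matrix.adjugate_mul, smul_mul_assoc, one_mul]
      _ = Y.adjugate := by rw [mul_assoc, hYB, mul_one]
  have h00 : Y.det * B 0 0 = Y 1 1 := by
    simpa [Matrix.adjugate_fin_two] using congrFun (congrFun hadj 0) 0
  have hdet : Y.det ≠ 0 := fun h0 => by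
    have := congrArg Matrix.det hYB
    rw [Matrix.det_mul, h0, zero_mul, Matrix.det_one] at this
    exact zero_ne_one this
  have h11 : X 1 1 = 0 := by
    rw [Matrix.trace_fin_two, Matrix.mul_apply, Matrix.mul_apply, Fin.sum_univ_two,
      Fin.sum_univ_two, h 0 0 (by decide), h 0 1 (by decide), h 1 0 (by decide), zero_mul, zero_mul,
      zero_mul, add_zero, zero_add, zero_add, ← h00] at hXY
    exact (mul_eq_zero.mp hXY).resolve_right (mul_ne_zero hdet hu)
  have hX0 : X = 0 := by
    ext i j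
    by_cases hij : (i, j) = (1, 1)
    · obtain ⟨rfl, rfl⟩ := Prod.mk.inj hij; exact h11
    · exact h i j hij
  calc Ed =
      ((g⁻¹ : GL (Fin 2) (ResidueField O)) : Matrix (Fin 2) (Fin 2) (ResidueField O)) * X * g := by
        rw [hX, ← mul_assoc, ← mul_assoc, hgg, one_mul, mul_assoc, hgg, mul_one]
    _ = 0 := by rw [hX0, mul_zero, zero_mul]

/-- The residual representation and the derivative are trivial on an open subgroup. -/
private lemma exists_level_deriv (hN : D.IsNormalRep N) (hδ : δ ∈ pointDer D.seriesPoint) :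
    ∃ L : IntermediateField ℚ Qbar, FiniteDimensional ℚ L ∧
      ∀ g : AbsGal, (∀ y ∈ L, g y = y) → P.ρbar g = 1 ∧ deriv N δ g = 0 := by
  obtain ⟨m, L, hL, hNL, hm⟩ := hN.exists_level
  refine ⟨L, hL, fun g hg => ?_⟩
  have h := fun i j => hm _ (hNL g hg i j)
  refine ⟨?_, ?_⟩
  · ext a b
    have h1 := (h a b).1
    rw [Matrix.sub_apply, map_sub, sub_eq_zero, ← Matrix.map_apply (f := D.resPoint _),
      hN.map_resPoint] at h1
    rw [h1, Matrix.one_apply, Matrix.one_apply]
    split <;> simp
  · ext a b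
    have h1 := (h a b).2 _ (comp_C_mem hδ)
    rw [Matrix.sub_apply, pointDer_sub (comp_C_mem hδ)] at h1
    have h0 :
        δ (MvPowerSeries.C ((1 : Matrix (Fin 2) (Fin 2) (D.traceRing D.goodPts)) a b)) = 0 :=
      congrFun (congrFun (pointDer_map_one (comp_C_mem hδ) (n := Fin 2)) a) b
    rw [h0, sub_zero] at h1
    exact h1

/-- On the decomposition group of a tame prime the cocycle is a frame coboundary. -/
theorem movedCocycle_eq_zero_tame (hN : D.IsNormalRep N) (hδ : δ ∈ pointDer D.seriesPoint)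
    (F : Frames P) (hk : KillsCoords F N δ) {v : ℕ} (hv : v ∈ P.loc) (hvp : v ≠ P.p) :
    ∀ σ ∈ (P.place v).decompositionSubgroup ℚ, movedCocycle F N δ v σ = 0 := by
  classical
  have := P.charP_residue
  have hvt : v ∈ P.tameLoc := Finset.mem_erase.mpr ⟨hvp, hv⟩
  have hvP : v.Prime := P.prime v hv
  obtain ⟨L, hL, hlev⟩ := exists_level_deriv hN hδ
  have := hL
  have hE : ∀ σ, (∀ a b, (P.framed F v (N σ)).map δ a b = 0) → movedDeriv F N δ v σ = 0 := by
    intro σ h
    have h' : (P.framed F v (N σ)).map δ = 0 := Matrix.ext h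
    rw [map_framed hN hδ] at h'
    have := congrArg (fun A =>
      ((F.resFrame v)⁻¹ : GL (Fin 2) (ResidueField O)).val * A * (F.resFrame v).val) h'
    simpa [← mul_assoc, ← Units.val_mul] using this
  have hτ0 : movedCocycle F N δ v (F.τ v) = 0 := by
    rw [movedCocycle_eq, hE _ fun a b => ?_, zero_mul]
    obtain ⟨tc, htc⟩ : ∃ tc : Chart.TameCoord, tc.pos = (1, a, b) := by
      fin_cases a <;> fin_cases b
      exacts [⟨.tau00, rfl⟩, ⟨.tau01, rfl⟩, ⟨.tau10, rfl⟩, ⟨.tau11, rfl⟩]
    have h := map_framed_apply_of_kills hδ hk (Sum.inl ⟨⟨v, hvt⟩, tc⟩)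
    simpa [LiftProblem.coordPrime, LiftProblem.coordElem, LiftProblem.coordPos, htc] using h
  have hΦ0 : movedCocycle F N δ v (P.frob v) = 0 := by
    have h3 : ∀ i j : Fin 2, (i, j) ≠ (1, 1) →
        ((F.resFrame v : Matrix (Fin 2) (Fin 2) (ResidueField O)) * movedDeriv F N δ v (P.frob v) *
          ((F.resFrame v)⁻¹ : GL (Fin 2) (ResidueField O))) i j = 0 := by
      intro i j hij
      obtain ⟨tc, htc⟩ : ∃ tc : Chart.TameCoord, tc.pos = (0, i, j) := by
        fin_cases i <;> fin_cases j
        exacts [⟨.phi00, rfl⟩, ⟨.phi01, rfl⟩, ⟨.phi10, rfl⟩, absurd rfl hij]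
      have h := map_framed_apply_of_kills hδ hk (Sum.inl ⟨⟨v, hvt⟩, tc⟩)
      rw [← map_framed hN hδ]
      simpa [LiftProblem.coordPrime, LiftProblem.coordElem, LiftProblem.coordPos, htc] using h
    have hz : movedDeriv F N δ v (P.frob v) = 0 := by
      refine frob_zero_of_three (R := P.ρbar (P.frob v)) (R' := P.ρbar (P.frob v)⁻¹)
        (ρbar_inv_mul _)
        ?_ ?_ h3
      · have h := (F.frob_unit v hv hvp).map (residue O)
        convert h.ne_zero using 1
        rw [← Matrix.map_apply (f := residue O), Matrix.map_mul, Matrix.map_mul]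
        rfl
      · rw [← movedCocycle_eq, movedCocycle, Matrix.trace_add, trace_cocycle hN hδ,
          Matrix.trace_sub,
          Matrix.trace_mul_comm (P.ρbar (P.frob v) * frameVec F δ v), ← mul_assoc, ρbar_inv_mul,
          one_mul, sub_self, add_zero]
    rw [movedCocycle_eq, hz, zero_mul]
  refine cocycle_eq_zero_of_tame P.ρbar _ P.hp hvP hvp (P.place_spec v hvP) (P.frob_spec v hvP)
    (F.τ_mem v hv hvp) (F.τ_root v hv hvp) (movedCocycle_mul hN hδ F v) L
    (fun σ hσ => ⟨(hlev σ hσ).1, movedCocycle_eq_zero_of_level F v (hlev σ hσ).1 (hlev σ hσ).2⟩)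
    (fun σ hσ => ?_) hτ0 hΦ0
  have key : (P.ρ σ - 1) ^ 2 = 0 := by
    rcases Finset.mem_union.mp hv with hv' | hv'
    · exact ((P.steinberg v hv' hvp).1 (P.place v) (P.place_spec v hvP)).1 σ hσ
    · rw [P.unram v hvP (Finset.disjoint_right.mp P.disjoint_extra hv') hvp (P.place v)
        (P.place_spec v hvP) σ hσ, sub_self, zero_pow two_ne_zero]
  have := congrArg (residue O).mapMatrix key
  rw [map_pow, map_sub, map_one, map_zero] at this
  exact this

omit [IsAdicComplete (maximalIdeal O) O] [Finite (ResidueField O)] in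
/-- At `p` the representations of the good points are strictly ordinary. -/
private lemma strictAt_point (hN : D.IsNormalRep N) (hp : P.p ∈ P.loc) (x : D.goodPts) :
    StrictAt (mapRep (D.evalPt D.goodPts x).toRingHom N) P.p (algebraMap O D.Coeff (P.ε P.p)) := by
  have hpm : P.p ∈ P.minimal ∪ P.raise :=
    (Finset.mem_union.mp hp).resolve_right P.p_notMem_extra
  obtain ⟨g, hg⟩ := hN.conj x
  refine (localProps_conj hg P.p _).2.2.1 ?_
  rcases x with ⟨_ | θ, hx⟩
  · intro B hB
    obtain ⟨g', hg'⟩ := P.strict hpm B hB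
    refine ⟨Units.map ((algebraMap O D.Coeff).mapMatrix (m := Fin 2)).toMonoidHom g',
      fun σ hσ => ?_⟩
    have e : ∀ i j, ((Units.map ((algebraMap O D.Coeff).mapMatrix (m := Fin 2)).toMonoidHom g' :
        Matrix (Fin 2) (Fin 2) D.Coeff) * D.xrep none σ *
          ((Units.map ((algebraMap O D.Coeff).mapMatrix (m := Fin 2)).toMonoidHom g')⁻¹ :
            GL (Fin 2) D.Coeff)) i j =
        algebraMap O D.Coeff (((g' : Matrix (Fin 2) (Fin 2) O) * P.ρ σ *
          (g'⁻¹ : GL (Fin 2) O)) i j) := fun i j => by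
      show ((algebraMap O D.Coeff).mapMatrix (m := Fin 2) _ *
        (algebraMap O D.Coeff).mapMatrix (m := Fin 2) _ *
        (algebraMap O D.Coeff).mapMatrix (m := Fin 2) _) i j = _
      rw [← map_mul, ← map_mul]
      rfl
    obtain ⟨h10, hI, hΦ⟩ := hg' σ hσ
    exact ⟨by rw [e, h10, map_zero], fun h => by rw [e, hI h, map_one],
      fun h => by rw [e, hΦ h]⟩
  · exact (hx θ rfl).2 hp

omit [IsAdicComplete (maximalIdeal O) O] [Finite (ResidueField O)] in
/-- One sign character on the decomposition group at `p` cuts out all the representations. -/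
private lemma exists_sign_product (hN : D.IsNormalRep N) (hp : P.p ∈ P.loc) :
    ∃ l : AbsGal → O, (∀ σ, l σ * l σ = 1) ∧
      ∀ σ ∈ (P.place P.p).decompositionSubgroup ℚ, ∀ τ ∈ (P.place P.p).decompositionSubgroup ℚ,
        (N σ - algebraMap O (D.traceRing D.goodPts) ((P.ρ σ).det * l σ) • 1) *
          (N τ - algebraMap O (D.traceRing D.goodPts) (l τ) • 1) = 0 := by
  classical
  let A := P.place P.p
  have hA : A.LiesOverPrime P.p := P.place_spec _ P.hp
  set εC := algebraMap O D.Coeff (P.ε P.p)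
  have hεC : εC = 1 ∨ εC = -1 := (P.sign P.p).imp (fun h => by simp [εC, h]) fun h => by
    simp [εC, h]
  let Nx : D.goodPts → MatRep D.Coeff := fun x => mapRep (D.evalPt D.goodPts x).toRingHom N
  have h2C : IsUnit (2 : D.Coeff) := map_ofNat (algebraMap O D.Coeff) 2 ▸ P.isUnit_two.map _
  have hl : ∀ σ : A.decompositionSubgroup ℚ, ∃ i : ℕ, ∀ x, ∀ g : GL (Fin 2) D.Coeff, _ :=
    fun σ => exists_common_sign P.hp h2C hεC (fun x => hN.cont x) hA (P.frob_spec _ P.hp) σ.2
  choose ex hex using hl
  let lO : AbsGal → O := fun σ =>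
    if h : σ ∈ A.decompositionSubgroup ℚ then P.ε P.p ^ ex ⟨σ, h⟩ else 1
  have hlsq : ∀ σ, lO σ * lO σ = 1 := fun σ => by
    simp only [lO]
    split
    · rw [← mul_pow]
      rcases P.sign P.p with h | h <;> simp [h]
    · exact one_mul 1
  refine ⟨lO, hlsq, fun σ hσ τ hτ => Matrix.ext fun i j => D.ext_evalPt fun x => ?_⟩
  obtain ⟨g, hg⟩ := strictAt_point hN hp x A hA
  have h11 : ∀ ρ' (hρ' : ρ' ∈ A.decompositionSubgroup ℚ),
      ((g : Matrix (Fin 2) (Fin 2) D.Coeff) * Nx x ρ' * (g⁻¹ : GL (Fin 2) D.Coeff)) 1 1 =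
        algebraMap O D.Coeff (lO ρ') := fun ρ' hρ' => by
    simp only [lO, dif_pos hρ', map_pow]
    exact hex ⟨ρ', hρ'⟩ x g hg
  have h0 := upper_product_eq_zero (hg σ hσ).1 (hg τ hτ).1 (h11 σ hσ) (h11 τ hτ)
    (by rw [← map_mul, hlsq, map_one])
    (a := algebraMap O D.Coeff ((P.ρ σ).det * lO σ)) (by
      simp only [map_mul]
      congr 1
      show _ = ((D.evalPt D.goodPts x).toRingHom.mapMatrix (N σ)).det
      rw [← RingHom.map_det, hN.det_eq]
      exact (AlgHom.commutes _ _).symm)
  have e : ∀ (ρ' : AbsGal) (c : O),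
      (D.evalPt D.goodPts x).toRingHom.mapMatrix
        (N ρ' - algebraMap O (D.traceRing D.goodPts) c • 1) =
        Nx x ρ' - algebraMap O D.Coeff c • 1 := fun ρ' c => by
    ext a b
    rw [RingHom.mapMatrix_apply, Matrix.map_apply, Matrix.sub_apply, Matrix.sub_apply, map_sub,
      Matrix.smul_apply, Matrix.smul_apply, smul_eq_mul, smul_eq_mul, map_mul, mapRep_apply]
    congr 1
    rw [Matrix.one_apply, Matrix.one_apply]
    split <;> simp
  have := congrArg (fun A => A i j) h0
  rw [← e, ← e, ← map_mul] at this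
  simpa using this

omit [IsAdicComplete (maximalIdeal O) O] [Finite (ResidueField O)] in
/-- A vanishing product gives one of the residual matrices and the Leibniz rule for the moved
derivative. -/
private lemma residual_products (hN : D.IsNormalRep N) (hδ : δ ∈ pointDer D.seriesPoint)
    (F : Frames P) (v : ℕ) {σ τ : AbsGal} {c c' : O}
    (h : (N σ - algebraMap O (D.traceRing D.goodPts) c • 1) *
      (N τ - algebraMap O (D.traceRing D.goodPts) c' • 1) = 0) :
    (P.ρbar σ - residue O c • 1) * (P.ρbar τ - residue O c' • 1) = 0 ∧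
      movedDeriv F N δ v σ * (P.ρbar τ - residue O c' • 1) +
        (P.ρbar σ - residue O c • 1) * movedDeriv F N δ v τ = 0 := by
  have hδ' := comp_C_mem hδ
  have hmapπ : ∀ ρ' (r : O),
      (N ρ' - algebraMap O (D.traceRing D.goodPts) r • 1).map (D.resPoint D.none_mem_goodPts) =
      P.ρbar ρ' - residue O r • 1 := fun ρ' r => by
    ext i j
    rw [Matrix.map_apply, Matrix.sub_apply, map_sub,
      ← Matrix.map_apply (f := D.resPoint _) (M := N ρ'),
      hN.map_resPoint, Matrix.sub_apply, Matrix.smul_apply, Matrix.smul_apply, smul_eq_mul,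
      smul_eq_mul, map_mul, AlgHom.commutes, Matrix.one_apply, Matrix.one_apply]
    congr 1
    split <;> simp
  have hmapδ : ∀ ρ' (r : O), (N ρ' - algebraMap O (D.traceRing D.goodPts) r • 1).map
      (fun t => δ (MvPowerSeries.C t)) = deriv N δ ρ' := fun ρ' r => by
    ext i j
    rw [Matrix.map_apply, Matrix.sub_apply, pointDer_sub hδ', Matrix.smul_apply, smul_eq_mul,
      pointDer_algebraMap_mul hδ', Matrix.one_apply]
    have : δ (MvPowerSeries.C (if i = j then 1 else 0 : D.traceRing D.goodPts)) = 0 := by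
      split
      · exact pointDer_one hδ'
      · exact pointDer_zero hδ'
    rw [this, mul_zero, sub_zero]
    rfl
  have h0 := congrArg (fun Z : Matrix (Fin 2) (Fin 2) (D.traceRing D.goodPts) =>
    Z.map (D.resPoint D.none_mem_goodPts)) h
  simp only [Matrix.map_mul, hmapπ] at h0
  rw [Matrix.map_zero _ (map_zero _)] at h0
  refine ⟨h0, ?_⟩
  have h1 := congrArg (fun Z : Matrix (Fin 2) (Fin 2) (D.traceRing D.goodPts) =>
    Z.map fun t => δ (MvPowerSeries.C t)) h
  simp only [pointDer_map_mul hδ', hmapπ, hmapδ] at h1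
  rw [Matrix.map_zero _ (pointDer_zero hδ')] at h1
  set u := frameVec F δ v
  have e : ∀ ρ' (r : ResidueField O), u * P.ρbar ρ' - P.ρbar ρ' * u =
      u * (P.ρbar ρ' - r • 1) - (P.ρbar ρ' - r • 1) * u := fun ρ' r => by
    rw [mul_sub, sub_mul, mul_smul_comm, smul_mul_assoc, mul_one, one_mul]; abel
  rw [movedDeriv, movedDeriv, e σ (residue O c), e τ (residue O c')]
  set X := P.ρbar σ - residue O c • 1
  set Y := P.ρbar τ - residue O c' • 1
  calc (deriv N δ σ + (u * X - X * u)) * Y + X * (deriv N δ τ + (u * Y - Y * u))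
      = (X * deriv N δ τ + deriv N δ σ * Y) + (u * (X * Y) - (X * Y) * u) := by
        simp only [add_mul, mul_add, sub_mul, mul_sub, mul_assoc]; abel
    _ = 0 := by
        rw [show X * deriv N δ τ + deriv N δ σ * Y = 0 from h1, h0]; simp

omit [IsAdicComplete (maximalIdeal O) O] [Finite (ResidueField O)] in
/-- When the coordinates at `p` are killed the moved derivative vanishes on the test elements. -/
private lemma movedDeriv_pElem_eq_zero (hN : D.IsNormalRep N) (hδ : δ ∈ pointDer D.seriesPoint)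
    {F : Frames P} (hk : KillsCoords F N δ) (hp : P.p ∈ P.loc) (i : Fin 3) :
    movedDeriv F N δ P.p (P.pElem i) = 0 := by
  have h' : (P.framed F P.p (N (P.pElem i))).map δ = 0 := Matrix.ext fun x y => by
    have h := map_framed_apply_of_kills hδ hk (Sum.inr ⟨(i, x, y), hp⟩)
    simpa [LiftProblem.coordPrime, LiftProblem.coordElem, LiftProblem.coordPos] using h
  rw [map_framed hN hδ] at h'
  have := congrArg (fun A =>
    ((F.resFrame P.p)⁻¹ : GL (Fin 2) (ResidueField O)).val * A * (F.resFrame P.p).val) h'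
  simpa [← mul_assoc, ← Units.val_mul] using this

/-- On the decomposition group at `p` the cocycle is a frame coboundary when `p` is local. -/
theorem movedCocycle_eq_zero_p (hN : D.IsNormalRep N) (hδ : δ ∈ pointDer D.seriesPoint)
    (F : Frames P) (hk : KillsCoords F N δ) (hp : P.p ∈ P.loc) :
    ∀ σ ∈ (P.place P.p).decompositionSubgroup ℚ, movedCocycle F N δ P.p σ = 0 := by
  classical
  obtain ⟨lO, hlsq, hprod⟩ := exists_sign_product hN hp
  let a : AbsGal → (ResidueField O) := fun σ => residue O ((P.ρ σ).det * lO σ)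
  let l : AbsGal → (ResidueField O) := fun σ => residue O (lO σ)
  have hl2 : ∀ σ, l σ * l σ = 1 := fun σ => by
    show residue O (lO σ) * residue O (lO σ) = 1
    rw [← map_mul, hlsq, map_one]
  have hldet : ∀ σ, a σ * l σ = (P.ρbar σ).det := fun σ => by
    show residue O ((P.ρ σ).det * lO σ) * residue O (lO σ) =
      ((residue O).mapMatrix (P.ρ σ)).det
    rw [← RingHom.map_det, ← map_mul]
    simp [mul_assoc, hlsq]
  have hne : a (P.pElem 0) ≠ l (P.pElem 0) := fun h => P.pElem_zero (by
    have := hldet (P.pElem 0)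
    rw [h, hl2] at this
    rw [RingHom.map_det]
    exact this.symm)
  have hcoc := triangular_cocycle P.ρbar (movedCocycle F N δ P.p) (fun σ => movedCocycle_eq F _ σ)
    (movedCocycle_mul hN hδ F _) a l (fun σ _ => hl2 σ) (fun σ _ => hldet σ)
    (fun σ hσ τ hτ => (residual_products hN hδ F P.p (hprod σ hσ τ hτ)).1)
    (fun σ hσ τ hτ => (residual_products hN hδ F P.p (hprod σ hσ τ hτ)).2)
    (P.pElem_mem 0) hne (movedDeriv_pElem_eq_zero hN hδ hk hp 0)
  obtain ⟨L, hL, hlev⟩ := exists_level_deriv hN hδ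
  intro σ hσ
  refine Matrix.ext fun i j => ?_
  refine P.pElem_sep (fun τ => movedCocycle F N δ P.p τ i j) (fun g hg h hh => ?_)
    ⟨L, hL, fun g hg => ?_⟩ (fun i' => ?_) σ hσ
  · rw [hcoc g hg h hh, RingHom.map_det]
    rfl
  · rw [movedCocycle_eq_zero_of_level F _ (hlev g hg).1 (hlev g hg).2]
    rfl
  · rw [movedCocycle_eq, movedDeriv_pElem_eq_zero hN hδ hk hp, zero_mul]
    rfl

end LevelDatum

end FLTAgent.ModularityLifting
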