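import Fermat.Agent.ModularityLifting.Engine.PointRing
import Fermat.Agent.DefRing.Compactness
import Fermat.Prelude.Thm_IsLocalRing_isAdicComplete_of_module_finite

/-!
# Trace rings are complete Noetherian local rings

All values of a trace ring at a point are congruent to a constant, the one at the representation
of the problem, and that constant is attained at the representation of the problem.
-/

set_option autoImplicit false

noncomputable section

open IsLocalRing

namespace FLTAgent.ModularityLifting

open FLTAgent.DefRing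

variable {O : Type} [CommRing O] [IsDomain O] [IsDiscreteValuationRing O]

omit [IsDomain O] [IsDiscreteValuationRing O] in
/-- In an algebra of functions generated by functions congruent to constants, all functions are. -/
theorem exists_const_sub_mem_of_mem_adjoin {ι C : Type} [CommRing C] [IsLocalRing C] [Algebra O C]
    {G : Set (ι → C)} (hG : ∀ a ∈ G, ∃ o : O, ∀ x, a x - algebraMap O C o ∈ maximalIdeal C)
    {t : ι → C} (ht : t ∈ Algebra.adjoin O G) :
    ∃ o : O, ∀ x, t x - algebraMap O C o ∈ maximalIdeal C := by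
  induction ht using Algebra.adjoin_induction with
  | mem a ha => exact hG a ha
  | algebraMap o => exact ⟨o, fun x => by simp⟩
  | add a b _ _ ha hb =>
    obtain ⟨o, ho⟩ := ha
    obtain ⟨o', ho'⟩ := hb
    exact ⟨o + o', fun x => by
      rw [Pi.add_apply, map_add, add_sub_add_comm]; exact add_mem (ho x) (ho' x)⟩
  | mul a b _ _ ha hb =>
    obtain ⟨o, ho⟩ := ha
    obtain ⟨o', ho'⟩ := hb
    exact ⟨o * o', fun x => by
      rw [Pi.mul_apply, map_mul, show ∀ a b c e : C, a * b - c * e = a * (b - e) + (a - c) * e
        from fun a b c e => by ring]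
      exact add_mem (Ideal.mul_mem_left _ _ (ho' x)) (Ideal.mul_mem_right _ _ (ho x))⟩

omit [IsDomain O] [IsDiscreteValuationRing O] in
/-- In an algebra of functions with congruent values, a unit at one point is a unit. -/
theorem isUnit_of_isUnit_apply {ι C : Type} [Finite ι] [CommRing C] [IsLocalRing C] [Algebra O C]
    [Module.Finite O C] {A : Subalgebra O (ι → C)}
    (hA : ∀ (t : A) (x y : ι), (t : ι → C) x - (t : ι → C) y ∈ maximalIdeal C) (x₀ : ι) {t : A}
    (h : IsUnit ((t : ι → C) x₀)) : IsUnit t := by
  have hu : ∀ x, IsUnit ((t : ι → C) x) := fun x => by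
    by_contra hx
    have := sub_mem (mem_nonunits_iff.mpr hx : (t : ι → C) x ∈ maximalIdeal C) (hA t x x₀)
    rw [sub_sub_cancel] at this
    exact this h
  have : Algebra.IsIntegral O (ι → C) := Algebra.IsIntegral.of_finite O _
  have : IsLocalHom A.val.toRingHom :=
    RingHom.IsIntegral.isLocalHom
      (fun z => (Algebra.IsIntegral.isIntegral (R := O) z).tower_top) Subtype.val_injective
  exact (isUnit_map_iff A.val.toRingHom t).mp (Pi.isUnit_iff.mpr hu)

namespace LevelDatum

variable {P : LiftProblem O} {d : Finset ℕ → ℕ} {n : ℕ} (D : LevelDatum P d n)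

instance isLocalHom_algebraMap_coeff : IsLocalHom (algebraMap O D.Coeff) :=
  RingHom.IsIntegral.isLocalHom (fun x => Algebra.IsIntegral.isIntegral x) D.coeff_inj

/-- The traces of the representations are congruent to those of the problem. -/
theorem xrep_trace_sub_mem (x : D.XPt) (σ : AbsGal) :
    (D.xrep x σ).trace - algebraMap O D.Coeff (P.ρ σ).trace ∈ maximalIdeal D.Coeff := by
  cases x with
  | none =>
    have e : (D.xrep none σ).trace = algebraMap O D.Coeff (P.ρ σ).trace := by
      show (mapRep (algebraMap O D.Coeff) P.ρ σ).trace = _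
      simp [Matrix.trace, mapRep_apply]
    simp [e]
  | some θ => exact D.rep_trace θ σ

theorem xrep_det (x : D.XPt) (σ : AbsGal) :
    (D.xrep x σ).det = algebraMap O D.Coeff (P.ρ σ).det := by
  cases x with
  | none => exact (RingHom.map_det _ _).symm
  | some θ => exact D.rep_det θ σ

theorem xrep_cont (x : D.XPt) : MatCont (D.xrep x) := by
  cases x with
  | none => exact P.cont.map _ inferInstance
  | some θ => exact D.rep_cont θ

variable {E : Set D.XPt}

/-- The value of the trace function. -/
def trPt (E : Set D.XPt) (σ : AbsGal) : D.traceRing E :=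
  ⟨fun x => (D.xrep x σ).trace, Algebra.subset_adjoin ⟨σ, rfl⟩⟩

theorem evalPt_trPt (x : E) (σ : AbsGal) : D.evalPt E x (D.trPt E σ) = (D.xrep x σ).trace := rfl

theorem ext_evalPt {s t : D.traceRing E} (h : ∀ x, D.evalPt E x s = D.evalPt E x t) : s = t :=
  Subtype.ext (funext h)

/-- An induction principle. -/
theorem induction_traceRing {motive : D.traceRing E → Prop}
    (tr : ∀ σ, motive (D.trPt E σ)) (const : ∀ o, motive (algebraMap O (D.traceRing E) o))
    (add : ∀ a b, motive a → motive b → motive (a + b))
    (mul : ∀ a b, motive a → motive b → motive (a * b)) (t : D.traceRing E) : motive t := by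
  obtain ⟨t, ht⟩ := t
  induction ht using Algebra.adjoin_induction with
  | mem a ha => obtain ⟨σ, rfl⟩ := ha; exact tr σ
  | algebraMap o => exact const o
  | add a b ha hb ha' hb' => exact add ⟨a, ha⟩ ⟨b, hb⟩ ha' hb'
  | mul a b ha hb ha' hb' => exact mul ⟨a, ha⟩ ⟨b, hb⟩ ha' hb'

/-- Every element is congruent to a constant. -/
theorem exists_const_sub_mem (t : D.traceRing E) :
    ∃ o : O, ∀ x : E, D.evalPt E x t - algebraMap O D.Coeff o ∈ maximalIdeal D.Coeff :=
  exists_const_sub_mem_of_mem_adjoin
    (by rintro _ ⟨σ, rfl⟩; exact ⟨_, fun x => D.xrep_trace_sub_mem x σ⟩) t.2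

/-- The value at the representation of the problem is a constant. -/
theorem exists_evalPt_none (hE : none ∈ E) (t : D.traceRing E) :
    ∃ o : O, D.evalPt E ⟨none, hE⟩ t = algebraMap O D.Coeff o := by
  induction t using D.induction_traceRing with
  | tr σ => exact ⟨(P.ρ σ).trace, by
      rw [evalPt_trPt]
      show (mapRep (algebraMap O D.Coeff) P.ρ σ).trace = _
      simp [Matrix.trace, mapRep_apply]⟩
  | const o => exact ⟨o, AlgHom.commutes _ o⟩
  | add a b ha hb =>
    obtain ⟨o, ho⟩ := ha
    obtain ⟨o', ho'⟩ := hb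
    exact ⟨o + o', by rw [map_add, map_add, ho, ho']⟩
  | mul a b ha hb =>
    obtain ⟨o, ho⟩ := ha
    obtain ⟨o', ho'⟩ := hb
    exact ⟨o * o', by rw [map_mul, map_mul, ho, ho']⟩

/-- All values are congruent. -/
theorem evalPt_sub_evalPt_mem (x y : E) (t : D.traceRing E) :
    D.evalPt E x t - D.evalPt E y t ∈ maximalIdeal D.Coeff := by
  obtain ⟨o, ho⟩ := D.exists_const_sub_mem t
  simpa using sub_mem (ho x) (ho y)

instance finite_traceRing (E : Set D.XPt) : Module.Finite O (D.traceRing E) :=
  Module.Finite.iff_fg.mpr (IsNoetherian.noetherian (Subalgebra.toSubmodule (D.traceRing E)))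

/-- An element which is a unit at one point is a unit. -/
theorem isUnit_of_isUnit_evalPt (x₀ : E) {t : D.traceRing E} (h : IsUnit (D.evalPt E x₀ t)) :
    IsUnit t :=
  isUnit_of_isUnit_apply (fun t x y => D.evalPt_sub_evalPt_mem x y t) x₀ h

end LevelDatum

variable {P : LiftProblem O} {d : Finset ℕ → ℕ} {n : ℕ} (D : LevelDatum P d n)

theorem isLocalRing_traceRing (E : Set D.XPt) (hE : none ∈ E) :
    IsLocalRing (D.traceRing E) := by
  have : Nonempty E := ⟨⟨none, hE⟩⟩
  have : Nontrivial (D.traceRing E) := ⟨⟨0, 1, fun h => zero_ne_one (α := D.Coeff) (by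
    simpa using congrArg (D.evalPt E ⟨none, hE⟩) h)⟩⟩
  refine IsLocalRing.of_nonunits_add fun a b ha hb hab => ?_
  have h : ∀ {t : D.traceRing E}, t ∈ nonunits (D.traceRing E) →
      D.evalPt E ⟨none, hE⟩ t ∈ nonunits D.Coeff :=
    fun {t} ht hu => ht (D.isUnit_of_isUnit_evalPt _ hu)
  have h' := hab.map (D.evalPt E ⟨none, hE⟩)
  rw [map_add] at h'
  exact IsLocalRing.nonunits_add (h ha) (h hb) h'

theorem isNoetherian_traceRing (E : Set D.XPt) : IsNoetherianRing (D.traceRing E) :=
  IsNoetherianRing.of_finite O _

theorem mem_maximalIdeal_traceRing_iff (E : Set D.XPt) [IsLocalRing (D.traceRing E)] (x : E)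
    (t : D.traceRing E) :
    t ∈ maximalIdeal (D.traceRing E) ↔ D.evalPt E x t ∈ maximalIdeal D.Coeff := by
  simp only [IsLocalRing.mem_maximalIdeal, mem_nonunits_iff]
  exact not_congr ⟨fun h => h.map _, D.isUnit_of_isUnit_evalPt x⟩

theorem isLocalHom_algebraMap_traceRing (E : Set D.XPt) (hE : none ∈ E) :
    IsLocalHom (algebraMap O (D.traceRing E)) :=
  ⟨fun o ho => by
    have := ho.map (D.evalPt E ⟨none, hE⟩)
    rw [AlgHom.commutes] at this
    exact (isUnit_map_iff (algebraMap O D.Coeff) o).mp this⟩

theorem isAdicComplete_traceRing [IsAdicComplete (maximalIdeal O) O] (E : Set D.XPt)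
    (hE : none ∈ E) :
    letI := isLocalRing_traceRing D E hE
    IsAdicComplete (maximalIdeal (D.traceRing E)) (D.traceRing E) := by
  let := isLocalRing_traceRing D E hE
  have := isLocalHom_algebraMap_traceRing D E hE
  exact IsLocalRing.isAdicComplete_of_module_finite (𝒪 := O)

end FLTAgent.ModularityLifting
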